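import Fermat.Agent.BadPrime.Sq.Setup
import Fermat.Agent.BadPrime.RationalGenerators
import Fermat.Agent.BadPrime.RegularDescent
import Fermat.Agent.Reduction.ModularData
import Fermat.Agent.EC.Red.ResidueQbar

/-!
# The residue field of level `N`: generators, separability, rational spanning sets

For `k` the residue field of `ℚ̄` at a place over `q ∤ N` and `X = k(j(q^d) : d ∣ N)`.

Owner: helper36.
-/

set_option autoImplicit false
set_option linter.style.haveILetI false
set_option synthInstance.maxHeartbeats 400000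

noncomputable section

open ModularCurve Polynomial IntermediateField

namespace Fermat.Agent.BadPrime.Sq

open Fermat.Agent.Reduction Fermat.Agent.Curve

/-- `X` is finitely generated. -/
theorem finite_res (k : Type) [Field k] (N : ℕ) [NeZero N] :
    ∃ s : Finset (LaurentSeries k),
      IntermediateField.adjoin k (s : Set (LaurentSeries k)) = modularFunctionFieldFullC k N := by
  have hfin : (divisorExpansionsC k N).Finite := by
    refine (Set.finite_range fun d : N.divisors =>
      if h : (d : ℕ) = 0 then (0 : LaurentSeries k)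
      else haveI : NeZero (d : ℕ) := ⟨h⟩; qExpand k d (jqModC k)).subset ?_
    rintro x ⟨d, hd, hdN, rfl⟩
    refine ⟨⟨d, Nat.mem_divisors.2 ⟨hdN, NeZero.ne N⟩⟩, ?_⟩
    show (if h : d = 0 then _ else _) = _
    rw [dif_neg hd.1]
  exact ⟨hfin.toFinset, by rw [hfin.coe_toFinset]; rfl⟩

/-- `X` is separable over `k(j)`. -/
theorem separable_res {k : Type} [Field k] [PerfectField k] (N : ℕ) [NeZero N]
    {g : LaurentSeries k} (hg : g ∈ modularFunctionFieldFullC k N) :
    IsSeparable (IntermediateField.adjoin k {jqModC k}) g := by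
  haveI := finiteDimensional_adjoin (F := modularFunctionFieldFullC k N) (transcendental_jRes N k)
  have hint : IsIntegral k⟮jRes k N⟯ (⟨g, hg⟩ : modularFunctionFieldFullC k N) :=
    Algebra.IsIntegral.isIntegral _
  exact isSeparable_of_isIntegral (qDeriv_jqModC_ne_zero k) (Reduction.transcendental_jqModC k)
    ((isIntegral_iff_coe (jRes k N) _).1 hint)

section Span

variable {q : ℕ} [Fact q.Prime] {k : Type} [Field k] [Algebra (ZMod q) k] (N : ℕ)

/-- Elements of `X` have coefficients in a finite subfield. -/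
theorem exists_finite_coeff (hk : Algebra.IsAlgebraic (ZMod q) k) {g : LaurentSeries k}
    (hg : g ∈ modularFunctionFieldFullC k N) :
    ∃ (k₀ : IntermediateField (ZMod q) k), FiniteDimensional (ZMod q) k₀ ∧
      ∃ g₀ : LaurentSeries k₀, coeffMap k₀.val.toRingHom g₀ = g := by
  have hmono : ∀ {k₀ k₁ : IntermediateField (ZMod q) k} (h : k₀ ≤ k₁) (x : LaurentSeries k₀),
      coeffMap k₁.val.toRingHom (coeffMap (IntermediateField.inclusion h).toRingHom x) =
        coeffMap k₀.val.toRingHom x := fun h x => by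
    ext m
    simp
  rw [modularFunctionFieldFullC] at hg
  induction hg using IntermediateField.adjoin_induction with
  | mem x hx =>
    obtain ⟨d, hd, -, rfl⟩ := hx
    exact ⟨⊥, inferInstance, qExpand _ d (jqModC _), by rw [coeffMap_qExpand, coeffMap_jqModC]⟩
  | algebraMap c =>
    refine ⟨(ZMod q)⟮c⟯, IntermediateField.adjoin.finiteDimensional
      (hk.isAlgebraic c).isIntegral,
      HahnSeries.single 0 ⟨c, IntermediateField.mem_adjoin_simple_self _ c⟩, ?_⟩
    rw [coeffMap_single]
    exact (algebraMap_laurentSeries_eq_single k c).symm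
  | add x y _ _ hx hy =>
    obtain ⟨k₀, h₀, x₀, rfl⟩ := hx
    obtain ⟨k₁, h₁, y₀, rfl⟩ := hy
    exact ⟨k₀ ⊔ k₁, inferInstance,
      coeffMap (IntermediateField.inclusion (le_sup_left : k₀ ≤ k₀ ⊔ k₁)).toRingHom x₀ +
        coeffMap (IntermediateField.inclusion (le_sup_right : k₁ ≤ k₀ ⊔ k₁)).toRingHom y₀,
      by rw [map_add, hmono, hmono]⟩
  | inv x _ hx =>
    obtain ⟨k₀, h₀, x₀, rfl⟩ := hx
    exact ⟨k₀, h₀, x₀⁻¹, map_inv₀ _ _⟩
  | mul x y _ _ hx hy =>
    obtain ⟨k₀, h₀, x₀, rfl⟩ := hx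
    obtain ⟨k₁, h₁, y₀, rfl⟩ := hy
    exact ⟨k₀ ⊔ k₁, inferInstance,
      coeffMap (IntermediateField.inclusion (le_sup_left : k₀ ≤ k₀ ⊔ k₁)).toRingHom x₀ *
        coeffMap (IntermediateField.inclusion (le_sup_right : k₁ ≤ k₀ ⊔ k₁)).toRingHom y₀,
      by rw [map_mul, hmono, hmono]⟩

variable {N}

theorem isRegularOver_iff_isIntegral_series (t x : LaurentSeries k) :
    IsRegularOver t x ↔ IsIntegral (Algebra.adjoin k ({t} : Set (LaurentSeries k))) x := by
  let φ : k[X] →ₐ[k] Algebra.adjoin k ({t} : Set (LaurentSeries k)) :=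
    Polynomial.aeval ⟨t, Algebra.self_mem_adjoin_singleton k t⟩
  have hφ : (algebraMap (Algebra.adjoin k ({t} : Set (LaurentSeries k))) (LaurentSeries k)).comp
      φ.toRingHom = evalAt t := by
    refine Polynomial.ringHom_ext (fun a => ?_) ?_
    · simp [φ, algebraMap_laurentSeries_eq_single]
    · simp [φ]
  have hsurj : Function.Surjective φ := by
    rintro ⟨a, ha⟩
    rw [Algebra.adjoin_singleton_eq_range_aeval] at ha
    obtain ⟨p, rfl⟩ := ha
    exact ⟨p, Subtype.ext (Polynomial.aeval_algHom_apply (Subalgebra.val _) _ p).symm⟩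
  constructor
  · rintro ⟨P, hP, hx⟩
    refine ⟨P.map φ.toRingHom, hP.map _, ?_⟩
    rwa [eval₂_map, hφ]
  · rintro ⟨Q, hQ, hx⟩
    obtain ⟨P, hP, -, hPm⟩ := Polynomial.lifts_and_degree_eq_and_monic
      ((Polynomial.mem_lifts _).2 (Polynomial.map_surjective φ.toRingHom hsurj Q)) hQ
    refine ⟨P, hPm, ?_⟩
    rwa [← hφ, ← eval₂_map, hP]

theorem mem_resRing_iff {X : IntermediateField k (LaurentSeries k)} {t g : LaurentSeries k} :
    g ∈ resRing X t ↔ g ∈ X ∧ IsRegularOver t g := by
  rw [isRegularOver_iff_isIntegral_series]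
  exact Iff.rfl

/-- The regular elements of `X` are spanned by those with coefficients fixed by the `q`-power. -/
theorem rational_span_of_isAlgebraic (hk : Algebra.IsAlgebraic (ZMod q) k) {g : LaurentSeries k}
    (hg : g ∈ resRing (modularFunctionFieldFullC k N) (jqModC k)) :
    g ∈ Submodule.span k {g' : LaurentSeries k |
      g' ∈ resRing (modularFunctionFieldFullC k N) (jqModC k) ∧
        ∀ m, g'.coeff m ^ q = g'.coeff m} := by
  obtain ⟨hgX, hgr⟩ := mem_resRing_iff.1 hg
  obtain ⟨k₀, hfd, g₀, rfl⟩ := exists_finite_coeff N hk hgX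
  haveI : Finite k₀ := Module.finite_of_finite (ZMod q)
  have hg₀ : g₀ ∈ modularFunctionFieldFullC k₀ N := mem_fullC_of_coeffMap_mem N _ hgX
  have hj : coeffMap k₀.val.toRingHom (jqModC k₀) = jqModC k := coeffMap_jqModC _
  rw [← hj] at hgr
  have hι : k₀.val.toRingHom.IsIntegral := fun x => by
    obtain ⟨p, hp, hpx⟩ := (hk.isAlgebraic x).isIntegral
    refine ⟨p.map (algebraMap (ZMod q) k₀), hp.map _, ?_⟩
    rw [eval₂_map]
    exact hpx
  have hr₀ := IsRegularOver.of_map _ hι hgr
  rw [← coeffMap_jqModC (algebraMap (ZMod q) k₀)] at hr₀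
  obtain ⟨n, d, y, hxy, hy⟩ := exists_regular_decomposition_fullC (K := ZMod q) N hg₀ hr₀
  rw [hxy, map_sum]
  refine Submodule.sum_mem _ fun i _ => ?_
  rw [map_mul, show coeffMap k₀.val.toRingHom (HahnSeries.C (d i)) =
    HahnSeries.C ((d i : k₀) : k) by rw [HahnSeries.C_apply, coeffMap_single]; rfl,
    HahnSeries.C_mul_eq_smul]
  refine Submodule.smul_mem _ _ (Submodule.subset_span ⟨mem_resRing_iff.2 ⟨?_, ?_⟩, fun m => ?_⟩)
  · exact coeffMap_mem_fullC N _ (coeffMap_mem_fullC N _ (hy i).1)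
  · have := ((hy i).2.map (algebraMap (ZMod q) k₀)).map k₀.val.toRingHom
    rwa [coeffMap_jqModC, coeffMap_jqModC] at this
  · simp only [coeffMap_coeff, ← map_pow, ZMod.pow_card]

end Span

/-- The regular elements of `X` are spanned by those with coefficients fixed by the `q`-power. -/
theorem rational_span {q : ℕ} [Fact q.Prime] (A : ValuationSubring (AlgebraicClosure ℚ))
    (hA : A.LiesOverPrime q) (N : ℕ) {g : LaurentSeries (IsLocalRing.ResidueField A)}
    (hg : g ∈ resRing (modularFunctionFieldFullC (IsLocalRing.ResidueField A) N)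
      (jqModC (IsLocalRing.ResidueField A))) :
    g ∈ Submodule.span (IsLocalRing.ResidueField A)
      {g' : LaurentSeries (IsLocalRing.ResidueField A) |
        g' ∈ resRing (modularFunctionFieldFullC (IsLocalRing.ResidueField A) N)
          (jqModC (IsLocalRing.ResidueField A)) ∧ ∀ m, g'.coeff m ^ q = g'.coeff m} := by
  haveI := EC.charP_residueField A (Fact.out : q.Prime) hA
  letI : Algebra (ZMod q) (IsLocalRing.ResidueField A) := ZMod.algebra _ q
  refine rational_span_of_isAlgebraic ⟨fun x => ?_⟩ hg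
  obtain ⟨m, hm, hx⟩ := EC.exists_pow_q_pow_eq_self A (Fact.out : q.Prime) hA x
  refine ⟨X ^ q ^ m - X, ?_, by simp [hx]⟩
  exact FiniteField.X_pow_card_pow_sub_X_ne_zero _ hm.ne' (Fact.out : q.Prime).one_lt

/-- A prime `L ≡ 11 (mod 12)` in the level excludes elliptic points. -/
theorem nuTwo_eq_zero_of_dvd {N L : ℕ} (hL : L.Prime) (h4 : L % 4 = 3) (hLN : L ∣ N) :
    nuTwo N = 0 := by
  haveI := Fact.mk hL
  rw [nuTwo, Nat.card_eq_zero]
  refine Or.inl ⟨fun ⟨x, hx⟩ => ?_⟩
  have h := congrArg (ZMod.castHom hLN (ZMod L)) hx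
  rw [map_add, map_pow, map_one, map_zero] at h
  exact ZMod.exists_sq_eq_neg_one_iff.1
    ⟨ZMod.castHom hLN (ZMod L) x, by linear_combination -h⟩ h4

theorem nuThree_eq_zero_of_dvd {N L : ℕ} (hL : L.Prime) (h3 : L % 3 = 2) (hLN : L ∣ N) :
    nuThree N = 0 := by
  haveI := Fact.mk hL
  rw [nuThree, Nat.card_eq_zero]
  refine Or.inl ⟨fun ⟨x, hx⟩ => ?_⟩
  have h := congrArg (ZMod.castHom hLN (ZMod L)) hx
  rw [map_add, map_add, map_pow, map_one, map_zero] at h
  set y := ZMod.castHom hLN (ZMod L) x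
  have hy0 : y ≠ 0 := fun e => by simp [e] at h
  have hy3 : y ^ 3 = 1 := by linear_combination (y - 1) * h
  obtain ⟨m, hm⟩ : ∃ m, L - 1 = 3 * m + 1 := ⟨L / 3, by omega⟩
  have hy1 : y = 1 := by
    have := ZMod.pow_card_sub_one_eq_one hy0
    rwa [hm, pow_succ, pow_mul, hy3, one_pow, one_mul] at this
  have h0 : ((3 : ℕ) : ZMod L) = 0 := by
    rw [hy1] at h
    linear_combination h
  rw [ZMod.natCast_eq_zero_iff, Nat.prime_dvd_prime_iff_eq hL Nat.prime_three] at h0
  omega

end Fermat.Agent.BadPrime.Sq
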