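import Mathlib.RingTheory.DedekindDomain.Basic
import Mathlib.RingTheory.Jacobson.Ring
import Mathlib.RingTheory.Ideal.Over
import Mathlib.Algebra.CharP.Frobenius
import Mathlib.Algebra.Algebra.Hom
import Mathlib.RingTheory.DedekindDomain.Factorization

/-!
# Prescribing the residues of a root on a curve with several branches

`red : B → R ^ ι` is the restriction to the branches.  If locally some member `w` of the module `E`
has `w ^ n` in the image and values at the branch points proportional to the roots of unity `T`,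
then `T` itself lies in `E`.
-/

set_option autoImplicit false

namespace Fermat.Agent.BadPrime.Sq

/-- An element prime to `n` becomes `1` modulo `n` after multiplication. -/
theorem exists_mul_eq_mul_add_one {n m : ℕ} (hn : n ≠ 0) (hm : m ≠ 0) (h : Nat.Coprime m n) :
    ∃ a j, a * m = j * n + 1 := by
  rcases Nat.lt_or_ge 1 n with h1 | h1
  · obtain ⟨a, -, ha⟩ := Nat.exists_mul_mod_eq_one_of_coprime h h1
    refine ⟨a, m * a / n, ?_⟩
    have := Nat.div_add_mod (m * a) n
    rw [mul_comm a m]
    rw [ha] at this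
    rw [mul_comm (m * a / n) n]
    exact this.symm
  · obtain rfl : n = 1 := by omega
    exact ⟨1, m - 1, by omega⟩

/-- The residue vector of constants lies in `E` as soon as it does so locally. -/
theorem smul_mem_of_forall_maximal {B M : Type*} [CommRing B] [AddCommGroup M] [Module B M]
    (E : Submodule B M) (v : M)
    (h : ∀ P : Ideal B, P.IsMaximal → ∃ d, d ∉ P ∧ d • v ∈ E) : v ∈ E := by
  let J : Ideal B := Submodule.comap (LinearMap.toSpanSingleton B M v) E
  by_contra hv
  have hJ : J ≠ ⊤ := fun hJ => hv (by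
    have : (1 : B) ∈ J := hJ ▸ Submodule.mem_top
    simpa [J] using this)
  obtain ⟨P, hP, hJP⟩ := Ideal.exists_le_maximal J hJ
  obtain ⟨d, hd, hdv⟩ := h P hP
  exact hd (hJP (by simpa [J] using hdv))

variable {ι B R k : Type*} [Fintype ι] [CommRing B] [CommRing R] [Field k] [Algebra k R]

/-- The constants `T` lie in `E` near `M` as soon as some root near `M` has branch values
proportional to `T`. -/
theorem exists_smul_const_mem [IsDedekindDomain R] (q : ℕ) [Fact q.Prime] [CharP R q]
    (hpt : ∀ P : Ideal R, P.IsMaximal → ∃ p : R →ₐ[k] k, RingHom.ker p.toRingHom = P)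
    (red : B →+* (ι → R)) (hk : ∀ c : k, (fun _ => algebraMap k R c) ∈ red.range)
    (c : ι → R) (hc0 : ∀ i, c i ≠ 0) (hc : ∀ x : ι → R, c * x ∈ red.range)
    {n : ℕ} (hn : n ≠ 0) (hnq : Nat.Coprime q n) (T : ι → k) (hT : ∀ i, T i ^ n = 1)
    (E : Set (ι → R)) (hE : ∀ b x, x ∈ E → red b * x ∈ E)
    (M : Ideal B) [M.IsMaximal] {d : B} (hd : d ∉ M) {w : ι → R} (hw : w ∈ E)
    (hwn : w ^ n = red d)
    (hval : ∀ (i i' : ι) (p p' : R →ₐ[k] k),
      (RingHom.ker (p.toRingHom.comp ((Pi.evalRingHom (fun _ => R) i).comp red)) = M) →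
      (RingHom.ker (p'.toRingHom.comp ((Pi.evalRingHom (fun _ => R) i').comp red)) = M) →
      T i' * p (w i) = T i * p' (w i')) :
    ∃ b, b ∉ M ∧ red b * (fun i => algebraMap k R (T i)) ∈ E := by
  classical
  set z : ι → R := fun i => algebraMap k R (T i) * w i ^ (n - 1) with hz
  have hzw : z * w = red d * fun i => algebraMap k R (T i) := by
    rw [← hwn]
    funext i
    have h1 : w i ^ n = w i ^ (n - 1) * w i := by
      rw [← pow_succ, Nat.sub_add_cancel (Nat.one_le_iff_ne_zero.2 hn)]
    simp only [hz, Pi.mul_apply, Pi.pow_apply, h1]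
    ring
  have hzn : z ^ n = red (d ^ (n - 1)) := by
    funext i
    rw [map_pow, ← hwn]
    simp only [hz, Pi.pow_apply, mul_pow, ← map_pow, hT i, map_one, one_mul, ← pow_mul,
      mul_comm n]
  -- some element not in `M` multiplies `z` into the image
  suffices ∃ b, b ∉ M ∧ red b * z ∈ red.range by
    obtain ⟨b, hb, b', hb'⟩ := this
    refine ⟨b * d, fun h => ((inferInstance : M.IsPrime).mem_or_mem h).elim hb hd, ?_⟩
    have h1 := hE b' w hw
    rwa [hb', mul_assoc, hzw, ← mul_assoc, ← map_mul] at h1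
  -- the common value of `z` at the points above `M`
  obtain ⟨l, hl⟩ : ∃ l : k, ∀ (i : ι) (p : R →ₐ[k] k),
      RingHom.ker (p.toRingHom.comp ((Pi.evalRingHom (fun _ => R) i).comp red)) = M →
      p (z i) = l := by
    by_cases hex : ∃ (i : ι) (p : R →ₐ[k] k),
        RingHom.ker (p.toRingHom.comp ((Pi.evalRingHom (fun _ => R) i).comp red)) = M
    · obtain ⟨i', p', hp'⟩ := hex
      refine ⟨p' (z i'), fun i p hp => ?_⟩
      have h1 := hval i i' p p' hp hp'
      have hTi : T i' ≠ 0 := fun h0 => by simpa [h0, hn] using hT i'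
      have h2 : p (w i) = T i * p' (w i') / T i' := by
        rw [eq_div_iff hTi, mul_comm, h1]
      simp only [hz, map_mul, map_pow, AlgHom.commutes, Algebra.algebraMap_self, RingHom.id_apply,
        h2, div_pow, mul_pow]
      have h3 : T i' ^ (n - 1) * T i' = 1 := by
        rw [← pow_succ, Nat.sub_add_cancel (Nat.one_le_iff_ne_zero.2 hn), hT]
      have h4 : T i * T i ^ (n - 1) = 1 := by
        rw [← pow_succ', Nat.sub_add_cancel (Nat.one_le_iff_ne_zero.2 hn), hT]
      field_simp
      linear_combination (p' (w i') ^ (n - 1)) * h4 - (p' (w i') ^ (n - 1)) * h3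
    · exact ⟨0, fun i p hp => absurd ⟨i, p, hp⟩ hex⟩
  -- a power of `z - l` lands in the conductor away from the points above `M`
  have hloc : ∀ i, ∃ (b : B) (N : ℕ), b ∉ M ∧ ∀ m, N ≤ m →
      c i ∣ red b i * (z i - algebraMap k R l) ^ m := by
    intro i
    set I : Ideal R := Ideal.span {c i}
    have hI : I ≠ ⊥ := by simpa [I, Ideal.span_singleton_eq_bot] using hc0 i
    have hfin : {P : Ideal R | P.IsMaximal ∧ I ≤ P}.Finite := by
      refine ((Ideal.finite_factors hI).image IsDedekindDomain.HeightOneSpectrum.asIdeal).subset ?_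
      rintro P ⟨hP, hle⟩
      exact ⟨⟨P, hP.isPrime, fun h => hI (eq_bot_iff.2 (h ▸ hle))⟩, Ideal.dvd_iff_le.2 hle, rfl⟩
    -- an element outside `M` vanishing at the points away from `M`
    have hb : ∀ P ∈ hfin.toFinset, ∃ b : B, b ∉ M ∧
        (red b i ∈ P ∨ z i - algebraMap k R l ∈ P) := by
      intro P hP
      obtain ⟨hPm, -⟩ := hfin.mem_toFinset.1 hP
      obtain ⟨p, hp⟩ := hpt P hPm
      set φ := p.toRingHom.comp ((Pi.evalRingHom (fun _ => R) i).comp red) with hφ
      by_cases hM : RingHom.ker φ = M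
      · refine ⟨1, fun h => (inferInstance : M.IsMaximal).ne_top (M.eq_top_of_isUnit_mem h isUnit_one),
          Or.inr ?_⟩
        rw [← hp, RingHom.mem_ker]
        show p (z i - algebraMap k R l) = 0
        rw [map_sub, hl i p hM, AlgHom.commutes, Algebra.algebraMap_self, RingHom.id_apply, sub_self]
      · have hsurj : Function.Surjective φ := fun r => by
          obtain ⟨b, hb⟩ := hk r
          exact ⟨b, by simp [hφ, congrFun hb i]⟩
        have := RingHom.ker_isMaximal_of_surjective φ hsurj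
        obtain ⟨b, hb, hbM⟩ : ∃ b ∈ RingHom.ker φ, b ∉ M := by
          by_contra hcon
          push Not at hcon
          exact hM (this.eq_of_le (inferInstance : M.IsMaximal).ne_top hcon)
        exact ⟨b, hbM, Or.inl (hp ▸ hb)⟩
    choose b hbM hbP using hb
    let b₀ : B := ∏ P ∈ hfin.toFinset.attach, b P.1 P.2
    have hb₀ : b₀ ∉ M := by
      intro h
      obtain ⟨P, -, hP⟩ := (inferInstance : M.IsPrime).prod_mem_iff.1 h
      exact hbM _ _ hP
    have hmem : red b₀ i * (z i - algebraMap k R l) ∈ Ideal.radical I := by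
      rw [Ideal.radical_eq_sInf, Ideal.mem_sInf]
      rintro P ⟨hle, hP⟩
      have hPm : P.IsMaximal := hP.isMaximal fun h => hI (eq_bot_iff.2 (h ▸ hle))
      have hPmem := hfin.mem_toFinset.2 ⟨hPm, hle⟩
      rcases hbP P hPmem with h | h
      · simp only [b₀, map_prod, Finset.prod_apply]
        exact P.mul_mem_right _ (P.mem_of_dvd
          (Finset.dvd_prod_of_mem _ (Finset.mem_attach _ ⟨P, hPmem⟩)) h)
      · exact P.mul_mem_left _ h
    obtain ⟨N, hN⟩ := hmem
    refine ⟨b₀ ^ N, N, fun h => hb₀ ((inferInstance : M.IsPrime).mem_of_pow_mem _ h), fun m hm => ?_⟩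
    rw [← Ideal.mem_span_singleton, map_pow, Pi.pow_apply, ← Nat.add_sub_cancel' hm, pow_add,
      ← mul_assoc, ← mul_pow]
    exact Ideal.mul_mem_right _ _ hN
  choose b N hbM hbN using hloc
  let b₀ : B := ∏ i, b i
  have hb₀ : b₀ ∉ M := by
    intro h
    obtain ⟨i, -, hi⟩ := (inferInstance : M.IsPrime).prod_mem_iff.1 h
    exact hbM i hi
  let r : ℕ := ∑ i, N i
  have hr : ∀ i, N i ≤ q ^ r := fun i =>
    le_trans (Finset.single_le_sum (fun _ _ => Nat.zero_le _) (Finset.mem_univ i))
      (Nat.lt_pow_self (Fact.out : q.Prime).one_lt).le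
  have h1 : red b₀ * (z - fun _ => algebraMap k R l) ^ q ^ r ∈ red.range := by
    have hdvd : ∀ i, c i ∣ red b₀ i * (z i - algebraMap k R l) ^ q ^ r := fun i => by
      refine (hbN i _ (hr i)).trans (mul_dvd_mul_right ?_ _)
      simp only [b₀, map_prod, Finset.prod_apply]
      exact Finset.dvd_prod_of_mem _ (Finset.mem_univ i)
    choose x hx using hdvd
    have : red b₀ * (z - fun _ => algebraMap k R l) ^ q ^ r = c * x := funext fun i => hx i
    rw [this]
    exact hc x
  have h2 : red b₀ * z ^ q ^ r ∈ red.range := by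
    have e : (z - fun _ => algebraMap k R l) ^ q ^ r =
        z ^ q ^ r - fun _ => algebraMap k R (l ^ q ^ r) := by
      funext i
      simp [sub_pow_char_pow, map_pow]
    rw [e, mul_sub] at h1
    obtain ⟨u, hu⟩ := hk (l ^ q ^ r)
    have h3 := red.range.add_mem h1 (red.range.mul_mem ⟨b₀, rfl⟩ ⟨u, rfl⟩)
    rwa [hu, sub_add_cancel] at h3
  obtain ⟨a, j, haj⟩ := exists_mul_eq_mul_add_one hn
    (pow_ne_zero r (Fact.out : q.Prime).ne_zero) (Nat.Coprime.pow_left r hnq)
  refine ⟨b₀ ^ a * (d ^ (n - 1)) ^ j, fun h => ?_, ?_⟩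
  · rcases (inferInstance : M.IsPrime).mem_or_mem h with h | h
    · exact hb₀ ((inferInstance : M.IsPrime).mem_of_pow_mem _ h)
    · exact hd ((inferInstance : M.IsPrime).mem_of_pow_mem _
        ((inferInstance : M.IsPrime).mem_of_pow_mem _ h))
  · have h3 := red.range.pow_mem h2 a
    have e : red (b₀ ^ a * (d ^ (n - 1)) ^ j) * z = (red b₀ * z ^ q ^ r) ^ a := by
      rw [map_mul, map_pow _ _ j, ← hzn, mul_pow, ← pow_mul z n, map_pow, mul_assoc, ← pow_succ,
        ← pow_mul, mul_comm n, ← haj, mul_comm a]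
    rwa [e]

end Fermat.Agent.BadPrime.Sq
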