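import Fermat.Agent.BadPrime.Sq.Setup

/-!
# The hypotheses on a function of level `N q²`
-/

set_option autoImplicit false

noncomputable section

open ModularCurve

namespace Fermat.Agent.BadPrime.Sq

/-- `f` is an `n`-th power up to a unit at every maximal ideal of `K[t]`'s integral closure. -/
def IsPowerAway {K F : Type} [Field K] [Field F] [Algebra K F] (t : F) (n : ℕ) (f : F) : Prop :=
  ∀ P : Ideal (chartRing (⊤ : Subring K) t), P.IsMaximal →
    ∃ (u : F) (d : chartRing (⊤ : Subring K) t), u ≠ 0 ∧ d ∉ P ∧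
      (d : F) * (u ^ n * f) ∈ chartRing (⊤ : Subring K) t ∧
      (d : F) * (u ^ n * f)⁻¹ ∈ chartRing (⊤ : Subring K) t

variable {q : ℕ} [Fact q.Prime] {K K' k : Type} [Field K] [Field K'] [Algebra K K'] [Field k]
  {A : ValuationSubring K'} {π : A →+* k}

/-- Both norms of `f` to level `N q` are constants times `n`-th powers. -/
def SqTower.NormsArePowers (T : SqTower q K π) (n : ℕ) (f : T.F₂) : Prop :=
  (∃ (H : T.F₁) (κ : K), κ ≠ 0 ∧
    T.e₀ f * ∏ a : (ZMod q)ˣ, coeffMap (T.σ a : K' →+* K') (T.eₘ f) =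
      HahnSeries.C (algebraMap K K' κ) * T.i₁ H ^ n) ∧
  ∃ (H : T.F₁) (κ : K), κ ≠ 0 ∧
    T.e₂ f * ∏ a : (ZMod q)ˣ, coeffMap (T.σ a : K' →+* K') (Igusa.twist T.ζ⁻¹ (T.eₘ f)) =
      HahnSeries.C (algebraMap K K' κ) * T.i₁ (T.W H) ^ n

end Fermat.Agent.BadPrime.Sq
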