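import Fermat.Agent.BadPrime.Sq.LevelTwo
import Fermat.Agent.BadPrime.Sq.Norms

/-!
# Values zero and residues one on all three branches

The two norms give the congruences `v₀ + m ≡ q v₂` and `v₂ + m ≡ q v₀` modulo `n` for the values
and, once these vanish, exhibit powers of the residues as constants times `n`-th powers.
-/

set_option autoImplicit false
set_option linter.unusedSectionVars false

noncomputable section

open ModularCurve Polynomial

namespace Fermat.Agent.BadPrime.Sq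

variable {q : ℕ} [Fact q.Prime] {K K' k : Type} [Field K] [Field K'] [Algebra K K'] [Field k]
  [CharZero K] [CharP k q] [IsAlgClosed k] {A : ValuationSubring K'} {π : A →+* k}
  (T : SqTower q K π)

namespace SqTower

/-- A non-zero constant times an `n`-th power in the residue field of level `N`. -/
def IsResPow (n : ℕ) (g : LaurentSeries k) : Prop :=
  ∃ c : k, c ≠ 0 ∧ ∃ r ∈ T.resField, r ≠ 0 ∧ g = HahnSeries.C c * r ^ n

theorem C_mem_resField (c : k) : (HahnSeries.C c : LaurentSeries k) ∈ T.resField := by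
  rw [show (HahnSeries.C c : LaurentSeries k) = algebraMap k _ c by
    rw [algebraMap_laurentSeries_eq_single, HahnSeries.C_apply]]
  exact T.resField.algebraMap_mem c

variable {T} in
theorem IsResPow.mul {n : ℕ} {g g' : LaurentSeries k} (h : T.IsResPow n g) (h' : T.IsResPow n g') :
    T.IsResPow n (g * g') := by
  obtain ⟨c, hc, r, hr, hr0, rfl⟩ := h
  obtain ⟨c', hc', r', hr', hr0', rfl⟩ := h'
  exact ⟨c * c', mul_ne_zero hc hc', r * r', mul_mem hr hr', mul_ne_zero hr0 hr0',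
    by rw [map_mul, mul_pow]; ring⟩

variable {T} in
theorem IsResPow.zpow {n : ℕ} {g : LaurentSeries k} (h : T.IsResPow n g) (m : ℤ) :
    T.IsResPow n (g ^ m) := by
  obtain ⟨c, hc, r, hr, hr0, rfl⟩ := h
  refine ⟨c ^ m, zpow_ne_zero _ hc, r ^ m, zpow_mem hr m, zpow_ne_zero _ hr0, ?_⟩
  rw [map_zpow₀, mul_zpow, ← zpow_natCast, ← zpow_natCast, ← zpow_mul, ← zpow_mul, mul_comm m]

variable {T} in
theorem IsResPow.exists_pow_eq {n : ℕ} (hn : 0 < n) {g : LaurentSeries k} (h : T.IsResPow n g) :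
    ∃ r ∈ T.resField, r ≠ 0 ∧ g = r ^ n := by
  obtain ⟨c, hc, r, hr, hr0, rfl⟩ := h
  obtain ⟨z, rfl⟩ := IsAlgClosed.exists_pow_nat_eq c hn
  have hz : z ≠ 0 := fun h0 => hc (by rw [h0, zero_pow hn.ne'])
  exact ⟨HahnSeries.C z * r, mul_mem (T.C_mem_resField z) hr,
    mul_ne_zero ((map_ne_zero_iff _ HahnSeries.C_injective).2 hz) hr0,
    by rw [mul_pow, map_pow]⟩

/-- A `q`-th root of a constant times an `n`-th power, for `n` prime to `q`. -/
theorem isResPow_of_pow {n : ℕ} (hqn : Nat.Coprime q n) {g : LaurentSeries k} (hg : g ∈ T.resField)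
    (hg0 : g ≠ 0) (h : T.IsResPow n (g ^ q)) : T.IsResPow n g := by
  obtain ⟨a, b, hab⟩ : ∃ a b : ℤ, a * q + b * n = 1 := Int.isCoprime_iff_gcd_eq_one.2 hqn
  have hb : T.IsResPow n ((g ^ b) ^ n) :=
    ⟨1, one_ne_zero, g ^ b, zpow_mem hg b, zpow_ne_zero _ hg0, by rw [map_one, one_mul]⟩
  have := (h.zpow a).mul hb
  rwa [← zpow_natCast, ← zpow_natCast, ← zpow_mul, ← zpow_mul, ← zpow_add₀ hg0, mul_comm (q : ℤ),
    hab, zpow_one] at this

/-- Expansion in `Q ^ q` keeps the residue field of level `N`. -/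
theorem qExpand_mem_resField {g : LaurentSeries k} (hg : g ∈ T.resField) :
    qExpand k q g ∈ T.resField := by
  obtain ⟨t, ht⟩ := T.res_lift g hg
  exact T.res₀_mem (f := T.W (T.α t)) (g := qExpand k q g)
    (by show HasGaussRed π _ _; rw [T.i₁_W_α]; exact hasGaussRed_qExpand ht)

include T in
/-- The value of a series at the uniformiser `q` is unique, and so is its residue. -/
theorem q_value_unique {x : LaurentSeries K'} {a b : ℤ} {g g' : LaurentSeries k} (hg : g ≠ 0)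
    (hg' : g' ≠ 0) (h : HasGaussRed π (HahnSeries.C ((q : K') ^ a) * x) g)
    (h' : HasGaussRed π (HahnSeries.C ((q : K') ^ b) * x) g') : a = b ∧ g = g' := by
  have key : ∀ {a b : ℤ} {g g' : LaurentSeries k}, g' ≠ 0 →
      HasGaussRed π (HahnSeries.C ((q : K') ^ a) * x) g →
      HasGaussRed π (HahnSeries.C ((q : K') ^ b) * x) g' → ¬ a < b := by
    intro a b g g' hg' h h' hlt
    obtain ⟨m, hm⟩ := Int.eq_ofNat_of_zero_le (show 0 ≤ b - a - 1 by omega)
    have h1 := (T.hasGaussRed_C_natCast.pow (m + 1)).mul h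
    rw [zero_pow m.succ_ne_zero, zero_mul, ← map_pow, ← mul_assoc, ← map_mul, ← zpow_natCast,
      ← zpow_add₀ T.natCast_ne_zero', show ((m + 1 : ℕ) : ℤ) + a = b by omega] at h1
    exact hg' (h'.unique h1)
  have hab : a = b := le_antisymm (not_lt.1 (key hg h' h)) (not_lt.1 (key hg' h h'))
  subst hab
  exact ⟨rfl, h.unique h'⟩

include T in
/-- The value of a constant of `K`. -/
theorem exists_value_const {κ : K} (hκ : κ ≠ 0) : ∃ (i : ℤ) (c : k), c ≠ 0 ∧
    HasGaussRed π (HahnSeries.C ((q : K') ^ (-i)) * HahnSeries.C (algebraMap K K' κ))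
      (HahnSeries.C c) := by
  obtain ⟨i, h1, h2⟩ := T.uniform κ hκ
  have hκ' : algebraMap K K' κ ≠ 0 := (_root_.map_ne_zero _).2 hκ
  refine ⟨i, π ⟨_, h1⟩, fun h => ?_, ?_⟩
  · have e : (⟨_, h1⟩ : A) * ⟨_, h2⟩ = 1 := Subtype.ext (by
      show algebraMap K K' κ / (q : K') ^ i * ((q : K') ^ i / algebraMap K K' κ) = 1
      rw [div_mul_div_cancel₀ (zpow_ne_zero i T.natCast_ne_zero'), div_self hκ'])
    have h' := congrArg π e
    rw [map_mul, h, zero_mul, map_one] at h'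
    exact zero_ne_one h'
  · rw [← map_mul, zpow_neg, inv_mul_eq_div]
    exact hasGaussRed_C ⟨_, h1⟩

theorem prod_units_one_sub : ∏ a : (ZMod q)ˣ, (1 - (T.ζ : K') ^ (a : ZMod q).val) = (q : K') := by
  have h1 : q - 1 + 1 = q := Nat.sub_add_cancel (Fact.out : q.Prime).one_le
  have h2 := IsPrimitiveRoot.prod_one_sub_pow_eq_order (μ := (T.ζ : K')) (n := q - 1)
    (by rw [h1]; exact IsPrimitiveRoot.coe_units_iff.2 T.primitive)
  have hq : (q : K') = ((q - 1 : ℕ) : K') + 1 := by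
    exact_mod_cast congrArg (Nat.cast (R := K')) h1.symm
  rw [hq, ← h2]
  have hpos : ∀ a : (ZMod q)ˣ, 0 < (a : ZMod q).val := fun a =>
    Nat.pos_of_ne_zero fun h0 => a.ne_zero ((ZMod.val_eq_zero _).1 h0)
  refine Finset.prod_bij (fun a _ => (a : ZMod q).val - 1) ?_ ?_ ?_ ?_
  · intro a _
    have := ZMod.val_lt (a : ZMod q)
    have := hpos a
    exact Finset.mem_range.2 (by omega)
  · intro a _ b _ h
    refine Units.ext (ZMod.val_injective q ?_)
    have := hpos a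
    have := hpos b
    omega
  · intro i hi
    rw [Finset.mem_range] at hi
    have hne : ((i + 1 : ℕ) : ZMod q) ≠ 0 := fun h0 => by
      have := Nat.le_of_dvd (Nat.succ_pos i) ((ZMod.natCast_eq_zero_iff _ _).1 h0)
      omega
    exact ⟨Units.mk0 _ hne, Finset.mem_univ _, by
      rw [Units.val_mk0, ZMod.val_natCast, Nat.mod_eq_of_lt (by omega), Nat.add_sub_cancel]⟩
  · intro a _
    rw [Nat.sub_add_cancel (hpos a)]

theorem coeffMap_σ_C (a : (ZMod q)ˣ) (c : K) :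
    coeffMap (T.σ a : K' →+* K') (HahnSeries.C (algebraMap K K' c)) =
      HahnSeries.C (algebraMap K K' c) := by
  rw [Igusa.coeffMap_C]
  exact congrArg HahnSeries.C ((T.σ a).commutes c)

/-- The product of the conjugates of a series of value `b` on the middle branch. -/
theorem hasGaussRed_prod_σ {y : LaurentSeries K'} {b : ℤ} {g : LaurentSeries k}
    (h : HasGaussRed π (HahnSeries.C ((1 - (T.ζ : K')) ^ (-b)) * y) g) :
    HasGaussRed π (HahnSeries.C ((q : K') ^ (-b)) *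
      ∏ a : (ZMod q)ˣ, coeffMap (T.σ a : K' →+* K') y) (g ^ (q - 1)) := by
  have h1 := hasGaussRed_prod Finset.univ fun a (_ : a ∈ (Finset.univ : Finset (ZMod q)ˣ)) =>
    T.hasGaussRed_σ a h
  rw [Finset.prod_const, Finset.card_univ, ZMod.card_units] at h1
  convert h1 using 1
  have hσ : ∀ a, (T.σ a : K' →+* K') ((1 - (T.ζ : K')) ^ (-b)) =
      (1 - (T.ζ : K') ^ (a : ZMod q).val) ^ (-b) := fun a => by
    show T.σ a ((1 - (T.ζ : K')) ^ (-b)) = _
    rw [map_zpow₀, map_sub, map_one, T.σ_ζ]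
  simp only [map_mul, Igusa.coeffMap_C, hσ]
  rw [Finset.prod_mul_distrib, ← map_prod, Finset.prod_zpow, T.prod_units_one_sub]

/-- What one norm says about values and residues. -/
theorem norm_relation {n : ℕ} {x y z : LaurentSeries K'} {a b c : ℤ} {gx gy gz : LaurentSeries k}
    (hx : HasGaussRed π (HahnSeries.C ((q : K') ^ (-a)) * x) gx) (hx0 : gx ≠ 0)
    (hy : HasGaussRed π (HahnSeries.C ((1 - (T.ζ : K')) ^ (-b)) * y) gy) (hy0 : gy ≠ 0)
    (hz : HasGaussRed π (HahnSeries.C ((q : K') ^ (-c)) * z) gz) (hz0 : gz ≠ 0)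
    {N H : T.F₁} {κ : K} (hκ : κ ≠ 0)
    (hN : T.i₁ N = x * ∏ a : (ZMod q)ˣ, coeffMap (T.σ a : K' →+* K') y)
    (hNW : qExpand K' q (T.i₁ (T.W N)) = ∏ a : ZMod q, Igusa.twist (T.ζ ^ a.val) z)
    (hH : T.i₁ N = HahnSeries.C (algebraMap K K' κ) * T.i₁ H ^ n) :
    (n : ℤ) ∣ a + b - q * c ∧ T.IsResPow n (gx * gy ^ (q - 1)) ∧ T.IsResPow n (gz ^ q) := by
  have hq := T.natCast_ne_zero'
  have hNeq : N = algebraMap K T.F₁ κ * H ^ n :=
    T.i₁.injective (by rw [map_mul, map_pow, T.i₁_algebraMap, hH])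
  have hA : HasGaussRed π (HahnSeries.C ((q : K') ^ (-(a + b))) * T.i₁ N) (gx * gy ^ (q - 1)) := by
    have h := hx.mul (T.hasGaussRed_prod_σ hy)
    rw [show -(a + b) = -a + -b by ring, zpow_add₀ hq, map_mul, hN, mul_mul_mul_comm]
    exact h
  have hA0 : gx * gy ^ (q - 1) ≠ 0 := mul_ne_zero hx0 (pow_ne_zero _ hy0)
  have hN0 : N ≠ 0 := fun h => hA0 (hA.unique (by rw [h, map_zero, mul_zero]; exact hasGaussRed_zero))
  obtain ⟨i, cκ, hcκ, hiκ⟩ := T.exists_value_const hκ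
  -- an `n`-th power on both components
  have side : ∀ G : T.F₁, G ≠ 0 → ∃ (l : ℤ) (r : LaurentSeries k), r ≠ 0 ∧ r ∈ T.resField ∧
      HasGaussRed π (HahnSeries.C ((q : K') ^ (-i + n * l)) *
        (HahnSeries.C (algebraMap K K' κ) * T.i₁ G ^ n)) (HahnSeries.C cκ * r ^ n) := by
    intro G hG
    obtain ⟨l, r, hr0, hr⟩ := T.value_i₁ G hG
    refine ⟨l, r, hr0, T.res₀_mem (f := algebraMap K T.F₁ ((q : K) ^ l) * G) (g := r) ?_, ?_⟩
    · show HasGaussRed π _ _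
      rwa [map_mul, T.i₁_algebraMap, map_zpow₀, map_natCast]
    · have h := hiκ.mul (hr.pow n)
      rw [zpow_add₀ hq, map_mul, mul_comm (n : ℤ) l, zpow_mul, zpow_natCast, map_pow,
        mul_mul_mul_comm, ← mul_pow]
      exact h
  have hH0 : n = 0 ∨ H ≠ 0 := by
    rcases Nat.eq_zero_or_pos n with h | h
    · exact Or.inl h
    · exact Or.inr fun h0 => hN0 (by rw [hNeq, h0, zero_pow h.ne', mul_zero])
  obtain ⟨G, hG0, hGN⟩ : ∃ G : T.F₁, G ≠ 0 ∧ N = algebraMap K T.F₁ κ * G ^ n := by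
    rcases hH0 with h | h
    · exact ⟨1, one_ne_zero, by rw [hNeq, h, pow_zero, pow_zero]⟩
    · exact ⟨H, h, hNeq⟩
  obtain ⟨l, r, hr0, hr, hlr⟩ := side G hG0
  obtain ⟨l', r', hr0', hr', hlr'⟩ := side (T.W G) (by rwa [Ne, map_eq_zero])
  have hC : (HahnSeries.C cκ : LaurentSeries k) ≠ 0 :=
    (map_ne_zero_iff _ HahnSeries.C_injective).2 hcκ
  obtain ⟨e1, e2⟩ := T.q_value_unique hA0 (mul_ne_zero hC (pow_ne_zero _ hr0)) hA
    (b := -i + n * l) (by rwa [hGN, map_mul, map_pow, T.i₁_algebraMap])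
  have hB : HasGaussRed π (HahnSeries.C ((q : K') ^ (-(q * c))) *
      qExpand K' q (T.i₁ (T.W N))) (gz ^ q) := by
    have h := hasGaussRed_prod Finset.univ fun a (_ : a ∈ (Finset.univ : Finset (ZMod q))) =>
      hasGaussRed_twist (T.ζ_pow_pow a.val) hz
    rw [Finset.prod_const, Finset.card_univ, ZMod.card] at h
    convert h using 1
    simp only [map_mul, twist_C]
    rw [Finset.prod_mul_distrib, ← hNW, Finset.prod_const, Finset.card_univ, ZMod.card, ← map_pow,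
      ← zpow_natCast, ← zpow_mul]
    congr 3
    ring
  have hB' := hasGaussRed_qExpand (q := q) hlr'
  rw [map_mul, qExpand_C, map_mul, qExpand_C, map_mul (qExpand k q), qExpand_C] at hB'
  obtain ⟨e3, e4⟩ := T.q_value_unique (pow_ne_zero _ hz0)
    (g' := HahnSeries.C cκ * qExpand k q (r' ^ n))
    (mul_ne_zero hC ((map_ne_zero_iff _ (qExpand_injective q)).2 (pow_ne_zero n hr0'))) hB
    (b := -i + n * l') (by
      rw [hGN, map_mul T.W, map_pow T.W, AlgHom.commutes, map_mul T.i₁, map_pow T.i₁,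
        T.i₁_algebraMap, map_mul, qExpand_C]
      exact hB')
  refine ⟨⟨l' - l, by linarith [e1, e3, mul_sub (n : ℤ) l' l]⟩, ?_, ?_⟩
  · exact ⟨cκ, hcκ, r, hr, hr0, e2⟩
  · exact ⟨cκ, hcκ, qExpand k q r', T.qExpand_mem_resField hr',
      (map_ne_zero_iff _ (qExpand_injective q)).2 hr0',
      by rw [e4, map_pow]⟩

/-- The relations given by both norms. -/
theorem norms_relations {n : ℕ} {f : T.F₂} (hnorm : T.NormsArePowers n f) {v₀ m v₂ : ℤ}
    {g₀ g₁ g₂ : LaurentSeries k} (hg₀ : g₀ ≠ 0) (hg₁ : g₁ ≠ 0) (hg₂ : g₂ ≠ 0)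
    (h₀ : HasGaussRed π (HahnSeries.C ((q : K') ^ (-v₀)) * T.e₀ f) g₀)
    (h₁ : HasGaussRed π (HahnSeries.C ((1 - (T.ζ : K')) ^ (-m)) * T.eₘ f) g₁)
    (h₂ : HasGaussRed π (HahnSeries.C ((q : K') ^ (-v₂)) * T.e₂ f) g₂) :
    ((n : ℤ) ∣ v₀ + m - q * v₂ ∧ (n : ℤ) ∣ v₂ + m - q * v₀) ∧
      T.IsResPow n (g₀ * g₁ ^ (q - 1)) ∧ T.IsResPow n (g₂ ^ q) ∧ T.IsResPow n (g₀ ^ q) := by
  obtain ⟨⟨H, κ, hκ, hH⟩, H', κ', hκ', hH'⟩ := hnorm
  obtain ⟨N, hN, hNW, -⟩ := T.exists_norm f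
  obtain ⟨N', hN', hNW', -⟩ := T.exists_norm' f
  have h₁' : HasGaussRed π (HahnSeries.C ((1 - (T.ζ : K')) ^ (-m)) *
      Igusa.twist T.ζ⁻¹ (T.eₘ f)) g₁ := by
    have := hasGaussRed_twist (c := T.ζ⁻¹) (by rw [inv_pow, T.ζ_pow, inv_one]) h₁
    rwa [map_mul, twist_C] at this
  obtain ⟨d, r, s⟩ := T.norm_relation h₀ hg₀ h₁ hg₁ h₂ hg₂ hκ hN hNW (hN.trans hH)
  obtain ⟨d', -, s'⟩ := T.norm_relation h₂ hg₂ h₁' hg₁ h₀ hg₀ hκ' (N := T.W N') hN'
    (by rw [T.W_W]; exact hNW') (hN'.trans hH')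
  exact ⟨⟨d, d'⟩, r, s, s'⟩

/-- The value of `q`. -/
theorem hasVal_natCast (i : Fin 3) :
    T.HasVal i (q : T.F₂) (![1, ((q - 1 : ℕ) : ℤ), 1] i) := by
  haveI := T.isLocalHom
  have hC : ∀ j, T.e j (q : T.F₂) = HahnSeries.C (q : K') := fun j => by
    rw [map_natCast, map_natCast]
  have hq := T.natCast_ne_zero'
  fin_cases i
  · refine ⟨1, one_ne_zero, ?_⟩
    show HasGaussRed π (HahnSeries.C ((q : K') ^ (-(1 : ℤ))) * T.e 0 (q : T.F₂)) 1
    rw [hC, ← map_mul, zpow_neg_one, inv_mul_cancel₀ hq, map_one]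
    exact hasGaussRed_one
  · obtain ⟨u, hu, hu1⟩ := exists_res_eq_one (π := π) T.ζ_pow
    choose r hr hπr using fun a : (ZMod q)ˣ =>
      exists_res_one_sub_zpow (π := π) hu1 ((a : ZMod q).val : ℤ)
    refine ⟨HahnSeries.C (π (∏ a, r a)), (map_ne_zero_iff _ HahnSeries.C_injective).2 ?_, ?_⟩
    · rw [map_prod]
      refine Finset.prod_ne_zero_iff.2 fun a _ h0 => ?_
      rw [hπr, Int.cast_natCast, CharP.cast_eq_zero_iff k q] at h0
      have := Nat.eq_zero_of_dvd_of_lt h0 (ZMod.val_lt _)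
      exact a.ne_zero ((ZMod.val_eq_zero _).1 this)
    · show HasGaussRed π (HahnSeries.C ((1 - (T.ζ : K')) ^ (-((q - 1 : ℕ) : ℤ))) *
        T.e 1 (q : T.F₂)) _
      have e : (1 - (T.ζ : K')) ^ (-((q - 1 : ℕ) : ℤ)) * (q : K') = ((∏ a, r a : A) : K') := by
        have hr' : ∀ a : (ZMod q)ˣ,
            1 - (T.ζ : K') ^ (a : ZMod q).val = (1 - (T.ζ : K')) * (r a : K') := by
          intro a
          have h := congrArg Subtype.val (hr a)
          simp only [zpow_natCast, Units.val_pow_eq_pow_val] at h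
          push_cast at h
          rwa [hu] at h
        have hne : (1 - (T.ζ : K')) ≠ 0 := by
          intro h0
          have h := T.prod_units_one_sub
          rw [Finset.prod_eq_zero (Finset.mem_univ (1 : (ZMod q)ˣ))
            (by rw [hr', h0, zero_mul])] at h
          exact hq h.symm
        conv_lhs => rw [← T.prod_units_one_sub, Finset.prod_congr rfl fun a _ => hr' a,
          Finset.prod_mul_distrib, Finset.prod_const, Finset.card_univ, ZMod.card_units]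
        rw [zpow_neg, zpow_natCast, inv_mul_cancel_left₀ (pow_ne_zero _ hne)]
        exact (map_prod A.subtype r _).symm
      rw [hC, ← map_mul, e]
      exact hasGaussRed_C _
  · refine ⟨1, one_ne_zero, ?_⟩
    show HasGaussRed π (HahnSeries.C ((q : K') ^ (-(1 : ℤ))) * T.e 2 (q : T.F₂)) 1
    rw [hC, ← map_mul, zpow_neg_one, inv_mul_cancel₀ hq, map_one]
    exact hasGaussRed_one

/-- The value of `z₂ - x₂`. -/
theorem hasVal_z₂_sub_x₂ (i : Fin 3) : T.HasVal i (T.z₂ - T.x₂) (![0, 1, 0] i) := by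
  haveI := T.isLocalHom
  have hjb : jqModC k ^ (q ^ 2) - jqModC k ≠ 0 := jqModC_sub_pow_ne_zero
  have hqq : HasGaussRed π (qExpand K' q (qExpand K' q (jqModC K'))) (jqModC k ^ (q ^ 2)) := by
    have h := hasGaussRed_qExpand (q := q) (hasGaussRed_qExpand (q := q)
      (hasGaussRed_jqModC (π := π)))
    rwa [qExpand_jqModC_eq_pow (k := k), map_pow, qExpand_jqModC_eq_pow (k := k), ← pow_mul,
      ← pow_two] at h
  fin_cases i
  · refine hasVal_zero_iff T |>.2 ⟨_, hjb, ?_⟩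
    show HasGaussRed π (T.e₀ (T.z₂ - T.x₂)) _
    rw [SqTower.z₂, SqTower.x₂, map_sub, T.e₀_β', T.i₁_W_x, T.e₀_α', T.i₁_x, sub_eq_add_neg,
      sub_eq_add_neg]
    exact hqq.add hasGaussRed_jqModC.neg
  · refine ⟨-Reduction.qDeriv (jqModC k), neg_ne_zero.2 (Reduction.qDeriv_jqModC_ne_zero k), ?_⟩
    show HasGaussRed π (HahnSeries.C ((1 - (T.ζ : K')) ^ (-(1 : ℤ))) * T.eₘ (T.z₂ - T.x₂)) _
    rw [SqTower.z₂, SqTower.x₂, map_sub, T.eₘ_β', T.W_W, T.i₁_x, T.eₘ_α', T.i₁_x, zpow_neg_one,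
      show ∀ x y : LaurentSeries K', x - y = -(y - x) from fun x y => (neg_sub y x).symm, mul_neg]
    exact (hasGaussRed_sub_twist_div T.ζ_pow
      (T.primitive.ne_one (Fact.out : q.Prime).one_lt) hasGaussRed_jqModC).neg
  · refine hasVal_zero_iff T |>.2 ⟨_, neg_ne_zero.2 hjb, ?_⟩
    show HasGaussRed π (T.e₂ (T.z₂ - T.x₂)) _
    rw [SqTower.z₂, SqTower.x₂, map_sub, T.e₂_β', T.W_W, T.i₁_x, T.e₂_α', T.i₁_W_x, neg_sub,
      sub_eq_add_neg, sub_eq_add_neg]
    exact hasGaussRed_jqModC.add hqq.neg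

/-- The value of `Δ(q τ) / Δ(τ)`. -/
theorem hasVal_α'_h (i : Fin 3) : T.HasVal i (T.α' T.h) (![0, 0, -12] i) := by
  have hne : Igusa.deltaSeries k / qExpand k q (Igusa.deltaSeries k) ≠ 0 :=
    div_ne_zero ((Igusa.hasLead_deltaSeries (R := k)).ne_zero one_ne_zero)
      ((map_ne_zero_iff _ (qExpand_injective q)).2
        ((Igusa.hasLead_deltaSeries (R := k)).ne_zero one_ne_zero))
  fin_cases i
  · refine hasVal_zero_iff T |>.2 ⟨_, inv_ne_zero hne, ?_⟩
    show HasGaussRed π (T.e₀ (T.α' T.h)) _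
    rw [T.e₀_α']
    exact T.hasGaussRed_i₁_h
  · refine hasVal_zero_iff T |>.2 ⟨_, inv_ne_zero hne, ?_⟩
    show HasGaussRed π (T.eₘ (T.α' T.h)) _
    rw [T.eₘ_α']
    exact T.hasGaussRed_i₁_h
  · refine ⟨_, (map_ne_zero_iff _ (qExpand_injective q)).2 hne, ?_⟩
    show HasGaussRed π (HahnSeries.C ((q : K') ^ (-(-12 : ℤ))) * T.e₂ (T.α' T.h)) _
    rw [T.e₂_α', ← qExpand_C (R := K') q ((q : K') ^ (-(-12 : ℤ))), ← map_mul]
    refine hasGaussRed_qExpand ?_
    rw [neg_neg, show ((q : K') ^ (12 : ℤ)) = (q : K') ^ 12 by norm_cast]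
    have e : HahnSeries.C ((q : K') ^ 12) * T.i₁ (T.W T.h) = T.i₁ T.h⁻¹ := by
      rw [map_inv₀]
      refine eq_inv_of_mul_eq_one_left ?_
      rw [mul_assoc, T.i₁_W_h, ← map_mul, mul_inv_cancel₀ (pow_ne_zero _ T.natCast_ne_zero'),
        map_one]
    rw [e]
    exact T.res₀_h_inv

theorem z₂_sub_x₂_ne_zero : T.z₂ - T.x₂ ≠ 0 := fun h => by
  obtain ⟨g, hg, hgr⟩ := T.hasVal_z₂_sub_x₂ 0
  refine hg (hgr.unique ?_)
  rw [h, map_zero, mul_zero]
  exact hasGaussRed_zero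

theorem α'_h_ne_zero : T.α' T.h ≠ 0 := by
  rw [Ne, map_eq_zero]
  exact fun h => T.i₁_h_ne_zero (by rw [h, map_zero])

/-- A lift of a residue on a given branch with residues on all branches. -/
theorem exists_branch_lift (i : Fin 3) {g : LaurentSeries k} (hg : g ∈ T.resField) :
    ∃ u : T.F₂, T.Res₂ i u g ∧ ∀ i', ∃ g', T.Res₂ i' u g' := by
  obtain ⟨t, ht⟩ := T.res_lift g hg
  have hq : HasGaussRed π (qExpand K' q (qExpand K' q (T.i₀ t))) (qExpand k q (qExpand k q g)) :=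
    hasGaussRed_qExpand (hasGaussRed_qExpand ht)
  have h₀ : T.Res₂ 0 (T.α' (T.α t)) g := by
    show HasGaussRed π (T.e₀ _) _; rwa [T.e₀_α', T.i₁_α]
  have h₁ : T.Res₂ 1 (T.α' (T.α t)) g := by
    show HasGaussRed π (T.eₘ _) _; rwa [T.eₘ_α', T.i₁_α]
  have h₂ : T.Res₂ 2 (T.β' (T.W (T.α t))) g := by
    show HasGaussRed π (T.e₂ _) _; rwa [T.e₂_β', T.W_W, T.i₁_α]
  have hα : ∀ i', ∃ g', T.Res₂ i' (T.α' (T.α t)) g' := by
    intro i'
    fin_cases i'
    · exact ⟨g, h₀⟩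
    · exact ⟨g, h₁⟩
    · exact ⟨_, show HasGaussRed π (T.e₂ _) _ by rw [T.e₂_α', T.i₁_W_α]; exact hq⟩
  fin_cases i
  · exact ⟨_, h₀, hα⟩
  · exact ⟨_, h₁, hα⟩
  · refine ⟨_, h₂, fun i' => ?_⟩
    fin_cases i'
    · exact ⟨_, show HasGaussRed π (T.e₀ _) _ by rw [T.e₀_β', T.i₁_W_α]; exact hq⟩
    · exact ⟨_, show HasGaussRed π (T.eₘ _) _ by
        rw [T.eₘ_β', T.W_W, T.i₁_α]; exact hasGaussRed_twist T.ζ_pow ht⟩
    · exact ⟨g, h₂⟩

/-- Any three residues occur. -/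
theorem exists_res₂_prescribed (s : Fin 3 → LaurentSeries k) (hs : ∀ i, s i ∈ T.resField) :
    ∃ u : T.F₂, ∀ i, T.Res₂ i u (s i) := by
  choose D hD0 hDz using T.exists_separator
  choose L hL hLall using fun i => T.exists_branch_lift i
    (div_mem (hs i) (T.red true (D i) i).2.1 :
      s i / (T.red true (D i) i : LaurentSeries k) ∈ T.resField)
  choose g' hg' using hLall
  refine ⟨∑ i, (D i : T.F₂) * L i, fun i => ?_⟩
  have h := hasGaussRed_sum Finset.univ fun i' (_ : i' ∈ (Finset.univ : Finset (Fin 3))) =>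
    (T.res₂_red true (D i') i).mul (hg' i' i)
  show HasGaussRed π _ _
  simp only [← map_mul, ← map_sum] at h
  convert h using 1
  rw [Finset.sum_eq_single i]
  · rw [(hg' i i).unique (hL i), mul_div_cancel₀]
    exact fun h0 => hD0 i (Subtype.ext h0)
  · intro i' _ hi'
    rw [hDz i' i (Ne.symm hi')]
    simp
  · simp

theorem _root_.Fermat.Agent.BadPrime.Sq.IsPowerAway.mul_pow_smul {F : Type} [Field F] [Algebra K F]
    {t : F} {n : ℕ} {f : F} (h : IsPowerAway (K := K) t n f) {u : F} (hu : u ≠ 0) {κ : K}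
    (hκ : κ ≠ 0) (e : ℕ) : IsPowerAway (K := K) t n (algebraMap K F κ * u ^ n * f ^ e) := by
  intro P hP
  obtain ⟨v, d, hv, hd, h1, h2⟩ := h P hP
  refine ⟨v ^ e / u, d ^ e, div_ne_zero (pow_ne_zero _ hv) hu, fun hm => hd (hP.isPrime.mem_of_pow_mem e hm),
    ?_, ?_⟩
  all_goals
    have key : (v ^ e / u) ^ n * (algebraMap K F κ * u ^ n * f ^ e) =
        algebraMap K F κ * (v ^ n * f) ^ e := by
      rw [div_pow, mul_pow, ← pow_mul, ← pow_mul, mul_comm e n]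
      field_simp
    rw [key, SubmonoidClass.coe_pow]
  · rw [mul_left_comm, ← mul_pow]
    exact mul_mem (algebraMap_mem_chartRing _ t (Subring.mem_top κ)) (pow_mem h1 e)
  · rw [mul_inv, ← map_inv₀, ← inv_pow, mul_left_comm, ← mul_pow]
    exact mul_mem (algebraMap_mem_chartRing _ t (Subring.mem_top _)) (pow_mem h2 e)

theorem _root_.Fermat.Agent.BadPrime.Sq.IsPowerAway.inv {F : Type} [Field F] [Algebra K F]
    {t : F} {n : ℕ} {f : F} (h : IsPowerAway (K := K) t n f) :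
    IsPowerAway (K := K) t n f⁻¹ := by
  intro P hP
  obtain ⟨v, d, hv, hd, h1, h2⟩ := h P hP
  have e : v⁻¹ ^ n * f⁻¹ = (v ^ n * f)⁻¹ := by rw [inv_pow, mul_inv]
  exact ⟨v⁻¹, d, inv_ne_zero hv, hd, by rwa [e], by rwa [e, inv_inv]⟩

theorem NormsArePowers.mul_pow_smul {n : ℕ} {f : T.F₂} (h : T.NormsArePowers n f) {u : T.F₂}
    (hu : u ≠ 0) {κ : K} (hκ : κ ≠ 0) (e : ℕ) :
    T.NormsArePowers n (algebraMap K T.F₂ κ * u ^ n * f ^ e) := by
  obtain ⟨⟨H, c, hc, hH⟩, H', c', hc', hH'⟩ := h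
  obtain ⟨N, hN, -⟩ := T.exists_norm u
  obtain ⟨N', hN', -⟩ := T.exists_norm' u
  refine ⟨⟨N * H ^ e, κ ^ q * c ^ e, mul_ne_zero (pow_ne_zero _ hκ) (pow_ne_zero _ hc), ?_⟩,
    N' * H' ^ e, κ ^ q * c' ^ e, mul_ne_zero (pow_ne_zero _ hκ) (pow_ne_zero _ hc'), ?_⟩
  · simp only [map_mul, map_pow, T.e₀_algebraMap, T.eₘ_algebraMap, T.coeffMap_σ_C,
      Finset.prod_mul_distrib, Finset.prod_pow, Finset.prod_const, Finset.card_univ,
      ZMod.card_units]
    conv_rhs => rw [mul_pow, pow_right_comm _ e n, hN]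
    rw [show HahnSeries.C (algebraMap K K' κ) ^ q = HahnSeries.C (algebraMap K K' κ) *
        HahnSeries.C (algebraMap K K' κ) ^ (q - 1) by
      rw [← pow_succ', Nat.sub_add_cancel (Fact.out : q.Prime).one_le]]
    calc _ = HahnSeries.C (algebraMap K K' κ) * HahnSeries.C (algebraMap K K' κ) ^ (q - 1) *
          (T.e₀ u * ∏ a : (ZMod q)ˣ, coeffMap (T.σ a : K' →+* K') (T.eₘ u)) ^ n *
          (T.e₀ f * ∏ a : (ZMod q)ˣ, coeffMap (T.σ a : K' →+* K') (T.eₘ f)) ^ e := by ring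
      _ = _ := by rw [hH]; ring
  · simp only [map_mul, map_pow, T.e₂_algebraMap, T.eₘ_algebraMap, twist_C, T.coeffMap_σ_C,
      Finset.prod_mul_distrib, Finset.prod_pow, Finset.prod_const, Finset.card_univ,
      ZMod.card_units]
    conv_rhs => rw [mul_pow, pow_right_comm _ e n, hN']
    rw [show HahnSeries.C (algebraMap K K' κ) ^ q = HahnSeries.C (algebraMap K K' κ) *
        HahnSeries.C (algebraMap K K' κ) ^ (q - 1) by
      rw [← pow_succ', Nat.sub_add_cancel (Fact.out : q.Prime).one_le]]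
    calc _ = HahnSeries.C (algebraMap K K' κ) * HahnSeries.C (algebraMap K K' κ) ^ (q - 1) *
          (T.e₂ u * ∏ a : (ZMod q)ˣ,
            coeffMap (T.σ a : K' →+* K') (Igusa.twist T.ζ⁻¹ (T.eₘ u))) ^ n *
          (T.e₂ f * ∏ a : (ZMod q)ˣ,
            coeffMap (T.σ a : K' →+* K') (Igusa.twist T.ζ⁻¹ (T.eₘ f))) ^ e := by ring
      _ = _ := by rw [hH']; ring

/-- Values zero on all three branches. -/
theorem exists_values_zero {n : ℕ} {f : T.F₂} (hf : f ≠ 0) (hnorm : T.NormsArePowers n f) :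
    ∃ (κ : K) (u : T.F₂), κ ≠ 0 ∧ u ≠ 0 ∧
      ∀ i, T.HasVal i (algebraMap K T.F₂ κ * u ^ n * f ^ (12 * (q + 1))) 0 := by
  choose v hv using T.exists_hasVal hf
  choose g hg hgr using hv
  obtain ⟨⟨⟨a, ha⟩, b, hb⟩, -⟩ := T.norms_relations hnorm (hg 0) (hg 1) (hg 2) (hgr 0) (hgr 1) (hgr 2)
  have hq1 : ((q - 1 : ℕ) : ℤ) = (q : ℤ) - 1 := by
    rw [Nat.cast_sub (Fact.out : q.Prime).one_le]; simp
  -- `(q + 1)` times the values is `V₀ (1, q - 1, 1)` plus a multiple of `n`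
  set V : ℤ := ((q : ℤ) + 1) * v 0 with hV
  set r : ℤ := b - a with hr
  have e2 : ((q : ℤ) + 1) * v 2 = V + n * r := by
    rw [hV, hr]; linear_combination hb - ha
  have e1 : ((q : ℤ) + 1) * v 1 = ((q : ℤ) - 1) * V + n * (a * (q + 1) + q * r) := by
    have : v 1 = n * a + q * v 2 - v 0 := by linear_combination ha
    rw [this, hV]
    linear_combination (q : ℤ) * e2
  set w : T.F₂ := (T.z₂ - T.x₂) ^ (-(12 * (a * (q + 1) + q * r))) * T.α' T.h ^ r
  have hw : w ≠ 0 := mul_ne_zero (zpow_ne_zero _ T.z₂_sub_x₂_ne_zero) (zpow_ne_zero _ T.α'_h_ne_zero)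
  refine ⟨(q : K) ^ (-(12 * V)), w, zpow_ne_zero _ (Nat.cast_ne_zero.2 (Fact.out : q.Prime).ne_zero),
    hw, fun i => ?_⟩
  have h := (((T.hasVal_natCast i).zpow T (-(12 * V))).mul T
    ((((T.hasVal_z₂_sub_x₂ i).zpow T (-(12 * (a * (q + 1) + q * r)))).mul T
      ((T.hasVal_α'_h i).zpow T r)).zpow T (n : ℤ))).mul T
    (HasVal.zpow T (show T.HasVal i f (v i) from ⟨g i, hg i, hgr i⟩) ((12 * (q + 1) : ℕ) : ℤ))
  rw [zpow_natCast, zpow_natCast] at h
  rw [map_zpow₀, map_natCast]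
  convert h using 1
  fin_cases i <;> simp only [Matrix.cons_val_zero, Matrix.cons_val_one, Matrix.cons_val,
      Fin.isValue, Fin.mk_one, Fin.zero_eta, Fin.reduceFinMk, hq1] <;> push_cast
  · rw [hV]; ring
  · linear_combination -12 * e1
  · linear_combination -12 * e2

/-- Some power of `f` has values zero and residues one, up to constants and `n`-th powers. -/
theorem exists_normalised {n : ℕ} (hn : 0 < n) (hqn : Nat.Coprime q n) {f : T.F₂} (hf : f ≠ 0)
    (hnorm : T.NormsArePowers n f) :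
    ∃ (κ : K) (u : T.F₂), κ ≠ 0 ∧ u ≠ 0 ∧
      ∀ i, T.Res₂ i (algebraMap K T.F₂ κ * u ^ n * f ^ (12 * (q + 1) * (q - 1))) 1 := by
  obtain ⟨κ, u, hκ, hu, hval⟩ := T.exists_values_zero hf hnorm
  set f₂ := algebraMap K T.F₂ κ * u ^ n * f ^ (12 * (q + 1)) with hf₂
  choose g hg hgr using fun i => (hasVal_zero_iff T).1 (hval i)
  obtain ⟨-, h01, h2, h0⟩ := T.norms_relations (hnorm.mul_pow_smul T hu hκ (12 * (q + 1)))
    (hg 0) (hg 1) (hg 2) (v₀ := 0) (m := 0) (v₂ := 0)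
    (by rw [neg_zero, zpow_zero, map_one, one_mul]; exact hgr 0)
    (by rw [neg_zero, zpow_zero, map_one, one_mul]; exact hgr 1)
    (by rw [neg_zero, zpow_zero, map_one, one_mul]; exact hgr 2)
  have hmem : ∀ i, g i ∈ T.resField := fun i => T.res₂_mem (hgr i)
  have hp0 := T.isResPow_of_pow hqn (hmem 0) (hg 0) h0
  have hp2 := T.isResPow_of_pow hqn (hmem 2) (hg 2) h2
  have hp : ∀ i, T.IsResPow n (g i ^ (q - 1)) := by
    intro i
    fin_cases i
    · simpa using hp0.zpow ((q - 1 : ℕ) : ℤ)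
    · have := h01.mul (hp0.zpow (-1))
      rwa [zpow_neg_one, mul_comm (g 0), mul_inv_cancel_right₀ (hg 0)] at this
    · simpa using hp2.zpow ((q - 1 : ℕ) : ℤ)
  choose s hs hs0 hsg using fun i => (hp i).exists_pow_eq hn
  obtain ⟨w, hw⟩ := T.exists_res₂_prescribed (fun i => (s i)⁻¹) fun i => inv_mem (hs i)
  have hw0 : w ≠ 0 := fun h => inv_ne_zero (hs0 0) ((hw 0).unique (by
    show HasGaussRed π (T.e 0 w) 0; rw [h, map_zero]; exact hasGaussRed_zero))
  refine ⟨κ ^ (q - 1), w * u ^ (q - 1), pow_ne_zero _ hκ, mul_ne_zero hw0 (pow_ne_zero _ hu),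
    fun i => ?_⟩
  have h := ((hw i).pow n).mul ((hgr i).pow (q - 1))
  rw [hsg, inv_pow, inv_mul_cancel₀ (pow_ne_zero _ (hs0 i)), ← map_pow, ← map_pow, ← map_mul] at h
  show HasGaussRed π _ _
  convert h using 2
  rw [hf₂, map_pow, mul_pow _ (f ^ _), mul_pow, mul_pow, ← pow_mul, ← pow_mul, ← pow_mul,
    mul_comm n (q - 1)]
  ring

end SqTower

end Fermat.Agent.BadPrime.Sq
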