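import Fermat.Agent.BadPrime.Sq.BranchValues
import Fermat.Agent.BadPrime.Sq.Normalize
import Fermat.Agent.BadPrime.Sq.Glue

/-!
# The exact root

The local roots have residues proportional on the branches to one vector of roots of unity; hence
on each chart that vector is the residue of a root (`exists_smul_const_mem`), and the two chartwise
roots glue to an exact root (`Roots.exists_root`).
-/

set_option autoImplicit false
set_option linter.unusedSectionVars false

noncomputable section

open ModularCurve Polynomial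

namespace Fermat.Agent.BadPrime.Sq

variable {q : ℕ} [Fact q.Prime] {K K' k : Type} [Field K] [Field K'] [Algebra K K'] [Field k]
  [CharZero K] [CharP k q] [IsAlgClosed k] {A : ValuationSubring K'} {π : A →+* k}
  (T : SqTower q K π)

namespace SqTower

theorem normsArePowers_inv {n : ℕ} {f : T.F₂} (h : T.NormsArePowers n f) :
    T.NormsArePowers n f⁻¹ := by
  obtain ⟨⟨H, κ, hκ, he⟩, H', κ', hκ', he'⟩ := h
  refine ⟨⟨H⁻¹, κ⁻¹, inv_ne_zero hκ, ?_⟩, H'⁻¹, κ'⁻¹, inv_ne_zero hκ', ?_⟩
  · simp only [map_inv₀, Finset.prod_inv_distrib, inv_pow, ← mul_inv, he]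
  · simp only [map_inv₀, Finset.prod_inv_distrib, inv_pow, ← mul_inv, he']

/-- The residue vectors of roots of `g` on a chart form a module over the model. -/
theorem exists_root_chart {n : ℕ} (hn : 0 < n) (hqn : Nat.Coprime q n) {g : T.F₂}
    (hg : ∀ i, T.Res₂ i g 1) (b : Bool) (c : Fin 3 → k) (hc : ∀ i, c i ^ n = 1)
    (hloc : ∀ M : Ideal (T.B₂ b), M.IsMaximal → (q : T.B₂ b) ∈ M →
      ∃ (a : T.F₂) (d : T.B₂ b) (w : Fin 3 → T.R b), d ∉ M ∧
        a ^ n * g = d ∧ (∀ i, T.Res₂ i a (w i : LaurentSeries k)) ∧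
        ∀ (i i' : Fin 3) (p p' : T.R b →ₐ[k] k), RingHom.ker (T.ev b i p) = M →
          RingHom.ker (T.ev b i' p') = M → c i' * p (w i) = c i * p' (w i')) :
    ∃ a : T.F₂, a ^ n * g ∈ T.B₂ b ∧ ∀ i, T.Res₂ i a (HahnSeries.C (c i)) := by
  have := T.isDedekindDomain_R b
  let _ : Module (T.B₂ b) (Fin 3 → T.R b) := Module.compHom _ (T.red b)
  let E : Submodule (T.B₂ b) (Fin 3 → T.R b) :=
    { carrier := {w | ∃ a : T.F₂, a ^ n * g ∈ T.B₂ b ∧
        ∀ i, T.Res₂ i a (w i : LaurentSeries k)}
      add_mem' := by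
        rintro w w' ⟨a, ha, haw⟩ ⟨a', ha', haw'⟩
        refine ⟨a + a', (rootMod (baseRing A K) n g hn.ne' (T.t₂ b)).add_mem ha ha', fun i => ?_⟩
        have h := (haw i).add (haw' i)
        rw [← map_add] at h
        exact h
      zero_mem' := ⟨0, by rw [zero_pow hn.ne', zero_mul]; exact zero_mem _, fun i => by
        have h : T.e i (0 : T.F₂) = 0 := map_zero _
        show HasGaussRed π (T.e i 0) 0
        rw [h]
        exact hasGaussRed_zero⟩
      smul_mem' := by
        rintro x w ⟨a, ha, haw⟩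
        refine ⟨x * a, ?_, fun i => ?_⟩
        · rw [mul_pow, mul_assoc]
          exact mul_mem (pow_mem x.2 n) ha
        · have h := (T.res₂_red b x i).mul (haw i)
          rw [← map_mul] at h
          exact h }
  let v : Fin 3 → T.R b := fun i => algebraMap k (T.R b) (c i)
  suffices hv : v ∈ E from hv
  refine smul_mem_of_forall_maximal E v fun M hM => ?_
  by_cases hq : (q : T.B₂ b) ∈ M
  · obtain ⟨a, d, w, hd, had, haw, hval⟩ := hloc M hM hq
    have hwn : w ^ n = T.red b d := funext fun i => Subtype.ext <| by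
      refine HasGaussRed.unique ?_ (T.res₂_red b d i)
      have h := ((haw i).pow n).mul (hg i)
      rw [mul_one, ← map_pow, ← map_mul, had] at h
      exact h
    obtain ⟨c₀, hc₀, hc₀'⟩ := T.exists_conductor b
    obtain ⟨x, hx, hxv⟩ := exists_smul_const_mem q
      (fun P hP => T.exists_point b P) (T.red b) (T.exists_red_const b) c₀ hc₀ hc₀' hn.ne' hqn c hc
      (E : Set (Fin 3 → T.R b)) (fun x w hw => E.smul_mem x hw) M hd
      (w := w) ⟨a, had ▸ d.2, haw⟩ hwn hval
    exact ⟨x, hx, hxv⟩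
  · refine ⟨(q : T.B₂ b), hq, ?_⟩
    have e : ((q : T.B₂ b) • v : Fin 3 → T.R b) = 0 := by
      show T.red b (q : T.B₂ b) * v = 0
      rw [T.red_natCast b, zero_mul]
    rw [e]
    exact E.zero_mem

/-- The exact root of a function with values zero, residues one and local roots everywhere. -/
theorem exists_root_of_branch_values [IsAlgClosed K'] {n : ℕ} (hn : 0 < n)
    (hqn : Nat.Coprime q n) {f : T.F₂} (hf : f ≠ 0) (h1 : ∀ i, T.Res₂ i f 1)
    (hfin : IsPowerAway (K := K) T.x₂ n f) (hinf : IsPowerAway (K := K) T.x₂⁻¹ n f)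
    (hnorm : T.NormsArePowers n f) :
    ∃ r ∈ Submodule.span K' (Set.range T.e₀), r ^ n = T.e₀ (f ^ (q ^ 2 - 1)) := by
  have h1' : ∀ i, T.Res₂ i f⁻¹ 1 := fun i => by
    have h := (h1 i).inv one_ne_zero
    rwa [inv_one, ← map_inv₀] at h
  obtain ⟨c, hc, hloc⟩ := T.exists_branch_values hn (inv_ne_zero hf) h1' hfin.inv hinf.inv
    (T.normsArePowers_inv hnorm)
  set g := f⁻¹ ^ (q ^ 2 - 1) with hg
  have hgres : ∀ i, T.Res₂ i g 1 := fun i => by
    have h := (h1' i).pow (q ^ 2 - 1)
    rwa [one_pow, ← map_pow] at h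
  obtain ⟨a₀, h₀, hr₀⟩ := T.exists_root_chart hn hqn hgres true c hc (hloc true)
  obtain ⟨a₁, h₁, hr₁⟩ := T.exists_root_chart hn hqn hgres false c hc (hloc false)
  obtain ⟨D, hD⟩ := T.exists_verticalRing
  have := T.finite_x₂
  -- `n` is invertible in the base ring
  have := T.isLocalHom
  have hnS : ((n : K))⁻¹ ∈ baseRing A K := by
    have hk : (n : k) ≠ 0 := by
      rw [Ne, CharP.cast_eq_zero_iff k q]
      exact fun h => (Fact.out : q.Prime).one_lt.ne'
        (Nat.dvd_one.1 (hqn ▸ Nat.dvd_gcd dvd_rfl h))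
    obtain ⟨u, hu⟩ := (isUnit_of_map_unit π (n : A)
      (by rw [map_natCast]; exact isUnit_iff_ne_zero.2 hk)).exists_right_inv
    rw [mem_baseRing, map_inv₀, map_natCast]
    have e : (n : K') * (u : K') = 1 := by
      have := congrArg Subtype.val hu
      simpa using this
    rw [inv_eq_of_mul_eq_one_right e]
    exact u.2
  -- the residues of the products
  have hsmall : ∀ (a : T.F₂), (∀ i, T.Res₂ i a (HahnSeries.C (c i))) →
      D.Small (a ^ n * g - 1) := fun a ha => (hD _).2 fun i => by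
    have h := (((ha i).pow n).mul (hgres i)).add (hasGaussRed_one (π := π)).neg
    rw [← map_pow HahnSeries.C, hc i, map_one, mul_one, add_neg_cancel, ← map_pow, ← map_mul,
      ← sub_eq_add_neg, ← map_one (T.e i), ← map_sub] at h
    exact h
  have hmixed : D.Small (a₀ * a₁ ^ (n - 1) * g - 1) := (hD _).2 fun i => by
    have h := (((hr₀ i).mul ((hr₁ i).pow (n - 1))).mul (hgres i)).add
      (hasGaussRed_one (π := π)).neg
    rw [← map_pow, ← map_mul, ← pow_succ', Nat.sub_add_cancel (Nat.one_le_iff_ne_zero.2 hn.ne'),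
      ← map_pow HahnSeries.C, hc i, map_one, mul_one, add_neg_cancel, ← map_mul,
      ← sub_eq_add_neg, ← map_one (T.e i), ← map_sub] at h
    exact h
  obtain ⟨r, hr, hrg⟩ := exists_root D hnS hn.ne' (pow_ne_zero _ (inv_ne_zero hf)) T.isUniformiser
    T.transcendental_x₂ (i := T.e₀)
    (fun x => (T.e₀_algebraMap x).trans (Reduction.C_eq_algebraMap _))
    h₀ h₁ (hsmall a₀ hr₀) (hsmall a₁ hr₁) hmixed
  have hr' : r ∈ Submodule.span K' (Set.range T.e₀) := by
    clear hrg
    induction hr using Submodule.span_induction with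
    | mem z hz => exact Submodule.subset_span hz
    | zero => exact zero_mem _
    | add y z _ _ hy hz => exact add_mem hy hz
    | smul m y _ hy =>
      rw [Algebra.smul_def, ← Reduction.C_eq_algebraMap, HahnSeries.C_mul_eq_smul]
      exact Submodule.smul_mem _ m hy
  refine ⟨r, hr', ?_⟩
  rw [inv_pow, map_inv₀] at hrg
  exact eq_of_mul_inv_eq_one hrg

end SqTower

end Fermat.Agent.BadPrime.Sq
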