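import Fermat.Agent.BadPrime.Sq.ChartsMap

/-!
# Clearing denominators between charts

An element integral over `cuspBase S t` becomes integral over `S[t⁻¹]` after multiplication by a
polynomial in `t⁻¹` with unit constant term.
-/

set_option autoImplicit false
set_option linter.unusedSectionVars false

noncomputable section

open Polynomial

namespace Fermat.Agent.BadPrime.Sq

variable {K F : Type} [Field K] [Field F] [Algebra K F] {S : Subring K} {t : F}

/-- Multiplying by a power of `d` clears the denominators of everything integral over `S[v]` when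
`d` clears those of `v`. -/
theorem exists_pow_mul_mem_of_mul_mem {d v f : F} (hd : d ∈ chartRing S t)
    (hdv : d * v ∈ chartRing S t) (hf : f ∈ chartRing S v) :
    ∃ N : ℕ, d ^ N * f ∈ chartRing S t := by
  obtain ⟨p, hp, hpf⟩ := (mem_chartRing S v).1 hf
  have hclear : ∀ y, y ∈ Algebra.adjoin S {v} →
      ∃ L, ∀ L', L ≤ L' → d ^ L' * y ∈ chartRing S t := by
    intro y hy
    induction hy using Algebra.adjoin_induction with
    | mem z hz =>
      rw [Set.mem_singleton_iff] at hz
      refine ⟨1, fun L' hL => ?_⟩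
      obtain ⟨m, rfl⟩ := Nat.exists_eq_add_of_le' hL
      rw [hz, pow_succ, mul_assoc]
      exact mul_mem (pow_mem hd m) hdv
    | algebraMap c =>
      exact ⟨0, fun L' _ => mul_mem (pow_mem hd L') (algebraMap_mem_chartRing S t c.2)⟩
    | add a b _ _ ha hb =>
      obtain ⟨L, hL⟩ := ha
      obtain ⟨M, hM⟩ := hb
      exact ⟨max L M, fun L' h => by
        rw [mul_add]
        exact add_mem (hL L' (le_of_max_le_left h)) (hM L' (le_of_max_le_right h))⟩
    | mul a b _ _ ha hb =>
      obtain ⟨L, hL⟩ := ha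
      obtain ⟨M, hM⟩ := hb
      refine ⟨L + M, fun L' h => ?_⟩
      obtain ⟨m, rfl⟩ := Nat.exists_eq_add_of_le h
      rw [show d ^ (L + M + m) * (a * b) = (d ^ (L + m) * a) * (d ^ M * b) by ring]
      exact mul_mem (hL _ (Nat.le_add_right _ _)) (hM _ le_rfl)
  let P : Polynomial F := p.map (Algebra.adjoin S {v}).val.toRingHom
  have hP : P.Monic := hp.map _
  have hPx : P.eval₂ (RingHom.id F) f = 0 := by
    rw [eval₂_map, RingHom.id_comp]
    exact hpf
  choose L hL using fun i => hclear _ ((p.coeff i : Algebra.adjoin S {v}).2)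
  refine ⟨∑ i ∈ Finset.range (p.natDegree + 1), L i, ?_⟩
  set L₀ := ∑ i ∈ Finset.range (p.natDegree + 1), L i with hL₀
  refine mem_chartRing_of_monic (p := P.scaleRoots (d ^ L₀)) (by rwa [monic_scaleRoots_iff])
    (fun i => ?_) ?_
  · rw [coeff_scaleRoots]
    rcases lt_trichotomy i P.natDegree with h | rfl | h
    · obtain ⟨m, hm⟩ := Nat.exists_eq_add_of_lt h
      rw [show P.natDegree - i = m + 1 by omega, pow_succ, mul_left_comm, coeff_map]
      refine mul_mem (pow_mem (pow_mem hd _) _) ?_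
      rw [mul_comm]
      exact hL i L₀ (Finset.single_le_sum (fun _ _ => Nat.zero_le _)
        (Finset.mem_range.2 (by rw [hp.natDegree_map] at h; omega)))
    · rw [Nat.sub_self, pow_zero, mul_one, hP.coeff_natDegree]
      exact one_mem _
    · rw [coeff_eq_zero_of_natDegree_lt h, zero_mul]
      exact zero_mem _
  · have h0 := scaleRoots_eval₂_eq_zero (RingHom.id F) (s := d ^ L₀) hPx
    rwa [RingHom.id_apply] at h0

/-- The chart is integrally closed. -/
theorem mem_chartRing_of_mem {t' : F} (ht : t' ∈ chartRing S t) {x : F}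
    (hx : x ∈ chartRing S t') : x ∈ chartRing S t :=
  chartRing_le_of_mem le_rfl ht hx

/-- Denominators allowed at `t = ∞`. -/
def IsCuspUnit (S : Subring K) (d : K[X]) : Prop :=
  (∀ i, d.coeff i ∈ S) ∧ (d.coeff 0)⁻¹ ∈ S ∧ d.coeff 0 ≠ 0

theorem isCuspUnit_one : IsCuspUnit S (1 : K[X]) := by
  refine ⟨fun i => ?_, by simp, by simp⟩
  rw [coeff_one]
  split_ifs
  · exact one_mem S
  · exact zero_mem S

theorem IsCuspUnit.mul {d e : K[X]} (hd : IsCuspUnit S d) (he : IsCuspUnit S e) :
    IsCuspUnit S (d * e) := by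
  refine ⟨fun i => ?_, ?_, ?_⟩
  · rw [coeff_mul]
    exact sum_mem fun x _ => mul_mem (hd.1 _) (he.1 _)
  · rw [mul_coeff_zero, mul_inv]
    exact mul_mem hd.2.1 he.2.1
  · rw [mul_coeff_zero]
    exact mul_ne_zero hd.2.2 he.2.2

theorem IsCuspUnit.aeval_mem {d : K[X]} (hd : IsCuspUnit S d) (u : F) :
    aeval u d ∈ chartRing S u := by
  rw [aeval_eq_sum_range]
  refine sum_mem fun i _ => ?_
  rw [Algebra.smul_def]
  exact mul_mem (algebraMap_mem_chartRing S u (hd.1 i)) (pow_mem (self_mem_chartRing S u) i)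

theorem IsCuspUnit.pow {d : K[X]} (hd : IsCuspUnit S d) (m : ℕ) : IsCuspUnit S (d ^ m) := by
  induction m with
  | zero => rw [pow_zero]; exact isCuspUnit_one
  | succ m ih => rw [pow_succ]; exact ih.mul hd

/-- Elements integral at `t = ∞` are integral over `S[t⁻¹]` up to such a denominator. -/
theorem exists_mul_mem_of_mem_cuspRing (ht : Transcendental K t) {x : F}
    (hx : x ∈ cuspRing S t) :
    ∃ d : K[X], IsCuspUnit S d ∧ aeval t⁻¹ d * x ∈ chartRing S t⁻¹ := by
  classical
  have ht' : Transcendental K t⁻¹ := fun h => ht (by simpa using h.inv)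
  have hne : ∀ d : K[X], IsCuspUnit S d → aeval t⁻¹ d ≠ 0 := fun d hd h => by
    have := (transcendental_iff_injective.1 ht') (h.trans (map_zero _).symm)
    exact hd.2.2 (by rw [this, coeff_zero])
  have hclear : ∀ y ∈ cuspBase S t,
      ∃ d, IsCuspUnit S d ∧ aeval t⁻¹ d * y ∈ chartRing S t⁻¹ := by
    intro y hy
    induction hy using Subring.closure_induction with
    | mem z hz =>
      rcases hz with (⟨c, hc, rfl⟩ | hz) | ⟨d, h1, h2, h3, rfl⟩
      · exact ⟨1, isCuspUnit_one, by rw [map_one, one_mul]; exact algebraMap_mem_chartRing S _ hc⟩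
      · rw [Set.mem_singleton_iff] at hz
        exact ⟨1, isCuspUnit_one, by rw [hz, map_one, one_mul]; exact self_mem_chartRing S _⟩
      · exact ⟨d, ⟨h1, h2, h3⟩, by rw [mul_inv_cancel₀ (hne d ⟨h1, h2, h3⟩)]; exact one_mem _⟩
    | zero => exact ⟨1, isCuspUnit_one, by rw [mul_zero]; exact zero_mem _⟩
    | one => exact ⟨1, isCuspUnit_one, by rw [map_one, one_mul]; exact one_mem _⟩
    | neg a _ ha =>
      obtain ⟨d, hd, h⟩ := ha
      exact ⟨d, hd, by rw [mul_neg]; exact neg_mem h⟩
    | add a b _ _ ha hb =>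
      obtain ⟨d, hd, h⟩ := ha
      obtain ⟨e, he, h'⟩ := hb
      refine ⟨d * e, hd.mul he, ?_⟩
      rw [map_mul, show aeval t⁻¹ d * aeval t⁻¹ e * (a + b) =
        aeval t⁻¹ e * (aeval t⁻¹ d * a) + aeval t⁻¹ d * (aeval t⁻¹ e * b) by ring]
      exact add_mem (mul_mem (he.aeval_mem _) h) (mul_mem (hd.aeval_mem _) h')
    | mul a b _ _ ha hb =>
      obtain ⟨d, hd, h⟩ := ha
      obtain ⟨e, he, h'⟩ := hb
      refine ⟨d * e, hd.mul he, ?_⟩
      rw [map_mul, show aeval t⁻¹ d * aeval t⁻¹ e * (a * b) =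
        (aeval t⁻¹ d * a) * (aeval t⁻¹ e * b) by ring]
      exact mul_mem h h'
  obtain ⟨p, hp, hpx⟩ := hx
  let P : Polynomial F := p.map (cuspBase S t).subtype
  have hP : P.Monic := hp.map _
  have hPx : P.eval₂ (RingHom.id F) x = 0 := by
    rw [eval₂_map, RingHom.id_comp]
    exact hpx
  choose d hd hdm using fun i => hclear _ (p.coeff i).2
  set s := Finset.range (p.natDegree + 1) with hs
  have hD : IsCuspUnit S (∏ i ∈ s, d i) := Finset.prod_induction _ _
    (fun _ _ => IsCuspUnit.mul) isCuspUnit_one fun i _ => hd i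
  refine ⟨∏ i ∈ s, d i, hD, ?_⟩
  set D := aeval t⁻¹ (∏ i ∈ s, d i) with hDdef
  refine mem_chartRing_of_monic (p := P.scaleRoots D) (by rwa [monic_scaleRoots_iff]) (fun i => ?_) ?_
  · rw [coeff_scaleRoots]
    rcases lt_trichotomy i P.natDegree with h | rfl | h
    · obtain ⟨m, hm⟩ := Nat.exists_eq_add_of_lt h
      rw [show P.natDegree - i = m + 1 by omega, pow_succ, mul_left_comm, coeff_map]
      refine mul_mem (pow_mem (hD.aeval_mem _) _) ?_
      have his : i ∈ s := Finset.mem_range.2 (by rw [hp.natDegree_map] at h; omega)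
      rw [hDdef, ← Finset.mul_prod_erase _ _ his, map_mul]
      rw [show (cuspBase S t).subtype (p.coeff i) * (aeval t⁻¹ (d i) * aeval t⁻¹ (∏ x ∈ s.erase i, d x)) =
        (aeval t⁻¹ (d i) * (p.coeff i : F)) * aeval t⁻¹ (∏ x ∈ s.erase i, d x) by
          rw [Subring.subtype_apply]; ring]
      exact mul_mem (hdm i) ((Finset.prod_induction _ _ (fun _ _ => IsCuspUnit.mul) isCuspUnit_one
        fun l _ => hd l).aeval_mem _)
    · rw [Nat.sub_self, pow_zero, mul_one, hP.coeff_natDegree]
      exact one_mem _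
    · rw [coeff_eq_zero_of_natDegree_lt h, zero_mul]
      exact zero_mem _
  · have h0 := scaleRoots_eval₂_eq_zero (RingHom.id F) (s := D) hPx
    rwa [RingHom.id_apply] at h0

end Fermat.Agent.BadPrime.Sq
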