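import Fermat.Agent.BadPrime.Sq.LevelTwo
import Fermat.Agent.BadPrime.Sq.CuspClear
import Fermat.Agent.Reduction.DeltaRatio

/-!
# The cusps of level `N q²` in characteristic `q`

With `x, y, z = j(τ), j(qτ), j(q²τ)`, the functions `x / y ^ q` and `z / y ^ q` separate the three
branches at the cusps.  On the middle branch `w = 1 - x / z` is a parameter:
`w ^ (q - 1) / q` reduces to a multiple of `(θ j / j) ^ (q - 1)`, a unit at the cusps as
`(θ j / j) ^ 6 = (1 - 1728 / j) ^ 3 · j Δ`.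
-/

set_option autoImplicit false
set_option linter.unusedSectionVars false
set_option linter.style.haveILetI false
set_option maxHeartbeats 800000

noncomputable section

open ModularCurve Polynomial

namespace Fermat.Agent.BadPrime.Sq

variable {q : ℕ} [Fact q.Prime] {K K' k : Type} [Field K] [Field K'] [Algebra K K'] [Field k]
  [CharZero K] [CharP k q] [IsAlgClosed k] {A : ValuationSubring K'} {π : A →+* k}
  (T : SqTower q K π)

namespace SqTower

theorem eq_zero_or_one_or_two (i : Fin 3) : i = 0 ∨ i = 1 ∨ i = 2 := by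
  fin_cases i <;> simp

theorem red_coe_eq {b : Bool} {i : Fin 3} {f : T.B₂ b} {g : LaurentSeries k}
    (h : T.Res₂ i (f : T.F₂) g) : (T.red b f i : LaurentSeries k) = g :=
  (T.res₂_red b f i).unique h

theorem ev_apply (b : Bool) (i : Fin 3) (p : T.R b →ₐ[k] k) (f : T.B₂ b) :
    T.ev b i p f = p (T.red b f i) := rfl

section Values

include T in
theorem one_sub_ζ_ne_zero_cusp : (1 : K') - (T.ζ : K') ≠ 0 :=
  sub_ne_zero.2 fun h => T.primitive.ne_one (Fact.out : q.Prime).one_lt (Units.ext h.symm)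

theorem ϖ_ne_zero_cusp (i : Fin 3) : T.ϖ i ≠ 0 := by
  fin_cases i
  · exact T.natCast_ne_zero'
  · exact T.one_sub_ζ_ne_zero_cusp
  · exact T.natCast_ne_zero'

theorem hasGaussRed_ϖ (i : Fin 3) : HasGaussRed π (HahnSeries.C (T.ϖ i)) 0 := by
  have hζ : HasGaussRed π (HahnSeries.C (1 - (T.ζ : K'))) 0 := by
    obtain ⟨u, hu, hu1⟩ := exists_res_eq_one (π := π) T.ζ_pow
    have h := hasGaussRed_C (π := π) (1 - (u : A))
    rw [map_sub π, map_one π, hu1, sub_self, map_zero] at h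
    have e : ((1 - (u : A) : A) : K') = 1 - (T.ζ : K') := by rw [← hu]; rfl
    rwa [e] at h
  fin_cases i
  · exact T.hasGaussRed_C_natCast
  · exact hζ
  · exact T.hasGaussRed_C_natCast

/-- A reduction zero means divisibility by the uniformiser of the branch. -/
theorem exists_res_div_ϖ {i : Fin 3} {f : T.F₂} (h : T.Res₂ i f 0) :
    ∃ g, HasGaussRed π (HahnSeries.C (T.ϖ i)⁻¹ * T.e i f) g := by
  rcases eq_or_ne f 0 with rfl | hf
  · exact ⟨0, by rw [map_zero, mul_zero]; exact hasGaussRed_zero⟩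
  obtain ⟨v, g, hg, hv⟩ := T.exists_hasVal hf i
  have hϖ := T.ϖ_ne_zero_cusp i
  rcases le_or_gt v 0 with hle | hlt
  · obtain ⟨m, hm⟩ := Int.eq_ofNat_of_zero_le (show 0 ≤ -v by omega)
    have h1 := ((T.hasGaussRed_ϖ i).pow m).mul h
    rw [mul_zero, ← map_pow, ← zpow_natCast, ← hm] at h1
    exact absurd (hv.unique h1) hg
  · obtain ⟨m, hm⟩ := Int.eq_ofNat_of_zero_le (show 0 ≤ v - 1 by omega)
    refine ⟨_, (?_ : HasGaussRed π _ ((0 : LaurentSeries k) ^ m * g))⟩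
    have h1 := ((T.hasGaussRed_ϖ i).pow m).mul hv
    rwa [← map_pow, ← mul_assoc, ← map_mul, ← zpow_natCast, ← zpow_add₀ hϖ,
      show (m : ℤ) + -v = -1 by omega, zpow_neg_one] at h1

theorem exists_res_div_q {i : Fin 3} (hi : i ≠ 1) {f : T.F₂} (h : T.Res₂ i f 0) :
    ∃ g, HasGaussRed π (HahnSeries.C (q : K')⁻¹ * T.e i f) g := by
  obtain ⟨g, hg⟩ := T.exists_res_div_ϖ h
  have e : T.ϖ i = (q : K') := by
    rcases eq_zero_or_one_or_two i with rfl | rfl | rfl
    · rfl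
    · exact absurd rfl hi
    · rfl
  rw [e] at hg
  exact ⟨g, hg⟩

theorem exists_res_div_one {f : T.F₂} (h : T.Res₂ 1 f 0) :
    ∃ g, HasGaussRed π (HahnSeries.C (1 - (T.ζ : K'))⁻¹ * T.eₘ f) g := by
  obtain ⟨g, hg⟩ := T.exists_res_div_ϖ h
  rw [show T.ϖ 1 = 1 - (T.ζ : K') from rfl, T.e_one] at hg
  exact ⟨g, hg⟩

include T in
/-- `(1 - ζ) ^ (q - 1) / q` is a unit. -/
theorem exists_div_natCast_const : ∃ c : k, c ≠ 0 ∧
    ∀ (x y : LaurentSeries K') (gx gy : LaurentSeries k),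
      HasGaussRed π (HahnSeries.C (1 - (T.ζ : K'))⁻¹ * x) gx →
      HasGaussRed π (HahnSeries.C (1 - (T.ζ : K'))⁻¹ * y) gy →
      HasGaussRed π (HahnSeries.C (q : K')⁻¹ * (x * y ^ (q - 2)))
        (HahnSeries.C c * (gx * gy ^ (q - 2))) := by
  haveI := T.isLocalHom
  have hq2 := (Fact.out : q.Prime).two_le
  obtain ⟨u, hu, hu1⟩ := exists_res_eq_one (π := π) T.ζ_pow
  choose r hr hπr using fun i : ℕ => exists_res_one_sub_zpow (π := π) hu1 ((i + 1 : ℕ) : ℤ)
  set R : A := ∏ i ∈ Finset.range (q - 1), r i with hR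
  have hq : (q : K') = (1 - (T.ζ : K')) ^ (q - 1) * (R : K') := by
    have h1 : q - 1 + 1 = q := by omega
    have h2 := IsPrimitiveRoot.prod_one_sub_pow_eq_order (μ := (T.ζ : K')) (n := q - 1)
      (by rw [h1]; exact IsPrimitiveRoot.coe_units_iff.2 T.primitive)
    have h3 : (q : K') = ((q - 1 : ℕ) : K') + 1 := by exact_mod_cast congrArg (Nat.cast (R := K')) h1.symm
    have e : ∀ i, (1 : K') - (T.ζ : K') ^ (i + 1) = (1 - (T.ζ : K')) * (r i : K') := fun i => by
      have h := congrArg A.subtype (hr i)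
      rw [zpow_natCast, Units.val_pow_eq_pow_val, map_sub, map_one, map_pow, map_mul, map_sub,
        map_one] at h
      rw [← hu]
      exact h
    rw [h3, ← h2, Finset.prod_congr rfl fun i _ => e i, Finset.prod_mul_distrib,
      Finset.prod_const, Finset.card_range, hR]
    congr 1
    exact (map_prod A.subtype _ _).symm
  have hπR : π R ≠ 0 := by
    rw [hR, map_prod]
    refine Finset.prod_ne_zero_iff.2 fun i hi => ?_
    rw [hπr, Int.cast_natCast, Ne, CharP.cast_eq_zero_iff k q]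
    rw [Finset.mem_range] at hi
    exact fun h => absurd (Nat.le_of_dvd (Nat.succ_pos i) h) (by omega)
  obtain ⟨v, hv⟩ := (isUnit_of_map_unit π R (isUnit_iff_ne_zero.2 hπR)).exists_right_inv
  refine ⟨π v, fun h0 => ?_, fun x y gx gy hx hy => ?_⟩
  · simpa [map_mul, h0] using congrArg π hv
  · have h := (hasGaussRed_C (π := π) v).mul (hx.mul (hy.pow (q - 2)))
    have e : (q : K')⁻¹ = (v : K') * ((1 - (T.ζ : K'))⁻¹ * (1 - (T.ζ : K'))⁻¹ ^ (q - 2)) := by
      rw [hq, mul_inv, ← pow_succ', show q - 2 + 1 = q - 1 by omega, inv_pow, mul_comm]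
      congr 1
      exact inv_eq_of_mul_eq_one_right (congrArg Subtype.val hv)
    rw [e, map_mul, map_mul, map_pow]
    convert h using 1
    ring

/-- Division by `q` in the model. -/
theorem exists_div_natCast (b : Bool) {f : T.B₂ b} (h₀ : T.red b f 0 = 0) (h₂ : T.red b f 2 = 0)
    {g : LaurentSeries k} (h₁ : HasGaussRed π (HahnSeries.C (q : K')⁻¹ * T.eₘ (f : T.F₂)) g) :
    ∃ f' : T.B₂ b, (q : T.B₂ b) * f' = f ∧ (T.red b f' 1 : LaurentSeries k) = g := by
  set c : T.F₂ := algebraMap K T.F₂ (q : K)⁻¹ with hc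
  have hne : (q : K) ≠ 0 := Nat.cast_ne_zero.2 (Fact.out : q.Prime).ne_zero
  have hci : ∀ i, T.e i c = HahnSeries.C (q : K')⁻¹ := fun i => by
    fin_cases i
    · show T.e₀ _ = _; rw [hc, T.e₀_algebraMap, map_inv₀ (algebraMap K K'), map_natCast]
    · show T.eₘ _ = _; rw [hc, T.eₘ_algebraMap, map_inv₀ (algebraMap K K'), map_natCast]
    · show T.e₂ _ = _; rw [hc, T.e₂_algebraMap, map_inv₀ (algebraMap K K'), map_natCast]
  have hz : ∀ i, T.red b f i = 0 → T.Res₂ i (f : T.F₂) 0 := fun i hi => by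
    have := T.res₂_red b f i
    rwa [hi] at this
  have hres₁ : T.Res₂ 1 (c * (f : T.F₂)) g := by
    show HasGaussRed π _ _
    rw [map_mul, hci, T.e_one]
    exact h₁
  have hmem : c * (f : T.F₂) ∈ T.B₂ b := by
    refine T.mem_B₂ (mul_mem (algebraMap_mem_chartRing _ _ (Subring.mem_top _))
      (chartRing_mono _ _ le_top f.2)) fun i => ?_
    show ∃ g, HasGaussRed π _ g
    rw [map_mul, hci]
    rcases eq_zero_or_one_or_two i with rfl | rfl | rfl
    · exact T.exists_res_div_q (by decide) (hz 0 h₀)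
    · rw [T.e_one]
      exact ⟨g, h₁⟩
    · exact T.exists_res_div_q (by decide) (hz 2 h₂)
  refine ⟨⟨_, hmem⟩, Subtype.ext ?_, T.red_coe_eq hres₁⟩
  show (((q : T.B₂ b)) : T.F₂) * (c * (f : T.F₂)) = f
  rw [SubringClass.coe_natCast, ← mul_assoc, hc, ← map_natCast (algebraMap K T.F₂), ← map_mul,
    mul_inv_cancel₀ hne, map_one, one_mul]

theorem red_eq_zero_of_eq_zero {b : Bool} {f g : T.B₂ b} {i : Fin 3} (h : T.red b f i = 0) :
    T.red b (f * g) i = 0 := by
  rw [map_mul, Pi.mul_apply, h, zero_mul]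

/-- A point on one branch, at which some function supported on that branch is not zero, and whose
branch is principal, is regular. -/
theorem exists_pair_of_branch {b : Bool} (M : Ideal (T.B₂ b)) [M.IsMaximal] {i : Fin 3}
    {p : T.R b →ₐ[k] k} (hM : RingHom.ker (T.ev b i p) = M) {s : T.B₂ b}
    (hs : ∀ i', i' ≠ i → T.red b s i' = 0) (hs' : s ∉ M) {w : T.B₂ b} (hw : w ≠ 0)
    (hwi : T.red b w i = 0)
    (hdiv : ∀ h : T.B₂ b, (∀ i', T.red b h i' = 0) → ∃ D r : T.B₂ b, D ∉ M ∧ D * h = w * r) :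
    ∃ v : T.B₂ b, IsRegularPair (algebraMap (T.B₂ b) (Localization.AtPrime M) w)
      (algebraMap (T.B₂ b) (Localization.AtPrime M) v) := by
  obtain ⟨t, ht0, hpt, hpar⟩ := T.exists_parameter p
  obtain ⟨V, Dt, hDt, hV⟩ := T.exists_red_mul b i p t
  have hmem : ∀ f, f ∈ M ↔ p (T.red b f i) = 0 := fun f => by
    rw [← hM, RingHom.mem_ker]
    rfl
  have hDt' : Dt ∉ M := fun h => hDt ((hmem Dt).1 h)
  have hinj : Function.Injective (algebraMap (T.B₂ b) (Localization.AtPrime M)) :=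
    IsLocalization.injective (Localization.AtPrime M) M.primeCompl_le_nonZeroDivisors
  refine ⟨V, ⟨le_antisymm ?_ ?_, fun h => hw (hinj (h.trans (map_zero _).symm)), fun n hdvd => ?_⟩⟩
  · rw [← Localization.AtPrime.map_eq_maximalIdeal, Ideal.map_le_iff_le_comap]
    intro f hf
    rw [Ideal.mem_comap]
    obtain ⟨d, r, hd, hdr⟩ := hpar (T.red b f i) ((hmem f).1 hf)
    obtain ⟨Fd, Dd, hDd, hFd⟩ := T.exists_red_mul b i p d
    obtain ⟨Fr, Dr, hDr, hFr⟩ := T.exists_red_mul b i p r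
    set E := Fd * f * Dr * Dt - V * Fr * Dd with hE
    have hEi : T.red b E i = 0 := by
      simp only [hE, map_sub, map_mul, Pi.sub_apply, Pi.mul_apply, hFd, hFr, hV]
      linear_combination (T.red b Dd i * T.red b Dr i * T.red b Dt i) * hdr
    have hall : ∀ i', T.red b (s * E) i' = 0 := fun i' => by
      rw [map_mul, Pi.mul_apply]
      rcases eq_or_ne i' i with rfl | hne
      · rw [hEi, mul_zero]
      · rw [hs i' hne, zero_mul]
    obtain ⟨D₀, r₀, hD₀, he⟩ := hdiv _ hall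
    have hprime : M.IsPrime := Ideal.IsMaximal.isPrime inferInstance
    have hFd' : Fd ∉ M := fun h => by
      rw [hmem, hFd, map_mul] at h
      exact (mul_ne_zero hDd hd) h
    have hD : D₀ * s * Fd * Dr * Dt ∉ M := by
      refine hprime.mul_notMem (hprime.mul_notMem (hprime.mul_notMem (hprime.mul_notMem hD₀ hs')
        hFd') ?_) hDt'
      exact fun h => hDr ((hmem Dr).1 h)
    have key : D₀ * s * Fd * Dr * Dt * f = w * r₀ + V * (D₀ * s * Fr * Dd) := by
      rw [← he, hE]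
      ring
    refine (Ideal.unit_mul_mem_iff_mem _
      (IsLocalization.map_units (Localization.AtPrime M) (⟨D₀ * s * Fd * Dr * Dt, hD⟩ : M.primeCompl))).1 ?_
    show algebraMap (T.B₂ b) (Localization.AtPrime M) (D₀ * s * Fd * Dr * Dt) * algebraMap _ (Localization.AtPrime M) f ∈ _
    rw [← map_mul, key, map_add, map_mul, map_mul]
    exact add_mem (Ideal.mul_mem_right _ _ (Ideal.subset_span (Set.mem_insert _ _)))
      (Ideal.mul_mem_right _ _ (Ideal.subset_span (Set.mem_insert_of_mem _ rfl)))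
  · rw [Ideal.span_le, ← Localization.AtPrime.map_eq_maximalIdeal]
    rintro _ (rfl | rfl)
    · exact Ideal.mem_map_of_mem _ ((hmem w).2 (by rw [hwi, map_zero]))
    · exact Ideal.mem_map_of_mem _ ((hmem V).2 (by rw [hV, map_mul, hpt, mul_zero]))
  · obtain ⟨c, hc⟩ := hdvd
    obtain ⟨⟨r, ⟨D, hD⟩⟩, hrD⟩ := IsLocalization.surj M.primeCompl c
    have e : V ^ n * D = w * r := hinj (by
      simp only [map_mul, map_pow, hc]
      rw [mul_assoc]
      exact congrArg _ hrD)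
    have h := congrFun (congrArg (T.red b) e) i
    simp only [map_mul, map_pow, Pi.mul_apply, Pi.pow_apply, hwi, zero_mul, hV] at h
    have hDi : T.red b D i ≠ 0 := fun h0 => hD ((hmem D).2 (by rw [h0, map_zero]))
    have hDti : T.red b Dt i ≠ 0 := fun h0 => hDt (by rw [ev_apply, h0, map_zero])
    exact mul_ne_zero (pow_ne_zero n (mul_ne_zero hDti ht0)) hDi h

end Values

section Residues

theorem res₀_x₁ : T.Res₀ T.x₁ (jqModC k) := by
  show HasGaussRed π _ _
  rw [T.i₁_x]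
  exact hasGaussRed_jqModC

theorem res₁_x₁ : T.Res₁ T.x₁ (jqModC k ^ q) := by
  show HasGaussRed π _ _
  rw [T.i₁_W_x, ← qExpand_jqModC_eq_pow]
  exact hasGaussRed_qExpand hasGaussRed_jqModC

theorem res₂_x₂_cusp (i : Fin 3) :
    T.Res₂ i T.x₂ (![jqModC k, jqModC k, jqModC k ^ (q ^ 2)] i) := by
  have h1 := T.res₂_α'₀ T.res₀_x₁
  have h2 := T.res₂_α'₁ T.res₁_x₁
  rw [map_pow, qExpand_jqModC_eq_pow, ← pow_mul, ← sq] at h2
  fin_cases i
  exacts [h1.1, h1.2, h2]

theorem res₁_W_x₁ : T.Res₁ (T.W T.x₁) (jqModC k) := by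
  show HasGaussRed π (T.i₁ (T.W (T.W T.x₁))) _
  rw [T.W_W]
  exact T.res₀_x₁

theorem res₂_y₂_cusp (i : Fin 3) : T.Res₂ i T.y₂ (jqModC k ^ q) := by
  have h1 := T.res₂_α'₀ (f := T.W T.x₁) T.res₁_x₁
  have h2 := T.res₂_α'₁ T.res₁_W_x₁
  rw [qExpand_jqModC_eq_pow] at h2
  fin_cases i
  exacts [h1.1, h1.2, h2]

theorem res₂_z₂_cusp (i : Fin 3) :
    T.Res₂ i T.z₂ (![jqModC k ^ (q ^ 2), jqModC k, jqModC k] i) := by
  have h1 := T.res₂_β'₀ (f := T.W T.x₁) T.res₁_x₁
  have h2 := T.res₂_β'₁ T.res₁_W_x₁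
  rw [map_pow, qExpand_jqModC_eq_pow, ← pow_mul, ← sq] at h1
  fin_cases i
  exacts [h1, h2.1, h2.2]

theorem res₂_inv {i : Fin 3} {f : T.F₂} {g : LaurentSeries k} (h : T.Res₂ i f g) (hg : g ≠ 0) :
    T.Res₂ i f⁻¹ g⁻¹ := by
  show HasGaussRed π _ _
  rw [map_inv₀]
  exact h.inv hg

theorem res₂_mul_cusp {i : Fin 3} {f f' : T.F₂} {g g' : LaurentSeries k} (h : T.Res₂ i f g)
    (h' : T.Res₂ i f' g') : T.Res₂ i (f * f') (g * g') := by
  show HasGaussRed π _ _
  rw [map_mul]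
  exact h.mul h'

theorem res₂_pow_cusp {i : Fin 3} {f : T.F₂} {g : LaurentSeries k} (h : T.Res₂ i f g) (n : ℕ) :
    T.Res₂ i (f ^ n) (g ^ n) := by
  show HasGaussRed π _ _
  rw [map_pow]
  exact h.pow n

theorem transcendental_map_j {F : Type} [Field F] [Algebra K F] (φ : T.F₀ →ₐ[K] F) :
    Transcendental K (φ T.j) :=
  fun h => T.transcendental_j ((isAlgebraic_algHom_iff φ φ.toRingHom.injective).1 h)

theorem β'_x₁ : T.β' T.x₁ = T.y₂ := (T.square T.j).symm

end Residues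

section Local

variable (M : Ideal (T.B₂ false)) [M.IsMaximal]

/-- A polynomial with unit constant term in an element of the maximal ideal is not in it. -/
theorem exists_aeval_notMem {v : T.F₂} {D r : T.B₂ false} (hD : D ∉ M) (hr : r ∈ M)
    (hrv : (r : T.F₂) = D * v) {d : K[X]} (hd : IsCuspUnit (baseRing A K) d) :
    ∃ (N : ℕ) (a : T.B₂ false), a ∉ M ∧ (a : T.F₂) = (D : T.F₂) ^ N * aeval v d := by
  have hprime : M.IsPrime := Ideal.IsMaximal.isPrime inferInstance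
  set S := baseRing A K
  have he : aeval v d.divX ∈ chartRing S v := by
    rw [aeval_eq_sum_range]
    refine sum_mem fun i _ => ?_
    rw [Algebra.smul_def, coeff_divX]
    exact mul_mem (algebraMap_mem_chartRing S v (hd.1 _)) (pow_mem (self_mem_chartRing S v) i)
  obtain ⟨N, hN⟩ := exists_pow_mul_mem_of_mul_mem (d := (D : T.F₂)) D.2 (hrv ▸ r.2) he
  set c : T.B₂ false := ⟨algebraMap K T.F₂ (d.coeff 0), algebraMap_mem_chartRing S _ (hd.1 0)⟩
  have hc : c ∉ M := by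
    intro h
    have h1 := M.mul_mem_left
      (⟨algebraMap K T.F₂ (d.coeff 0)⁻¹, algebraMap_mem_chartRing S _ hd.2.1⟩ : T.B₂ false) h
    refine hprime.ne_top ((Ideal.eq_top_iff_one M).2 ?_)
    convert h1 using 1
    exact Subtype.ext (by
      show (1 : T.F₂) = algebraMap K T.F₂ (d.coeff 0)⁻¹ * algebraMap K T.F₂ (d.coeff 0)
      rw [← map_mul, inv_mul_cancel₀ hd.2.2, map_one])
  refine ⟨N + 1, D ^ (N + 1) * c + r * ⟨_, hN⟩, fun h => ?_, ?_⟩
  · rw [M.add_mem_iff_left (M.mul_mem_right _ hr)] at h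
    exact hprime.mul_notMem (fun h' => hD (hprime.mem_of_pow_mem _ h')) hc h
  · show (D : T.F₂) ^ (N + 1) * algebraMap K T.F₂ (d.coeff 0) +
      (r : T.F₂) * ((D : T.F₂) ^ N * aeval v d.divX) = _
    conv_rhs => rw [← Polynomial.X_mul_divX_add d, map_add, map_mul, aeval_X, aeval_C]
    rw [hrv]
    ring

/-- Elements integral at `t = ∞` lie in the local ring at a point where `t⁻¹` vanishes. -/
theorem exists_mul_mem_of_cuspRing {t : T.F₂} (ht : Transcendental K t) {D r : T.B₂ false}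
    (hD : D ∉ M) (hr : r ∈ M) (hrv : (r : T.F₂) = D * t⁻¹) {f : T.F₂}
    (hf : f ∈ cuspRing (baseRing A K) t) :
    ∃ D' : T.B₂ false, D' ∉ M ∧ (D' : T.F₂) * f ∈ T.B₂ false := by
  obtain ⟨d, hd, hdf⟩ := exists_mul_mem_of_mem_cuspRing ht hf
  obtain ⟨N, hN⟩ := exists_pow_mul_mem_of_mul_mem (d := (D : T.F₂)) D.2 (hrv ▸ r.2) hdf
  obtain ⟨N', a, ha, hae⟩ := T.exists_aeval_notMem M hD hr hrv hd
  have hprime : M.IsPrime := Ideal.IsMaximal.isPrime inferInstance
  refine ⟨D ^ N * a, hprime.mul_notMem (fun h => hD (hprime.mem_of_pow_mem _ h)) ha, ?_⟩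
  have e : (((D ^ N * a : T.B₂ false)) : T.F₂) * f =
      (D : T.F₂) ^ N' * ((D : T.F₂) ^ N * (aeval t⁻¹ d * f)) := by
    show (D : T.F₂) ^ N * (a : T.F₂) * f = _
    rw [hae]
    ring
  rw [e]
  exact mul_mem (pow_mem D.2 _) hN

variable (hx : ∀ f : T.B₂ false, (f : T.F₂) = T.x₂⁻¹ → f ∈ M)
include hx

theorem exists_mul_mem_of_cuspRing_x {f : T.F₁} (hf : f ∈ cuspRing (baseRing A K) T.x₁) :
    ∃ D : T.B₂ false, D ∉ M ∧ (D : T.F₂) * T.α' f ∈ T.B₂ false :=
  T.exists_mul_mem_of_cuspRing M (T.transcendental_map_j (T.α'.comp T.α)) (D := 1)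
    ((Ideal.ne_top_iff_one M).1 (Ideal.IsPrime.ne_top inferInstance))
    (hx ⟨T.x₂⁻¹, self_mem_chartRing _ _⟩ rfl) (one_mul _).symm (map_mem_cuspRing T.α' hf)

theorem exists_mul_inv_y₂ :
    ∃ D r : T.B₂ false, D ∉ M ∧ r ∈ M ∧ (r : T.F₂) = D * T.y₂⁻¹ := by
  have hprime : M.IsPrime := Ideal.IsMaximal.isPrime inferInstance
  obtain ⟨D₁, hD₁, h₁⟩ := T.exists_mul_mem_of_cuspRing_x M hx T.cusp_j.1
  obtain ⟨D₂, hD₂, h₂⟩ := T.exists_mul_mem_of_cuspRing_x M hx T.cusp_j.2.2.2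
  rw [map_inv₀] at h₁
  rw [map_div₀, map_pow] at h₂
  refine ⟨D₁, ⟨_, h₁⟩, hD₁, ?_, rfl⟩
  have hmem : (⟨_, h₁⟩ : T.B₂ false) ^ q * D₂ ∈ M := by
    have e : (⟨_, h₁⟩ : T.B₂ false) ^ q * D₂ =
        (⟨T.x₂⁻¹, self_mem_chartRing _ _⟩ : T.B₂ false) * (D₁ ^ q * ⟨_, h₂⟩) := Subtype.ext (by
      show ((D₁ : T.F₂) * T.y₂⁻¹) ^ q * (D₂ : T.F₂) =
        T.x₂⁻¹ * ((D₁ : T.F₂) ^ q * ((D₂ : T.F₂) * (T.x₂ / T.y₂ ^ q)))
      have hx0 : T.x₂ ≠ 0 := fun h => (T.transcendental_map_j (T.α'.comp T.α))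
        (show IsAlgebraic K T.x₂ by rw [h]; exact isAlgebraic_zero)
      simp only [div_eq_mul_inv, mul_pow, inv_pow]
      field_simp)
    rw [e]
    exact M.mul_mem_right _ (hx _ rfl)
  exact hprime.mem_of_pow_mem q ((hprime.mem_or_mem hmem).resolve_right hD₂)

theorem exists_mul_mem_of_cuspRing_y {f : T.F₁} (hf : f ∈ cuspRing (baseRing A K) T.x₁) :
    ∃ D : T.B₂ false, D ∉ M ∧ (D : T.F₂) * T.β' f ∈ T.B₂ false := by
  obtain ⟨D, r, hD, hr, hrv⟩ := T.exists_mul_inv_y₂ M hx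
  rw [← T.β'_x₁] at hrv
  exact T.exists_mul_mem_of_cuspRing M (T.transcendental_map_j (T.β'.comp T.α)) hD hr hrv
    (map_mem_cuspRing T.β' hf)

omit hx in
theorem notMem_one : (1 : T.B₂ false) ∉ M := (Ideal.ne_top_iff_one M).1 (Ideal.IsPrime.ne_top inferInstance)

/-- The coordinate vanishes at the point. -/
theorem ev_coord {i : Fin 3} {p : T.R false →ₐ[k] k} (hi : RingHom.ker (T.ev false i p) = M) :
    p ⟨coord false, T.coord_mem_R false⟩ = 0 := by
  set f₀ : T.B₂ false := ⟨T.x₂⁻¹, self_mem_chartRing _ _⟩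
  set u : T.R false := ⟨coord false, T.coord_mem_R false⟩
  have h0 : p (T.red false f₀ i) = 0 := by
    have := hx f₀ rfl
    rw [← hi] at this
    exact this
  have hj : jqModC k ≠ 0 := jqModC_ne_zero_of_nontrivial k
  have he : T.red false f₀ i = u ^ (![1, 1, q ^ 2] i) := by
    have hne : (![jqModC k, jqModC k, jqModC k ^ (q ^ 2)] i : LaurentSeries k) ≠ 0 := by
      rcases eq_zero_or_one_or_two i with rfl | rfl | rfl <;> simp [hj]
    have hres : T.Res₂ i (f₀ : T.F₂)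
        (![jqModC k, jqModC k, jqModC k ^ (q ^ 2)] i)⁻¹ := T.res₂_inv (T.res₂_x₂_cusp i) hne
    refine Subtype.ext ((T.red_coe_eq hres).trans ?_)
    rcases eq_zero_or_one_or_two i with rfl | rfl | rfl <;> simp [u, coord, inv_pow]
  rw [he, map_pow] at h0
  exact eq_zero_of_pow_eq_zero h0

/-- Separators of the branches at a cusp. -/
theorem exists_cusp_separator (i : Fin 3) :
    ∃ s : T.B₂ false, (∀ i', i' ≠ i → T.red false s i' = 0) ∧
      ∀ p, RingHom.ker (T.ev false i p) = M → s ∉ M := by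
  have hprime : M.IsPrime := Ideal.IsMaximal.isPrime inferInstance
  obtain ⟨D₁, hD₁, h₁⟩ := T.exists_mul_mem_of_cuspRing_x M hx T.cusp_j.2.2.2
  obtain ⟨D₂, hD₂, h₂⟩ := T.exists_mul_mem_of_cuspRing_y M hx T.cusp_j.2.2.1
  rw [map_div₀, map_pow] at h₁ h₂
  rw [show T.β' T.x₁ = T.y₂ from T.β'_x₁] at h₂
  set D := D₁ * D₂ with hDdef
  set PX : T.B₂ false := ⟨_, h₁⟩ * D₂ with hPX
  set PY : T.B₂ false := D₁ * ⟨_, h₂⟩ with hPY
  set j := jqModC k with hjdef
  have hj : j ≠ 0 := jqModC_ne_zero_of_nontrivial k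
  set u : T.R false := ⟨coord false, T.coord_mem_R false⟩
  set a : T.R false := u ^ (q ^ 2 - 1) with ha
  have hq1 : 1 ≤ q ^ 2 := Nat.one_le_pow _ _ (Fact.out : q.Prime).pos
  have haj : (a : LaurentSeries k) = j * ((j ^ q) ^ q)⁻¹ := by
    show (coord false : LaurentSeries k) ^ (q ^ 2 - 1) = _
    have e : (j ^ q) ^ q = j ^ (q ^ 2 - 1) * j := by
      rw [← pow_succ, ← pow_mul, ← sq, Nat.sub_add_cancel hq1]
    rw [e, mul_inv, mul_left_comm, mul_inv_cancel₀ hj, mul_one, ← inv_pow]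
    rfl
  have hval : ∀ (g : T.F₂) (P : T.B₂ false) (i : Fin 3) (gv : T.R false),
      (P : T.F₂) = (D : T.F₂) * g → T.Res₂ i g (gv : LaurentSeries k) →
      T.red false P i = T.red false D i * gv := fun g P i gv hP hg =>
    Subtype.ext (T.red_coe_eq (hP ▸ T.res₂_mul_cusp (T.res₂_red false D i) hg))
  have hyq : ∀ i, T.Res₂ i (T.y₂ ^ q)⁻¹ ((j ^ q) ^ q)⁻¹ := fun i =>
    T.res₂_inv (T.res₂_pow_cusp (T.res₂_y₂_cusp i) q) (pow_ne_zero _ (pow_ne_zero _ hj))
  have hone : j ^ (q ^ 2) * ((j ^ q) ^ q)⁻¹ = 1 := by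
    rw [← pow_mul, ← sq, mul_inv_cancel₀ (pow_ne_zero _ hj)]
  have hX : ∀ i, T.red false PX i = T.red false D i * (![a, a, 1] : Fin 3 → T.R false) i := by
    intro i
    refine hval (T.x₂ / T.y₂ ^ q) PX i _ ?_ ?_
    · show (D₁ : T.F₂) * _ * (D₂ : T.F₂) = (D₁ : T.F₂) * (D₂ : T.F₂) * _
      ring
    · rw [div_eq_mul_inv]
      have := T.res₂_mul_cusp (T.res₂_x₂_cusp i) (hyq i)
      rcases eq_zero_or_one_or_two i with rfl | rfl | rfl
      · simpa [haj] using this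
      · simpa [haj] using this
      · simpa [← hjdef, hone] using this
  have hY : ∀ i, T.red false PY i = T.red false D i * (![1, a, a] : Fin 3 → T.R false) i := by
    intro i
    refine hval (T.z₂ / T.y₂ ^ q) PY i _ ?_ ?_
    · show (D₁ : T.F₂) * ((D₂ : T.F₂) * _) = (D₁ : T.F₂) * (D₂ : T.F₂) * _
      ring
    · rw [div_eq_mul_inv]
      have := T.res₂_mul_cusp (T.res₂_z₂_cusp i) (hyq i)
      rcases eq_zero_or_one_or_two i with rfl | rfl | rfl
      · simpa [← hjdef, hone] using this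
      · simpa [haj] using this
      · simpa [haj] using this
  have hpD : ∀ i p, RingHom.ker (T.ev false i p) = M → p (T.red false D i) ≠ 0 ∧ p a = 0 := by
    intro i p hp
    refine ⟨fun h => hprime.mul_notMem hD₁ hD₂ ((SetLike.ext_iff.1 hp D).1 h), ?_⟩
    rw [ha, map_pow, T.ev_coord M hx hp, zero_pow]
    have : 2 ≤ q ^ 2 := le_trans (Fact.out : q.Prime).two_le (Nat.le_self_pow two_ne_zero q)
    omega
  have hout : ∀ (s : T.B₂ false) (i : Fin 3),
      (∀ p, RingHom.ker (T.ev false i p) = M → p (T.red false s i) ≠ 0) →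
      ∀ p, RingHom.ker (T.ev false i p) = M → s ∉ M := fun s i h p hp hs =>
    h p hp ((SetLike.ext_iff.1 hp s).2 hs)
  fin_cases i
  · refine ⟨(PY - PX) * (D - PX), fun i' hne => ?_, hout _ _ fun p hp => ?_⟩
    · fin_cases i'
      · exact absurd rfl hne
      · simp [hX, hY]
      · simp [hX, hY]
    · obtain ⟨h1, h2⟩ := hpD _ p hp
      simp_all [map_sub, map_mul]
  · refine ⟨(D - PX) * (D - PY), fun i' hne => ?_, hout _ _ fun p hp => ?_⟩
    · fin_cases i'
      · simp [hX, hY]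
      · exact absurd rfl hne
      · simp [hX, hY]
    · obtain ⟨h1, h2⟩ := hpD _ p hp
      simp_all [map_sub, map_mul]
  · refine ⟨(PX - PY) * (D - PY), fun i' hne => ?_, hout _ _ fun p hp => ?_⟩
    · fin_cases i'
      · simp [hX, hY]
      · simp [hX, hY]
      · exact absurd rfl hne
    · obtain ⟨h1, h2⟩ := hpD _ p hp
      simp_all [map_sub, map_mul]

/-- `x / z` lies in the local ring of a cusp of the middle branch. -/
theorem exists_mul_x_div_z {p : T.R false →ₐ[k] k} (hi : RingHom.ker (T.ev false 1 p) = M) :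
    ∃ D r : T.B₂ false, D ∉ M ∧ (r : T.F₂) = D * (T.x₂ / T.z₂) := by
  have hprime : M.IsPrime := Ideal.IsMaximal.isPrime inferInstance
  have hq2 := (Fact.out : q.Prime).two_le
  obtain ⟨D₁, hD₁, h₁⟩ := T.exists_mul_mem_of_cuspRing_x M hx T.cusp_j.2.2.1
  obtain ⟨D₂, hD₂, h₂⟩ := T.exists_mul_mem_of_cuspRing_y M hx T.cusp_j.2.2.2
  rw [map_div₀, map_pow] at h₁ h₂
  rw [show T.β' T.x₁ = T.y₂ from T.β'_x₁] at h₂
  have hne : ∀ φ : T.F₀ →ₐ[K] T.F₂, φ T.j ≠ 0 := fun φ h =>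
    T.transcendental_map_j φ (h ▸ isAlgebraic_zero)
  have hx0 : T.x₂ ≠ 0 := hne (T.α'.comp T.α)
  have hy0 : T.y₂ ≠ 0 := T.β'_x₁ ▸ hne (T.β'.comp T.α)
  have hz0 : T.z₂ ≠ 0 := hne ((T.β'.comp T.W).comp T.α)
  set e : T.F₂ := T.y₂ / (T.x₂ ^ (q - 1) * T.z₂) with he
  set D := D₁ * D₂
  -- `e ^ q = (y / x ^ q) ^ (q - 1) (y / z ^ q)`
  have hde : (D : T.F₂) * e ∈ T.B₂ false := by
    refine mem_chartRing_of_pow _ _ (Fact.out : q.Prime).ne_zero ?_
    have e1 : e ^ q = (T.y₂ / T.x₂ ^ q) ^ (q - 1) * (T.y₂ / T.z₂ ^ q) := by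
      rw [he, div_pow, div_pow, div_mul_div_comm, mul_pow, ← pow_mul, ← pow_mul, mul_comm q (q - 1),
        ← pow_succ, Nat.sub_add_cancel (by omega : 1 ≤ q)]
    have e2 : (D : T.F₂) ^ q * e ^ q = (((D₁ : T.F₂) * (T.y₂ / T.x₂ ^ q)) ^ (q - 1) *
        (D₁ : T.F₂)) * (((D₂ : T.F₂) * (T.y₂ / T.z₂ ^ q)) * (D₂ : T.F₂) ^ (q - 1)) := by
      have hpow : ∀ a : T.F₂, a ^ q = a ^ (q - 1) * a := fun a => by
        rw [← pow_succ, Nat.sub_add_cancel (by omega : 1 ≤ q)]
      show ((D₁ : T.F₂) * (D₂ : T.F₂)) ^ q * _ = _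
      rw [e1, mul_pow, mul_pow, hpow (D₁ : T.F₂), hpow (D₂ : T.F₂)]
      ring
    rw [mul_pow, e2]
    exact mul_mem (mul_mem (pow_mem h₁ _) D₁.2) (mul_mem h₂ (pow_mem D₂.2 _))
  -- `y / x ^ q` is a unit on the middle branch
  set r₁ : T.B₂ false := ⟨_, h₁⟩
  have hr₁ : r₁ ∉ M := by
    intro h
    have e1 : T.red false r₁ 1 = T.red false D₁ 1 := Subtype.ext (T.red_coe_eq (f := r₁) (by
      have hj : jqModC k ≠ 0 := jqModC_ne_zero_of_nontrivial k
      have := T.res₂_mul_cusp (T.res₂_red false D₁ 1)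
        (T.res₂_mul_cusp (T.res₂_y₂_cusp 1) (T.res₂_inv (T.res₂_pow_cusp (T.res₂_x₂_cusp 1) q) (by simp [hj])))
      rw [← div_eq_mul_inv] at this
      simpa [hj] using this))
    rw [← hi, RingHom.mem_ker, ev_apply, e1] at h
    exact hD₁ (hi ▸ h : D₁ ∈ M)
  refine ⟨D * r₁, ⟨_, hde⟩ * D₁, hprime.mul_notMem (hprime.mul_notMem hD₁ hD₂) hr₁, ?_⟩
  show (D : T.F₂) * e * (D₁ : T.F₂) =
    (D : T.F₂) * ((D₁ : T.F₂) * (T.y₂ / T.x₂ ^ q)) * (T.x₂ / T.z₂)
  rw [he, ← pow_sub_one_mul (Fact.out : q.Prime).ne_zero T.x₂]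
  field_simp

end Local

/-- `θj / j` to the sixth power. -/
theorem qDeriv_div_pow_six (k : Type) [Field k] :
    (-(Reduction.qDeriv (jqModC k) / jqModC k)) ^ 6 =
      (1 - HahnSeries.C (1728 : k) * (jqModC k)⁻¹) ^ 3 * (jqModC k * Igusa.deltaSeries k) := by
  have hj : jqModC k ≠ 0 := jqModC_ne_zero_of_nontrivial k
  rw [Even.neg_pow (by decide), div_pow, Reduction.qDeriv_jqModC_pow_six]
  field_simp

theorem res₀_cusp_h :
    T.Res₀ (T.h * T.W T.x₁ / T.x₁) ((jqModC k * Igusa.deltaSeries k) ^ (q - 1)) := by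
  have hj : jqModC k ≠ 0 := jqModC_ne_zero_of_nontrivial k
  have hΔ : Igusa.deltaSeries k ≠ 0 := (Igusa.hasLead_deltaSeries (R := k)).ne_zero one_ne_zero
  have hfrob : qExpand k q (Igusa.deltaSeries k) = Igusa.deltaSeries k ^ q := by
    conv_rhs => rw [← qExpand_frobTwist (q := q) (Igusa.deltaSeries k)]
    rw [frobTwist, Igusa.coeffMap_deltaSeries]
  have e : (jqModC k * Igusa.deltaSeries k) ^ (q - 1) =
      (Igusa.deltaSeries k / qExpand k q (Igusa.deltaSeries k))⁻¹ * jqModC k ^ q * (jqModC k)⁻¹ := by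
    rw [hfrob, inv_div]
    obtain ⟨m, hm⟩ := Nat.exists_eq_add_of_le (Fact.out : q.Prime).one_lt.le
    rw [hm, Nat.add_sub_cancel_left, pow_add, pow_add, pow_one, pow_one, mul_pow]
    field_simp
  show HasGaussRed π _ _
  rw [map_div₀, map_mul, div_eq_mul_inv, e]
  exact (T.hasGaussRed_i₁_h.mul T.res₁_x₁).mul (T.res₀_x₁.inv hj)

theorem cusp_h_mul : T.h * T.W T.x₁ / T.x₁ *
    (algebraMap K T.F₁ ((q : K) ^ 12) * T.W (T.h * T.W T.x₁ / T.x₁)) = 1 := by
  apply T.i₁.injective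
  have hj : jqModC K' ≠ 0 := jqModC_ne_zero_of_nontrivial K'
  have hqj : qExpand K' q (jqModC K') ≠ 0 := (map_ne_zero_iff _ (qExpand_injective q)).2 hj
  have hC : (HahnSeries.C ((q : K') ^ 12) : LaurentSeries K') * HahnSeries.C ((q : K') ^ 12)⁻¹ = 1 := by
    rw [← map_mul, mul_inv_cancel₀ (pow_ne_zero _ T.natCast_ne_zero'), map_one]
  simp only [map_mul, map_div₀, map_one, T.W_W, map_pow, map_natCast, T.i₁_W_x,
    T.i₁_x]
  rw [← map_natCast (HahnSeries.C (Γ := ℤ) (R := K')), ← map_pow]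
  field_simp
  rw [← hC, ← T.i₁_W_h]
  ring

/-- `h j(qτ) / j(τ)` is a unit at the cusps of the middle branch. -/
theorem exists_cusp_h_notMem (M : Ideal (T.B₂ false)) [M.IsMaximal]
    (hx : ∀ f : T.B₂ false, (f : T.F₂) = T.x₂⁻¹ → f ∈ M) {s : T.B₂ false}
    (hs : T.red false s 2 = 0) (hs' : s ∉ M) :
    ∃ a : T.B₂ false, a ∉ M ∧ (T.red false a 1 : LaurentSeries k) =
      (T.red false s 1 : LaurentSeries k) ^ 12 *
        (jqModC k * Igusa.deltaSeries k) ^ (q - 1) := by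
  have hprime : M.IsPrime := Ideal.IsMaximal.isPrime inferInstance
  set g := T.h * T.W T.x₁ / T.x₁ with hg
  set ρ := (jqModC k * Igusa.deltaSeries k) ^ (q - 1) with hρ
  have hρ0 : ρ ≠ 0 := pow_ne_zero _ (mul_ne_zero (jqModC_ne_zero_of_nontrivial k)
    ((Igusa.hasLead_deltaSeries (R := k)).ne_zero one_ne_zero))
  set c : T.F₁ := algebraMap K T.F₁ ((q : K) ^ 12) with hc
  have hci : T.i₁ c = HahnSeries.C (q : K') ^ 12 := by
    rw [hc, T.i₁_algebraMap, map_pow (algebraMap K K'), map_natCast, map_pow]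
  have hg0 : g ≠ 0 := left_ne_zero_of_mul_eq_one T.cusp_h_mul
  have hcW : c * T.W g = g⁻¹ := (inv_eq_of_mul_eq_one_right T.cusp_h_mul).symm
  have hres2 : ∃ G, HasGaussRed π (HahnSeries.C ((q : K') ^ 12) * T.i₁ (T.W g)) G := by
    obtain ⟨G, hG⟩ := T.res₁_h
    have e : T.i₁ (T.W g) = T.i₁ (T.W T.h) * T.i₁ T.x₁ * (T.i₁ (T.W T.x₁))⁻¹ := by
      rw [hg, map_div₀ T.W, map_mul T.W, T.W_W, map_div₀ T.i₁, map_mul T.i₁, div_eq_mul_inv]
    have h3 : HasGaussRed π (T.i₁ T.x₁) (jqModC k) := T.res₀_x₁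
    have h4 : HasGaussRed π (T.i₁ (T.W T.x₁))⁻¹ (jqModC k ^ q)⁻¹ :=
      HasGaussRed.inv T.res₁_x₁ (pow_ne_zero _ (jqModC_ne_zero_of_nontrivial k))
    refine ⟨G * jqModC k * (jqModC k ^ q)⁻¹, ?_⟩
    rw [e, ← mul_assoc, ← mul_assoc]
    exact (hG.mul h3).mul h4
  obtain ⟨G, hG⟩ := hres2
  obtain ⟨gs, hgs⟩ := T.exists_res_div_q (i := 2) (by decide) (f := (s : T.F₂)) (by
    have := T.res₂_red false s 2
    rwa [hs] at this)
  rw [T.e_two] at hgs
  have hA₁ : (s : T.F₂) ^ 12 * T.α' g ∈ T.B₂ false := by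
    refine T.mem_B₂ (mul_mem (pow_mem (chartRing_mono _ _ le_top s.2) _) ?_) fun i => ?_
    · have := map_mem_chartRing T.α' T.cusp_h
      rwa [map_inv₀] at this
    · rcases eq_zero_or_one_or_two i with rfl | rfl | rfl
      · exact ⟨_, T.res₂_mul_cusp (T.res₂_pow_cusp (T.res₂_red false s 0) 12) (T.res₂_α'₀ T.res₀_cusp_h).1⟩
      · exact ⟨_, T.res₂_mul_cusp (T.res₂_pow_cusp (T.res₂_red false s 1) 12) (T.res₂_α'₀ T.res₀_cusp_h).2⟩
      · refine ⟨gs ^ 12 * qExpand k q G, ?_⟩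
        show HasGaussRed π (T.e 2 _) _
        rw [T.e_two, map_mul, map_pow, T.e₂_α']
        have h := (hgs.pow 12).mul (hasGaussRed_qExpand (q := q) hG)
        show HasGaussRed π _ _
        convert h using 1
        rw [map_mul (qExpand K' q), qExpand_C, mul_pow, ← map_pow HahnSeries.C]
        rw [mul_mul_mul_comm, ← map_mul, inv_pow, inv_mul_cancel₀ (pow_ne_zero _ T.natCast_ne_zero'),
          map_one, one_mul]
  obtain ⟨d, hd, hdW⟩ := exists_mul_mem_of_mem_cuspRing (T.transcendental_map_j T.α) T.cusp_j.1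
  obtain ⟨dd, hdd⟩ : ∃ dd : T.F₁, dd = aeval T.x₁⁻¹ d := ⟨_, rfl⟩
  have hddS : dd ∈ chartRing (baseRing A K) T.x₁⁻¹ := hdd ▸ hd.aeval_mem _
  rw [← hdd] at hdW
  have hWg : T.W g ∈ chartRing (⊤ : Subring K) (T.W T.x₁)⁻¹ := by
    have := map_mem_chartRing T.W T.cusp_h
    rwa [map_inv₀] at this
  obtain ⟨N, hN⟩ := exists_pow_mul_mem_of_mul_mem (chartRing_mono _ _ le_top hddS)
    (chartRing_mono _ _ le_top hdW) hWg
  set D₂ : T.B₂ false := ⟨T.α' dd, by
    have := map_mem_chartRing T.α' hddS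
    rwa [map_inv₀] at this⟩
  have hA₂ : T.α' (c * (dd ^ N * T.W g)) ∈ T.B₂ false := by
    have hmem := map_mem_chartRing T.α' (mul_mem
      (algebraMap_mem_chartRing (⊤ : Subring K) T.x₁⁻¹ (Subring.mem_top ((q : K) ^ 12))) hN)
    rw [map_inv₀] at hmem
    refine T.mem_B₂ hmem fun i => ?_
    rw [show T.α' (c * (dd ^ N * T.W g)) = (D₂ : T.F₂) ^ N * T.α' (c * T.W g) by
      show _ = T.α' dd ^ N * _
      rw [← map_pow, ← map_mul]
      congr 1
      ring]
    have h01 : T.Res₀ (c * T.W g) ρ⁻¹ := by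
      show HasGaussRed π _ _
      rw [hcW, map_inv₀]
      exact T.res₀_cusp_h.inv hρ0
    rcases eq_zero_or_one_or_two i with rfl | rfl | rfl
    · exact ⟨_, T.res₂_mul_cusp (T.res₂_pow_cusp (T.res₂_red false D₂ 0) N) (T.res₂_α'₀ h01).1⟩
    · exact ⟨_, T.res₂_mul_cusp (T.res₂_pow_cusp (T.res₂_red false D₂ 1) N) (T.res₂_α'₀ h01).2⟩
    · have h1 : T.Res₁ (c * T.W g) ((0 : LaurentSeries k) ^ 12 * ρ) := by
        show HasGaussRed π _ _
        rw [map_mul, T.W_W, map_mul, hc, AlgHom.commutes, ← hc, hci]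
        exact (T.hasGaussRed_C_natCast.pow 12).mul T.res₀_cusp_h
      exact ⟨_, T.res₂_mul_cusp (T.res₂_pow_cusp (T.res₂_red false D₂ 2) N) (T.res₂_α'₁ h1)⟩
  refine ⟨⟨_, hA₁⟩, fun h => ?_, T.red_coe_eq
    (T.res₂_mul_cusp (T.res₂_pow_cusp (T.res₂_red false s 1) 12) (T.res₂_α'₀ T.res₀_cusp_h).2)⟩
  have hD₂ : D₂ ∉ M := by
    obtain ⟨N', a, ha, hae⟩ := T.exists_aeval_notMem M (v := T.x₂⁻¹) (D := 1)
      (T.notMem_one M) (hx ⟨_, self_mem_chartRing _ _⟩ rfl) (one_mul _).symm hd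
    intro h
    refine ha ?_
    convert h using 1
    refine Subtype.ext (hae.trans ?_)
    show (1 : T.F₂) ^ N' * _ = T.α' dd
    rw [one_pow, one_mul, hdd, ← aeval_algHom_apply, map_inv₀]
  have hmem : s ^ 12 * D₂ ^ N ∈ M := by
    have e : (⟨_, hA₁⟩ : T.B₂ false) * ⟨_, hA₂⟩ = s ^ 12 * D₂ ^ N := Subtype.ext (by
      show (s : T.F₂) ^ 12 * T.α' g * T.α' (c * (dd ^ N * T.W g)) = (s : T.F₂) ^ 12 * T.α' dd ^ N
      rw [mul_assoc, ← map_mul, ← map_pow, show g * (c * (dd ^ N * T.W g)) =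
        dd ^ N * (g * (c * T.W g)) by ring, T.cusp_h_mul, mul_one])
    exact e ▸ M.mul_mem_right _ h
  exact hprime.mul_notMem (fun h' => hs' (hprime.mem_of_pow_mem _ h'))
    (fun h' => hD₂ (hprime.mem_of_pow_mem _ h')) hmem

/-- The branches do not meet at the cusps. -/
theorem cusp_unique (M : Ideal (T.B₂ false)) [M.IsMaximal]
    (hx : ∀ f : T.B₂ false, (f : T.F₂) = T.x₂⁻¹ → f ∈ M) {i i' : Fin 3}
    {p p' : T.R false →ₐ[k] k} (hi : RingHom.ker (T.ev false i p) = M)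
    (hi' : RingHom.ker (T.ev false i' p') = M) : i = i' := by
  by_contra hne
  obtain ⟨s, hs, hs'⟩ := T.exists_cusp_separator M hx i
  refine hs' p hi ?_
  rw [← hi', RingHom.mem_ker, ev_apply, hs i' (Ne.symm hne), map_zero]

/-- The cusps are regular points. -/
theorem exists_pair_cusp (M : Ideal (T.B₂ false)) [M.IsMaximal] (hq : (q : T.B₂ false) ∈ M)
    (hx : ∀ f : T.B₂ false, (f : T.F₂) = T.x₂⁻¹ → f ∈ M) :
    ∃ u v : T.B₂ false, IsRegularPair (algebraMap (T.B₂ false) (Localization.AtPrime M) u)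
      (algebraMap (T.B₂ false) (Localization.AtPrime M) v) := by
  haveI := T.isLocalHom
  have hprime : M.IsPrime := Ideal.IsMaximal.isPrime inferInstance
  obtain ⟨i, p, hi⟩ := T.exists_ker_ev_eq false M hq
  obtain ⟨s, hs, hs'⟩ := T.exists_cusp_separator M hx i
  have hsM := hs' p hi
  obtain ⟨c, hc0, hc⟩ := T.exists_div_natCast_const
  have hdiv : ∀ (f : T.B₂ false), T.red false f 1 = 0 →
      ∃ g, HasGaussRed π (HahnSeries.C (1 - (T.ζ : K'))⁻¹ * T.eₘ (f : T.F₂)) g := fun f hf => by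
    have := T.res₂_red false f 1
    rw [hf] at this
    exact T.exists_res_div_one this
  rcases eq_or_ne i 1 with rfl | hi1
  swap
  · refine ⟨q, T.exists_pair_of_branch M hi hs hsM ?_ (by rw [T.red_natCast]; rfl) fun h hh => ?_⟩
    · intro h0
      have h1 := congrArg Subtype.val h0
      rw [SubringClass.coe_natCast] at h1
      have : CharZero T.F₂ := charZero_of_injective_algebraMap (algebraMap K T.F₂).injective
      exact Nat.cast_ne_zero.2 (Fact.out : q.Prime).ne_zero h1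
    · obtain ⟨gh, hgh⟩ := hdiv h (hh 1)
      obtain ⟨gs, hgs⟩ := hdiv s (hs 1 (Ne.symm hi1))
      obtain ⟨f', hf', -⟩ := T.exists_div_natCast false (f := h * s ^ (q - 2))
        (T.red_eq_zero_of_eq_zero (hh 0)) (T.red_eq_zero_of_eq_zero (hh 2))
        (g := HahnSeries.C c * (gh * gs ^ (q - 2))) (by
          show HasGaussRed π (_ * T.eₘ ((h : T.F₂) * (s : T.F₂) ^ (q - 2))) _
          rw [map_mul, map_pow]
          exact hc _ _ _ _ hgh hgs)
      exact ⟨s ^ (q - 2), f', fun h' => hsM (hprime.mem_of_pow_mem _ h'), by rw [hf', mul_comm]⟩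
  · obtain ⟨D, r, hD, hr⟩ := T.exists_mul_x_div_z M hx hi
    set w : T.B₂ false := D - r with hw
    set j := jqModC k with hjdef
    have hj : j ≠ 0 := jqModC_ne_zero_of_nontrivial k
    set gd : LaurentSeries k := (T.red false D 1 : LaurentSeries k) with hgd
    set η : LaurentSeries k := -(Reduction.qDeriv j / j) with hη
    have hwres : HasGaussRed π (HahnSeries.C (1 - (T.ζ : K'))⁻¹ * T.eₘ (w : T.F₂)) (gd * η) := by
      have hJ : Igusa.twist T.ζ (jqModC K') ≠ 0 := by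
        intro h
        have h1 := congrArg (Igusa.twist T.ζ⁻¹) h
        rw [← twist_mul, inv_mul_cancel, Igusa.twist_one, map_zero] at h1
        exact jqModC_ne_zero_of_nontrivial K' h1
      have hez : T.eₘ T.z₂ = Igusa.twist T.ζ (jqModC K') := by
        rw [T.eₘ_β', T.W_W, T.i₁_x]
      have hex : T.eₘ T.x₂ = (jqModC K') := by rw [T.eₘ_α', T.i₁_x]
      have h1 := ((T.res₂_red false D 1).mul
        ((hasGaussRed_sub_twist_div T.ζ_pow
          (T.primitive.ne_one (Fact.out : q.Prime).one_lt) (hasGaussRed_jqModC (π := π))).mul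
          ((hasGaussRed_twist T.ζ_pow hasGaussRed_jqModC).inv hj))).neg
      convert h1 using 1
      · show HahnSeries.C _ * T.eₘ ((D : T.F₂) - (r : T.F₂)) = -(T.eₘ (D : T.F₂) * _)
        rw [hr, map_sub, map_mul, map_div₀, hex, hez]
        field_simp
        ring
      · rw [hη, hgd, hjdef]
        field_simp
    have hw1 : T.red false w 1 = 0 := by
      refine Subtype.ext (T.red_coe_eq ?_)
      have h := (T.hasGaussRed_ϖ 1).mul hwres
      show HasGaussRed π (T.e 1 (w : T.F₂)) 0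
      rw [T.e_one]
      rw [zero_mul, ← mul_assoc, ← map_mul] at h
      rwa [show T.ϖ 1 = 1 - (T.ζ : K') from rfl, mul_inv_cancel₀ T.one_sub_ζ_ne_zero_cusp, map_one,
        one_mul] at h
    set gs : LaurentSeries k := (T.red false s 1 : LaurentSeries k) with hgs
    have hqm : q - 2 + 1 = q - 1 := by have := (Fact.out : q.Prime).two_le; omega
    obtain ⟨G, hG, hGred⟩ := T.exists_div_natCast false (f := s * (w * w ^ (q - 2)))
      (T.red_eq_zero_of_eq_zero (hs 0 (by decide))) (T.red_eq_zero_of_eq_zero (hs 2 (by decide)))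
      (g := gs * (HahnSeries.C c * ((gd * η) * (gd * η) ^ (q - 2)))) (by
        show HasGaussRed π (_ * T.eₘ ((s : T.F₂) * ((w : T.F₂) * (w : T.F₂) ^ (q - 2)))) _
        rw [map_mul, map_mul, map_pow, mul_left_comm]
        exact (T.res₂_red false s 1).mul (hc _ _ _ _ hwres hwres))
    have hGM : G ∉ M := by
      obtain ⟨a, ha, hared⟩ := T.exists_cusp_h_notMem M hx (hs 2 (by decide)) hsM
      set u : T.R false := ⟨coord false, T.coord_mem_R false⟩ with hu
      have e : T.red false G 1 ^ 6 * T.red false s 1 ^ 12 =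
          algebraMap k (T.R false) c ^ 6 * T.red false s 1 ^ 6 * T.red false D 1 ^ (6 * (q - 1)) *
            (1 - algebraMap k (T.R false) 1728 * u) ^ (3 * (q - 1)) * T.red false a 1 := by
        refine Subtype.ext ?_
        show (T.red false G 1 : LaurentSeries k) ^ 6 * gs ^ 12 =
          HahnSeries.C c ^ 6 * gs ^ 6 * gd ^ (6 * (q - 1)) *
            (1 - HahnSeries.C (1728 : k) * j⁻¹) ^ (3 * (q - 1)) * (T.red false a 1 : LaurentSeries k)
        have h6 := qDeriv_div_pow_six k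
        rw [hGred, hared, ← pow_succ', hqm, pow_mul gd, pow_mul _ 3]
        calc (gs * (HahnSeries.C c * (gd * η) ^ (q - 1))) ^ 6 * gs ^ 12
            = HahnSeries.C c ^ 6 * gs ^ 6 * (gd ^ 6) ^ (q - 1) * (η ^ 6) ^ (q - 1) * gs ^ 12 := by
              rw [mul_pow, mul_pow, ← pow_mul, mul_comm (q - 1) 6, pow_mul, mul_pow, mul_pow]
              ring
          _ = _ := by
              rw [hη, h6, mul_pow]
              ring
      intro hG'
      have hker : ∀ f, f ∈ M → p (T.red false f 1) = 0 := fun f hf => (SetLike.ext_iff.1 hi f).2 hf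
      have hne : ∀ f, f ∉ M → p (T.red false f 1) ≠ 0 := fun f hf h => hf ((SetLike.ext_iff.1 hi f).1 h)
      have h := congrArg p e
      simp only [map_mul, map_pow, hker G hG', map_sub, map_one, T.ev_coord M hx hi, hu, mul_zero,
        sub_zero, one_pow, mul_one, zero_mul, AlgHom.commutes, Algebra.algebraMap_self,
        RingHom.id_apply, ne_eq, OfNat.ofNat_ne_zero, not_false_eq_true, zero_pow] at h
      exact mul_ne_zero (mul_ne_zero (mul_ne_zero (pow_ne_zero _ hc0) (pow_ne_zero _ (hne s hsM)))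
        (pow_ne_zero _ (hne D hD))) (hne a ha) h.symm
    have hq2 : (q : T.B₂ false) ≠ 0 := by
      intro h0
      have h1 := congrArg Subtype.val h0
      rw [SubringClass.coe_natCast] at h1
      have : CharZero T.F₂ := charZero_of_injective_algebraMap (algebraMap K T.F₂).injective
      exact Nat.cast_ne_zero.2 (Fact.out : q.Prime).ne_zero h1
    refine ⟨w, T.exists_pair_of_branch M hi hs hsM (fun h0 => ?_) hw1 fun h hh => ?_⟩
    · refine hGM ?_
      rw [h0, zero_mul, mul_zero, mul_eq_zero] at hG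
      rw [hG.resolve_left hq2]
      exact zero_mem M
    · obtain ⟨gh, hgh⟩ := hdiv h (hh 1)
      obtain ⟨H, hH, -⟩ := T.exists_div_natCast false (f := h * w ^ (q - 2))
        (T.red_eq_zero_of_eq_zero (hh 0)) (T.red_eq_zero_of_eq_zero (hh 2))
        (g := HahnSeries.C c * (gh * (gd * η) ^ (q - 2))) (by
          show HasGaussRed π (_ * T.eₘ ((h : T.F₂) * (w : T.F₂) ^ (q - 2))) _
          rw [map_mul, map_pow]
          exact hc _ _ _ _ hgh hwres)
      refine ⟨G, s * H, hGM, mul_left_cancel₀ hq2 ?_⟩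
      linear_combination h * hG - w * s * hH

end SqTower

end Fermat.Agent.BadPrime.Sq
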