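import Fermat.Agent.BadPrime.Sq.LevelTwo
import Fermat.Agent.BadPrime.Sq.Norms
import Fermat.Agent.BadPrime.RegularTwo
import Mathlib.RingTheory.Localization.AtPrime.Basic
import Mathlib.RingTheory.Localization.Submodule
import Mathlib.RingTheory.IntegralClosure.IntegrallyClosed

/-!
# Roots near a regular point

The local ring at a regular point is factorial, so a root exists as soon as `n` divides the order
of the function along every prime element `π`.  A prime not dividing `q` is centred at a point of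
the generic fibre, one dividing `q` at a branch of the special fibre.
-/

set_option autoImplicit false
set_option linter.unusedSectionVars false

noncomputable section

open ModularCurve Polynomial

namespace Fermat.Agent.BadPrime.Sq

section PrimeOrder

variable {R F : Type*} [CommRing R] [IsDomain R] [WfDvdMonoid R] [Field F] (φ : R →+* F)

/-- `x` is `π ^ m` up to fractions prime to `π`. -/
def HasPiOrd (π : R) (x : F) (m : ℤ) : Prop :=
  ∃ a s : R, ¬ π ∣ a ∧ ¬ π ∣ s ∧ x = φ π ^ m * (φ a / φ s)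

variable {φ} {π : R}

theorem exists_hasPiOrd (hφ : Function.Injective φ) (hsurj : ∀ x : F, ∃ a d, d ≠ 0 ∧ x = φ a / φ d)
    (hπ : Prime π) {x : F} (hx : x ≠ 0) : ∃ m, HasPiOrd φ π x m := by
  obtain ⟨a, d, hd, rfl⟩ := hsurj x
  have ha : a ≠ 0 := fun h => hx (by rw [h, map_zero, zero_div])
  obtain ⟨k, a', ha', rfl⟩ := WfDvdMonoid.max_power_factor ha hπ.irreducible
  obtain ⟨l, d', hd', rfl⟩ := WfDvdMonoid.max_power_factor hd hπ.irreducible
  refine ⟨(k : ℤ) - l, a', d', ha', hd', ?_⟩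
  have h0 : φ π ≠ 0 := (map_ne_zero_iff φ hφ).2 hπ.ne_zero
  rw [map_mul, map_mul, map_pow, map_pow, zpow_sub₀ h0, zpow_natCast, zpow_natCast]
  ring

theorem HasPiOrd.nonneg_of_eq_div (hφ : Function.Injective φ) (hπ : Prime π) {x : F} {m : ℤ}
    (h : HasPiOrd φ π x m) {a s : R} (hs : ¬ π ∣ s) (hx : x = φ a / φ s) : 0 ≤ m := by
  obtain ⟨b, t, hb, ht, hxb⟩ := h
  by_contra hm
  obtain ⟨l, hl⟩ := Int.eq_ofNat_of_zero_le (show 0 ≤ -m - 1 by omega)
  have hm' : m = -((l : ℤ) + 1) := by omega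
  have h0 : φ π ≠ 0 := (map_ne_zero_iff φ hφ).2 hπ.ne_zero
  have hs0 : φ s ≠ 0 := (map_ne_zero_iff φ hφ).2 fun h => hs (h ▸ dvd_zero π)
  have ht0 : φ t ≠ 0 := (map_ne_zero_iff φ hφ).2 fun h => ht (h ▸ dvd_zero π)
  have e : π ^ (l + 1) * (a * t) = b * s := hφ (by
    rw [hx, hm', zpow_neg, show ((l : ℤ) + 1) = ((l + 1 : ℕ) : ℤ) by push_cast; ring,
      zpow_natCast] at hxb
    field_simp at hxb
    rw [map_mul, map_mul, map_mul, map_pow]
    linear_combination hxb)
  exact (hπ.dvd_or_dvd (show π ∣ b * s from ⟨π ^ l * (a * t), by rw [← e]; ring⟩)).elim hb hs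

/-- The valuation ring of a prime element. -/
def piRing (hφ : Function.Injective φ) (hsurj : ∀ x : F, ∃ a d, d ≠ 0 ∧ x = φ a / φ d)
    (hπ : Prime π) : ValuationSubring F where
  carrier := {x | ∃ a s : R, ¬ π ∣ s ∧ x = φ a / φ s}
  one_mem' := ⟨1, 1, hπ.not_dvd_one, by simp⟩
  zero_mem' := ⟨0, 1, hπ.not_dvd_one, by simp⟩
  mul_mem' := by
    rintro _ _ ⟨a, s, hs, rfl⟩ ⟨b, t, ht, rfl⟩
    exact ⟨a * b, s * t, fun h => (hπ.dvd_or_dvd h).elim hs ht,
      by rw [map_mul, map_mul, div_mul_div_comm]⟩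
  add_mem' := by
    rintro _ _ ⟨a, s, hs, rfl⟩ ⟨b, t, ht, rfl⟩
    exact ⟨a * t + s * b, s * t, fun h => (hπ.dvd_or_dvd h).elim hs ht, by
      rw [map_add, map_mul, map_mul, map_mul,
        div_add_div _ _ ((map_ne_zero_iff φ hφ).2 (fun h : s = 0 => hs (h ▸ dvd_zero π)))
          ((map_ne_zero_iff φ hφ).2 (fun h : t = 0 => ht (h ▸ dvd_zero π)))]⟩
  neg_mem' := by
    rintro _ ⟨a, s, hs, rfl⟩
    exact ⟨-a, s, hs, by rw [map_neg, neg_div]⟩
  mem_or_inv_mem' x := by
    rcases eq_or_ne x 0 with rfl | hx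
    · exact Or.inl ⟨0, 1, hπ.not_dvd_one, by simp⟩
    obtain ⟨m, a, s, ha, hs, rfl⟩ := exists_hasPiOrd hφ hsurj hπ hx
    rcases le_total 0 m with hm | hm
    · lift m to ℕ using hm
      exact Or.inl ⟨π ^ m * a, s, hs, by rw [zpow_natCast, map_mul, map_pow, mul_div_assoc]⟩
    · obtain ⟨l, hl⟩ := Int.eq_ofNat_of_zero_le (show 0 ≤ -m by omega)
      refine Or.inr ⟨π ^ l * s, a, ha, ?_⟩
      rw [mul_inv, inv_div, ← zpow_neg, hl, zpow_natCast, map_mul, map_pow, mul_div_assoc]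

theorem HasPiOrd.mul (hφ : Function.Injective φ) (hπ : Prime π) {x y : F} {m m' : ℤ}
    (h : HasPiOrd φ π x m) (h' : HasPiOrd φ π y m') : HasPiOrd φ π (x * y) (m + m') := by
  obtain ⟨a, s, ha, hs, rfl⟩ := h
  obtain ⟨b, t, hb, ht, rfl⟩ := h'
  refine ⟨a * b, s * t, fun h => (hπ.dvd_or_dvd h).elim ha hb,
    fun h => (hπ.dvd_or_dvd h).elim hs ht, ?_⟩
  rw [zpow_add₀ ((map_ne_zero_iff φ hφ).2 hπ.ne_zero), map_mul, map_mul, ← div_mul_div_comm]
  ring

theorem HasPiOrd.inv {x : F} {m : ℤ} (h : HasPiOrd φ π x m) : HasPiOrd φ π x⁻¹ (-m) := by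
  obtain ⟨a, s, ha, hs, rfl⟩ := h
  exact ⟨s, a, hs, ha, by rw [mul_inv, inv_div, zpow_neg]⟩

theorem HasPiOrd.pow (hφ : Function.Injective φ) (hπ : Prime π) {x : F} {m : ℤ}
    (h : HasPiOrd φ π x m) (j : ℕ) : HasPiOrd φ π (x ^ j) (j * m) := by
  induction j with
  | zero => exact ⟨1, 1, hπ.not_dvd_one, hπ.not_dvd_one, by simp⟩
  | succ j ih =>
    rw [pow_succ, show ((j + 1 : ℕ) : ℤ) * m = j * m + m by push_cast; ring]
    exact ih.mul hφ hπ h

/-- A unit of the valuation ring of `π` has order zero. -/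
theorem HasPiOrd.eq_zero (hφ : Function.Injective φ) (hsurj : ∀ x : F, ∃ a d, d ≠ 0 ∧ x = φ a / φ d)
    (hπ : Prime π) {x : F} {m : ℤ} (h : HasPiOrd φ π x m) (hx : x ∈ piRing hφ hsurj hπ)
    (hx' : x⁻¹ ∈ piRing hφ hsurj hπ) : m = 0 := by
  obtain ⟨a, s, hs, e⟩ := hx
  obtain ⟨a', s', hs', e'⟩ := hx'
  have h1 := h.nonneg_of_eq_div hφ hπ hs e
  have h2 := h.inv.nonneg_of_eq_div hφ hπ hs' e'
  omega

end PrimeOrder

section Chart

variable {K F : Type} [Field K] [Field F] [Algebra K F]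

/-- A valuation ring containing the constants and `t` contains the chart of `t`. -/
theorem chartRing_le_valuationSubring {S : Subring K} {t : F} (O : ValuationSubring F)
    (hS : ∀ c ∈ S, algebraMap K F c ∈ O) (ht : t ∈ O) {x : F} (hx : x ∈ chartRing S t) :
    x ∈ O := by
  have hle : ∀ y ∈ Algebra.adjoin S {t}, y ∈ O.toSubring := by
    intro y hy
    induction hy using Algebra.adjoin_induction with
    | mem z hz => rwa [Set.mem_singleton_iff.1 hz]
    | algebraMap c => exact hS c c.2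
    | add a b _ _ ha hb => exact add_mem ha hb
    | mul a b _ _ ha hb => exact mul_mem ha hb
  obtain ⟨p, hp, hpx⟩ := (mem_chartRing S t).1 hx
  let j : Algebra.adjoin S {t} →+* O :=
    ((Algebra.adjoin S {t}).val.toRingHom).codRestrict O.toSubring fun y => hle y y.2
  have hint : IsIntegral O x := ⟨p.map j, hp.map j, by rw [eval₂_map]; exact hpx⟩
  obtain ⟨y, hy⟩ := IsIntegrallyClosed.isIntegral_iff.1 hint
  rw [← hy]
  exact y.2

end Chart

variable {q : ℕ} [Fact q.Prime] {K K' k : Type} [Field K] [Field K'] [Algebra K K'] [Field k]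
  [CharZero K] [CharP k q] [IsAlgClosed k] {A : ValuationSubring K'} {π : A →+* k}
  (T : SqTower q K π)

namespace SqTower

theorem exists_eq_div (b : Bool) (f : T.F₂) :
    ∃ a d : T.B₂ b, d ≠ 0 ∧ f = (a : T.F₂) / (d : T.F₂) := by
  have hfin : FiniteDimensional (IntermediateField.adjoin K {T.t₂ b}) T.F₂ := by
    cases b with
    | true => exact T.finite_x₂
    | false =>
      have h : IntermediateField.adjoin K {T.t₂ false} = IntermediateField.adjoin K {T.x₂} := by
        show IntermediateField.adjoin K {T.x₂⁻¹} = _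
        refine le_antisymm (IntermediateField.adjoin_simple_le_iff.2
          (inv_mem (IntermediateField.mem_adjoin_simple_self K _)))
          (IntermediateField.adjoin_simple_le_iff.2 ?_)
        have := inv_mem (IntermediateField.mem_adjoin_simple_self K T.x₂⁻¹)
        rwa [inv_inv] at this
      rw [h]
      exact T.finite_x₂
  obtain ⟨d, hd, hd0, hdf⟩ := exists_mul_mem_chartRing T.isUniformiser (t := T.t₂ b) f
  exact ⟨⟨_, hdf⟩, ⟨d, hd⟩, fun h => hd0 (congrArg Subtype.val h),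
    (mul_div_cancel_left₀ f hd0).symm⟩

theorem natCast_q_ne_zero : (q : T.F₂) ≠ 0 := by
  rw [← map_natCast (algebraMap K T.F₂)]
  exact (_root_.map_ne_zero _).2 (Nat.cast_ne_zero.2 (Fact.out : q.Prime).ne_zero)

/-- Elements without residue on all three branches lie in every prime containing `q`. -/
theorem mem_of_red_eq_zero (b : Bool) {P : Ideal (T.B₂ b)} (hP : P.IsPrime)
    (hq : (q : T.B₂ b) ∈ P) {x : T.B₂ b} (hx : T.red b x = 0) : x ∈ P := by
  obtain ⟨D, hD⟩ := T.exists_verticalRing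
  have hsm : D.Small (x : T.F₂) := (hD _).2 fun i => by
    have h := T.res₂_red b x i
    rwa [hx] at h
  obtain ⟨e, he⟩ := D.exists_pow_eq
  obtain ⟨y, hy⟩ := he ⟨x, hsm.1⟩ hsm.2
  have hmem : T.t₂ b ∈ ({T.x₂, T.x₂⁻¹} : Set T.F₂) := by cases b <;> simp [SqTower.t₂]
  have hy' : (y : T.F₂) ∈ T.B₂ b := by
    refine D.mem_chart _ hmem _ ?_ y.2
    have hq0 : algebraMap K T.F₂ q ≠ 0 :=
      (_root_.map_ne_zero _).2 (Nat.cast_ne_zero.2 (Fact.out : q.Prime).ne_zero)
    have heq : (y : T.F₂) = algebraMap K T.F₂ (q : K)⁻¹ * (x : T.F₂) ^ e := by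
      rw [map_inv₀, hy]
      field_simp
    rw [heq]
    exact mul_mem (algebraMap_mem_chartRing _ _ trivial)
      (pow_mem (chartRing_mono _ _ le_top x.2) e)
  refine hP.mem_of_pow_mem e ?_
  have : x ^ e = (q : T.B₂ b) * ⟨(y : T.F₂), hy'⟩ := Subtype.ext (by
    push_cast
    rw [hy, map_natCast])
  rw [this]
  exact P.mul_mem_right _ hq

theorem injective_algebraMap_loc (b : Bool) (M : Ideal (T.B₂ b)) [M.IsMaximal] :
    Function.Injective (algebraMap (T.B₂ b) (Localization.AtPrime M)) :=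
  IsLocalization.injective (Localization.AtPrime M) M.primeCompl_le_nonZeroDivisors

/-- The order at a prime dividing `q` is zero for a function without vertical part. -/
theorem ord_eq_zero_of_dvd (b : Bool) (M : Ideal (T.B₂ b)) [M.IsMaximal]
    {φ : Localization.AtPrime M →+* T.F₂} (hφ : Function.Injective φ)
    (hφe : ∀ x : T.B₂ b, φ (algebraMap (T.B₂ b) (Localization.AtPrime M) x) = (x : T.F₂))
    [IsNoetherianRing (Localization.AtPrime M)] {p : Localization.AtPrime M} (hp : Prime p)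
    (hpq : p ∣ algebraMap (T.B₂ b) (Localization.AtPrime M) (q : T.B₂ b)) {f : T.F₂}
    (hval : ∀ i, T.HasVal i f 0) {m : ℤ} (hm : HasPiOrd φ p f m) : m = 0 := by
  let L := Localization.AtPrime M
  have hinjB := T.injective_algebraMap_loc b M
  let P : Ideal (T.B₂ b) := (Ideal.span {p}).comap (algebraMap (T.B₂ b) L)
  have hspan : (Ideal.span {p}).IsPrime := (Ideal.span_singleton_prime hp.ne_zero).2 hp
  have hP : P.IsPrime := Ideal.IsPrime.comap _
  have hPmem : ∀ x : T.B₂ b, x ∈ P ↔ p ∣ algebraMap (T.B₂ b) L x := fun x => by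
    rw [Ideal.mem_comap, Ideal.mem_span_singleton]
  have hPM : ∀ x : T.B₂ b, x ∉ M → x ∉ P := fun x hx hxP =>
    hp.not_isUnit (isUnit_of_dvd_unit ((hPmem x).1 hxP)
      (IsLocalization.map_units L (⟨x, hx⟩ : M.primeCompl)))
  obtain ⟨i, hi⟩ : ∃ i : Fin 3, ∀ x : T.B₂ b, T.red b x i = 0 → x ∈ P := by
    by_contra hcon
    push Not at hcon
    choose x hx hxP using hcon
    have hz : T.red b (x 0 * x 1 * x 2) = 0 := by
      funext j
      rw [map_mul, map_mul, Pi.mul_apply, Pi.mul_apply, Pi.zero_apply]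
      fin_cases j <;> simp [hx]
    exact (hP.mem_or_mem (T.mem_of_red_eq_zero b hP ((hPmem _).2 hpq) hz)).elim
      (fun h => (hP.mem_or_mem h).elim (hxP 0) (hxP 1)) (hxP 2)
  have hv0 : ∀ x : T.B₂ b, x ∉ P → T.HasVal i (x : T.F₂) 0 := fun x hx =>
    T.hasVal_zero_iff.2 ⟨_, fun h => hx (hi x (Subtype.ext h)), T.res₂_red b x i⟩
  have hvφ : ∀ y : L, ¬ p ∣ y → T.HasVal i (φ y) 0 := by
    intro y hy
    obtain ⟨⟨x, s⟩, hxs⟩ := IsLocalization.surj M.primeCompl y
    have hxP : x ∉ P := fun h => by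
      rw [hPmem, ← hxs] at h
      exact hy ((IsLocalization.map_units L s).dvd_mul_right.1 h)
    have e : φ y = (x : T.F₂) * ((s : T.B₂ b) : T.F₂) ^ (-1 : ℤ) := by
      rw [zpow_neg_one, eq_mul_inv_iff_mul_eq₀
        (fun h => hPM _ s.2 (by rw [show (s : T.B₂ b) = 0 from Subtype.ext h]; exact P.zero_mem)),
        ← hφe x, ← hφe (s : T.B₂ b), ← map_mul]
      exact congrArg φ hxs
    rw [e]
    simpa using SqTower.HasVal.mul T (hv0 x hxP) (SqTower.HasVal.zpow T (hv0 _ (hPM _ s.2)) (-1))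
  obtain ⟨⟨x, s⟩, hxs⟩ := IsLocalization.surj M.primeCompl p
  -- the residue of `p` on the branch vanishes
  have hx0 : T.red b x i = 0 := by
    have hq0 : algebraMap (T.B₂ b) L (q : T.B₂ b) ≠ 0 :=
      (map_ne_zero_iff _ hinjB).2 fun h =>
        T.natCast_q_ne_zero (by simpa using congrArg Subtype.val h)
    obtain ⟨l, r, hr, e⟩ := WfDvdMonoid.max_power_factor hq0 hp.irreducible
    obtain ⟨⟨y, s'⟩, hys⟩ := IsLocalization.surj M.primeCompl r
    have hyP : y ∉ P := fun h => by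
      rw [hPmem, ← hys] at h
      exact hr ((IsLocalization.map_units L s').dvd_mul_right.1 h)
    have heq : (q : T.B₂ b) * ((s : T.B₂ b) ^ l * (s' : T.B₂ b)) = x ^ l * y := hinjB (by
      simp only [map_mul, map_pow] at e ⊢
      rw [← hxs, ← hys, e]
      ring)
    have h0 := congrArg (fun z => T.red b z i) heq
    simp only [map_mul, map_pow, Pi.mul_apply, Pi.pow_apply, T.red_natCast, Pi.zero_apply,
      zero_mul] at h0
    rcases mul_eq_zero.1 h0.symm with h | h
    · exact pow_eq_zero_iff'.1 h |>.1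
    · exact absurd (hi y h) hyP
  obtain ⟨w, hw⟩ := T.exists_hasVal
    (show (x : T.F₂) ≠ 0 from fun h => hp.ne_zero (hφ (by
      have h1 := congrArg φ hxs
      rw [map_mul, hφe, hφe, h] at h1
      rw [map_zero]
      exact (mul_eq_zero.1 h1).resolve_right fun h2 => hPM _ s.2 (by
        rw [show (s : T.B₂ b) = 0 from Subtype.ext h2]; exact P.zero_mem)))) i
  have hw0 : w ≠ 0 := by
    rintro rfl
    obtain ⟨g, hg, hres⟩ := T.hasVal_zero_iff.1 hw
    have h := T.res₂_red b x i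
    rw [hx0] at h
    exact hg (hres.unique h)
  have hwp : T.HasVal i (φ p) w := by
    have e : φ p = (x : T.F₂) * ((s : T.B₂ b) : T.F₂) ^ (-1 : ℤ) := by
      rw [zpow_neg_one, eq_mul_inv_iff_mul_eq₀
        (fun h => hPM _ s.2 (by rw [show (s : T.B₂ b) = 0 from Subtype.ext h]; exact P.zero_mem)),
        ← hφe x, ← hφe (s : T.B₂ b), ← map_mul]
      exact congrArg φ hxs
    rw [e]
    simpa using SqTower.HasVal.mul T hw (SqTower.HasVal.zpow T (hv0 _ (hPM _ s.2)) (-1))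
  obtain ⟨a, d, ha, hd, e⟩ := hm
  have hf' := SqTower.HasVal.mul T (SqTower.HasVal.zpow T hwp m)
    (SqTower.HasVal.mul T (hvφ a ha) (SqTower.HasVal.zpow T (hvφ d hd) (-1)))
  rw [zpow_neg_one, ← div_eq_mul_inv, ← e, mul_zero, add_zero, add_zero] at hf'
  exact (mul_eq_zero.1 (T.hasVal_unique hf' (hval i))).resolve_right hw0

/-- The order at a prime not dividing `q` is divisible by `n` for a power away from the special
fibre. -/
theorem dvd_ord_of_not_dvd (b : Bool) (M : Ideal (T.B₂ b)) [M.IsMaximal]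
    {φ : Localization.AtPrime M →+* T.F₂} (hφ : Function.Injective φ)
    (hφe : ∀ x : T.B₂ b, φ (algebraMap (T.B₂ b) (Localization.AtPrime M) x) = (x : T.F₂))
    [IsNoetherianRing (Localization.AtPrime M)]
    (hsurj : ∀ x : T.F₂, ∃ a d, d ≠ 0 ∧ x = φ a / φ d)
    {p : Localization.AtPrime M} (hp : Prime p)
    (hpq : ¬ p ∣ algebraMap (T.B₂ b) (Localization.AtPrime M) (q : T.B₂ b)) {n : ℕ} {f : T.F₂}
    (hpow : IsPowerAway (K := K) (T.t₂ b) n f) {m : ℤ} (hm : HasPiOrd φ p f m) :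
    (n : ℤ) ∣ m := by
  let L := Localization.AtPrime M
  let O := piRing hφ hsurj hp
  have hBO : ∀ x ∈ T.B₂ b, x ∈ O := fun x hx =>
    ⟨algebraMap (T.B₂ b) L (⟨x, hx⟩ : T.B₂ b), 1, hp.not_dvd_one, by rw [hφe, map_one, div_one]⟩
  have hqO : ((q : T.F₂))⁻¹ ∈ O :=
    ⟨1, algebraMap _ L (q : T.B₂ b), hpq, by rw [hφe, map_one, one_div]; simp⟩
  have hconst : ∀ c ∈ (⊤ : Subring K), algebraMap K T.F₂ c ∈ O := by
    intro c _
    rcases eq_or_ne c 0 with rfl | hc
    · rw [map_zero]; exact zero_mem _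
    obtain ⟨j, hj, -⟩ := T.isUniformiser.exists_eq c hc
    have hqj : ((q : T.F₂)) ^ j ∈ O := by
      rcases le_total 0 j with h | h
      · lift j to ℕ using h
        rw [zpow_natCast]
        exact pow_mem (_root_.natCast_mem O q) j
      · obtain ⟨l, hl⟩ := Int.eq_ofNat_of_zero_le (show 0 ≤ -j by omega)
        rw [show j = -(l : ℤ) by omega, zpow_neg, zpow_natCast, ← inv_pow]
        exact pow_mem hqO l
    have e : c = c / (q : K) ^ j * (q : K) ^ j :=
      (div_mul_cancel₀ c (zpow_ne_zero _ T.isUniformiser.ne_zero)).symm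
    rw [e, map_mul, map_zpow₀, map_natCast]
    exact mul_mem (hBO _ (algebraMap_mem_chartRing _ _ hj)) hqj
  have htO : T.t₂ b ∈ O := hBO _ (self_mem_chartRing _ _)
  let ψ : chartRing (⊤ : Subring K) (T.t₂ b) →+* O :=
    (chartRing (⊤ : Subring K) (T.t₂ b)).subtype.codRestrict O.toSubring
      fun y => chartRing_le_valuationSubring O hconst htO y.2
  obtain ⟨Q, hQ, hQle⟩ := Ideal.exists_le_maximal ((IsLocalRing.maximalIdeal O).comap ψ)
    (Ideal.comap_ne_top _ (IsLocalRing.maximalIdeal.isMaximal O).ne_top)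
  obtain ⟨u', d', hu', hd', hin, hin'⟩ := hpow Q hQ
  obtain ⟨D, hD⟩ : IsUnit (ψ d') := by
    by_contra h
    exact hd' (hQle ((IsLocalRing.mem_maximalIdeal _).2 h))
  have hDv : ((D : O) : T.F₂) = (d' : T.F₂) := congrArg Subtype.val hD
  have hDinv : ((d' : T.F₂))⁻¹ ∈ O := by
    have h1 : ((D : O) : T.F₂) * ((D⁻¹ : Oˣ) : O) = 1 := congrArg Subtype.val D.mul_inv
    rw [hDv] at h1
    rw [← eq_inv_of_mul_eq_one_right h1]
    exact SetLike.coe_mem _
  have hd0 : (d' : T.F₂) ≠ 0 := fun h => hd' (by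
    rw [show d' = 0 from Subtype.ext h]; exact Q.zero_mem)
  obtain ⟨m', hm'⟩ := exists_hasPiOrd hφ hsurj hp hu'
  have hz := ((hm'.pow hφ hp n).mul hφ hp hm).eq_zero hφ hsurj hp ?_ ?_
  · exact ⟨-m', by linear_combination hz⟩
  · have := mul_mem hDinv (chartRing_le_valuationSubring O hconst htO hin)
    rwa [inv_mul_cancel_left₀ hd0] at this
  · have := mul_mem hDinv (chartRing_le_valuationSubring O hconst htO hin')
    rwa [inv_mul_cancel_left₀ hd0] at this

set_option linter.unusedVariables false in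
/-- A divisor divisible by `n` on the generic fibre and without vertical part is principal times
`n` near a regular point. -/
theorem exists_localRoot (b : Bool) (M : Ideal (T.B₂ b)) [M.IsMaximal] (hq : (q : T.B₂ b) ∈ M)
    {u v : T.B₂ b} (hpair : IsRegularPair (algebraMap (T.B₂ b) (Localization.AtPrime M) u)
      (algebraMap (T.B₂ b) (Localization.AtPrime M) v))
    {n : ℕ} (hn : n ≠ 0) {f : T.F₂} (hf : f ≠ 0) (hval : ∀ i, T.HasVal i f 0)
    (hpow : IsPowerAway (K := K) (T.t₂ b) n f) :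
    ∃ (a : T.F₂) (d : T.B₂ b), d ∉ M ∧ a ^ n * f = d := by
  classical
  have := T.isNoetherianRing_B₂ b
  let L := Localization.AtPrime M
  have : IsNoetherianRing L := IsLocalization.isNoetherianRing M.primeCompl L inferInstance
  have hinjB : Function.Injective (algebraMap (T.B₂ b) L) :=
    IsLocalization.injective L M.primeCompl_le_nonZeroDivisors
  have hunit : ∀ s : M.primeCompl, IsUnit ((T.B₂ b).subtype s) := fun s =>
    isUnit_iff_ne_zero.2 fun h => s.2 (by
      rw [show (s : T.B₂ b) = 0 from Subtype.ext h]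
      exact M.zero_mem)
  let φ : L →+* T.F₂ := IsLocalization.lift hunit
  have hφe : ∀ x : T.B₂ b, φ (algebraMap (T.B₂ b) L x) = (x : T.F₂) := fun x =>
    IsLocalization.lift_eq hunit x
  have hφ : Function.Injective φ := (injective_iff_map_eq_zero φ).2 fun y hy => by
    obtain ⟨⟨x, s⟩, hxs⟩ := IsLocalization.surj M.primeCompl y
    have h0 := congrArg φ hxs
    rw [map_mul, hy, zero_mul, hφe] at h0
    rw [show x = 0 from Subtype.ext h0.symm, map_zero] at hxs
    exact (IsLocalization.map_units L s).mul_left_eq_zero.1 hxs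
  have hsurj : ∀ x : T.F₂, ∃ a d, d ≠ 0 ∧ x = φ a / φ d := fun x => by
    obtain ⟨a, d, hd, e⟩ := T.exists_eq_div b x
    exact ⟨algebraMap _ L a, algebraMap _ L d, (map_ne_zero_iff _ hinjB).2 hd, by
      rw [hφe, hφe]; exact e⟩
  -- the order at every prime element is divisible by `n`
  have hdiv : ∀ p : L, Prime p → ∀ m : ℤ, HasPiOrd φ p f m → (n : ℤ) ∣ m := by
    intro p hp m hm
    by_cases hpq : p ∣ algebraMap (T.B₂ b) L (q : T.B₂ b)
    · rw [T.ord_eq_zero_of_dvd b M hφ hφe hp hpq hval hm]; exact dvd_zero _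
    · exact T.dvd_ord_of_not_dvd b M hφ hφe hsurj hp hpq hpow hm
  -- the root
  obtain ⟨A₀, D₀, hD₀, hfA⟩ := T.exists_eq_div b f
  set a₀ := algebraMap (T.B₂ b) L A₀ with ha₀
  set d₀ := algebraMap (T.B₂ b) L D₀ with hd₀
  have hd₀0 : d₀ ≠ 0 := (map_ne_zero_iff _ hinjB).2 hD₀
  have hfφ : f = φ a₀ / φ d₀ := by rw [ha₀, hd₀, hφe, hφe]; exact hfA
  have ha₀0 : a₀ ≠ 0 := fun h => hf (by rw [hfφ, h, map_zero, zero_div])
  have hφd : φ d₀ ≠ 0 := (map_ne_zero_iff φ hφ).2 hd₀0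
  have he0 : a₀ * d₀ ^ (n - 1) ≠ 0 := mul_ne_zero ha₀0 (pow_ne_zero _ hd₀0)
  obtain ⟨c, U, hc⟩ := hpair.exists_associated_pow (n := n) he0 fun p hp k hk hk' => by
    obtain ⟨r, hr⟩ := hk
    obtain ⟨l, r', hr', hl⟩ := WfDvdMonoid.max_power_factor hd₀0 hp.irreducible
    have hrp : ¬ p ∣ r := fun ⟨z, hz⟩ => hk' ⟨z, by rw [hr, hz]; ring⟩
    have hord : HasPiOrd φ p f ((k : ℤ) - n * l) := by
      refine ⟨r, r' ^ n, hrp, fun h => hr' (hp.dvd_of_dvd_pow h), ?_⟩
      have hp0 : φ p ≠ 0 := (map_ne_zero_iff φ hφ).2 hp.ne_zero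
      have e1 : φ a₀ * φ d₀ ^ (n - 1) = φ p ^ k * φ r := by
        rw [← map_pow, ← map_mul, hr, map_mul, map_pow]
      have e2 : φ d₀ = φ p ^ l * φ r' := by rw [hl, map_mul, map_pow]
      have hr'0 : φ r' ≠ 0 := (map_ne_zero_iff φ hφ).2 fun h => hr' (h ▸ dvd_zero p)
      have e3 : φ d₀ ^ n = φ d₀ ^ (n - 1) * φ d₀ := by
        rw [← pow_succ, Nat.sub_add_cancel (Nat.one_le_iff_ne_zero.2 hn)]
      have hfe : f * φ d₀ ^ n = φ p ^ k * φ r := by
        rw [hfφ, e3, ← e1]; field_simp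
      rw [zpow_sub₀ hp0, zpow_natCast, show ((n : ℤ) * l) = ((l * n : ℕ) : ℤ) by push_cast; ring,
        zpow_natCast, pow_mul, map_pow]
      rw [e2, mul_pow] at hfe
      field_simp
      linear_combination hfe
    obtain ⟨z, hz⟩ := hdiv p hp _ hord
    exact Int.natCast_dvd_natCast.1 ⟨z + l, by linear_combination hz⟩
  obtain ⟨⟨d₁, d₂⟩, hU⟩ := IsLocalization.surj M.primeCompl (U : L)
  have hd₁ : d₁ ∉ M := (IsLocalization.AtPrime.isUnit_to_map_iff L M d₁).1 (by
    rw [← hU]; exact U.isUnit.mul (IsLocalization.map_units L d₂))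
  have hc0 : c ≠ 0 := fun h => he0 (by rw [← hc, h, zero_pow hn, zero_mul])
  have hφc : φ c ≠ 0 := (map_ne_zero_iff φ hφ).2 hc0
  refine ⟨φ d₀ * ((d₂ : T.B₂ b) : T.F₂) / φ c, d₁ * (d₂ : T.B₂ b) ^ (n - 1),
    fun h => ((inferInstance : M.IsPrime).mem_or_mem h).elim hd₁
      fun h' => d₂.2 ((inferInstance : M.IsPrime).mem_of_pow_mem _ h'), ?_⟩
  obtain ⟨j, rfl⟩ := Nat.exists_eq_add_of_le' (Nat.one_le_iff_ne_zero.2 hn)
  have e1 : φ c ^ (j + 1) * φ U = φ a₀ * φ d₀ ^ j := by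
    rw [← map_pow, ← map_mul, hc, map_mul, map_pow, Nat.add_sub_cancel]
  have e2 : φ U * ((d₂ : T.B₂ b) : T.F₂) = (d₁ : T.F₂) := by
    rw [← hφe (d₂ : T.B₂ b), ← hφe d₁, ← map_mul]
    exact congrArg φ hU
  rw [hfφ, Nat.add_sub_cancel]
  push_cast
  rw [← e2, div_pow, mul_pow]
  field_simp
  linear_combination -((d₂ : T.B₂ b) : T.F₂) ^ (j + 1) * φ d₀ * e1

end SqTower

end Fermat.Agent.BadPrime.Sq
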