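import Fermat.Agent.BadPrime.Sq.Single
import Fermat.Agent.BadPrime.Sq.Cusp
import Fermat.Agent.BadPrime.Sq.LocalRoot

/-!
# The values of local roots on the branches

Where branches meet, the two norms to level `N q` of a local root give `P₀ P₁^(q-1) = lam P₂^q`
and `P₂ P₁^(q-1) = mu P₀^q` for the values `Pᵢ`, with `lam`, `mu` roots of unity.
-/

set_option autoImplicit false
set_option linter.unusedSectionVars false

noncomputable section

open ModularCurve Polynomial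

namespace Fermat.Agent.BadPrime.Sq

variable {q : ℕ} [Fact q.Prime] {K K' k : Type} [Field K] [Field K'] [Algebra K K'] [Field k]
  [CharZero K] [CharP k q] [IsAlgClosed k] {A : ValuationSubring K'} {π : A →+* k}
  (T : SqTower q K π)

omit [CharP k q] in
/-- A series with constant power is constant. -/
theorem exists_C_eq_of_pow_eq_C {g : LaurentSeries k} {c : k} {n : ℕ} (hn : n ≠ 0)
    (h : g ^ n = HahnSeries.C c) : ∃ γ : k, g = HahnSeries.C γ := by
  have hC : ∀ a : k, algebraMap k (LaurentSeries k) a = HahnSeries.C a := fun a => by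
    rw [algebraMap_laurentSeries_eq_single]; rfl
  have hint : IsIntegral k g := ⟨X ^ n - C c, monic_X_pow_sub_C c hn, by
    rw [eval₂_sub, eval₂_X_pow, eval₂_C, hC, h, sub_self]⟩
  obtain ⟨γ, hγ⟩ := minpoly.mem_range_of_degree_eq_one (A := k) (x := g)
    (IsAlgClosed.degree_eq_one_of_irreducible k (minpoly.irreducible hint))
  exact ⟨γ, by rw [← hγ, hC]⟩

/-- Two relations between three values force their `(q²-1)`-th powers to be proportional. -/
theorem pow_sq_sub_one_eq {F : Type} [Field F] {r : ℕ} (hr : 1 ≤ r) {a b c lam mu : F}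
    (ha : a ≠ 0) (hmu : mu ≠ 0) (h1 : a * b ^ (r - 1) = lam * c ^ r)
    (h2 : c * b ^ (r - 1) = mu * a ^ r) :
    a ^ (r ^ 2 - 1) = (lam * mu ^ r)⁻¹ * b ^ (r ^ 2 - 1) := by
  obtain ⟨m, rfl⟩ : ∃ m, r = m + 1 := ⟨r - 1, by omega⟩
  simp only [Nat.add_sub_cancel] at h1 h2
  have hE : (m + 1) ^ 2 - 1 = m + (m + 1) * m := by
    have : (m + 1) ^ 2 = m + (m + 1) * m + 1 := by ring
    omega
  have h3 : a * b ^ (m + (m + 1) * m) = lam * mu ^ (m + 1) * (a ^ (m + (m + 1) * m) * a) := by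
    calc a * b ^ (m + (m + 1) * m) = a * b ^ m * (b ^ m) ^ (m + 1) := by ring
      _ = lam * c ^ (m + 1) * (b ^ m) ^ (m + 1) := by rw [h1]
      _ = lam * (c * b ^ m) ^ (m + 1) := by ring
      _ = lam * (mu * a ^ (m + 1)) ^ (m + 1) := by rw [h2]
      _ = _ := by ring
  rw [hE]
  rcases eq_or_ne lam 0 with hl | hl
  · subst hl
    rw [zero_mul, zero_mul, mul_eq_zero, or_iff_right ha] at h3
    rw [h3, mul_zero]
    rw [pow_eq_zero_iff'] at h3
    obtain ⟨rfl, h0⟩ := h3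
    have hm : m ≠ 0 := fun e => h0 (by rw [e])
    rw [zero_pow hm, mul_zero, eq_comm, mul_eq_zero] at h2
    exact absurd (h2.resolve_left hmu) (pow_ne_zero _ ha)
  · rw [eq_inv_mul_iff_mul_eq₀ (mul_ne_zero hl (pow_ne_zero _ hmu))]
    refine mul_right_cancel₀ ha ?_
    rw [mul_assoc, ← h3, mul_comm]

namespace SqTower

theorem W_inj : Function.Injective T.W := Function.LeftInverse.injective T.W_W

theorem hasGaussRed_σ' {a : (ZMod q)ˣ} {x : LaurentSeries K'} {g : LaurentSeries k}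
    (h : HasGaussRed π x g) : HasGaussRed π (coeffMap (T.σ a : K' →+* K') x) g := by
  have h' := h.coeffMap_auto (s := (T.σ a).toRingEquiv) (α := RingEquiv.refl k)
    (T.σ_mem a) (T.σ_res a)
  have e : coeffMap ((RingEquiv.refl k : k ≃+* k) : k →+* k) g = g := by
    ext i; simp
  rw [e] at h'
  exact h'

/-- Exponents of the coordinate on the branches. -/
def coordExp (i : Fin 3) : ℕ := if i = 2 then q ^ 2 else 1

theorem res₂_x₂' (i : Fin 3) : T.Res₂ i T.x₂ (jqModC k ^ coordExp (q := q) i) := by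
  have h0 : T.Res₀ T.x₁ (jqModC k) := by
    show HasGaussRed π _ _; rw [T.i₁_x]; exact hasGaussRed_jqModC
  have h1 : T.Res₁ T.x₁ (jqModC k ^ q) := by
    show HasGaussRed π _ _
    rw [T.i₁_W_x, ← qExpand_jqModC_eq_pow (k := k)]
    exact hasGaussRed_qExpand hasGaussRed_jqModC
  fin_cases i
  · simpa [coordExp] using (T.res₂_α'₀ h0).1
  · simpa [coordExp] using (T.res₂_α'₀ h0).2
  · have := T.res₂_α'₁ h1
    rw [map_pow, qExpand_jqModC_eq_pow (k := k), ← pow_mul, ← pow_two] at this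
    simpa [coordExp] using this

theorem res₂_t₂' (b : Bool) (i : Fin 3) :
    T.Res₂ i (T.t₂ b) (coord (k := k) b ^ coordExp (q := q) i) := by
  cases b
  · show HasGaussRed π (T.e i T.x₂⁻¹) ((jqModC k)⁻¹ ^ coordExp (q := q) i)
    rw [map_inv₀, inv_pow]
    refine (T.res₂_x₂' i).inv (pow_ne_zero _ fun h => ?_)
    have h2 := coeff_jqModC_pow_self k 1
    rw [pow_one, h, HahnSeries.coeff_zero] at h2
    exact zero_ne_one h2
  · exact T.res₂_x₂' i

theorem t₂_not (b : Bool) : T.t₂ (!b) = (T.t₂ b)⁻¹ := by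
  cases b
  · exact (inv_inv T.x₂).symm
  · rfl

theorem t₂_ne_zero (b : Bool) : T.t₂ b ≠ 0 := by
  have hx : T.x₂ ≠ 0 := fun h => T.transcendental_x₂ (by rw [h]; exact isAlgebraic_zero)
  cases b
  · exact inv_ne_zero hx
  · exact hx

/-- The coordinate as an element of the model. -/
def tB (b : Bool) : T.B₂ b := ⟨T.t₂ b, self_mem_chartRing _ _⟩

theorem red_eq' {b : Bool} {f : T.B₂ b} {i : Fin 3} {g : T.R b}
    (h : T.Res₂ i (f : T.F₂) (g : LaurentSeries k)) : T.red b f i = g :=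
  Subtype.ext ((T.res₂_red b f i).unique h)

theorem ev_eq {b : Bool} {f : T.B₂ b} {i : Fin 3} (p : T.R b →ₐ[k] k) {g : T.R b}
    (h : T.Res₂ i (f : T.F₂) (g : LaurentSeries k)) : T.ev b i p f = p g :=
  congrArg p (T.red_eq' h)

theorem red_tB (b : Bool) (i : Fin 3) :
    T.red b (T.tB b) i = ⟨coord b, T.coord_mem_R b⟩ ^ coordExp (q := q) i :=
  T.red_eq' (by rw [SubmonoidClass.coe_pow]; exact T.res₂_t₂' b i)

theorem ev_tB (b : Bool) (i : Fin 3) (p : T.R b →ₐ[k] k) :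
    T.ev b i p (T.tB b) = p ⟨coord b, T.coord_mem_R b⟩ ^ coordExp (q := q) i :=
  (congrArg p (T.red_tB b i)).trans (map_pow p _ _)

theorem ev_eq' {b : Bool} {f : T.B₂ b} {i : Fin 3} (p : T.R b →ₐ[k] k) (g : T.R b)
    {x : T.F₂} {G : LaurentSeries k} (hx : (f : T.F₂) = x) (h : T.Res₂ i x G)
    (hG : (g : LaurentSeries k) = G) : T.ev b i p f = p g :=
  T.ev_eq p (by rw [hx, hG]; exact h)

theorem coe_algebraMap_R (b : Bool) (c : k) :
    ((algebraMap k (T.R b) c : T.R b) : LaurentSeries k) = HahnSeries.C c := rfl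

/-- Points with the same kernel have the same values. -/
theorem ev_eq_of_ker_eq {b : Bool} {i i' : Fin 3} {p p' : T.R b →ₐ[k] k}
    (h : RingHom.ker (T.ev b i p) = RingHom.ker (T.ev b i' p')) (f : T.B₂ b) :
    T.ev b i p f = T.ev b i' p' f := by
  obtain ⟨z, hz⟩ := T.exists_red_const b (T.ev b i p f)
  have hev : ∀ (l : Fin 3) (r : T.R b →ₐ[k] k), T.ev b l r z = T.ev b i p f := fun l r =>
    (congrArg r (congrFun hz l)).trans (r.commutes _)
  have hmem : f - z ∈ RingHom.ker (T.ev b i p) := by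
    rw [RingHom.mem_ker, map_sub, hev, sub_self]
  rw [h, RingHom.mem_ker, map_sub, hev, sub_eq_zero] at hmem
  exact hmem.symm

/-- A root of a function with values zero and residues one has residues, in the model. -/
theorem exists_root_residues {n : ℕ} (hn : n ≠ 0) {f : T.F₂} (hf : f ≠ 0)
    (h1 : ∀ i, T.Res₂ i f 1) {b : Bool} {a : T.F₂} {d : T.B₂ b} (had : a ^ n * f = d) :
    ∃ w : Fin 3 → T.R b, (∀ i, T.Res₂ i a (w i : LaurentSeries k)) ∧
      ∀ (i : Fin 3) (p : T.R b →ₐ[k] k), p (w i) ^ n = T.ev b i p d := by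
  have key : ∀ i, ∃ w : T.R b, T.Res₂ i a (w : LaurentSeries k) ∧ T.red b d i = w ^ n := by
    intro i
    obtain ⟨g, hg⟩ : ∃ g, T.Res₂ i a g := by
      rcases eq_or_ne a 0 with rfl | ha
      · exact ⟨0, by show HasGaussRed π _ _; rw [map_zero]; exact hasGaussRed_zero⟩
      have hd : (d : T.F₂) ≠ 0 := had ▸ mul_ne_zero (pow_ne_zero n ha) hf
      obtain ⟨v, hv⟩ := T.exists_hasVal ha i
      have hmul := HasVal.mul T (HasVal.zpow T hv (n : ℤ))
        (T.hasVal_zero_iff.2 ⟨(1 : LaurentSeries k), one_ne_zero, h1 i⟩)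
      rw [zpow_natCast, had, add_zero] at hmul
      obtain ⟨g, -, hg⟩ := hv
      have hϖ : ∀ m : ℕ, HasGaussRed π (HahnSeries.C (T.ϖ i ^ (m + 1))) 0 := by
        intro m
        have h : HasGaussRed π (HahnSeries.C (T.ϖ i)) (0 : LaurentSeries k) := by
          have h1sub : HasGaussRed π (HahnSeries.C (1 - (T.ζ : K'))) (0 : LaurentSeries k) := by
            obtain ⟨u, hu, hu1⟩ := exists_res_eq_one (π := π) T.ζ_pow
            have h := hasGaussRed_C (π := π) (1 - (u : A))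
            rw [map_sub, map_one, hu1, sub_self, map_zero] at h
            simpa [hu] using h
          fin_cases i
          exacts [T.hasGaussRed_C_natCast, h1sub, T.hasGaussRed_C_natCast]
        simpa [map_pow] using h.pow (m + 1)
      have hne : ∀ i, T.ϖ i ≠ 0 := by
        intro i
        fin_cases i
        · exact T.natCast_ne_zero'
        · exact sub_ne_zero.2 fun h => (Fact.out : q.Prime).ne_one
            ((T.primitive.pow_eq_one_iff_dvd 1).1 (by rw [pow_one]; exact Units.ext h.symm) |>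
              Nat.dvd_one.1)
        · exact T.natCast_ne_zero'
      rcases le_or_gt 0 v with hv0 | hv0
      · obtain ⟨m, rfl⟩ := Int.eq_ofNat_of_zero_le hv0
        rcases m with _ | m
        · exact ⟨g, by simpa using hg⟩
        · refine ⟨0, ?_⟩
          have h := (hϖ m).mul hg
          rwa [zero_mul, ← mul_assoc, ← map_mul, zpow_neg, zpow_natCast,
            mul_inv_cancel₀ (pow_ne_zero _ (hne i)), map_one, one_mul] at h
      · exfalso
        obtain ⟨G, hG0, hG⟩ := hmul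
        obtain ⟨gd, hgd⟩ := T.exists_res₂ d.2 i
        obtain ⟨m, hm⟩ := Int.eq_ofNat_of_zero_le (show 0 ≤ -((n : ℤ) * v) - 1 by
          have : (n : ℤ) * v < 0 := mul_neg_of_pos_of_neg (by omega) hv0
          omega)
        have h := (hϖ m).mul hgd
        rw [← zpow_natCast, show ((m + 1 : ℕ) : ℤ) = -((n : ℤ) * v) by omega, zero_mul] at h
        exact hG0 (hG.unique h)
    have hgn : (T.red b d i : LaurentSeries k) = g ^ n := (T.res₂_red b d i).unique (by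
      have h : HasGaussRed π (T.e i a ^ n * T.e i f) (g ^ n * 1) := (hg.pow n).mul (h1 i)
      rwa [mul_one, ← map_pow, ← map_mul, had] at h)
    have hgR : g ∈ T.R b := T.mem_R_of_pow (T.res₂_mem hg) hn (hgn ▸ (T.red b d i).2)
    exact ⟨⟨g, hgR⟩, hg, Subtype.ext (by rw [SubmonoidClass.coe_pow]; exact hgn)⟩
  choose w hw hwd using key
  refine ⟨w, hw, fun i p => ?_⟩
  rw [← map_pow, ← hwd]; rfl

/-- A function of level `N q` whose expansion in `Q^q` has a reduction has one. -/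
theorem exists_res_of_qExpand (N : T.F₁) {G : LaurentSeries k}
    (h : HasGaussRed π (qExpand K' q (T.i₁ N)) G) :
    ∃ g, T.Res₀ N g ∧ qExpand k q g = G := by
  have := T.isLocalHom
  rcases eq_or_ne N 0 with rfl | hN
  · refine ⟨0, by show HasGaussRed π _ _; rw [map_zero]; exact hasGaussRed_zero, ?_⟩
    rw [map_zero] at h ⊢
    rw [map_zero] at h
    exact (h.unique hasGaussRed_zero).symm
  obtain ⟨i, g, hg, hig⟩ := T.value_i₁ N hN
  obtain ⟨g', hg'⟩ := exists_hasGaussRed_of_qExpand ⟨_, g, hg, hig⟩ h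
  exact ⟨g', hg', (hasGaussRed_qExpand hg').unique h⟩

/-- Reductions of the norm along `α'`. -/
theorem res_norm {a : T.F₂} {g : Fin 3 → LaurentSeries k} (hg : ∀ i, T.Res₂ i a (g i)) {N : T.F₁}
    (hN0 : T.i₁ N = T.e₀ a * ∏ c : (ZMod q)ˣ, coeffMap (T.σ c : K' →+* K') (T.eₘ a))
    (hN1 : qExpand K' q (T.i₁ (T.W N)) = ∏ c : ZMod q, Igusa.twist (T.ζ ^ c.val) (T.e₂ a)) :
    T.Res₀ N (g 0 * g 1 ^ (q - 1)) ∧ ∃ G, T.Res₁ N G ∧ qExpand k q G = g 2 ^ q := by
  constructor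
  · have h : HasGaussRed π (T.e₀ a * ∏ c : (ZMod q)ˣ, coeffMap (T.σ c : K' →+* K') (T.eₘ a))
        (g 0 * ∏ _c : (ZMod q)ˣ, g 1) :=
      (hg 0).mul (hasGaussRed_prod _ fun c _ => T.hasGaussRed_σ' (hg 1))
    rw [Finset.prod_const, Finset.card_univ, ZMod.card_units, ← hN0] at h
    exact h
  · have h : HasGaussRed π (∏ c : ZMod q, Igusa.twist (T.ζ ^ c.val) (T.e₂ a))
        (∏ _c : ZMod q, g 2) :=
      hasGaussRed_prod _ fun c _ => hasGaussRed_twist (T.ζ_pow_pow _) (hg 2)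
    rw [Finset.prod_const, Finset.card_univ, ZMod.card, ← hN1] at h
    exact T.exists_res_of_qExpand _ h

/-- Reductions of the norm along `β'`. -/
theorem res_norm' {a : T.F₂} {g : Fin 3 → LaurentSeries k} (hg : ∀ i, T.Res₂ i a (g i)) {N : T.F₁}
    (hN1 : T.i₁ (T.W N) =
      T.e₂ a * ∏ c : (ZMod q)ˣ, coeffMap (T.σ c : K' →+* K') (Igusa.twist T.ζ⁻¹ (T.eₘ a)))
    (hN0 : qExpand K' q (T.i₁ N) = ∏ c : ZMod q, Igusa.twist (T.ζ ^ c.val) (T.e₀ a)) :
    T.Res₁ N (g 2 * g 1 ^ (q - 1)) ∧ ∃ G, T.Res₀ N G ∧ qExpand k q G = g 0 ^ q := by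
  constructor
  · have h : HasGaussRed π
        (T.e₂ a * ∏ c : (ZMod q)ˣ, coeffMap (T.σ c : K' →+* K') (Igusa.twist T.ζ⁻¹ (T.eₘ a)))
        (g 2 * ∏ _c : (ZMod q)ˣ, g 1) :=
      (hg 2).mul (hasGaussRed_prod _ fun c _ =>
        T.hasGaussRed_σ' (hasGaussRed_twist (by rw [inv_pow, T.ζ_pow, inv_one]) (hg 1)))
    rw [Finset.prod_const, Finset.card_univ, ZMod.card_units, ← hN1] at h
    exact h
  · have h : HasGaussRed π (∏ c : ZMod q, Igusa.twist (T.ζ ^ c.val) (T.e₀ a))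
        (∏ _c : ZMod q, g 0) :=
      hasGaussRed_prod _ fun c _ => hasGaussRed_twist (T.ζ_pow_pow _) (hg 0)
    rw [Finset.prod_const, Finset.card_univ, ZMod.card, ← hN0] at h
    exact T.exists_res_of_qExpand _ h

/-- A norm with residues one equal to a constant times an `n`-th power: normalised, with constant
residues. -/
theorem exists_normalised_root {n : ℕ} (hn : n ≠ 0) {N H : T.F₁} {κ : K} (hκ : κ ≠ 0)
    (hN : algebraMap K T.F₁ κ * H ^ n = N) (h0 : T.Res₀ N 1) (h1 : T.Res₁ N 1) :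
    ∃ (H' : T.F₁) (κ' : K) (η₀ η₁ : k), κ'⁻¹ ∈ baseRing A K ∧ κ' ≠ 0 ∧
      algebraMap K T.F₁ κ' * H' ^ n = N ∧ η₀ ≠ 0 ∧ η₁ ≠ 0 ∧ η₀ ^ n = η₁ ^ n ∧
      T.Res₀ H' (HahnSeries.C η₀) ∧ T.Res₁ H' (HahnSeries.C η₁) := by
  have := T.isLocalHom
  have hH : H ≠ 0 := by
    rintro rfl
    rw [zero_pow hn, mul_zero] at hN
    subst hN
    exact one_ne_zero (h0.unique (by show HasGaussRed π _ _; rw [map_zero]; exact hasGaussRed_zero))
  obtain ⟨i, g, hg, hig⟩ := T.value_i₁ H hH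
  have hq : (q : K) ≠ 0 := Nat.cast_ne_zero.2 (Fact.out : q.Prime).ne_zero
  set s : K := (q : K) ^ i with hs
  have hs0 : s ≠ 0 := zpow_ne_zero _ hq
  obtain ⟨H', hH'⟩ : ∃ H', H' = algebraMap K T.F₁ s * H := ⟨_, rfl⟩
  obtain ⟨κ', hκ'def⟩ : ∃ κ' : K, κ' = κ / s ^ n := ⟨_, rfl⟩
  have hκ' : κ' ≠ 0 := hκ'def ▸ div_ne_zero hκ (pow_ne_zero n hs0)
  have hH'0 : H' ≠ 0 := hH' ▸ mul_ne_zero (by rwa [Ne, map_eq_zero]) hH
  have hNeq : algebraMap K T.F₁ κ' * H' ^ n = N := by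
    rw [hH', mul_pow, ← mul_assoc, ← map_pow, ← map_mul, hκ'def,
      div_mul_cancel₀ _ (pow_ne_zero n hs0), hN]
  have hr0 : T.Res₀ H' g := by
    show HasGaussRed π _ _
    rwa [hH', map_mul, T.i₁_algebraMap, hs, map_zpow₀, map_natCast]
  have hinv : ((algebraMap K K') κ') ⁻¹ ≠ 0 := inv_ne_zero (by rwa [Ne, map_eq_zero])
  have hC : HasGaussRed π (HahnSeries.C ((algebraMap K K') κ')⁻¹) (g ^ n) := by
    have h := (hr0.pow n).mul (HasGaussRed.inv h0 one_ne_zero)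
    rw [inv_one, mul_one, ← hNeq, map_mul, T.i₁_algebraMap, map_pow, mul_inv,
      mul_left_comm, mul_inv_cancel₀ (pow_ne_zero n (fun e => hH'0 (by
        rwa [map_eq_zero] at e))), mul_one, ← map_inv₀] at h
    exact h
  have hmem := hC.mem_of_C
  set c₀ := π ⟨_, hmem⟩ with hc₀
  have hgc : g ^ n = HahnSeries.C c₀ := hC.unique (hasGaussRed_C ⟨_, hmem⟩)
  obtain ⟨η₀, rfl⟩ := exists_C_eq_of_pow_eq_C hn hgc
  have hη₀ : η₀ ≠ 0 := fun e => hg (by rw [e, map_zero])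
  rw [← map_pow] at hgc
  have hη₀c : η₀ ^ n = c₀ := HahnSeries.C_injective hgc
  have hW : T.i₁ (T.W H') ^ n = HahnSeries.C ((algebraMap K K') κ')⁻¹ * T.i₁ (T.W N) := by
    rw [← hNeq, map_mul T.W, AlgHom.commutes, map_pow, map_mul, T.i₁_algebraMap, map_pow,
      map_inv₀, ← mul_assoc, inv_mul_cancel₀, one_mul]
    rw [map_ne_zero_iff _ HahnSeries.C_injective]
    rwa [Ne, map_eq_zero]
  have hWn : HasGaussRed π (T.i₁ (T.W H') ^ n) (HahnSeries.C c₀) := by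
    rw [hW]
    simpa using (hasGaussRed_C (π := π) ⟨_, hmem⟩).mul h1
  have hWne : T.i₁ (T.W H') ≠ 0 := fun e => hH'0 (by
    rw [map_eq_zero, map_eq_zero] at e; exact e)
  obtain ⟨g1, hg1, hg1n⟩ : ∃ g1, T.Res₁ H' g1 ∧ g1 ^ n = HahnSeries.C c₀ := by
    rcases T.exists_res_or_inv (x := T.i₁ (T.W H'))
      (fun h => T.value_i₁ _ fun e => h (by rw [e, map_zero])) with ⟨g1, h⟩ | ⟨g1, h⟩
    · exact ⟨g1, h, (h.pow n).unique hWn⟩
    · have hone := ((h.pow n).mul hWn)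
      rw [← mul_pow, inv_mul_cancel₀ hWne, one_pow] at hone
      have hne : g1 ^ n ≠ 0 := fun e => by
        rw [e, zero_mul] at hone
        exact one_ne_zero (hasGaussRed_one.unique hone)
      have hg1' : g1 ≠ 0 := fun e => hne (by rw [e, zero_pow hn])
      have h' := h.inv hg1'
      rw [inv_inv] at h'
      exact ⟨g1⁻¹, h', (h'.pow n).unique hWn⟩
  obtain ⟨η₁, rfl⟩ := exists_C_eq_of_pow_eq_C hn hg1n
  rw [← map_pow] at hg1n
  have hη₁c : η₁ ^ n = c₀ := HahnSeries.C_injective hg1n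
  refine ⟨H', κ', η₀, η₁, ?_, hκ', hNeq, hη₀, fun e => ?_, hη₀c.trans hη₁c.symm, hr0, hg1⟩
  · show algebraMap K K' κ'⁻¹ ∈ A
    rw [map_inv₀]; exact hmem
  · rw [e, zero_pow hn, ← hη₀c] at hη₁c
    exact pow_ne_zero n hη₀ hη₁c.symm

/-- The relation coming from the norm along `α'`. -/
theorem crossing_rel {n : ℕ} (hn : n ≠ 0) {f : T.F₂} {Nf H₁ : T.F₁} {κ₁ : K}
    (hNf0 : T.i₁ Nf = T.e₀ f * ∏ c : (ZMod q)ˣ, coeffMap (T.σ c : K' →+* K') (T.eₘ f))
    (hκ₁ : κ₁⁻¹ ∈ baseRing A K) (hκ₁0 : κ₁ ≠ 0) (hN₁ : algebraMap K T.F₁ κ₁ * H₁ ^ n = Nf)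
    {η₀ η₁ : k} (hη₀ : η₀ ≠ 0) (hH₁0 : T.Res₀ H₁ (HahnSeries.C η₀))
    (hH₁1 : T.Res₁ H₁ (HahnSeries.C η₁)) (a : T.F₂) (d : T.B₂ true) (w : Fin 3 → T.R true)
    (p : T.R true →ₐ[k] k) (had : a ^ n * f = d)
    (hw : ∀ i, T.Res₂ i a (w i : LaurentSeries k))
    (hp : RingHom.ker (T.ev true 0 p) = RingHom.ker (T.ev true 2 p)) :
    p (w 0) * p (w 1) ^ (q - 1) = η₁ / η₀ * p (w 2) ^ q := by
  obtain ⟨Na, hNa0, hNa1, -⟩ := T.exists_norm a
  obtain ⟨Nd, hNd0, -, hNd⟩ := T.exists_norm (d : T.F₂)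
  have hrel : algebraMap K T.F₁ κ₁⁻¹ * Nd = (H₁ * Na) ^ n := by
    have e : Nd = Nf * Na ^ n := T.i₁.injective (by
      rw [map_mul, map_pow, hNd0, hNf0, hNa0, ← had]
      simp only [map_mul, map_pow, Finset.prod_mul_distrib, Finset.prod_pow, mul_pow]
      ring)
    rw [e, ← hN₁, ← mul_assoc, ← mul_assoc, ← map_mul, inv_mul_cancel₀ hκ₁0, map_one, one_mul,
      mul_pow]
  have hr : H₁ * Na ∈ T.B₁ := by
    refine mem_chartRing_of_pow _ _ hn ?_
    rw [← hrel]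
    exact mul_mem (algebraMap_mem_chartRing _ _ hκ₁) (hNd true d.2)
  obtain ⟨ha0, Ga, hGa, hGa2⟩ := T.res_norm hw hNa0 hNa1
  have r0 : T.Res₀ (H₁ * Na) (HahnSeries.C η₀ * ((w 0 : LaurentSeries k) *
      (w 1 : LaurentSeries k) ^ (q - 1))) := by
    show HasGaussRed π _ _; rw [map_mul]; exact hH₁0.mul ha0
  have r1 : T.Res₁ (H₁ * Na) (HahnSeries.C η₁ * Ga) := by
    show HasGaussRed π _ _; rw [map_mul, map_mul]; exact hH₁1.mul hGa
  have e2 : T.Res₂ 2 (T.α' (H₁ * Na)) (qExpand k q (HahnSeries.C η₁ * Ga)) := T.res₂_α'₁ r1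
  rw [map_mul (qExpand k q), qExpand_C, hGa2] at e2
  have hmem : T.α' (H₁ * Na) ∈ T.B₂ true := map_mem_chartRing T.α' hr
  have e := T.ev_eq_of_ker_eq hp ⟨_, hmem⟩
  rw [T.ev_eq' p (algebraMap k (T.R true) η₀ * (w 0 * w 1 ^ (q - 1))) (x := T.α' (H₁ * Na)) rfl
      ((T.res₂_α'₀ r0).1)
      (by rw [Subring.coe_mul, Subring.coe_mul, SubmonoidClass.coe_pow, coe_algebraMap_R]),
    T.ev_eq' p (algebraMap k (T.R true) η₁ * w 2 ^ q) (x := T.α' (H₁ * Na)) rfl e2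
      (by rw [Subring.coe_mul, SubmonoidClass.coe_pow, coe_algebraMap_R])] at e
  simp only [map_mul, map_pow, AlgHom.commutes, Algebra.algebraMap_self, RingHom.id_apply] at e
  rw [div_mul_eq_mul_div, eq_div_iff hη₀, ← e]
  ring

/-- The relation coming from the norm along `β'`. -/
theorem crossing_rel' {n : ℕ} (hn : n ≠ 0) {f : T.F₂} {Nf' H₂ : T.F₁} {κ₂ : K}
    (hNf'1 : T.i₁ (T.W Nf') = T.e₂ f *
      ∏ c : (ZMod q)ˣ, coeffMap (T.σ c : K' →+* K') (Igusa.twist T.ζ⁻¹ (T.eₘ f)))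
    (hκ₂ : κ₂⁻¹ ∈ baseRing A K) (hκ₂0 : κ₂ ≠ 0) (hN₂ : algebraMap K T.F₁ κ₂ * H₂ ^ n = Nf')
    {θ₀ θ₁ : k} (hθ₁ : θ₁ ≠ 0) (hH₂0 : T.Res₀ H₂ (HahnSeries.C θ₀))
    (hH₂1 : T.Res₁ H₂ (HahnSeries.C θ₁)) (a : T.F₂) (d : T.B₂ true) (w : Fin 3 → T.R true)
    (p : T.R true →ₐ[k] k) (had : a ^ n * f = d)
    (hw : ∀ i, T.Res₂ i a (w i : LaurentSeries k))
    (hp : RingHom.ker (T.ev true 2 p) = RingHom.ker (T.ev true 0 p)) :
    p (w 2) * p (w 1) ^ (q - 1) = θ₀ / θ₁ * p (w 0) ^ q := by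
  obtain ⟨Na, hNa1, hNa0, -⟩ := T.exists_norm' a
  obtain ⟨Nd, hNd1, -, hNd⟩ := T.exists_norm' (d : T.F₂)
  have hrel : algebraMap K T.F₁ κ₂⁻¹ * Nd = (H₂ * Na) ^ n := by
    have e : Nd = Nf' * Na ^ n := T.W_inj (T.i₁.injective (by
      rw [map_mul T.W, map_pow T.W, map_mul, map_pow, hNd1, hNf'1, hNa1, ← had]
      simp only [map_mul, map_pow, Finset.prod_mul_distrib, Finset.prod_pow, mul_pow]
      ring))
    rw [e, ← hN₂, ← mul_assoc, ← mul_assoc, ← map_mul, inv_mul_cancel₀ hκ₂0, map_one, one_mul,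
      mul_pow]
  have hr : H₂ * Na ∈ T.B₁ := by
    refine mem_chartRing_of_pow _ _ hn ?_
    rw [← hrel]
    exact mul_mem (algebraMap_mem_chartRing _ _ hκ₂) (hNd d.2)
  obtain ⟨ha1, Ga, hGa, hGa2⟩ := T.res_norm' hw hNa1 hNa0
  have r0 : T.Res₀ (H₂ * Na) (HahnSeries.C θ₀ * Ga) := by
    show HasGaussRed π _ _; rw [map_mul]; exact hH₂0.mul hGa
  have r1 : T.Res₁ (H₂ * Na) (HahnSeries.C θ₁ * ((w 2 : LaurentSeries k) *
      (w 1 : LaurentSeries k) ^ (q - 1))) := by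
    show HasGaussRed π _ _; rw [map_mul, map_mul]; exact hH₂1.mul ha1
  have e0 : T.Res₂ 0 (T.β' (H₂ * Na)) (qExpand k q (HahnSeries.C θ₀ * Ga)) := T.res₂_β'₀ r0
  rw [map_mul (qExpand k q), qExpand_C, hGa2] at e0
  have e := T.ev_eq_of_ker_eq (hp) ⟨_, T.β'_mem hr⟩
  rw [T.ev_eq' p (algebraMap k (T.R true) θ₁ * (w 2 * w 1 ^ (q - 1))) (x := T.β' (H₂ * Na)) rfl
      ((T.res₂_β'₁ r1).2)
      (by rw [Subring.coe_mul, Subring.coe_mul, SubmonoidClass.coe_pow, coe_algebraMap_R]),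
    T.ev_eq' p (algebraMap k (T.R true) θ₀ * w 0 ^ q) (x := T.β' (H₂ * Na)) rfl e0
      (by rw [Subring.coe_mul, SubmonoidClass.coe_pow, coe_algebraMap_R])] at e
  simp only [map_mul, map_pow, AlgHom.commutes, Algebra.algebraMap_self, RingHom.id_apply] at e
  rw [div_mul_eq_mul_div, eq_div_iff hθ₁, ← e]
  ring

/-- The two roots of unity relating the values of local roots where the branches meet. -/
theorem exists_crossing_constants {n : ℕ} (hn : n ≠ 0) {f : T.F₂} (h1 : ∀ i, T.Res₂ i f 1)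
    (hnorm : T.NormsArePowers n f) :
    ∃ lam mu : k, lam ≠ 0 ∧ mu ≠ 0 ∧ lam ^ n = 1 ∧ mu ^ n = 1 ∧
      ∀ (a : T.F₂) (d : T.B₂ true) (w : Fin 3 → T.R true) (p : T.R true →ₐ[k] k),
        a ^ n * f = d → (∀ i, T.Res₂ i a (w i : LaurentSeries k)) →
        (∀ i, RingHom.ker (T.ev true i p) = RingHom.ker (T.ev true 0 p)) →
        p (w 0) * p (w 1) ^ (q - 1) = lam * p (w 2) ^ q ∧
          p (w 2) * p (w 1) ^ (q - 1) = mu * p (w 0) ^ q := by
  obtain ⟨⟨H, κ, hκ, hH⟩, ⟨H', κ', hκ', hH'⟩⟩ := hnorm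
  obtain ⟨Nf, hNf0, hNf1, -⟩ := T.exists_norm f
  obtain ⟨Nf', hNf'1, hNf'0, -⟩ := T.exists_norm' f
  have hN : algebraMap K T.F₁ κ * H ^ n = Nf := T.i₁.injective (by
    rw [map_mul, T.i₁_algebraMap, map_pow, hNf0, hH])
  have hN' : algebraMap K T.F₁ κ' * H' ^ n = Nf' := T.W_inj (T.i₁.injective (by
    rw [map_mul T.W, AlgHom.commutes, map_pow, map_mul, T.i₁_algebraMap, map_pow, hNf'1, hH']))
  obtain ⟨hr0, G, hG, hG2⟩ := T.res_norm (g := fun _ => 1) h1 hNf0 hNf1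
  obtain ⟨hr1', G', hG', hG'2⟩ := T.res_norm' (g := fun _ => 1) h1 hNf'1 hNf'0
  simp only [one_pow, mul_one] at hr0 hr1' hG2 hG'2
  rw [← map_one (qExpand k q), (qExpand_injective q).eq_iff] at hG2 hG'2
  subst hG2 hG'2
  obtain ⟨H₁, κ₁, η₀, η₁, hκ₁, hκ₁0, hN₁, hη₀, hη₁, hη, hH₁0, hH₁1⟩ :=
    T.exists_normalised_root hn hκ hN hr0 hG
  obtain ⟨H₂, κ₂, θ₀, θ₁, hκ₂, hκ₂0, hN₂, hθ₀, hθ₁, hθ, hH₂0, hH₂1⟩ :=
    T.exists_normalised_root hn hκ' hN' hG' hr1'
  refine ⟨η₁ / η₀, θ₀ / θ₁, div_ne_zero hη₁ hη₀, div_ne_zero hθ₀ hθ₁,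
    by rw [div_pow, ← hη, div_self (pow_ne_zero n hη₀)],
    by rw [div_pow, hθ, div_self (pow_ne_zero n hθ₁)], fun a d w p had hw hp => ⟨?_, ?_⟩⟩
  · exact T.crossing_rel hn hNf0 hκ₁ hκ₁0 hN₁ hη₀ hH₁0 hH₁1 a d w p had hw
      ((hp 0).trans (hp 2).symm)
  · exact T.crossing_rel' hn hNf'1 hκ₂ hκ₂0 hN₂ hθ₁ hH₂0 hH₂1 a d w p had hw
      ((hp 2).trans (hp 0).symm)

/-- A point off `t = 0` seen in the other chart. -/
theorem exists_ev_flip {b b' : Bool} (hb : b' = !b) {i : Fin 3} {p : T.R b →ₐ[k] k}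
    (hu : T.ev b i p (T.tB b) ≠ 0) :
    ∃ p' : T.R b' →ₐ[k] k,
      (∀ (L : ℕ) (g : T.B₂ b) (g' : T.B₂ b'), (g : T.F₂) = T.t₂ b ^ L * (g' : T.F₂) →
        T.ev b i p g = T.ev b i p (T.tB b) ^ L * T.ev b' i p' g') ∧
      ∀ (L : ℕ) (g : T.R b) (g' : T.R b'), (g : LaurentSeries k) =
        (coord b ^ coordExp (q := q) i) ^ L * (g' : LaurentSeries k) →
        p g = T.ev b i p (T.tB b) ^ L * p' g' := by
  subst hb
  obtain ⟨p', hp'⟩ := T.exists_point_flip p (fun h0 => hu (by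
    rw [ev_tB, h0, zero_pow]; unfold coordExp; split_ifs
    · exact pow_ne_zero 2 (Fact.out : q.Prime).ne_zero
    · exact one_ne_zero))
  have h2 : ∀ (L : ℕ) (g : T.R b) (g' : T.R (!b)), (g : LaurentSeries k) =
      (coord b ^ coordExp (q := q) i) ^ L * (g' : LaurentSeries k) →
      p g = T.ev b i p (T.tB b) ^ L * p' g' := fun L g g' h => by
    rw [ev_tB, ← pow_mul]
    exact hp' g g' _ (by rw [h, ← pow_mul])
  refine ⟨p', fun L g g' h => h2 L (T.red b g i) (T.red (!b) g' i) ?_, h2⟩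
  refine (T.res₂_red b g i).unique ?_
  show HasGaussRed π (T.e i (g : T.F₂)) _
  rw [h, map_mul, map_pow]
  exact ((T.res₂_t₂' b i).pow L).mul (T.res₂_red (!b) g' i)

/-- A root on one chart moved to the other by a power of the coordinate. -/
theorem exists_root_flip {n : ℕ} (hn : n ≠ 0) {f : T.F₂} {b b' : Bool} (hb : b' = !b) {a : T.F₂} {d : T.B₂ b}
    (had : a ^ n * f = d) : ∃ (L : ℕ) (d' : T.B₂ b'),
      (T.t₂ b' ^ L * a) ^ n * f = d' ∧ (d : T.F₂) = T.t₂ b ^ (L * n) * (d' : T.F₂) := by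
  subst hb
  obtain ⟨L, hL⟩ := T.exists_pow_mul_mem_B₂ b d
  obtain ⟨m, hm⟩ := Nat.exists_eq_add_of_le (Nat.le_mul_of_pos_right L (Nat.pos_of_ne_zero hn))
  have hmem : T.t₂ (!b) ^ (L * n) * (d : T.F₂) ∈ T.B₂ (!b) := by
    rw [hm, pow_add, mul_comm (T.t₂ (!b) ^ L), mul_assoc]
    exact mul_mem (pow_mem (self_mem_chartRing _ _) m) hL
  refine ⟨L, ⟨_, hmem⟩, ?_, ?_⟩
  · rw [mul_pow, mul_assoc, had, ← pow_mul]
  · show (d : T.F₂) = T.t₂ b ^ (L * n) * (T.t₂ (!b) ^ (L * n) * (d : T.F₂))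
    rw [T.t₂_not, ← mul_assoc, ← mul_pow, mul_inv_cancel₀ (T.t₂_ne_zero b), one_pow, one_mul]

/-- After the exponent `q² - 1` the local roots have branch values proportional to one vector of
roots of unity. -/
theorem exists_branch_values {n : ℕ} (hn : 0 < n) {f : T.F₂} (hf : f ≠ 0)
    (h1 : ∀ i, T.Res₂ i f 1) (hfin : IsPowerAway (K := K) T.x₂ n f)
    (hinf : IsPowerAway (K := K) T.x₂⁻¹ n f) (hnorm : T.NormsArePowers n f) :
    ∃ c : Fin 3 → k, (∀ i, c i ^ n = 1) ∧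
      ∀ (b : Bool) (M : Ideal (T.B₂ b)), M.IsMaximal → (q : T.B₂ b) ∈ M →
        ∃ (a : T.F₂) (d : T.B₂ b) (w : Fin 3 → T.R b), d ∉ M ∧
          a ^ n * f ^ (q ^ 2 - 1) = d ∧ (∀ i, T.Res₂ i a (w i : LaurentSeries k)) ∧
          ∀ (i i' : Fin 3) (p p' : T.R b →ₐ[k] k), RingHom.ker (T.ev b i p) = M →
            RingHom.ker (T.ev b i' p') = M → c i' * p (w i) = c i * p' (w i') := by
  have hn0 : n ≠ 0 := hn.ne'
  have hq1 : 1 ≤ q := (Fact.out : q.Prime).one_lt.le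
  have hE : q ^ 2 - 1 ≠ 0 := by
    have : 2 ^ 2 ≤ q ^ 2 := Nat.pow_le_pow_left (Fact.out : q.Prime).two_le 2
    omega
  obtain ⟨lam, mu, hlam, hmu, hlamn, hmun, hcross⟩ := T.exists_crossing_constants hn0 h1 hnorm
  set c : Fin 3 → k := ![(lam * mu ^ q)⁻¹, 1, (mu * lam ^ q)⁻¹]
  have hval : ∀ i, T.HasVal i f 0 := fun i => T.hasVal_zero_iff.2 ⟨1, one_ne_zero, h1 i⟩
  refine ⟨c, fun i => ?_, fun b M hM hqM => ?_⟩
  · fin_cases i <;>
      simp [c, inv_pow, mul_pow, ← pow_mul, mul_comm q n, pow_mul lam, pow_mul mu, hlamn, hmun]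
  -- the relation where three branches meet
  have hpow : ∀ (a : T.F₂) (d : T.B₂ true) (w : Fin 3 → T.R true) (p : T.R true →ₐ[k] k),
      a ^ n * f = d → (∀ i, T.Res₂ i a (w i : LaurentSeries k)) → T.ev true 0 p d ≠ 0 →
      (∀ i, RingHom.ker (T.ev true i p) = RingHom.ker (T.ev true 0 p)) →
      ∀ i, p (w i) ^ (q ^ 2 - 1) = c i * p (w 1) ^ (q ^ 2 - 1) := by
    intro a d w p had hw hd hker
    obtain ⟨e1, e2⟩ := hcross a d w p had hw hker
    obtain ⟨w', hw', hw'd⟩ := T.exists_root_residues hn0 hf h1 had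
    have hne : ∀ i, p (w i) ≠ 0 := fun i e => hd (by
      rw [T.ev_eq_of_ker_eq (hker i).symm, ← hw'd,
        show w' i = w i from Subtype.ext ((hw' i).unique (hw i)), e, zero_pow hn0])
    intro i
    fin_cases i
    · simpa [c] using pow_sq_sub_one_eq hq1 (hne 0) hmu e1 e2
    · simp [c]
    · simpa [c] using pow_sq_sub_one_eq hq1 (hne 2) hlam e2 e1
  -- a root near `M`
  obtain ⟨a, d, hdM, had⟩ : ∃ (a : T.F₂) (d : T.B₂ b), d ∉ M ∧ a ^ n * f = d := by
    cases b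
    · by_cases hx : ∀ g : T.B₂ false, (g : T.F₂) = T.x₂⁻¹ → g ∈ M
      · obtain ⟨u, v, huv⟩ := T.exists_pair_cusp M hqM hx
        exact T.exists_localRoot false M hqM huv hn0 hf hval hinf
      · obtain ⟨i, p, hip⟩ := T.exists_ker_ev_eq false M hqM
        have hu : T.ev false i p (T.tB false) ≠ 0 := fun e => hx fun g hg => by
          rw [show g = T.tB false from Subtype.ext hg, ← hip]
          exact e
        obtain ⟨p', hp', -⟩ := T.exists_ev_flip (b' := true) rfl hu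
        have hmax : (RingHom.ker (T.ev true i p')).IsMaximal := T.ker_ev_isMaximal true i p'
        obtain ⟨u, v, huv⟩ := T.exists_pair_fin _ (T.natCast_mem_ker_ev true i p')
        obtain ⟨a', d', hd', had'⟩ := T.exists_localRoot true _ (T.natCast_mem_ker_ev true i p')
          huv hn0 hf hval hfin
        obtain ⟨L, d, had, hdd⟩ := T.exists_root_flip (b' := false) hn0 rfl had'
        refine ⟨_, d, fun hdm => hd' ?_, had⟩
        have h2 : (d : T.F₂) = T.t₂ false ^ (L * n) * (d' : T.F₂) := by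
          have e1 : (d' : T.F₂) = T.t₂ true ^ (L * n) * (d : T.F₂) := hdd
          rw [e1, show T.t₂ false = (T.t₂ true)⁻¹ from T.t₂_not true, ← mul_assoc, ← mul_pow,
            inv_mul_cancel₀ (T.t₂_ne_zero true), one_pow, one_mul]
        have e := hp' _ d d' h2
        rw [← hip, RingHom.mem_ker, e] at hdm
        exact (mul_eq_zero.1 hdm).resolve_left (pow_ne_zero _ hu)
    · obtain ⟨u, v, huv⟩ := T.exists_pair_fin M hqM
      exact T.exists_localRoot true M hqM huv hn0 hf hval hfin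
  obtain ⟨w, hw, hwd⟩ := T.exists_root_residues hn0 hf h1 had
  refine ⟨a ^ (q ^ 2 - 1), d ^ (q ^ 2 - 1), fun i => w i ^ (q ^ 2 - 1),
    fun h => hdM (hM.isPrime.mem_of_pow_mem _ h), ?_, fun i => ?_, fun i i' p p' hi hi' => ?_⟩
  · rw [← pow_mul, mul_comm _ n, pow_mul, ← mul_pow, had, SubmonoidClass.coe_pow]
  · show HasGaussRed π _ _
    rw [map_pow, SubmonoidClass.coe_pow]
    exact (hw i).pow _
  show c i' * p (w i ^ (q ^ 2 - 1)) = c i * p' (w i' ^ (q ^ 2 - 1))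
  rw [map_pow, map_pow]
  by_cases hii : i = i'
  · subst hii
    rw [T.ev_injective (hi.trans hi'.symm)]
  cases b
  · by_cases hx : ∀ g : T.B₂ false, (g : T.F₂) = T.x₂⁻¹ → g ∈ M
    · exact absurd (T.cusp_unique M hx hi hi') hii
    have hu : T.ev false i p (T.tB false) ≠ 0 := fun e => hx fun g hg => by
      rw [show g = T.tB false from Subtype.ext hg, ← hi]
      exact e
    have huu := T.ev_eq_of_ker_eq (hi.trans hi'.symm)
    obtain ⟨r, hr, hr2⟩ := T.exists_ev_flip (b' := true) rfl hu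
    obtain ⟨r', hr', hr2'⟩ := T.exists_ev_flip (b' := true) rfl (huu (T.tB false) ▸ hu)
    have hker : RingHom.ker (T.ev true i r) = RingHom.ker (T.ev true i' r') := by
      ext g
      obtain ⟨L, hL⟩ := T.exists_pow_mul_mem_B₂ true g
      have e1 := hr L ⟨_, hL⟩ g rfl
      have e2 := hr' L ⟨_, hL⟩ g rfl
      rw [huu, e2, huu] at e1
      rw [RingHom.mem_ker, RingHom.mem_ker,
        mul_left_cancel₀ (pow_ne_zero L (huu (T.tB false) ▸ hu)) e1]
    have hmax := T.ker_ev_isMaximal true i r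
    obtain ⟨pc, hpc⟩ := T.exists_common_point _ (T.isCrossing_of_two _ rfl hker.symm hii)
    obtain ⟨L, d', had', hdd⟩ := T.exists_root_flip (b' := true) hn0 rfl had
    obtain ⟨w', hw', -⟩ := T.exists_root_residues hn0 hf h1 had'
    have e : pc = r := T.ev_injective (hpc i)
    have e' : pc = r' := T.ev_injective ((hpc i').trans hker)
    subst e
    subst e'
    have hwl : ∀ l, (w l : LaurentSeries k) =
        (coord false ^ coordExp (q := q) l) ^ L * (w' l : LaurentSeries k) := fun l => by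
      refine (hw l).unique ?_
      have h : HasGaussRed π (T.e l (T.t₂ false) ^ L * T.e l (T.t₂ true ^ L * a))
          ((coord false ^ coordExp (q := q) l) ^ L * (w' l : LaurentSeries k)) :=
        ((T.res₂_t₂' false l).pow L).mul (hw' l)
      rwa [← map_pow, ← map_mul, ← mul_assoc, ← mul_pow,
        show T.t₂ false = (T.t₂ true)⁻¹ from T.t₂_not true,
        inv_mul_cancel₀ (T.t₂_ne_zero true), one_pow, one_mul] at h
    have hd0 : T.ev true 0 pc d' ≠ 0 := by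
      rw [T.ev_eq_of_ker_eq ((hpc 0).trans (hpc i).symm)]
      intro e0
      refine hdM ?_
      rw [← hi, RingHom.mem_ker, hr _ d d' hdd, e0, mul_zero]
    have hc := hpow _ d' w' pc had' hw' hd0 fun l => (hpc l).trans (hpc 0).symm
    rw [hr2 L _ _ (hwl i), hr2' L _ _ (hwl i'), ← huu (T.tB false), mul_pow, mul_pow, hc i, hc i']
    ring
  · have hM' := hM
    obtain ⟨pc, hpc⟩ := T.exists_common_point M (T.isCrossing_of_two M hi hi' hii)
    obtain rfl := T.ev_injective ((hpc i).trans hi.symm)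
    obtain rfl := T.ev_injective ((hpc i').trans hi'.symm)
    have hd0 : T.ev true 0 pc d ≠ 0 := fun e0 => hdM (by rw [← hpc 0]; exact e0)
    have hc := hpow a d w pc had hw hd0 fun l => (hpc l).trans (hpc 0).symm
    rw [hc i, hc i']
    ring

end SqTower

end Fermat.Agent.BadPrime.Sq

end
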