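import Fermat.Agent.BadPrime.Sq.Setup
import Fermat.Agent.BadPrime.GaussLaurent
import Mathlib.Algebra.MvPolynomial.CommRing
import Mathlib.FieldTheory.PurelyInseparable.PerfectClosure
import Mathlib.FieldTheory.KummerPolynomial
import Mathlib.FieldTheory.Minpoly.Field

/-!
# Differentials on the special fibre in characteristic `q`

`G = (θ t) ^ (q - 1)` has no simple pole at a point where `t` is a uniformiser.

With `P = 1 - θ ^ (q - 1)`, the projection onto the series in `Q ^ q`, we have `P ∘ θ = 0` and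
`P (t ^ (q - 1) θ t) = (θ t) ^ q`.  Writing `G = ∑_{i < q} gᵢ tⁱ` with `gᵢ` a `q`-th power in the
field and applying `P` to `(θ t) ^ q = G θ t` gives `g_{q - 1} = 1`, so `G t` has no term of
valuation one.
-/

set_option autoImplicit false

noncomputable section

open ModularCurve Polynomial
open scoped IntermediateField

namespace Fermat.Agent.BadPrime.Sq

section Cartier

variable {q : ℕ} [Fact q.Prime] {k : Type} [Field k] [CharP k q]

/-- The series `∑ xₙ Qⁿ` restricted to the exponents divisible by `q`. -/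
def cartierProj (q : ℕ) (x : LaurentSeries k) : LaurentSeries k :=
  x - (Reduction.qDeriv)^[q - 1] x

theorem qDeriv_iterate_coeff (m : ℕ) (x : LaurentSeries k) (n : ℤ) :
    ((Reduction.qDeriv)^[m] x).coeff n = (n : k) ^ m * x.coeff n := by
  induction m with
  | zero => simp
  | succ m ih => rw [Function.iterate_succ_apply', Reduction.qDeriv_coeff, ih, pow_succ]; ring

theorem cartierProj_coeff_of_dvd (x : LaurentSeries k) {n : ℤ} (h : (q : ℤ) ∣ n) :
    (cartierProj q x).coeff n = x.coeff n := by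
  have h0 : ((n : ℤ) : k) = 0 := (CharP.intCast_eq_zero_iff k q n).2 h
  have hq : q - 1 ≠ 0 := Nat.sub_ne_zero_of_lt (Fact.out : q.Prime).one_lt
  rw [cartierProj, HahnSeries.coeff_sub, qDeriv_iterate_coeff, h0, zero_pow hq, zero_mul, sub_zero]

theorem cartierProj_coeff_of_not_dvd (x : LaurentSeries k) {n : ℤ} (h : ¬(q : ℤ) ∣ n) :
    (cartierProj q x).coeff n = 0 := by
  have h0 : (n : ZMod q) ≠ 0 := fun e => h ((ZMod.intCast_zmod_eq_zero_iff_dvd n q).1 e)
  have h1 := congrArg (ZMod.castHom (dvd_refl q) k) (ZMod.pow_card_sub_one_eq_one h0)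
  rw [map_pow, map_intCast, map_one] at h1
  rw [cartierProj, HahnSeries.coeff_sub, qDeriv_iterate_coeff, h1, one_mul, sub_self]

theorem cartierProj_add (x y : LaurentSeries k) :
    cartierProj q (x + y) = cartierProj q x + cartierProj q y := by
  rw [cartierProj, cartierProj, cartierProj, iterate_map_add]
  abel

theorem cartierProj_sum {ι : Type*} (s : Finset ι) (x : ι → LaurentSeries k) :
    cartierProj q (∑ i ∈ s, x i) = ∑ i ∈ s, cartierProj q (x i) :=
  map_sum (AddMonoidHom.mk' (cartierProj q) cartierProj_add) x s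

theorem cartierProj_qDeriv (x : LaurentSeries k) : cartierProj q (Reduction.qDeriv x) = 0 := by
  ext n
  rw [HahnSeries.coeff_zero]
  by_cases h : (q : ℤ) ∣ n
  · rw [cartierProj_coeff_of_dvd _ h, Reduction.qDeriv_coeff,
      (CharP.intCast_eq_zero_iff k q n).2 h, zero_mul]
  · exact cartierProj_coeff_of_not_dvd _ h

theorem qDeriv_pow_char (y : LaurentSeries k) : Reduction.qDeriv (y ^ q) = 0 := by
  have hp : ((q : ℕ) : LaurentSeries k) = 0 := by
    rw [← map_natCast (HahnSeries.C (Γ := ℤ) (R := k)), CharP.cast_eq_zero, map_zero]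
  rw [Reduction.qDeriv_pow, hp, zero_mul, zero_mul]

theorem cartierProj_pow_mul (y x : LaurentSeries k) :
    cartierProj q (y ^ q * x) = y ^ q * cartierProj q x := by
  have h : ∀ m : ℕ, (Reduction.qDeriv)^[m] (y ^ q * x) =
      y ^ q * (Reduction.qDeriv)^[m] x := by
    intro m
    induction m with
    | zero => rfl
    | succ m ih =>
      rw [Function.iterate_succ_apply', Function.iterate_succ_apply', ih, Reduction.qDeriv_mul,
        qDeriv_pow_char, zero_mul, zero_add]
  rw [cartierProj, cartierProj, h, mul_sub]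

theorem pow_char_coeff_mul (x : LaurentSeries k) (m : ℤ) :
    (x ^ q).coeff ((q : ℤ) * m) = x.coeff m ^ q := by
  rw [pow_char_eq_qExpand, qExpand_coeff_mul, coeffMap_coeff, frobenius_def]

theorem pow_char_coeff_of_not_dvd (x : LaurentSeries k) {n : ℤ} (h : ¬(q : ℤ) ∣ n) :
    (x ^ q).coeff n = 0 := by
  rw [pow_char_eq_qExpand, qExpand_coeff_of_not_dvd q _ h]

theorem cartierProj_pow (y : LaurentSeries k) : cartierProj q (y ^ q) = y ^ q := by
  ext n
  by_cases h : (q : ℤ) ∣ n
  · rw [cartierProj_coeff_of_dvd _ h]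
  · rw [cartierProj_coeff_of_not_dvd _ h, pow_char_coeff_of_not_dvd _ h]

/-- Series lift to characteristic zero. -/
theorem exists_lift_laurent (x : LaurentSeries k) :
    ∃ X : LaurentSeries (MvPolynomial k ℤ), coeffMap (MvPolynomial.aeval id).toRingHom X = x := by
  classical
  refine ⟨⟨fun n => if x.coeff n = 0 then 0 else MvPolynomial.X (x.coeff n),
    x.isPWO_support.mono fun n hn h => hn (if_pos h)⟩, ?_⟩
  ext n
  rw [coeffMap_coeff]
  show MvPolynomial.aeval id (if x.coeff n = 0 then 0 else MvPolynomial.X (x.coeff n)) = x.coeff n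
  split_ifs with h
  · rw [map_zero, h]
  · rw [MvPolynomial.aeval_X]; rfl

/-- The coefficients of `t ^ (q - 1) θ t` at the multiples of `q`. -/
theorem pow_pred_mul_qDeriv_coeff (t : LaurentSeries k) (m : ℤ) :
    (t ^ (q - 1) * Reduction.qDeriv t).coeff ((q : ℤ) * m) = (m : k) * t.coeff m ^ q := by
  obtain ⟨T, rfl⟩ := exists_lift_laurent t
  set π := (MvPolynomial.aeval (R := ℤ) (id : k → k)).toRingHom
  have hq : (q : MvPolynomial k ℤ) ≠ 0 := Nat.cast_ne_zero.2 (Fact.out : q.Prime).ne_zero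
  have h := congrArg (fun x : LaurentSeries (MvPolynomial k ℤ) => x.coeff ((q : ℤ) * m))
    (Reduction.qDeriv_pow T q)
  rw [Reduction.qDeriv_coeff, mul_assoc,
    ← map_natCast (HahnSeries.C (Γ := ℤ) (R := MvPolynomial k ℤ)), HahnSeries.C_apply,
    HahnSeries.coeff_single_zero_mul, Int.cast_mul, Int.cast_natCast, mul_assoc] at h
  have h2 := congrArg π (mul_left_cancel₀ hq h)
  rw [map_mul, map_intCast, ← coeffMap_coeff π, ← coeffMap_coeff π, map_pow, map_mul, map_pow,
    Reduction.coeffMap_qDeriv, pow_char_coeff_mul] at h2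
  exact h2.symm

theorem intCast_pow_char (m : ℤ) : (m : k) ^ q = (m : k) := by
  have h := congrArg (ZMod.castHom (dvd_refl q) k) (ZMod.pow_card (m : ZMod q))
  rwa [map_pow, map_intCast] at h

/-- `P (t ^ (q - 1) θ t) = (θ t) ^ q`. -/
theorem cartierProj_pow_pred_mul_qDeriv (t : LaurentSeries k) :
    cartierProj q (t ^ (q - 1) * Reduction.qDeriv t) = Reduction.qDeriv t ^ q := by
  ext n
  by_cases h : (q : ℤ) ∣ n
  · obtain ⟨m, rfl⟩ := h
    rw [cartierProj_coeff_of_dvd _ (dvd_mul_right _ _), pow_pred_mul_qDeriv_coeff,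
      pow_char_coeff_mul, Reduction.qDeriv_coeff, mul_pow, intCast_pow_char]
  · rw [cartierProj_coeff_of_not_dvd _ h, pow_char_coeff_of_not_dvd _ h]

theorem natCast_ne_zero_of_lt {i : ℕ} (h : i < q) (h0 : i ≠ 0) : (i : k) ≠ 0 := fun e =>
  absurd (Nat.le_of_dvd (Nat.pos_of_ne_zero h0) ((CharP.cast_eq_zero_iff k q i).1 e)) (not_le.2 h)

/-- `P (tⁱ θ t) = 0` below `q - 1`. -/
theorem cartierProj_pow_mul_qDeriv (t : LaurentSeries k) {i : ℕ} (hi : i + 1 < q) :
    cartierProj q (t ^ i * Reduction.qDeriv t) = 0 := by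
  have hc : ((i + 1 : ℕ) : k) ≠ 0 := natCast_ne_zero_of_lt hi i.succ_ne_zero
  have h : Reduction.qDeriv (HahnSeries.C ((i + 1 : ℕ) : k)⁻¹ * t ^ (i + 1)) =
      t ^ i * Reduction.qDeriv t := by
    rw [Reduction.qDeriv_mul, Reduction.qDeriv_C, zero_mul, zero_add, Reduction.qDeriv_pow,
      Nat.add_sub_cancel, ← map_natCast (HahnSeries.C (Γ := ℤ) (R := k)), ← mul_assoc, ← mul_assoc,
      ← map_mul, inv_mul_cancel₀ hc, map_one, one_mul]
  rw [← h, cartierProj_qDeriv]

/-- The top coefficient of `(θ t) ^ (q - 1)` in the basis `tⁱ` over the `q`-th powers. -/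
theorem coeff_top_eq_one (t : LaurentSeries k) (hdt : Reduction.qDeriv t ≠ 0)
    (h : Fin q → LaurentSeries k)
    (hG : Reduction.qDeriv t ^ (q - 1) = ∑ i : Fin q, h i ^ q * t ^ (i : ℕ)) :
    h ⟨q - 1, Nat.sub_lt (Fact.out : q.Prime).pos one_pos⟩ ^ q = 1 := by
  classical
  set j : Fin q := ⟨q - 1, Nat.sub_lt (Fact.out : q.Prime).pos one_pos⟩ with hj
  have h1 : cartierProj q (Reduction.qDeriv t ^ (q - 1) * Reduction.qDeriv t) =
      Reduction.qDeriv t ^ q := by
    rw [← pow_succ, Nat.sub_add_cancel (Fact.out : q.Prime).one_le, cartierProj_pow]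
  rw [hG, Finset.sum_mul, cartierProj_sum, Finset.sum_eq_single j] at h1
  · rw [mul_assoc, cartierProj_pow_mul] at h1
    rw [show ((j : Fin q) : ℕ) = q - 1 from rfl, cartierProj_pow_pred_mul_qDeriv] at h1
    exact mul_right_cancel₀ (pow_ne_zero q hdt) (by rw [h1, one_mul])
  · intro i _ hi
    rw [mul_assoc, cartierProj_pow_mul, cartierProj_pow_mul_qDeriv t, mul_zero]
    have : (i : ℕ) ≠ q - 1 := fun e => hi (Fin.ext e)
    have := i.2
    omega
  · exact fun hh => absurd (Finset.mem_univ j) hh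

end Cartier

section Basis

variable {q : ℕ} [Fact q.Prime] {k : Type} [Field k] [CharP k q] [IsAlgClosed k]

instance charP_laurentSeries_sq : CharP (LaurentSeries k) q :=
  charP_of_injective_ringHom (HahnSeries.C_injective (Γ := ℤ) (R := k)) q

/-- The subfield of `q`-th powers. -/
def powField (q : ℕ) [Fact q.Prime] [CharP k q] (X : IntermediateField k (LaurentSeries k)) :
    Subfield (LaurentSeries k) :=
  X.toSubfield.map (frobenius (LaurentSeries k) q)

omit [IsAlgClosed k] in
theorem mem_powField {X : IntermediateField k (LaurentSeries k)} {y : LaurentSeries k} :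
    y ∈ powField q X ↔ ∃ x ∈ X, x ^ q = y :=
  Subfield.mem_map

/-- `X = X^q(j)`. -/
theorem le_adjoin_powField {X : IntermediateField k (LaurentSeries k)} {x : LaurentSeries k}
    (hsep : ∀ g ∈ X, IsSeparable (IntermediateField.adjoin k {x}) g) {g : LaurentSeries k}
    (hg : g ∈ X) : g ∈ IntermediateField.adjoin (powField q X) {x} := by
  set E := IntermediateField.adjoin (powField q X) {x} with hE
  have hF : ∀ y ∈ powField q X, y ∈ E := fun y hy =>
    IntermediateField.algebraMap_mem E (⟨y, hy⟩ : powField q X)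
  have hle : ∀ y, y ∈ IntermediateField.adjoin k {x} → y ∈ E := by
    intro y hy
    induction hy using IntermediateField.adjoin_induction with
    | mem z hz => exact IntermediateField.subset_adjoin _ _ hz
    | algebraMap c =>
      obtain ⟨b, rfl⟩ := IsAlgClosed.exists_pow_nat_eq c (Fact.out : q.Prime).pos
      exact hF _ (mem_powField.2 ⟨algebraMap k _ b, X.algebraMap_mem b, (map_pow _ _ _).symm⟩)
    | add a b _ _ ha hb => exact add_mem ha hb
    | inv a _ ha => exact inv_mem ha
    | mul a b _ _ ha hb => exact mul_mem ha hb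
  let ι : IntermediateField.adjoin k {x} →+* E :=
    { toFun := fun y => ⟨y, hle y y.2⟩
      map_one' := rfl
      map_mul' := fun _ _ => rfl
      map_zero' := rfl
      map_add' := fun _ _ => rfl }
  have hs : IsSeparable E g := by
    refine Polynomial.Separable.of_dvd
      (Polynomial.Separable.map (f := ι) (hsep g hg)) (minpoly.dvd _ _ ?_)
    rw [aeval_def, eval₂_map]
    exact minpoly.aeval (IntermediateField.adjoin k {x}) g
  have : CharP E q := (algebraMap E (LaurentSeries k)).charP (RingHom.injective _) q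
  have : ExpChar E q := ExpChar.prime Fact.out
  have h := IntermediateField.adjoin_simple_eq_adjoin_pow_expChar_of_isSeparable
    E (LaurentSeries k) hs q
  have hgm : g ∈ E⟮g ^ q⟯ := h ▸ IntermediateField.mem_adjoin_simple_self E g
  have hbot : E⟮g ^ q⟯ = ⊥ :=
    IntermediateField.adjoin_simple_eq_bot_iff.2 (IntermediateField.mem_bot.2
      ⟨⟨g ^ q, hF _ (mem_powField.2 ⟨g, hg, rfl⟩)⟩, rfl⟩)
  rw [hbot] at hgm
  obtain ⟨e, rfl⟩ := IntermediateField.mem_bot.1 hgm
  exact e.2

/-- The powers of a non-`q`-th power span `X` over `X^q`. -/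
theorem exists_pow_basis {X : IntermediateField k (LaurentSeries k)} {x : LaurentSeries k}
    (hx : x ∈ X) (hsep : ∀ g ∈ X, IsSeparable (IntermediateField.adjoin k {x}) g) {t : X}
    (ht : ∀ h : X, h ^ q ≠ t) (g : X) : ∃ h : Fin q → X, g = ∑ i : Fin q, h i ^ q * t ^ (i : ℕ) := by
  classical
  set F := powField q X
  have hq : 0 < q := (Fact.out : q.Prime).pos
  have hxq : x ^ q ∈ F := mem_powField.2 ⟨x, hx, rfl⟩
  have htq : (t : LaurentSeries k) ^ q ∈ F := mem_powField.2 ⟨t, t.2, rfl⟩
  have hxint : IsIntegral F x :=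
    IsIntegral.of_pow hq (isIntegral_algebraMap (x := (⟨x ^ q, hxq⟩ : F)))
  have htint : IsIntegral F (t : LaurentSeries k) :=
    IsIntegral.of_pow hq (isIntegral_algebraMap (x := (⟨_, htq⟩ : F)))
  have htop : IntermediateField.adjoin F {(t : LaurentSeries k)} ≤
      IntermediateField.adjoin F {x} :=
    IntermediateField.adjoin_simple_le_iff.2 (le_adjoin_powField hsep t.2)
  set P : Polynomial F := Polynomial.X ^ q - C ⟨_, htq⟩ with hP
  have hPm : P.Monic := monic_X_pow_sub_C _ hq.ne'
  have hPt : aeval (t : LaurentSeries k) P = 0 := by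
    rw [hP, map_sub, map_pow, aeval_X, aeval_C]
    exact sub_self _
  have hirr : Irreducible P := by
    refine X_pow_sub_C_irreducible_of_prime Fact.out fun b hb => ?_
    obtain ⟨y, hy, hyb⟩ := mem_powField.1 b.2
    have h1 : (b : LaurentSeries k) ^ q = (t : LaurentSeries k) ^ q :=
      congrArg Subtype.val hb
    refine ht ⟨y, hy⟩ (Subtype.ext ?_)
    show y ^ q = (t : LaurentSeries k)
    rw [hyb]
    exact frobenius_inj (LaurentSeries k) q h1
  have hdeg : Module.finrank F (IntermediateField.adjoin F {(t : LaurentSeries k)}) = q := by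
    rw [IntermediateField.adjoin.finrank htint,
      ← minpoly.eq_of_irreducible_of_monic hirr hPt hPm, hP, natDegree_X_pow_sub_C]
  have hdegx : Module.finrank F (IntermediateField.adjoin F {x}) ≤ q := by
    rw [IntermediateField.adjoin.finrank hxint]
    have h0 : aeval x (Polynomial.X ^ q - C (⟨x ^ q, hxq⟩ : F)) = 0 := by
      rw [map_sub, map_pow, aeval_X, aeval_C]
      exact sub_self _
    refine (natDegree_le_natDegree (minpoly.min F x (monic_X_pow_sub_C _ hq.ne') h0)).trans ?_
    rw [natDegree_X_pow_sub_C]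
  haveI := IntermediateField.adjoin.finiteDimensional hxint
  have heq := IntermediateField.eq_of_le_of_finrank_le htop (hdeg.symm ▸ hdegx)
  have hgt : (g : LaurentSeries k) ∈ IntermediateField.adjoin F {(t : LaurentSeries k)} := by
    rw [heq]; exact le_adjoin_powField hsep g.2
  rw [← IntermediateField.mem_toSubalgebra,
    IntermediateField.adjoin_simple_toSubalgebra_of_isAlgebraic htint.isAlgebraic,
    Algebra.adjoin_singleton_eq_range_aeval] at hgt
  obtain ⟨r, hr⟩ := (AlgHom.mem_range _).1 hgt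
  have hr' : aeval (t : LaurentSeries k) (r %ₘ P) = g := by
    rw [← hr]
    conv_rhs => rw [← modByMonic_add_div r P, map_add, map_mul, hPt, zero_mul, add_zero]
  have hlt : (r %ₘ P).natDegree < q := by
    have hd := natDegree_modByMonic_lt r hPm (fun e => hirr.1 (e ▸ isUnit_one))
    rwa [hP, natDegree_X_pow_sub_C] at hd
  choose h hh hh' using fun i : Fin q => mem_powField.1 ((r %ₘ P).coeff i).2
  refine ⟨fun i => ⟨h i, hh i⟩, Subtype.ext ?_⟩
  rw [← hr', aeval_eq_sum_range' hlt, IntermediateField.coe_sum, Finset.sum_range]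
  refine Finset.sum_congr rfl fun i _ => ?_
  rw [Algebra.smul_def, IntermediateField.coe_mul, IntermediateField.coe_pow,
    IntermediateField.coe_pow, hh' i]
  rfl

end Basis

section Valuation

variable {F : Type} [Field F] (v : ValuationSubring F) {t : F} {q : ℕ}

/-- A uniformiser has no valuation of a `q`-th power. -/
theorem valuation_pow_ne (hq : 1 < q) (ht : t ≠ 0) (htv : t ∈ v.nonunits)
    (hunif : ∀ s ∈ v.nonunits, ∃ r ∈ v, s = t * r) (h : F) :
    v.valuation h ^ q ≠ v.valuation t := by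
  intro e
  have h1 : v.valuation t < 1 := htv
  have hlt : v.valuation h < 1 := by
    by_contra hc
    rw [← e] at h1
    exact absurd h1 (not_lt.2 (one_le_pow₀ (not_lt.1 hc)))
  obtain ⟨r, hr, rfl⟩ := hunif h hlt
  have hrle : v.valuation r ≤ 1 := v.valuation_le_one ⟨r, hr⟩
  have h2 : v.valuation t ≤ v.valuation t ^ q := by
    conv_lhs => rw [← e]
    rw [map_mul, mul_pow]
    exact mul_le_of_le_one_right' (pow_le_one' hrle q)
  have hpos : 0 < v.valuation t := zero_lt_iff.2 (v.valuation.ne_zero_iff.2 ht)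
  exact absurd h2 (not_le.2 (pow_lt_self_of_lt_one₀ hpos h1 hq))

/-- Terms `h ^ q t ^ a` with distinct exponents modulo `q` have distinct valuations. -/
theorem valuation_pow_mul_ne (hq : q.Prime) (ht : t ≠ 0) (htv : t ∈ v.nonunits)
    (hunif : ∀ s ∈ v.nonunits, ∃ r ∈ v, s = t * r) {h h' : F} (hh : h ≠ 0) {a b : ℕ}
    (hab : a < b) (hb : b < a + q) :
    v.valuation (h ^ q * t ^ a) ≠ v.valuation (h' ^ q * t ^ b) := by
  intro e
  obtain ⟨d, rfl⟩ := Nat.exists_eq_add_of_lt hab
  have hd : Nat.Coprime (d + 1) q :=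
    ((Nat.Prime.coprime_iff_not_dvd hq).2 fun hdvd =>
      absurd (Nat.le_of_dvd d.succ_pos hdvd) (by omega)).symm
  obtain ⟨m, n, hmn⟩ := exists_pow_data hd hq.one_lt
  have hvt : v.valuation t ≠ 0 := v.valuation.ne_zero_iff.2 ht
  have hvh : v.valuation h ≠ 0 := v.valuation.ne_zero_iff.2 hh
  have hvh' : v.valuation h' ≠ 0 := by
    intro h0
    simp [map_mul, map_pow, h0, zero_pow hq.ne_zero, hvh, hvt] at e
  simp only [map_mul, map_pow] at e
  rw [show a + d + 1 = a + (d + 1) by omega, pow_add, ← mul_assoc,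
    mul_right_comm (v.valuation h' ^ q)] at e
  have e' : v.valuation h ^ q = v.valuation h' ^ q * v.valuation t ^ (d + 1) :=
    mul_right_cancel₀ (pow_ne_zero a hvt) e
  apply valuation_pow_ne v hq.one_lt ht htv hunif ((h / h') ^ m / t ^ n)
  simp only [map_div₀, map_pow]
  rw [div_pow, ← pow_mul, mul_comm m q, pow_mul, div_pow, e',
    mul_div_cancel_left₀ _ (pow_ne_zero _ hvh'), div_eq_iff (pow_ne_zero _ (pow_ne_zero _ hvt)),
    ← pow_mul, ← pow_mul, mul_comm (d + 1) m, hmn, pow_succ']
where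
  exists_pow_data {d q : ℕ} (hd : Nat.Coprime d q) (hq : 1 < q) :
      ∃ m n : ℕ, m * d = n * q + 1 := by
    obtain ⟨m, -, hm⟩ := Nat.exists_mul_mod_eq_one_of_coprime hd hq
    refine ⟨m, d * m / q, ?_⟩
    have := Nat.div_add_mod (d * m) q
    rw [hm] at this
    rw [mul_comm m d, mul_comm _ q]
    exact this.symm

/-- A sum of terms `hᵢ ^ q t ^ (i + 1)`, `i < q`, with unit top coefficient is never a unit. -/
theorem sum_pow_mul_mem_nonunits (hq : q.Prime) (ht : t ≠ 0) (htv : t ∈ v.nonunits)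
    (hunif : ∀ s ∈ v.nonunits, ∃ r ∈ v, s = t * r) (h : Fin q → F)
    (htop : h ⟨q - 1, Nat.sub_lt hq.pos one_pos⟩ ^ q = 1) :
    v.valuation (∑ i : Fin q, h i ^ q * t ^ ((i : ℕ) + 1)) ≠ 1 := by
  classical
  set j : Fin q := ⟨q - 1, Nat.sub_lt hq.pos one_pos⟩
  let f : Fin q → F := fun i => h i ^ q * t ^ ((i : ℕ) + 1)
  obtain ⟨i₀, -, hmax⟩ := Finset.exists_max_image Finset.univ (fun i => v.valuation (f i))
    ⟨j, Finset.mem_univ _⟩
  have htq : v.valuation (f j) = v.valuation t ^ q := by
    show v.valuation (h j ^ q * t ^ ((q - 1) + 1)) = _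
    rw [htop, one_mul, Nat.sub_add_cancel hq.one_le, map_pow]
  have hne0 : v.valuation (f i₀) ≠ 0 := by
    intro h0
    have h1 := hmax j (Finset.mem_univ _)
    rw [h0, htq] at h1
    exact pow_ne_zero q (v.valuation.ne_zero_iff.2 ht) (le_antisymm h1 zero_le')
  have hi0 : h i₀ ≠ 0 := fun h0 => hne0 (by
    show v.valuation (h i₀ ^ q * _) = 0
    rw [h0, zero_pow hq.ne_zero, zero_mul, map_zero])
  have hlt : ∀ i ∈ (Finset.univ : Finset (Fin q)) \ {i₀}, v.valuation (f i) < v.valuation (f i₀) := by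
    intro i hi
    have hii : i ≠ i₀ := by simpa using hi
    refine lt_of_le_of_ne (hmax i (Finset.mem_univ _)) fun e => ?_
    have hi' : h i ≠ 0 := fun h0 => hne0 (by
      rw [← e]
      show v.valuation (h i ^ q * _) = 0
      rw [h0, zero_pow hq.ne_zero, zero_mul, map_zero])
    rcases lt_or_gt_of_ne (Fin.val_ne_of_ne hii) with hl | hl
    · exact valuation_pow_mul_ne v hq ht htv hunif hi' (by omega) (by omega) e
    · exact valuation_pow_mul_ne v hq ht htv hunif hi0 (by omega) (by omega) e.symm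
  rw [Valuation.map_sum_eq_of_lt v.valuation (Finset.mem_univ i₀) hlt]
  intro e
  by_cases hj : i₀ = j
  · rw [hj, htq] at e
    have hlt1 : v.valuation t < 1 := htv
    exact (pow_lt_one₀ zero_le hlt1 hq.ne_zero).ne e
  · have hlt' : (i₀ : ℕ) + 1 < q := by
      have : (i₀ : ℕ) ≠ q - 1 := fun e' => hj (Fin.ext e')
      omega
    refine valuation_pow_mul_ne v hq ht htv hunif (h := 1) (h' := h i₀) one_ne_zero
      (a := 0) (b := (i₀ : ℕ) + 1) (by omega) (by omega) ?_
    rw [one_pow, pow_zero, one_mul, map_one]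
    exact e.symm

end Valuation

variable {q : ℕ} [Fact q.Prime] {k : Type} [Field k] [CharP k q] [IsAlgClosed k]

/-- `(θ t) ^ (q - 1)` has no simple pole where `t` is a uniformiser. -/
theorem qDeriv_pow_ne_simple_pole {X : IntermediateField k (LaurentSeries k)}
    (hj : jqModC k ∈ X)
    (hsep : ∀ g ∈ X, IsSeparable (IntermediateField.adjoin k {jqModC k}) g)
    (hfin : ∃ s : Finset (LaurentSeries k),
      IntermediateField.adjoin k (s : Set (LaurentSeries k)) = X)
    (v : ValuationSubring X) (hk : ∀ c : k, algebraMap k X c ∈ v) {t : X} (ht : t ≠ 0)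
    (htv : t ∈ v.nonunits) (hunif : ∀ s ∈ v.nonunits, ∃ r ∈ v, s = t * r) {G : X}
    (hG : (G : LaurentSeries k) = Reduction.qDeriv (t : LaurentSeries k) ^ (q - 1))
    {u : X} (hu : u ∈ v) (hu' : u ∉ v.nonunits) : G * t ≠ u := by
  intro he
  have hu1 : v.valuation u = 1 :=
    le_antisymm (v.valuation_le_one ⟨u, hu⟩) (not_lt.1 hu')
  have hq1 : q - 1 ≠ 0 := Nat.sub_ne_zero_of_lt (Fact.out : q.Prime).one_lt
  have hdt : Reduction.qDeriv (t : LaurentSeries k) ≠ 0 := by
    intro h0
    rw [h0, zero_pow hq1] at hG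
    have hG0 : G = 0 := Subtype.ext hG
    rw [← he, hG0, zero_mul, map_zero] at hu1
    exact zero_ne_one hu1
  have hnp : ∀ h : X, h ^ q ≠ t := fun h e =>
    valuation_pow_ne v (Fact.out : q.Prime).one_lt ht htv hunif h (by rw [← map_pow, e])
  obtain ⟨h, hh⟩ := exists_pow_basis hj hsep hnp G
  have hG' : Reduction.qDeriv (t : LaurentSeries k) ^ (q - 1) =
      ∑ i : Fin q, (h i : LaurentSeries k) ^ q * (t : LaurentSeries k) ^ (i : ℕ) := by
    rw [← hG, hh, IntermediateField.coe_sum]
    rfl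
  have htop := coeff_top_eq_one (t : LaurentSeries k) hdt (fun i => (h i : LaurentSeries k)) hG'
  refine sum_pow_mul_mem_nonunits v (Fact.out : q.Prime) ht htv hunif h (Subtype.ext htop) ?_
  rw [← hu1, ← he, hh, Finset.sum_mul]
  simp only [pow_succ, mul_assoc]

end Fermat.Agent.BadPrime.Sq
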