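import Fermat.Agent.BadPrime.Sq.Setup
import Mathlib.RingTheory.DedekindDomain.IntegralClosure
import Mathlib.RingTheory.Polynomial.ScaleRoots
import Mathlib.RingTheory.Polynomial.UniqueFactorization
import Mathlib.RingTheory.Polynomial.Basic
import Mathlib.FieldTheory.RatFunc.Basic

/-!
# The two charts of a model over a discrete valuation ring

`chartRing S t` is finite over `S[t]`, and the elements common to a finite `S[t]`-module and a
finite `S[t⁻¹]`-module form a finite `S`-module.
-/

set_option autoImplicit false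
set_option linter.unusedSectionVars false
set_option linter.style.haveILetI false
set_option synthInstance.maxHeartbeats 200000

noncomputable section

open Polynomial

namespace Fermat.Agent.BadPrime.Sq

variable {K F : Type} [Field K] [Field F] [Algebra K F]

section Basic

variable (S : Subring K) (t : F)

theorem mem_chartRing {x : F} : x ∈ chartRing S t ↔ IsIntegral (Algebra.adjoin S {t}) x := Iff.rfl

theorem algebraMap_mem_chartRing {c : K} (hc : c ∈ S) : algebraMap K F c ∈ chartRing S t :=
  (mem_chartRing S t).2 <| isIntegral_algebraMap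
    (x := (⟨algebraMap K F c, Subalgebra.algebraMap_mem _ (⟨c, hc⟩ : S)⟩ : Algebra.adjoin S {t}))

theorem self_mem_chartRing : t ∈ chartRing S t :=
  (mem_chartRing S t).2 <| isIntegral_algebraMap
    (x := (⟨t, Algebra.self_mem_adjoin_singleton S t⟩ : Algebra.adjoin S {t}))

theorem mem_chartRing_of_pow {x : F} {m : ℕ} (hm : m ≠ 0) (h : x ^ m ∈ chartRing S t) :
    x ∈ chartRing S t :=
  (mem_chartRing S t).2 (IsIntegral.of_pow (Nat.pos_of_ne_zero hm) ((mem_chartRing S t).1 h))

theorem adjoin_le_chartRing {x : F} (hx : x ∈ Algebra.adjoin S {t}) : x ∈ chartRing S t :=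
  (mem_chartRing S t).2 (isIntegral_algebraMap (x := (⟨x, hx⟩ : Algebra.adjoin S {t})))

theorem chartRing_mono {S' : Subring K} (h : S ≤ S') {x : F} (hx : x ∈ chartRing S t) :
    x ∈ chartRing S' t := by
  obtain ⟨p, hp, hpx⟩ := (mem_chartRing S t).1 hx
  have hle : ∀ y, y ∈ Algebra.adjoin S {t} → y ∈ Algebra.adjoin S' {t} := by
    intro y hy
    induction hy using Algebra.adjoin_induction with
    | mem z hz => exact Algebra.subset_adjoin hz
    | algebraMap c => exact Subalgebra.algebraMap_mem _ (⟨c, h c.2⟩ : S')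
    | add a b _ _ ha hb => exact add_mem ha hb
    | mul a b _ _ ha hb => exact mul_mem ha hb
  let f : Algebra.adjoin S {t} →+* Algebra.adjoin S' {t} :=
    ((Algebra.adjoin S {t}).val.toRingHom).codRestrict _ fun y => hle y y.2
  refine (mem_chartRing S' t).2 ⟨p.map f, hp.map f, ?_⟩
  rw [eval₂_map]
  exact hpx

/-- Clearing the poles at `t = 0`: `t ^ L x` is integral over `K[t]` for `x` integral over
`K[t⁻¹]`. -/
theorem exists_pow_mul_mem_chartRing (ht : t ≠ 0) {x : F}
    (hx : x ∈ chartRing (⊤ : Subring K) t⁻¹) :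
    ∃ L : ℕ, t ^ L * x ∈ chartRing (⊤ : Subring K) t := by
  classical
  obtain ⟨p, hp, hpx⟩ := (mem_chartRing _ _).1 hx
  have hclear : ∀ y, y ∈ Algebra.adjoin (⊤ : Subring K) {t⁻¹} →
      ∃ L, ∀ L', L ≤ L' → t ^ L' * y ∈ Algebra.adjoin (⊤ : Subring K) {t} := by
    intro y hy
    induction hy using Algebra.adjoin_induction with
    | mem z hz =>
      rw [Set.mem_singleton_iff] at hz
      subst hz
      refine ⟨1, fun L' hL => ?_⟩
      obtain ⟨m, rfl⟩ := Nat.exists_eq_add_of_le' hL
      rw [pow_succ, mul_assoc, mul_inv_cancel₀ ht, mul_one]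
      exact pow_mem (Algebra.self_mem_adjoin_singleton _ t) m
    | algebraMap c =>
      exact ⟨0, fun L' _ => mul_mem (pow_mem (Algebra.self_mem_adjoin_singleton _ t) L')
        (Subalgebra.algebraMap_mem _ c)⟩
    | add a b _ _ ha hb =>
      obtain ⟨L, hL⟩ := ha
      obtain ⟨M, hM⟩ := hb
      exact ⟨max L M, fun L' h => by
        rw [mul_add]
        exact add_mem (hL L' (le_of_max_le_left h)) (hM L' (le_of_max_le_right h))⟩
    | mul a b _ _ ha hb =>
      obtain ⟨L, hL⟩ := ha
      obtain ⟨M, hM⟩ := hb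
      refine ⟨L + M, fun L' h => ?_⟩
      obtain ⟨m, rfl⟩ := Nat.exists_eq_add_of_le h
      rw [show t ^ (L + M + m) * (a * b) = (t ^ (L + m) * a) * (t ^ M * b) by ring]
      exact mul_mem (hL _ (Nat.le_add_right _ _)) (hM _ le_rfl)
  let P : Polynomial F := p.map (Algebra.adjoin (⊤ : Subring K) {t⁻¹}).val.toRingHom
  have hP : P.Monic := hp.map _
  have hPx : P.eval₂ (RingHom.id F) x = 0 := by
    rw [eval₂_map, RingHom.id_comp]
    exact hpx
  choose L hL using fun i => hclear _ ((p.coeff i : Algebra.adjoin (⊤ : Subring K) {t⁻¹}).2)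
  refine ⟨∑ i ∈ Finset.range (p.natDegree + 1), L i, ?_⟩
  set L₀ := ∑ i ∈ Finset.range (p.natDegree + 1), L i with hL₀
  have hlifts : P.scaleRoots (t ^ L₀) ∈
      Polynomial.lifts (algebraMap (Algebra.adjoin (⊤ : Subring K) {t}) F) := by
    rw [Polynomial.lifts_iff_coeff_lifts]
    intro i
    rw [coeff_scaleRoots]
    have hmem : P.coeff i * (t ^ L₀) ^ (P.natDegree - i) ∈ Algebra.adjoin (⊤ : Subring K) {t} := by
      rcases lt_trichotomy i P.natDegree with h | rfl | h
      · obtain ⟨m, hm⟩ := Nat.exists_eq_add_of_lt h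
        rw [show P.natDegree - i = m + 1 by omega, pow_succ, mul_left_comm, coeff_map]
        refine mul_mem (pow_mem (pow_mem (Algebra.self_mem_adjoin_singleton _ t) _) _) ?_
        rw [mul_comm]
        exact hL i L₀ (Finset.single_le_sum (fun _ _ => Nat.zero_le _)
          (Finset.mem_range.2 (by rw [hp.natDegree_map] at h; omega)))
      · rw [Nat.sub_self, pow_zero, mul_one, hP.coeff_natDegree]
        exact one_mem _
      · rw [coeff_eq_zero_of_natDegree_lt h, zero_mul]
        exact zero_mem _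
    exact ⟨⟨_, hmem⟩, rfl⟩
  obtain ⟨Q, hQ, -, hQm⟩ := Polynomial.lifts_and_natDegree_eq_and_monic hlifts
    (by rwa [monic_scaleRoots_iff])
  refine (mem_chartRing _ _).2 ⟨Q, hQm, ?_⟩
  have h0 := scaleRoots_eval₂_eq_zero (RingHom.id F) (s := t ^ L₀) hPx
  rw [RingHom.id_apply, ← hQ, eval₂_map, RingHom.id_comp] at h0
  exact h0

end Basic

section Finite

variable (S : Subring K)

/-- `S` is a discrete valuation ring with uniformiser `ϖ` and fraction field `K`. -/
structure IsUniformiser (S : Subring K) (ϖ : K) : Prop where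
  mem : ϖ ∈ S
  inv_notMem : ϖ⁻¹ ∉ S
  exists_eq : ∀ c : K, c ≠ 0 → ∃ i : ℤ, c / ϖ ^ i ∈ S ∧ ϖ ^ i / c ∈ S

variable {S} {ϖ : K} (hS : IsUniformiser S ϖ)

include hS

theorem IsUniformiser.ne_zero : ϖ ≠ 0 := fun h => hS.inv_notMem (by rw [h, inv_zero]; exact S.zero_mem)

theorem IsUniformiser.nonneg_of_mem {c : K} (hc : c ∈ S) {i : ℤ} (h : ϖ ^ i / c ∈ S)
    (hc0 : c ≠ 0) : 0 ≤ i := by
  by_contra hi
  push Not at hi
  obtain ⟨m, hm⟩ := Int.eq_ofNat_of_zero_le (show 0 ≤ -i - 1 by omega)
  have h1 : ϖ ^ i ∈ S := by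
    have := S.mul_mem h hc
    rwa [div_mul_cancel₀ _ hc0] at this
  refine hS.inv_notMem ?_
  have h2 := S.mul_mem h1 (S.pow_mem hS.mem m)
  rw [← zpow_natCast, ← zpow_add₀ hS.ne_zero, show i + (m : ℤ) = -1 by omega, zpow_neg_one] at h2
  exact h2

/-- A non-zero element of `S` is a power of `ϖ` times a unit. -/
theorem IsUniformiser.exists_unit_mul_pow {c : S} (hc : c ≠ 0) :
    ∃ (u : Sˣ) (m : ℕ), c = u * (⟨ϖ, hS.mem⟩ : S) ^ m := by
  have hc0 : (c : K) ≠ 0 := fun h => hc (Subtype.ext h)
  obtain ⟨i, h1, h2⟩ := hS.exists_eq c hc0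
  obtain ⟨m, rfl⟩ := Int.eq_ofNat_of_zero_le (hS.nonneg_of_mem c.2 h2 hc0)
  rw [zpow_natCast] at h1 h2
  have hm : ϖ ^ m ≠ 0 := pow_ne_zero m hS.ne_zero
  refine ⟨⟨⟨_, h1⟩, ⟨_, h2⟩, Subtype.ext ?_, Subtype.ext ?_⟩, m, Subtype.ext ?_⟩
  · show (c : K) / ϖ ^ m * (ϖ ^ m / c) = 1
    field_simp
  · show ϖ ^ m / c * ((c : K) / ϖ ^ m) = 1
    field_simp
  · show (c : K) = (c : K) / ϖ ^ m * ϖ ^ m
    field_simp

theorem IsUniformiser.irreducible : Irreducible (⟨ϖ, hS.mem⟩ : S) := by
  constructor
  · rintro ⟨u, hu⟩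
    refine hS.inv_notMem ?_
    have h1 : (u : S).1 * (u⁻¹ : Sˣ).1.1 = 1 := congrArg Subtype.val u.mul_inv
    rw [hu] at h1
    rw [← eq_inv_of_mul_eq_one_right h1]
    exact SetLike.coe_mem _
  · intro a b hab
    have ha0 : a ≠ 0 := fun h => hS.ne_zero (by simpa [h] using congrArg Subtype.val hab)
    have hb0 : b ≠ 0 := fun h => hS.ne_zero (by simpa [h] using congrArg Subtype.val hab)
    obtain ⟨u, l, rfl⟩ := hS.exists_unit_mul_pow ha0
    obtain ⟨v, m, rfl⟩ := hS.exists_unit_mul_pow hb0
    rcases Nat.eq_zero_or_pos l with rfl | hl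
    · exact Or.inl ⟨u, by simp⟩
    rcases Nat.eq_zero_or_pos m with rfl | hm
    · exact Or.inr ⟨v, by simp⟩
    exfalso
    refine hS.inv_notMem ?_
    have e := congrArg Subtype.val hab
    push_cast at e
    have hϖ := hS.ne_zero
    obtain ⟨l, rfl⟩ := Nat.exists_eq_add_of_le' hl
    obtain ⟨m, rfl⟩ := Nat.exists_eq_add_of_le' hm
    have : ϖ⁻¹ = (u : S).1 * ϖ ^ l * ((v : S).1 * ϖ ^ m) := by
      refine inv_eq_of_mul_eq_one_right (mul_left_cancel₀ hϖ ?_)
      rw [pow_succ, pow_succ] at e
      linear_combination -e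
    rw [this]
    exact S.mul_mem (S.mul_mem (SetLike.coe_mem _) (S.pow_mem hS.mem _))
      (S.mul_mem (SetLike.coe_mem _) (S.pow_mem hS.mem _))

theorem IsUniformiser.isDiscreteValuationRing : IsDiscreteValuationRing S :=
  IsDiscreteValuationRing.ofHasUnitMulPowIrreducibleFactorization
    ⟨_, hS.irreducible, fun {c} hc => by
      obtain ⟨u, m, h⟩ := hS.exists_unit_mul_pow hc
      exact ⟨m, ⟨u, by rw [h, mul_comm]⟩⟩⟩

theorem IsUniformiser.isFractionRing : IsFractionRing S K := by
  refine IsFractionRing.of_field S K fun c => ?_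
  rcases eq_or_ne c 0 with rfl | hc
  · exact ⟨0, 1, by simp⟩
  obtain ⟨i, h1, -⟩ := hS.exists_eq c hc
  rcases le_or_gt 0 i with hi | hi
  · obtain ⟨m, rfl⟩ := Int.eq_ofNat_of_zero_le hi
    refine ⟨⟨_, S.mul_mem h1 (S.pow_mem hS.mem m)⟩, 1, ?_⟩
    show c = c / ϖ ^ (m : ℤ) * ϖ ^ m / 1
    rw [zpow_natCast, div_one, div_mul_cancel₀ _ (pow_ne_zero _ hS.ne_zero)]
  · obtain ⟨m, hm⟩ := Int.eq_ofNat_of_zero_le (show 0 ≤ -i by omega)
    refine ⟨⟨_, h1⟩, ⟨_, S.pow_mem hS.mem m⟩, ?_⟩
    show c = c / ϖ ^ i / ϖ ^ m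
    rw [div_div, ← zpow_natCast, ← zpow_add₀ hS.ne_zero, show i + (m : ℤ) = 0 by omega, zpow_zero,
      div_one]

/-- Elements of `K(t)` are quotients of polynomials in `t` with coefficients in `S`. -/
theorem exists_div_of_mem_adjoin {t y : F} (hy : y ∈ IntermediateField.adjoin K {t}) :
    ∃ a b : Algebra.adjoin S {t}, (b : F) ≠ 0 ∧ y = (a : F) / (b : F) := by
  have := hS.isFractionRing
  induction hy using IntermediateField.adjoin_induction with
  | mem z hz =>
    exact ⟨⟨z, Algebra.subset_adjoin hz⟩, 1, one_ne_zero, by simp⟩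
  | algebraMap c =>
    obtain ⟨a, b, hb, hab⟩ := IsFractionRing.div_surjective (A := S) c
    refine ⟨algebraMap S _ a, algebraMap S _ b, ?_, ?_⟩
    · show algebraMap K F (b : K) ≠ 0
      exact (_root_.map_ne_zero _).2 fun h => nonZeroDivisors.ne_zero hb (Subtype.ext h)
    · rw [← hab]
      show algebraMap K F ((a : K) / (b : K)) = algebraMap K F (a : K) / algebraMap K F (b : K)
      rw [map_div₀]
  | add u v _ _ hu hv =>
    obtain ⟨a, b, hb, rfl⟩ := hu
    obtain ⟨c, d, hd, rfl⟩ := hv
    refine ⟨a * d + b * c, b * d, mul_ne_zero hb hd, ?_⟩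
    push_cast
    field_simp
  | inv u _ hu =>
    obtain ⟨a, b, hb, rfl⟩ := hu
    rcases eq_or_ne (a : F) 0 with ha | ha
    · exact ⟨0, 1, one_ne_zero, by simp [ha]⟩
    · exact ⟨b, a, ha, by rw [inv_div]⟩
  | mul u v _ _ hu hv =>
    obtain ⟨a, b, hb, rfl⟩ := hu
    obtain ⟨c, d, hd, rfl⟩ := hv
    exact ⟨a * c, b * d, mul_ne_zero hb hd, by push_cast; rw [div_mul_div_comm]⟩

variable {t : F} (ht : Transcendental K t)
  [FiniteDimensional (IntermediateField.adjoin K {t}) F] [CharZero K]

include ht in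
/-- The chart is contained in a finitely generated module over `S[t]`. -/
theorem exists_chartRing_le_span :
    ∃ s : Finset F, ∀ x ∈ chartRing S t,
      x ∈ Submodule.span (Algebra.adjoin S {t}) (s : Set F) := by
  have := hS.isDiscreteValuationRing
  have := hS.isFractionRing
  let R := Algebra.adjoin S {t}
  let φ : Polynomial S →ₐ[S] F := Polynomial.aeval t
  have hrange : R = φ.range := Algebra.adjoin_singleton_eq_range_aeval S t
  have hφ : Function.Injective φ := by
    intro a b hab
    refine Polynomial.map_injective (algebraMap S K) (IsFractionRing.injective S K) ?_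
    refine (transcendental_iff_injective.1 ht) ?_
    rw [aeval_map_algebraMap, aeval_map_algebraMap]
    exact hab
  let e : Polynomial S ≃ₐ[S] R :=
    (AlgEquiv.ofInjective φ hφ).trans (Subalgebra.equivOfEq _ _ hrange.symm)
  haveI : IsNoetherianRing R := isNoetherianRing_of_ringEquiv _ e.toRingEquiv
  haveI : IsIntegrallyClosed R := IsIntegrallyClosed.of_equiv e.toRingEquiv
  let L := IntermediateField.adjoin K {t}
  have hRL : ∀ x ∈ R, x ∈ L := by
    intro x hx
    induction hx using Algebra.adjoin_induction with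
    | mem z hz => exact IntermediateField.subset_adjoin K _ hz
    | algebraMap c => exact L.algebraMap_mem (c : K)
    | add a b _ _ ha hb => exact add_mem ha hb
    | mul a b _ _ ha hb => exact mul_mem ha hb
  letI : Algebra R L := (R.val.toRingHom.codRestrict L.toSubfield.toSubring fun x => hRL x x.2).toAlgebra
  haveI : IsScalarTower R L F := IsScalarTower.of_algebraMap_eq fun _ => rfl
  haveI : FaithfulSMul R L := (faithfulSMul_iff_algebraMap_injective R L).mpr fun a b h =>
    Subtype.ext (congrArg (fun z : L => (z : F)) h)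
  haveI : IsFractionRing R L := by
    refine IsFractionRing.of_field R L fun x => ?_
    obtain ⟨a, b, -, hab⟩ := exists_div_of_mem_adjoin hS x.2
    exact ⟨a, b, Subtype.ext hab⟩
  haveI : CharZero L := charZero_of_injective_algebraMap (algebraMap K L).injective
  haveI : Algebra.IsSeparable L F := inferInstance
  have hfin : Module.Finite R (integralClosure R F) := IsIntegralClosure.finite R L F (integralClosure R F)
  obtain ⟨s, hs⟩ := hfin.fg_top
  classical
  refine ⟨s.image Subtype.val, fun x hx => ?_⟩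
  have h := Submodule.apply_mem_span_image_of_mem_span (integralClosure R F).val.toLinearMap
    (show (⟨x, hx⟩ : integralClosure R F) ∈ Submodule.span R (s : Set (integralClosure R F)) by
      rw [hs]; trivial)
  rw [Finset.coe_image]
  exact h

omit [CharZero K] in
/-- Coordinates with a common denominator. -/
theorem exists_coord {u : F} (hu : IntermediateField.adjoin K {u} = IntermediateField.adjoin K {t})
    {ι : Type} [Fintype ι] (b : Module.Basis ι (IntermediateField.adjoin K {t}) F)
    (s : Finset F) :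
    ∃ E : Polynomial S, aeval u E ≠ 0 ∧ ∀ x ∈ Submodule.span (Algebra.adjoin S {u}) (s : Set F),
      ∃ p : ι → Polynomial S, aeval u E * x = ∑ i, aeval u (p i) * b i := by
  classical
  have hR : ∀ a : Algebra.adjoin S {u}, ∃ p : Polynomial S, aeval u p = (a : F) := fun a => by
    exact (Algebra.adjoin_singleton_eq_range_aeval S u).le a.2
  have hy : ∀ (x : F) (i : ι), ∃ c d : Polynomial S, aeval u d ≠ 0 ∧
      ((b.repr x i : IntermediateField.adjoin K {t}) : F) = aeval u c / aeval u d := by
    intro x i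
    have hmem : ((b.repr x i : IntermediateField.adjoin K {t}) : F) ∈
        IntermediateField.adjoin K {u} := by rw [hu]; exact (b.repr x i).2
    obtain ⟨a, a', h0, h⟩ := exists_div_of_mem_adjoin hS hmem
    obtain ⟨c, hc⟩ := hR a
    obtain ⟨d, hd⟩ := hR a'
    exact ⟨c, d, hd ▸ h0, by rw [h, hc, hd]⟩
  choose c d hd hcd using hy
  refine ⟨∏ x ∈ s, ∏ i, d x i, ?_, fun x hx => ?_⟩
  · rw [map_prod]
    exact Finset.prod_ne_zero_iff.2 fun x _ => by
      rw [map_prod]
      exact Finset.prod_ne_zero_iff.2 fun i _ => hd x i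
  set E := ∏ x ∈ s, ∏ i, d x i with hE
  induction hx using Submodule.span_induction with
  | mem x hx =>
    have hdvd : ∀ i, d x i ∣ E := fun i =>
      (Finset.dvd_prod_of_mem _ (Finset.mem_univ i)).trans
        (Finset.dvd_prod_of_mem (fun x => ∏ i, d x i) hx)
    choose e he using hdvd
    refine ⟨fun i => e i * c x i, ?_⟩
    conv_lhs => rw [← b.sum_repr x]
    rw [Finset.mul_sum]
    refine Finset.sum_congr rfl fun i _ => ?_
    rw [IntermediateField.smul_def, smul_eq_mul, hcd, he i, map_mul, map_mul]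
    field_simp [hd x i]
  | zero => exact ⟨0, by simp⟩
  | add x y _ _ hx hy =>
    obtain ⟨p, hp⟩ := hx
    obtain ⟨r, hr⟩ := hy
    exact ⟨p + r, by simp only [mul_add, hp, hr, Pi.add_apply, map_add, add_mul,
      Finset.sum_add_distrib]⟩
  | smul a x _ hx =>
    obtain ⟨p, hp⟩ := hx
    obtain ⟨w, hw⟩ := hR a
    refine ⟨fun i => w * p i, ?_⟩
    rw [Algebra.smul_def, show algebraMap (Algebra.adjoin S {u}) F a = (a : F) from rfl, ← hw,
      mul_left_comm, hp, Finset.mul_sum]
    exact Finset.sum_congr rfl fun i _ => by rw [map_mul, mul_assoc]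

include ht in
omit [CharZero K] in
/-- A module inside finite modules over both charts is finite over `S`. -/
theorem fg_of_le_span (M : Submodule S F) (s₀ s₁ : Finset F)
    (h₀ : ∀ x ∈ M, x ∈ Submodule.span (Algebra.adjoin S {t}) (s₀ : Set F))
    (h₁ : ∀ x ∈ M, x ∈ Submodule.span (Algebra.adjoin S {t⁻¹}) (s₁ : Set F)) : M.FG := by
  classical
  have := hS.isDiscreteValuationRing
  have := hS.isFractionRing
  have ht0 : t ≠ 0 := fun h => ht (h ▸ isAlgebraic_zero)
  have hinv : IntermediateField.adjoin K {t⁻¹} = IntermediateField.adjoin K {t} := by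
    refine le_antisymm (IntermediateField.adjoin_simple_le_iff.2
      (inv_mem (IntermediateField.mem_adjoin_simple_self K t))) (IntermediateField.adjoin_simple_le_iff.2 ?_)
    have := inv_mem (IntermediateField.mem_adjoin_simple_self K t⁻¹)
    rwa [inv_inv] at this
  let b := Module.finBasis (IntermediateField.adjoin K {t}) F
  obtain ⟨E, hE0, hE⟩ := exists_coord hS rfl b s₀
  obtain ⟨E', hE'0, hE'⟩ := exists_coord hS hinv b s₁
  have hinj : Function.Injective (aeval t : Polynomial S → F) := fun a a' hab => by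
    refine Polynomial.map_injective (algebraMap S K) (IsFractionRing.injective S K) ?_
    refine (transcendental_iff_injective.1 ht) ?_
    rw [aeval_map_algebraMap, aeval_map_algebraMap]
    exact hab
  have hEne : E ≠ 0 := fun h => hE0 (by rw [h, map_zero])
  have hE'ne : E' ≠ 0 := fun h => hE'0 (by rw [h, map_zero])
  -- the degree bound
  let B := E.natDegree + E'.natDegree
  let T : Finset F := (Finset.univ ×ˢ Finset.range (B + 1)).image fun il => t ^ il.2 * b il.1
  let f : F →ₗ[S] F := LinearMap.mulLeft S (aeval t E)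
  have hf : Function.Injective f := mul_right_injective₀ hE0
  have hle : M.map f ≤ Submodule.span S (T : Set F) := by
    rintro _ ⟨x, hx, rfl⟩
    obtain ⟨p, hp⟩ := hE x (h₀ x hx)
    obtain ⟨r, hr⟩ := hE' x (h₁ x hx)
    have hrev : ∀ (g : Polynomial S) (m : ℕ), g.natDegree ≤ m →
        aeval t⁻¹ g * t ^ m = aeval t (g.reflect m) := by
      intro g m hm
      letI := invertibleOfNonzero ht0
      have h := eval₂_reflect_mul_pow (algebraMap S F) t m (g.reflect m)
        (natDegree_le_iff_coeff_eq_zero.2 fun k hk => by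
          rw [coeff_reflect, revAt_eq_self_of_lt hk]
          exact coeff_eq_zero_of_natDegree_lt (lt_of_le_of_lt hm hk))
      rw [reflect_reflect, invOf_eq_inv] at h
      exact h
    have hrel : ∀ i, aeval t (p i) * aeval t⁻¹ E' = aeval t⁻¹ (r i) * aeval t E := by
      have hmem : ∀ (v : F), v ∈ IntermediateField.adjoin K {t} → ∀ g : Polynomial S,
          aeval v g ∈ IntermediateField.adjoin K {t} := fun v hv g => by
        rw [← aeval_map_algebraMap K v g]
        exact Algebra.adjoin_le (S := (IntermediateField.adjoin K {t}).toSubalgebra)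
          (Set.singleton_subset_iff.2 hv) (aeval_mem_adjoin_singleton K v)
      have hti := IntermediateField.mem_adjoin_simple_self K t
      let c : Fin (Module.finrank (IntermediateField.adjoin K {t}) F) → IntermediateField.adjoin K {t} :=
        fun i => ⟨aeval t (p i) * aeval t⁻¹ E' - aeval t⁻¹ (r i) * aeval t E,
          sub_mem (mul_mem (hmem _ hti _) (hmem _ (inv_mem hti) _))
            (mul_mem (hmem _ (inv_mem hti) _) (hmem _ hti _))⟩
      have hc : ∑ i, c i • b i = 0 := by
        simp only [IntermediateField.smul_def, smul_eq_mul, c, sub_mul, Finset.sum_sub_distrib]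
        rw [sub_eq_zero]
        calc ∑ i, aeval t (p i) * aeval t⁻¹ E' * b i
            = aeval t⁻¹ E' * ∑ i, aeval t (p i) * b i := by
              rw [Finset.mul_sum]; exact Finset.sum_congr rfl fun i _ => by ring
          _ = aeval t E * ∑ i, aeval t⁻¹ (r i) * b i := by rw [← hp, ← hr]; ring
          _ = _ := by rw [Finset.mul_sum]; exact Finset.sum_congr rfl fun i _ => by ring
      intro i
      exact sub_eq_zero.1 (congrArg Subtype.val (Fintype.linearIndependent_iff.1 b.linearIndependent c hc i))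
    have hdeg : ∀ i, (p i).natDegree ≤ B := by
      intro i
      set e := E'.natDegree
      set m := (r i).natDegree
      have h := congrArg (· * (t ^ m * t ^ e)) (hrel i)
      have h' : aeval t (p i * E'.reflect e * X ^ m) = aeval t ((r i).reflect m * E * X ^ e) := by
        rw [map_mul, map_mul, map_mul, map_mul, map_pow, map_pow, aeval_X, ← hrev E' e le_rfl,
          ← hrev (r i) m le_rfl]
        linear_combination h
      have h2 := congrArg Polynomial.natDegree (hinj h')
      rcases eq_or_ne (p i) 0 with h0 | h0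
      · simp [h0]
      have hE'r : E'.reflect e ≠ 0 := fun h1 => hE'ne (by
        have := congrArg (Polynomial.reflect e) h1
        rwa [reflect_reflect, reflect_zero] at this)
      rcases eq_or_ne ((r i).reflect m) 0 with h1 | h1
      · have := hinj h'
        simp [h1, mul_eq_zero, h0, hE'r] at this
      rw [natDegree_mul (mul_ne_zero h0 hE'r) (pow_ne_zero _ X_ne_zero), natDegree_mul h0 hE'r,
        natDegree_mul (mul_ne_zero h1 hEne) (pow_ne_zero _ X_ne_zero), natDegree_mul h1 hEne,
        natDegree_X_pow, natDegree_X_pow] at h2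
      have h3 : ((r i).reflect m).natDegree ≤ m := natDegree_le_iff_coeff_eq_zero.2 fun k hk => by
        rw [coeff_reflect, revAt_eq_self_of_lt hk]
        exact coeff_eq_zero_of_natDegree_lt hk
      show (p i).natDegree ≤ E.natDegree + e
      omega
    show aeval t E * x ∈ _
    rw [hp]
    refine Submodule.sum_mem _ fun i _ => ?_
    rw [aeval_eq_sum_range' (Nat.lt_succ_of_le (hdeg i)), Finset.sum_mul]
    refine Submodule.sum_mem _ fun l hl => ?_
    rw [smul_mul_assoc]
    refine Submodule.smul_mem _ _ (Submodule.subset_span ?_)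
    rw [Finset.mem_coe, Finset.mem_image]
    exact ⟨(i, l), Finset.mem_product.2 ⟨Finset.mem_univ _, hl⟩, rfl⟩
  obtain ⟨G, hG⟩ : (M.map f).FG := Submodule.FG.of_le (Submodule.fg_span T.finite_toSet) hle
  exact Submodule.fg_of_fg_map_injective f hf ⟨G, hG⟩

omit [CharZero K] in
/-- Every element becomes integral over `S[t]` after multiplication by a non-zero element. -/
theorem exists_mul_mem_chartRing (z : F) :
    ∃ d ∈ chartRing S t, d ≠ 0 ∧ d * z ∈ chartRing S t := by
  classical
  set L := IntermediateField.adjoin K {t}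
  obtain ⟨p, hp0, hpz⟩ : IsAlgebraic L z := Algebra.IsAlgebraic.isAlgebraic z
  choose a b hb hab using fun i => exists_div_of_mem_adjoin hS (p.coeff i).2
  let D : Algebra.adjoin S {t} := ∏ i ∈ p.support, b i
  let P : Polynomial (Algebra.adjoin S {t}) :=
    ∑ i ∈ p.support, Polynomial.monomial i (a i * ∏ l ∈ p.support.erase i, b l)
  have hcoeff : ∀ i ∈ p.support, ((P.coeff i : Algebra.adjoin S {t}) : F) =
      (D : F) * ((p.coeff i : L) : F) := by
    intro i hi
    simp only [P, finsetSum_coeff, coeff_monomial, Finset.sum_ite_eq', if_pos hi]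
    rw [hab i, show D = b i * ∏ l ∈ p.support.erase i, b l from
      (Finset.mul_prod_erase _ _ hi).symm]
    push_cast
    field_simp [hb i]
  have hD : (D : F) ≠ 0 := by
    have : (D : F) = ∏ i ∈ p.support, (b i : F) := by simp [D]
    rw [this]
    exact Finset.prod_ne_zero_iff.2 fun i _ => hb i
  have halg : IsAlgebraic (Algebra.adjoin S {t}) z := by
    refine ⟨P, fun h => ?_, ?_⟩
    · obtain ⟨i, hi⟩ := Polynomial.nonempty_support_iff.2 hp0
      have h1 := hcoeff i hi
      rw [h, coeff_zero, ZeroMemClass.coe_zero, eq_comm, mul_eq_zero] at h1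
      exact h1.elim hD fun h2 => Polynomial.mem_support_iff.1 hi (Subtype.ext h2)
    · rw [aeval_def, eval₂_eq_sum, sum_def] at hpz
      simp only [P, map_sum, aeval_monomial]
      calc ∑ i ∈ p.support, algebraMap _ F (a i * ∏ l ∈ p.support.erase i, b l) * z ^ i
          = ∑ i ∈ p.support, (D : F) * (algebraMap L F (p.coeff i) * z ^ i) := by
            refine Finset.sum_congr rfl fun i hi => ?_
            have h1 := hcoeff i hi
            simp only [P, finsetSum_coeff, coeff_monomial, Finset.sum_ite_eq', if_pos hi] at h1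
            show ((a i * ∏ l ∈ p.support.erase i, b l : Algebra.adjoin S {t}) : F) * z ^ i = _
            rw [h1, mul_assoc]
            rfl
        _ = 0 := by rw [← Finset.mul_sum, hpz, mul_zero]
  obtain ⟨y, hy0, hy⟩ := halg.exists_integral_multiple
  exact ⟨y, adjoin_le_chartRing S t y.2, fun h => hy0 (Subtype.ext h), hy⟩

end Finite

end Fermat.Agent.BadPrime.Sq
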