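import Fermat.Agent.BadPrime.Sq.Charts
import Mathlib.RingTheory.Polynomial.Vieta

/-!
# Charts under morphisms and the coefficients of a product over conjugates
-/

set_option autoImplicit false
set_option linter.style.haveILetI false

noncomputable section

open Polynomial

namespace Fermat.Agent.BadPrime.Sq

variable {K F F' : Type} [Field K] [Field F] [Field F'] [Algebra K F] [Algebra K F']
  {S : Subring K} {t : F}

theorem map_adjoin_eq (φ : F →ₐ[K] F') :
    (Algebra.adjoin S {t}).map (φ.restrictScalars S) = Algebra.adjoin S {φ t} := by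
  rw [AlgHom.map_adjoin, Set.image_singleton]
  rfl

theorem map_mem_chartRing (φ : F →ₐ[K] F') {x : F} (hx : x ∈ chartRing S t) :
    φ x ∈ chartRing S (φ t) := by
  obtain ⟨p, hp, hpx⟩ := (mem_chartRing S t).1 hx
  let f : Algebra.adjoin S {t} →+* Algebra.adjoin S {φ t} :=
    (φ.toRingHom.comp (Algebra.adjoin S {t}).val.toRingHom).codRestrict _ fun y =>
      (map_adjoin_eq (S := S) φ).le ⟨y, y.2, rfl⟩
  refine (mem_chartRing S _).2 ⟨p.map f, hp.map f, ?_⟩
  rw [eval₂_map]
  have h := congrArg φ.toRingHom hpx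
  rw [hom_eval₂, map_zero] at h
  exact h

/-- Reflection of integrality along an embedding. -/
theorem mem_chartRing_of_map (φ : F →ₐ[K] F') {x : F} (hx : φ x ∈ chartRing S (φ t)) :
    x ∈ chartRing S t := by
  obtain ⟨p, hp, hpx⟩ := (mem_chartRing S _).1 hx
  let f : Algebra.adjoin S {t} →+* Algebra.adjoin S {φ t} :=
    (φ.toRingHom.comp (Algebra.adjoin S {t}).val.toRingHom).codRestrict _ fun y =>
      (map_adjoin_eq (S := S) φ).le ⟨y, y.2, rfl⟩
  have hf : Function.Surjective f := fun y => by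
    obtain ⟨z, hz, hzy⟩ := (map_adjoin_eq (S := S) φ).ge y.2
    exact ⟨⟨z, hz⟩, Subtype.ext hzy⟩
  obtain ⟨P, hP, -, hPm⟩ := Polynomial.lifts_and_natDegree_eq_and_monic
    (show p ∈ Polynomial.lifts f from Polynomial.map_surjective f hf p) hp
  refine (mem_chartRing S t).2 ⟨P, hPm, φ.toRingHom.injective ?_⟩
  rw [map_zero, hom_eval₂, ← hpx, ← hP, eval₂_map]
  rfl

/-- `S ⊆ S'` and `t' ∈ chartRing S' t` give `chartRing S t' ⊆ chartRing S' t`. -/
theorem chartRing_le_of_mem {S' : Subring K} (hS : S ≤ S') {t' : F} (ht : t' ∈ chartRing S' t)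
    {x : F} (hx : x ∈ chartRing S t') : x ∈ chartRing S' t := by
  have hle : ∀ y ∈ Algebra.adjoin S {t'}, y ∈ chartRing S' t := by
    intro y hy
    induction hy using Algebra.adjoin_induction with
    | mem z hz => rwa [Set.mem_singleton_iff.1 hz]
    | algebraMap c => exact algebraMap_mem_chartRing S' t (hS c.2)
    | add a b _ _ ha hb => exact add_mem ha hb
    | mul a b _ _ ha hb => exact mul_mem ha hb
  obtain ⟨p, hp, hpx⟩ := (mem_chartRing S t').1 hx
  let f : Algebra.adjoin S {t'} →+* integralClosure (Algebra.adjoin S' {t}) F :=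
    ((Algebra.adjoin S {t'}).val.toRingHom).codRestrict _ fun y => hle y y.2
  refine (mem_chartRing S' t).2 (isIntegral_trans (R := Algebra.adjoin S' {t})
    (A := integralClosure (Algebra.adjoin S' {t}) F) x ⟨p.map f, hp.map f, ?_⟩)
  rw [eval₂_map]
  exact hpx

/-- A root of a monic polynomial with coefficients in the chart lies in it. -/
theorem mem_chartRing_of_monic {p : Polynomial F} (hp : p.Monic)
    (hc : ∀ i, p.coeff i ∈ chartRing S t) {x : F} (hx : p.eval x = 0) : x ∈ chartRing S t := by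
  have hl : p ∈ Polynomial.lifts (algebraMap (integralClosure (Algebra.adjoin S {t}) F) F) :=
    (Polynomial.lifts_iff_coeff_lifts p).2 fun i => ⟨⟨_, hc i⟩, rfl⟩
  obtain ⟨P, hP, -, hPm⟩ := Polynomial.lifts_and_natDegree_eq_and_monic hl hp
  refine (mem_chartRing S t).2 (isIntegral_trans (R := Algebra.adjoin S {t})
    (A := integralClosure (Algebra.adjoin S {t}) F) x ⟨P, hPm, ?_⟩)
  rw [← hP, eval_map] at hx
  exact hx

/-- The coefficients of `∏ (X - r)` are integral when the roots `r` are. -/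
theorem coeff_prod_mem_chartRing {ι Ω : Type} [Fintype ι] [Field Ω] (φ : F →ₐ[K] F')
    (ψ₀ : F' →+* Ω) (ψ : ι → F' →+* Ω)
    (hψt : ∀ a, ψ a (φ t) = ψ₀ (φ t))
    (hψc : ∀ a c, ψ a (algebraMap K F' c) = ψ₀ (algebraMap K F' c))
    {f : F'} (hf : f ∈ chartRing S (φ t)) {P : Polynomial F}
    (hP : P.map (ψ₀.comp φ.toRingHom) = ∏ a, (X - C (ψ a f))) (i : ℕ) :
    P.coeff i ∈ chartRing S t := by
  refine mem_chartRing_of_map φ ?_
  let R := Algebra.adjoin S {φ t}
  let τ : R →+* Ω := ψ₀.comp R.val.toRingHom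
  letI : Algebra R Ω := τ.toAlgebra
  have hagree : ∀ a, ∀ y ∈ R, ψ a y = ψ₀ y := by
    intro a y hy
    induction hy using Algebra.adjoin_induction with
    | mem z hz => rw [Set.mem_singleton_iff.1 hz]; exact hψt a
    | algebraMap c => exact hψc a _
    | add u v _ _ hu hv => rw [map_add, map_add, hu, hv]
    | mul u v _ _ hu hv => rw [map_mul, map_mul, hu, hv]
  let B := (integralClosure R Ω).toSubring
  have hroot : ∀ a, ψ a f ∈ B := by
    intro a
    obtain ⟨p, hp, hpf⟩ := (mem_chartRing S _).1 hf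
    refine ⟨p, hp, ?_⟩
    have h := congrArg (ψ a) hpf
    rw [hom_eval₂, map_zero] at h
    rw [← h]
    congr 1
    exact RingHom.ext fun y => (hagree a y y.2).symm
  have hcoeff : ψ₀ (φ (P.coeff i)) ∈ B := by
    have h : (P.map (ψ₀.comp φ.toRingHom)).coeff i ∈ B := by
      rw [hP]
      have : (∏ a, (X - C (ψ a f))) = (∏ a, (X - C (⟨_, hroot a⟩ : B))).map B.subtype := by
        simp [Polynomial.map_prod]
      rw [this, coeff_map]
      exact SetLike.coe_mem _
    rwa [coeff_map] at h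
  obtain ⟨p, hp, hpc⟩ := hcoeff
  refine (mem_chartRing S _).2 ⟨p, hp, ψ₀.injective ?_⟩
  rw [map_zero, hom_eval₂, ← hpc]
  rfl

end Fermat.Agent.BadPrime.Sq
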