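import Fermat.Agent.BadPrime.Sq.Norms
import Fermat.Agent.BadPrime.Sq.Assembly

/-!
# An unramified class killed by both pushforwards is killed by a bounded constant

`n` is prime to `q` and arbitrary; the constant `(q (q² - 1)) ^ 3` does not depend on it.
-/

set_option autoImplicit false

noncomputable section

open ModularCurve

namespace Fermat.Agent.BadPrime.Sq

variable {q : ℕ} [Fact q.Prime] {K K' k : Type} [Field K] [Field K'] [Algebra K K'] [Field k]
  {A : ValuationSubring K'} {π : A →+* k}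

theorem exponent_dvd (hq : q.Prime) :
    12 * (q + 1) * (q - 1) * (q ^ 2 - 1) ∣ (q * (q ^ 2 - 1)) ^ 3 := by
  have h1 : q ^ 2 - 1 = (q + 1) * (q - 1) := by
    simpa using Nat.sq_sub_sq q 1
  have h12 : 12 ∣ q ^ 3 * (q ^ 2 - 1) := by
    have h3 : 3 ∣ q * ((q + 1) * (q - 1)) := by
      obtain ⟨m, rfl⟩ := Nat.exists_eq_add_of_le hq.two_le
      rcases (show m % 3 = 0 ∨ m % 3 = 1 ∨ m % 3 = 2 by omega) with h | h | h
      · exact dvd_mul_of_dvd_right (dvd_mul_of_dvd_left (by omega) _) _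
      · exact dvd_mul_of_dvd_left (by omega) _
      · exact dvd_mul_of_dvd_right (dvd_mul_of_dvd_right (by omega) _) _
    have h4 : 4 ∣ q ^ 2 * ((q + 1) * (q - 1)) := by
      rcases hq.eq_two_or_odd with rfl | h
      · norm_num
      · exact dvd_mul_of_dvd_right ((mul_dvd_mul (show 2 ∣ q + 1 by omega)
          (show 2 ∣ q - 1 by omega))) _
    rw [h1]
    refine (Nat.Coprime.mul_dvd_of_dvd_of_dvd (show Nat.Coprime 3 4 by norm_num) ?_ ?_ : 3 * 4 ∣ _)
    · exact h3.trans ⟨q ^ 2, by ring⟩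
    · exact h4.trans ⟨q, by ring⟩
  obtain ⟨c, hc⟩ := h12
  refine ⟨c, ?_⟩
  calc (q * (q ^ 2 - 1)) ^ 3 = q ^ 3 * (q ^ 2 - 1) * (q ^ 2 - 1) * (q ^ 2 - 1) := by ring
    _ = 12 * (q + 1) * (q - 1) * (q ^ 2 - 1) * c := by rw [hc, h1]; ring

theorem mul_mem_span_range {F : Type} [Field F] (e : F →+* LaurentSeries K') {r r' : LaurentSeries K'}
    (hr : r ∈ Submodule.span K' (Set.range e)) (hr' : r' ∈ Submodule.span K' (Set.range e)) :
    r * r' ∈ Submodule.span K' (Set.range e) := by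
  induction hr using Submodule.span_induction with
  | mem z hz =>
    obtain ⟨y, rfl⟩ := hz
    induction hr' using Submodule.span_induction with
    | mem z hz =>
      obtain ⟨y', rfl⟩ := hz
      exact Submodule.subset_span ⟨y * y', map_mul e y y'⟩
    | zero => rw [mul_zero]; exact zero_mem _
    | add a b _ _ ha hb => rw [mul_add]; exact add_mem ha hb
    | smul c a _ ha =>
      rw [← HahnSeries.C_mul_eq_smul, mul_left_comm, HahnSeries.C_mul_eq_smul]
      exact Submodule.smul_mem _ c ha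
  | zero => rw [zero_mul]; exact zero_mem _
  | add a b _ _ ha hb => rw [add_mul]; exact add_mem ha hb
  | smul c a _ ha =>
    rw [← HahnSeries.C_mul_eq_smul, mul_assoc, HahnSeries.C_mul_eq_smul]
    exact Submodule.smul_mem _ c ha

theorem pow_mem_span_range {F : Type} [Field F] (e : F →+* LaurentSeries K') {r : LaurentSeries K'}
    (hr : r ∈ Submodule.span K' (Set.range e)) (m : ℕ) :
    r ^ m ∈ Submodule.span K' (Set.range e) := by
  induction m with
  | zero => exact Submodule.subset_span ⟨1, by rw [map_one, pow_zero]⟩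
  | succ m ih => rw [pow_succ]; exact mul_mem_span_range e ih hr

/-- The geometric core of Carayol's lemma. -/
theorem SqTower.exists_pow_eq (T : SqTower q K π) [CharZero K] [IsAlgClosed K'] [CharP k q]
    [IsAlgClosed k] {n : ℕ} (hn : 0 < n) (hqn : Nat.Coprime q n) {f : T.F₂} (hf : f ≠ 0)
    (hfin : IsPowerAway (K := K) (T.α' (T.α T.j)) n f) (hinf : IsPowerAway (K := K) (T.α' (T.α T.j))⁻¹ n f)
    (hnorm : T.NormsArePowers n f) :
    ∃ r ∈ Submodule.span K' (Set.range T.e₀), ∃ κ : K', κ ≠ 0 ∧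
      HahnSeries.C κ * r ^ n = T.e₀ (f ^ (q * (q ^ 2 - 1)) ^ 3) := by
  obtain ⟨κ, u, hκ, hu, h1⟩ := T.exists_normalised hn hqn hf hnorm
  set E := 12 * (q + 1) * (q - 1) with hE
  set c : T.F₂ := algebraMap K T.F₂ κ * u ^ n with hc
  have hκ' : algebraMap K K' κ ≠ 0 := (_root_.map_ne_zero _).2 hκ
  have hκF : algebraMap K T.F₂ κ ≠ 0 := (_root_.map_ne_zero _).2 hκ
  have hc0 : c ≠ 0 := mul_ne_zero hκF (pow_ne_zero _ hu)
  obtain ⟨r, hr, hrn⟩ := T.exists_root_of_branch_values hn hqn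
    (mul_ne_zero hc0 (pow_ne_zero E hf)) h1 (hfin.mul_pow_smul hu hκ E)
    (hinf.mul_pow_smul hu hκ E) (hnorm.mul_pow_smul T hu hκ E)
  obtain ⟨m, hm⟩ := exponent_dvd (Fact.out : q.Prime)
  refine ⟨(r * T.e₀ (u⁻¹ ^ (q ^ 2 - 1))) ^ m,
    pow_mem_span_range T.e₀ (mul_mem_span_range T.e₀ hr (Submodule.subset_span ⟨_, rfl⟩)) m,
    ((algebraMap K K' κ)⁻¹ ^ (q ^ 2 - 1)) ^ m, pow_ne_zero _ (pow_ne_zero _ (inv_ne_zero hκ')), ?_⟩
  have hC : (HahnSeries.C (((algebraMap K K' κ)⁻¹ ^ (q ^ 2 - 1)) ^ m) : LaurentSeries K') =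
      T.e₀ (((algebraMap K T.F₂ κ)⁻¹ ^ (q ^ 2 - 1)) ^ m) := by
    simp only [← map_inv₀ (algebraMap K T.F₂), ← map_inv₀ (algebraMap K K'), ← map_pow,
      T.e₀_algebraMap]
  clear_value E
  set Q := q ^ 2 - 1 with hQ
  clear_value Q
  have e : ((algebraMap K T.F₂ κ)⁻¹ ^ Q) ^ m * ((c * f ^ E) ^ Q * (u⁻¹ ^ Q) ^ n) ^ m =
      f ^ (q * Q) ^ 3 := by
    rw [hm, ← hE, pow_mul f (E * Q) m, pow_mul f E Q, ← mul_pow, ← pow_mul u⁻¹ Q n, mul_comm Q n, pow_mul,
      ← mul_pow, ← mul_pow]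
    refine congrArg (fun z : T.F₂ => (z ^ Q) ^ m) ?_
    rw [hc, inv_pow]
    have := pow_ne_zero n hu
    generalize f ^ E = z
    field_simp
  rw [hC, ← pow_mul (r * T.e₀ (u⁻¹ ^ Q)) m n, mul_comm m n, pow_mul, mul_pow, hrn, ← e]
  simp only [map_mul, map_pow]

end Fermat.Agent.BadPrime.Sq
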