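import Fermat.Agent.BadPrime.Sq.Setup
import Fermat.Agent.LevelP.PeuField

/-!
# The fixed field of inertia at a place over `q` as coefficient field

`inertiaField A` is the maximal extension of `ℚ` in `ℚ̄` unramified at `A`: it has uniformiser `q`,
the residue field of `A` as residue field, and inertia permutes the primitive `q`-th roots of unity
transitively.
-/

set_option autoImplicit false

noncomputable section

open IsLocalRing

namespace Fermat.Agent.BadPrime.Sq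

local notation "ℚ̄" => AlgebraicClosure ℚ
local notation "Γℚ" => (AlgebraicClosure ℚ ≃ₐ[ℚ] AlgebraicClosure ℚ)

/-- The fixed field of the inertia group at `A`. -/
def inertiaField (A : ValuationSubring ℚ̄) : IntermediateField ℚ ℚ̄ :=
  IntermediateField.fixedField (A.inertiaSubgroupIn ℚ)

variable {A : ValuationSubring ℚ̄}

theorem mem_inertiaField_iff {x : ℚ̄} :
    x ∈ inertiaField A ↔ ∀ σ ∈ A.inertiaSubgroupIn ℚ, σ x = x :=
  ⟨fun h σ hσ => h ⟨σ, hσ⟩, fun h σ => h σ.1 σ.2⟩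

/-- An element of inertia as an automorphism over the inertia field. -/
def inertiaAut (τ : Γℚ) (hτ : τ ∈ A.inertiaSubgroupIn ℚ) : ℚ̄ ≃ₐ[inertiaField A] ℚ̄ :=
  AlgEquiv.ofRingEquiv (f := τ.toRingEquiv) fun x => mem_inertiaField_iff.mp x.2 τ hτ

@[simp]
theorem inertiaAut_apply (τ : Γℚ) (hτ : τ ∈ A.inertiaSubgroupIn ℚ) (x : ℚ̄) :
    inertiaAut τ hτ x = τ x := rfl

variable {q : ℕ}

/-- Inertia at a place over `q` realises every automorphism of the `q`-th roots of unity. -/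
theorem exists_mem_inertia_zeta (hq : q.Prime) (hA : A.LiesOverPrime q) {ζ : ℚ̄}
    (hζ : IsPrimitiveRoot ζ q) (a : (ZMod q)ˣ) :
    ∃ τ ∈ A.inertiaSubgroupIn ℚ, τ ζ = ζ ^ (a : ZMod q).val := by
  classical
  have : Fact q.Prime := ⟨hq⟩
  have : NeZero q := ⟨hq.ne_zero⟩
  let χ : A.inertiaSubgroupIn ℚ →* (ZMod q)ˣ :=
    (hζ.autToPow ℚ).comp (A.inertiaSubgroupIn ℚ).subtype
  have hspec : ∀ τ : A.inertiaSubgroupIn ℚ, (τ : Γℚ) ζ = ζ ^ (χ τ : ZMod q).val := fun τ =>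
    (hζ.autToPow_spec ℚ (τ : Γℚ)).symm
  suffices χ.range = ⊤ by
    obtain ⟨τ, hτ⟩ : a ∈ χ.range := this ▸ Subgroup.mem_top a
    exact ⟨τ, τ.2, by rw [hspec, hτ]⟩
  choose s hs using fun r : χ.range => r.2
  let N : ℚ̄ := ∏ r : χ.range, (ζ ^ ((r : (ZMod q)ˣ) : ZMod q).val - 1)
  have hval : ∀ r : χ.range,
      A.valuation (ζ ^ ((r : (ZMod q)ˣ) : ZMod q).val - 1) = A.valuation (ζ - 1) := fun r => by
    have e : (s r : Γℚ) (ζ - 1) = ζ ^ ((r : (ZMod q)ˣ) : ZMod q).val - 1 := by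
      rw [map_sub, map_one, hspec, hs]
    rw [← e]
    exact EC.Mult.valuation_apply (EC.Mult.mem_decompositionSubgroup_of_mem_inertia (s r).2) _
  have hv : A.valuation N = A.valuation (ζ - 1) ^ Nat.card χ.range := by
    rw [map_prod, Finset.prod_congr rfl fun r _ => hval r, Finset.prod_const, Finset.card_univ,
      ← Nat.card_eq_fintype_card]
  have hN0 : N ≠ 0 := by
    intro h
    rw [h, map_zero, eq_comm, pow_eq_zero_iff Nat.card_pos.ne', A.valuation.zero_iff,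
      sub_eq_zero] at hv
    exact hζ.ne_one hq.one_lt hv
  have hfix : ∀ τ ∈ A.inertiaSubgroupIn ℚ, τ N = N := fun τ hτ => by
    rw [map_prod]
    refine Fintype.prod_equiv (Equiv.mulLeft ⟨χ ⟨τ, hτ⟩, ⟨_, rfl⟩⟩) _ _ fun r => ?_
    rw [map_sub, map_one, map_pow, show τ ζ = _ from hspec ⟨τ, hτ⟩, ← pow_mul,
      Equiv.coe_mulLeft, Subgroup.coe_mul, Units.val_mul]
    congr 1
    rw [← pow_mod_aux hζ]
    congr 1
    exact (ZMod.val_mul _ _).symm
  obtain ⟨i, hi⟩ := EC.Mult.exists_zpow_of_inertia_fixed hq hA hN0 hfix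
  have h := congrArg (· ^ (q - 1)) hv
  simp only [← pow_mul, mul_comm (Nat.card χ.range), hi] at h
  rw [pow_mul, LevelP.valuation_zeta_sub_one_pow hq hA hζ, ← zpow_natCast, ← zpow_natCast,
    ← zpow_mul] at h
  have hcard : i * ((q - 1 : ℕ) : ℤ) = (Nat.card χ.range : ℤ) :=
    zpow_right_injective₀ (zero_lt_iff.2 (EC.Mult.valuation_natCast_ne_zero hq))
      (EC.Mult.valuation_natCast_lt_one hA).ne h
  have hdvd : q - 1 ∣ Nat.card χ.range :=
    Int.natCast_dvd_natCast.mp ⟨i, by rw [← hcard, mul_comm]⟩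
  refine Subgroup.eq_top_of_le_card _ ?_
  rw [Nat.card_eq_fintype_card, ZMod.card_units]
  exact Nat.le_of_dvd Nat.card_pos hdvd
where
  pow_mod_aux {ζ : ℚ̄} (hζ : IsPrimitiveRoot ζ q) {m : ℕ} : ζ ^ (m % q) = ζ ^ m := by
    conv_rhs => rw [← Nat.mod_add_div m q, pow_add, pow_mul, hζ.pow_eq_one, one_pow, mul_one]

/-- A primitive `q`-th root of unity in `ℚ̄`. -/
def zetaQ (hq : q.Prime) : ℚ̄ˣ :=
  haveI : NeZero (q : ℚ̄) := ⟨Nat.cast_ne_zero.2 hq.ne_zero⟩
  (HasEnoughRootsOfUnity.exists_primitiveRoot ℚ̄ q).choose_spec.isUnit hq.ne_zero |>.unit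

theorem isPrimitiveRoot_zetaQ (hq : q.Prime) : IsPrimitiveRoot (zetaQ hq) q :=
  haveI : NeZero (q : ℚ̄) := ⟨Nat.cast_ne_zero.2 hq.ne_zero⟩
  IsPrimitiveRoot.coe_units_iff.mp (HasEnoughRootsOfUnity.exists_primitiveRoot ℚ̄ q).choose_spec

/-- The coefficient data of the inertia field. -/
def inertiaBase (hq : q.Prime) (hA : A.LiesOverPrime q) :
    SqBase q (inertiaField A) (residue A) where
  ζ := zetaQ hq
  primitive := isPrimitiveRoot_zetaQ hq
  σ a :=
    have h := exists_mem_inertia_zeta hq hA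
      (IsPrimitiveRoot.coe_units_iff.mpr (isPrimitiveRoot_zetaQ hq)) a
    inertiaAut h.choose h.choose_spec.1
  σ_ζ a := (exists_mem_inertia_zeta hq hA
    (IsPrimitiveRoot.coe_units_iff.mpr (isPrimitiveRoot_zetaQ hq)) a).choose_spec.2
  σ_mem a c hc := by
    have h := exists_mem_inertia_zeta hq hA
      (IsPrimitiveRoot.coe_units_iff.mpr (isPrimitiveRoot_zetaQ hq)) a
    exact (EC.residue_apply_eq_of_mem_inertia A h.choose_spec.1 hc).fst
  σ_res a c := (EC.residue_apply_eq_of_mem_inertia A (exists_mem_inertia_zeta hq hA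
    (IsPrimitiveRoot.coe_units_iff.mpr (isPrimitiveRoot_zetaQ hq)) a).choose_spec.1 c.2).snd
  isLocalHom := inferInstance
  surj r := by
    obtain ⟨x, rfl⟩ := residue_surjective r
    obtain ⟨a, ha, hfix, hlt⟩ := LevelP.exists_inertia_fixed_residue_eq hq hA x.2
    exact ⟨⟨a, mem_inertiaField_iff.mpr hfix⟩, ha,
      ((EC.Inertia.residue_eq_iff_sub_mem_nonunits A (a := x) (b := ⟨a, ha⟩)).2
        (A.mem_nonunits_iff.2 hlt)).symm⟩
  natCast_mem_nonunits := hA
  uniform c hc := by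
    have hc' : (c : ℚ̄) ≠ 0 := fun h => hc (Subtype.ext h)
    obtain ⟨i, hi⟩ := EC.Mult.exists_zpow_of_inertia_fixed hq hA hc'
      (mem_inertiaField_iff.mp c.2)
    have h0 : A.valuation (q : ℚ̄) ^ i ≠ 0 :=
      zpow_ne_zero i (EC.Mult.valuation_natCast_ne_zero hq)
    refine ⟨i, (A.valuation_le_one_iff _).1 ?_, (A.valuation_le_one_iff _).1 ?_⟩ <;>
      rw [map_div₀, map_zpow₀, show algebraMap (inertiaField A) ℚ̄ c = (c : ℚ̄) from rfl, hi,
        div_self h0]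

end Fermat.Agent.BadPrime.Sq
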