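import Fermat.Agent.BadPrime.JacobianDescent
import Fermat.Agent.BadPrime.Sq.InertiaField
import Mathlib.LinearAlgebra.LinearIndependent.Lemmas
import Mathlib.FieldTheory.LinearDisjoint

/-!
# Kummer functions fixed by a group fixing the class

Roots with leading coefficient `1` are unique, so the cocycle of a Galois invariant torsion class is
canonical and Hilbert 90 (a Poincaré series) gives an invariant Kummer function.
-/

set_option autoImplicit false

noncomputable section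

open AlgebraicCurve ModularCurve
open Fermat.Agent.EichlerShimura (bcHom coe_bcHom)

namespace Fermat.Agent.BadPrime.Sq

set_option synthInstance.maxHeartbeats 200000

local notation "ℚ̄" => AlgebraicClosure ℚ
local notation "Γℚ" => (AlgebraicClosure ℚ ≃ₐ[ℚ] AlgebraicClosure ℚ)

/-- Roots with leading coefficient `1` are unique. -/
theorem eq_of_pow_eq_of_leadingCoeff {L : Type*} [Field L] [IsAlgClosed L] {n : ℕ} (hn : n ≠ 0)
    {x y : LaurentSeries L} (hx : x.leadingCoeff = 1) (hy : y.leadingCoeff = 1)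
    (h : x ^ n = y ^ n) : x = y := by
  have hy0 : y ≠ 0 := fun e => by simp [e, HahnSeries.leadingCoeff_zero] at hy
  have hz : IsIntegral L (x / y) := by
    refine ⟨Polynomial.X ^ n - Polynomial.C 1, Polynomial.monic_X_pow_sub_C 1 hn, ?_⟩
    rw [Polynomial.eval₂_sub, Polynomial.eval₂_X_pow, Polynomial.eval₂_C, map_one, div_pow, h,
      div_self (pow_ne_zero n hy0), sub_self]
  obtain ⟨a, ha⟩ := minpoly.mem_range_of_degree_eq_one (A := L) (x := x / y)
    (IsAlgClosed.degree_eq_one_of_irreducible L (minpoly.irreducible hz))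
  have hxy : algebraMap L (LaurentSeries L) a * y = x := by
    rw [ha, div_mul_cancel₀ x hy0]
  have h1 := congrArg HahnSeries.leadingCoeff hxy
  rw [HahnSeries.leadingCoeff_mul, algebraMap_laurentSeries_eq_single,
    HahnSeries.leadingCoeff_of_single, hy, mul_one, hx] at h1
  rw [← hxy, h1, map_one, one_mul]

variable {N : ℕ} [NeZero N]

local notation "F" => modularFunctionFieldBar N
local notation "act" => arithmeticGalois (modularFunctionFieldFull N)

theorem leadingCoeff_act (σ : Γℚ) {f : F} (hf : f ≠ 0) :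
    ((act σ • f : F) : LaurentSeries ℚ̄).leadingCoeff =
      σ (f : LaurentSeries ℚ̄).leadingCoeff := by
  rw [coe_arithmeticGalois_smul,
    EichlerShimura.leadingCoeff_coeffMap _ fun e => hf (Subtype.ext e)]
  rfl

omit [NeZero N] in
theorem act_algebraMap (σ : Γℚ) (c : ℚ̄) :
    act σ • algebraMap ℚ̄ F c = algebraMap ℚ̄ F (σ c) := by
  refine Subtype.ext ?_
  rw [coe_arithmeticGalois_smul]
  exact EichlerShimura.coeffMap_constant _ c

omit [NeZero N] in
theorem leadingCoeff_pow_eq_one {f : F} (h : (f : LaurentSeries ℚ̄).leadingCoeff = 1) (m : ℕ) :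
    ((f ^ m : F) : LaurentSeries ℚ̄).leadingCoeff = 1 := by
  induction m with
  | zero => exact HahnSeries.leadingCoeff_one
  | succ m ih => rw [pow_succ, IntermediateField.coe_mul, HahnSeries.leadingCoeff_mul, h, ih, mul_one]

/-- Rescaling to leading coefficient `1`. -/
theorem exists_leadOne {f : F} (hf : f ≠ 0) :
    ∃ (c : ℚ̄) (g : F), c ≠ 0 ∧ g ≠ 0 ∧ (g : LaurentSeries ℚ̄).leadingCoeff = 1 ∧
      f = algebraMap ℚ̄ F c * g := by
  set c := (f : LaurentSeries ℚ̄).leadingCoeff with hc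
  have hc0 : c ≠ 0 := HahnSeries.leadingCoeff_ne_zero.mpr fun e => hf (Subtype.ext e)
  refine ⟨c, algebraMap ℚ̄ F c⁻¹ * f, hc0,
    mul_ne_zero ((map_ne_zero _).mpr (inv_ne_zero hc0)) hf, ?_, ?_⟩
  · show (algebraMap ℚ̄ (LaurentSeries ℚ̄) c⁻¹ * (f : LaurentSeries ℚ̄)).leadingCoeff = 1
    rw [HahnSeries.leadingCoeff_mul, algebraMap_laurentSeries_eq_single,
      HahnSeries.leadingCoeff_of_single, ← hc, inv_mul_cancel₀ hc0]
  · rw [← mul_assoc, ← map_mul, mul_inv_cancel₀ hc0, map_one, one_mul]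

/-- An invariant torsion class has an invariant Kummer function. -/
theorem exists_kummer_fixed {n : ℕ} (hn : n ≠ 0) {x : JZero N} (hx : n • x = 0)
    (H : Subgroup Γℚ) (hH : ∀ σ ∈ H, σ • x = x) :
    ∃ f : F, IsKummerFun n x f ∧ ∀ σ ∈ H, act σ • f = f := by
  classical
  have := EichlerShimura.isFunctionField1_modularFunctionFieldBar N
  obtain ⟨g₀, hg₀⟩ := exists_isKummerFun hx
  obtain ⟨c₀, g, hc₀, hg0, hlead, hg₀g⟩ := exists_leadOne hg₀.ne_zero
  have hg : IsKummerFun n x g := by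
    have h := hg₀.const_mul_pow (inv_ne_zero hc₀) (one_ne_zero : (1 : F) ≠ 0)
    rwa [one_pow, mul_one, hg₀g, ← mul_assoc, ← map_mul, inv_mul_cancel₀ hc₀, map_one,
      one_mul] at h
  -- the cocycle
  have hroot : ∀ σ : H, ∃ h : F, h ≠ 0 ∧ (h : LaurentSeries ℚ̄).leadingCoeff = 1 ∧
      act (σ : Γℚ) • g = h ^ n * g := by
    intro σ
    have hsm := hg.smul (act (σ : Γℚ))
    rw [← galois_smul_pic0_def, hH σ σ.2] at hsm
    obtain ⟨c, u, hc, hu, heq⟩ := (hsm.eq_iff hn hg).mp rfl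
    obtain ⟨d, h, hd, hh, hhl, rfl⟩ := exists_leadOne hu
    refine ⟨h, hh, hhl, ?_⟩
    have hl := congrArg (fun z : F => (z : LaurentSeries ℚ̄).leadingCoeff) heq
    rw [leadingCoeff_act (σ : Γℚ) hg0, hlead, map_one] at hl
    have e : (algebraMap ℚ̄ F c * (algebraMap ℚ̄ F d * h) ^ n * g : F) =
        algebraMap ℚ̄ F (c * d ^ n) * (h ^ n * g) := by
      rw [mul_pow, map_mul, map_pow]; ring
    rw [e] at hl heq
    have hpow : ((h ^ n : F) : LaurentSeries ℚ̄).leadingCoeff = 1 := leadingCoeff_pow_eq_one hhl n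
    rw [IntermediateField.coe_mul, IntermediateField.coe_mul, HahnSeries.leadingCoeff_mul,
      HahnSeries.leadingCoeff_mul, hpow, hlead, mul_one, mul_one] at hl
    change 1 = (algebraMap ℚ̄ (LaurentSeries ℚ̄) (c * d ^ n)).leadingCoeff at hl
    rw [algebraMap_laurentSeries_eq_single, HahnSeries.leadingCoeff_of_single] at hl
    rw [heq, ← hl, map_one, one_mul]
  choose h hh0 hhl hhg using hroot
  have huniq : ∀ σ τ : H, act (σ : Γℚ) • g = act (τ : Γℚ) • g → h σ = h τ := by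
    intro σ τ e
    rw [hhg, hhg] at e
    refine Subtype.ext (eq_of_pow_eq_of_leadingCoeff hn (hhl σ) (hhl τ) ?_)
    rw [← IntermediateField.coe_pow, ← IntermediateField.coe_pow, mul_right_cancel₀ hg0 e]
  have hmul : ∀ σ τ : H, h (σ * τ) = act (σ : Γℚ) • h τ * h σ := by
    intro σ τ
    refine Subtype.ext (eq_of_pow_eq_of_leadingCoeff hn (hhl _) ?_ ?_)
    · rw [IntermediateField.coe_mul, HahnSeries.leadingCoeff_mul, leadingCoeff_act _ (hh0 τ), hhl,
        hhl, map_one, one_mul]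
    · rw [← IntermediateField.coe_pow, ← IntermediateField.coe_pow]
      refine congrArg Subtype.val (mul_right_cancel₀ hg0 ?_)
      rw [← hhg, Subgroup.coe_mul, map_mul, mul_smul, hhg, smul_mul', smul_pow', mul_pow, mul_assoc,
        ← hhg]
  -- only finitely many conjugates
  obtain ⟨k, -, hkfin, hgal, hgk⟩ := exists_galois_descend (modularFunctionFieldFull N) ⊥ {g}
  obtain ⟨g', hg'⟩ := hgk g (Finset.mem_singleton_self g)
  let r : H →* (k ≃ₐ[ℚ] k) := (AlgEquiv.restrictNormalHom k).comp H.subtype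
  have hdep : ∀ σ τ : H, r σ = r τ → act (σ : Γℚ) • g = act (τ : Γℚ) • g := by
    intro σ τ e
    rw [← hg', smul_bcHom, smul_bcHom]
    exact congrArg (fun ρ => bcHom _ (levelVal k) (arithmeticGalois _ ρ • g')) e
  choose s hs using fun ρ : r.range => ρ.2
  -- the Poincaré series
  let φ : r.range → (k →* F) := fun ρ =>
    ((algebraMap ℚ̄ F).comp (((s ρ : Γℚ) : ℚ̄ →+* ℚ̄).comp (algebraMap k ℚ̄))).toMonoidHom
  have hφ : Function.Injective φ := by
    intro ρ ρ' e
    refine Subtype.ext ?_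
    rw [← hs ρ, ← hs ρ']
    refine AlgEquiv.ext fun a => (algebraMap k ℚ̄).injective ?_
    refine ((s ρ : Γℚ).restrictNormal_commutes k a).trans (Eq.trans ?_
      ((s ρ' : Γℚ).restrictNormal_commutes k a).symm)
    exact (algebraMap ℚ̄ F).injective (DFunLike.congr_fun e a)
  obtain ⟨a, ha⟩ : ∃ a : k, ∑ ρ, h (s ρ) * φ ρ a ≠ 0 := by
    by_contra! hall
    have hli := (linearIndependent_monoidHom k F).comp φ hφ
    have h0 := Fintype.linearIndependent_iff.mp hli (fun ρ => h (s ρ)) (funext fun a => by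
      simpa [Finset.sum_apply, smul_eq_mul] using hall a) ⟨1, one_mem _⟩
    exact hh0 _ h0
  set w : F := ∑ ρ, h (s ρ) * φ ρ a with hw
  refine ⟨w ^ n * g, ?_, fun σ hσ => ?_⟩
  · have := hg.const_mul_pow (one_ne_zero : (1 : ℚ̄) ≠ 0) ha
    rwa [map_one, one_mul] at this
  · have key : act σ • w * h ⟨σ, hσ⟩ = w := by
      rw [hw, Finset.smul_sum, Finset.sum_mul]
      refine Fintype.sum_equiv (Equiv.mulLeft ⟨r ⟨σ, hσ⟩, ⟨_, rfl⟩⟩) _ _ fun ρ => ?_
      let ρ' : r.range := ⟨r ⟨σ, hσ⟩, ⟨_, rfl⟩⟩ * ρ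
      show act ((⟨σ, hσ⟩ : H) : Γℚ) • (h (s ρ) * φ ρ a) * h ⟨σ, hσ⟩ = h (s ρ') * φ ρ' a
      have e : r (⟨σ, hσ⟩ * s ρ) = r (s ρ') := by rw [map_mul, hs, hs]; rfl
      rw [smul_mul', mul_right_comm, ← hmul, huniq _ _ (hdep _ _ e)]
      congr 1
      show act σ • algebraMap ℚ̄ F ((s ρ : Γℚ) (a : ℚ̄)) = algebraMap ℚ̄ F ((s ρ' : Γℚ) (a : ℚ̄))
      rw [act_algebraMap]
      refine congrArg _ ?_
      have h1 := AlgEquiv.restrictNormal_commutes (((⟨σ, hσ⟩ * s ρ : H) : Γℚ)) k a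
      have h2 := AlgEquiv.restrictNormal_commutes ((s ρ' : Γℚ)) k a
      exact h1.symm.trans ((congrArg (fun ψ : k ≃ₐ[ℚ] k => (algebraMap k ℚ̄) (ψ a)) e).trans h2)
    rw [smul_mul', smul_pow', hhg ⟨σ, hσ⟩, ← mul_assoc, ← mul_pow, key]

end Fermat.Agent.BadPrime.Sq
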