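import Fermat.Agent.BadPrime.Sq.TowerConj
import Fermat.Agent.BadPrime.GaussTwo
import Fermat.Agent.EichlerShimura.LevelDegree
import Fermat.Agent.Reduction.NormCongruence
import Fermat.Agent.Igusa.LaurentLead

/-!
# The expansions of the tower `N ∣ N q ∣ N q²` and their conjugates

For `q` prime to `N` and a coefficient field `L` we construct the three expansions `e₀`, `eₘ`,
`e₂` of level `N q²` and factor the characteristic polynomials along the degeneracy maps.
-/

set_option autoImplicit false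
set_option synthInstance.maxHeartbeats 400000
set_option linter.unusedSectionVars false

noncomputable section

open ModularCurve Polynomial AlgebraicCurve
open scoped IntermediateField

namespace Fermat.Agent.BadPrime.Sq.Tower

open Fermat.Agent.Modular Fermat.Agent.BadPrime Fermat.Agent.EichlerShimura

/-! ### Degrees -/

theorem algDeg_comp {F G H : Type*} [Field F] [Field G] [Field H] (a : F →+* G) (b : G →+* H) :
    algDeg (b.comp a) = algDeg a * algDeg b := by
  let _ := a.toAlgebra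
  let _ := b.toAlgebra
  let _ := (b.comp a).toAlgebra
  have : IsScalarTower F G H := IsScalarTower.of_algebraMap_eq fun _ => rfl
  exact (Module.finrank_mul_finrank F G H).symm

theorem algDeg_eq_one_of_bijective {F G : Type*} [Field F] [Field G] (a : F →+* G)
    (h : Function.Bijective a) : algDeg a = 1 := by
  let _ := a.toAlgebra
  show Module.finrank F G = 1
  rw [← (LinearEquiv.ofBijective (Algebra.linearMap F G) h).finrank_eq, Module.finrank_self]

theorem dedekindPsi_mul_self_mul (N q : ℕ) [NeZero N] [Fact q.Prime] :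
    dedekindPsi (N * q * q) = q * dedekindPsi (N * q) := by
  rw [← dedekindPsi_mul_index (N * q) q, index_levelSubgroup_eq_card (N * q) Fact.out,
    Nat.card_eq_fintype_card]
  congr 1
  rw [Fintype.card_congr (Equiv.subtypeEquiv (Equiv.refl _) (q := fun i : Option (Fin q) => i ≠ none)
    fun i => ?_), Fintype.card_subtype_compl]
  · simp
  · simp only [Equiv.refl_apply]
    constructor
    · exact fun h h' => h h' (dvd_mul_left q N)
    · exact fun h h' => absurd h' h

variable (L : Type) {K' : Type} [Field L] [Algebra ℚ L] [Field K'] [Algebra L K']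
  (N q : ℕ) [NeZero N] [Fact q.Prime]

section Degrees

variable {L} (ι : L →+* ℂ)
include ι

theorem algDeg_mul_psi {M M' : ℕ} [NeZero M] [NeZero M'] (h : M ∣ M') :
    dedekindPsi M * algDeg (levelIncl (L := L) h).toRingHom = dedekindPsi M' :=
  finrankAlong_levelIncl_mul (L := L) (fun P _ => finrank_FL P ι) h

theorem algDeg_alpha (hqN : ¬ q ∣ N) : algDeg (heckeAlphaBar L N q).toRingHom = q + 1 := by
  have h := algDeg_mul_psi (L := L) ι (dvd_mul_right N q)
  rw [← heckeAlphaBar_eq_levelIncl, dedekindPsi_mul_prime_of_not_dvd Fact.out hqN (NeZero.ne N),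
    mul_comm (q + 1)] at h
  exact Nat.eq_of_mul_eq_mul_left (dedekindPsi_pos N) h

theorem algDeg_alpha' : algDeg (heckeAlphaBar L (N * q) q).toRingHom = q := by
  have h := algDeg_mul_psi (L := L) ι (dvd_mul_right (N * q) q)
  rw [← heckeAlphaBar_eq_levelIncl, dedekindPsi_mul_self_mul N q, mul_comm q] at h
  exact Nat.eq_of_mul_eq_mul_left (dedekindPsi_pos (N * q)) h

end Degrees

/-! ### Series -/

section Series

variable (K')

/-- The expansion at `∞`, with coefficients in `K'`. -/
def ser (M : ℕ) : FL M L →+* LaurentSeries K' :=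
  (coeffMap (algebraMap L K')).comp (FL M L).val.toRingHom

theorem ser_apply (M : ℕ) (x : FL M L) :
    ser L K' M x = coeffMap (algebraMap L K') (x : LaurentSeries L) := rfl

theorem ser_injective (M : ℕ) : Function.Injective (ser L K' M) := RingHom.injective _

theorem ser_algebraMap (M : ℕ) (c : L) :
    ser L K' M (algebraMap L (FL M L) c) = HahnSeries.C (algebraMap L K' c) := by
  show coeffMap (algebraMap L K') (algebraMap L (LaurentSeries L) c) = _
  rw [algebraMap_laurentSeries_eq_single, coeffMap_single]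
  rfl

theorem ser_alpha (M : ℕ) [NeZero M] (x : FL M L) :
    ser L K' (M * q) (heckeAlphaBar L M q x) = ser L K' M x := by
  rw [ser_apply, ser_apply, coe_heckeAlphaBar]

theorem ser_beta (M : ℕ) [NeZero M] (x : FL M L) :
    ser L K' (M * q) (heckeBetaBar L M q x) = qExpand K' q (ser L K' M x) := by
  rw [ser_apply, ser_apply, coe_heckeBetaBar, coeffMap_qExpand]

theorem ser_jL (M : ℕ) [NeZero M] : ser L K' M (jL M L) = jqModC K' := by
  show coeffMap (algebraMap L K') (coeffEmb L jq) = jqModC K'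
  rw [coeffEmb, coeffMap_coeffMap, ← jqModC_rat, coeffMap_jqModC]

variable {L K'}

theorem coeffMap_fix (σ : K' ≃ₐ[L] K') {M : ℕ} (x : FL M L) :
    coeffMap (σ : K' →+* K') (ser L K' M x) = ser L K' M x := by
  rw [ser_apply, coeffMap_coeffMap]
  exact coeffMap_congr (RingHom.ext σ.commutes) _

theorem twist_twist (c d : K'ˣ) (x : LaurentSeries K') :
    Igusa.twist c (Igusa.twist d x) = Igusa.twist (c * d) x := by
  ext n
  rw [Igusa.twist_coeff, Igusa.twist_coeff, Igusa.twist_coeff, mul_zpow, Units.val_mul, mul_assoc]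

theorem coeffMap_twist_jqModC (σ : K' →+* K') (c d : K'ˣ) (h : σ c = d) :
    coeffMap σ (Igusa.twist c (jqModC K')) = Igusa.twist d (jqModC K') := by
  rw [Igusa.coeffMap_twist, coeffMap_jqModC, show Units.map σ.toMonoidHom c = d from Units.ext h]

theorem twist_jqModC_inj {c d : K'ˣ} (h : Igusa.twist c (jqModC K') = Igusa.twist d (jqModC K')) :
    c = d := by
  have h1 := congrArg (fun x : LaurentSeries K' => x.coeff (-1)) h
  simp only [Igusa.twist_coeff, Igusa.hasLead_jqModC.coeff_eq, mul_one, zpow_neg, zpow_one] at h1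
  exact inv_injective (Units.ext h1)

theorem qExpand_jqModC_ne_twist (n : ℕ) [NeZero n] (hn : 1 < n) (c : K'ˣ) :
    qExpand K' n (jqModC K') ≠ Igusa.twist c (jqModC K') := by
  intro h
  have h1 := congrArg (fun x : LaurentSeries K' => x.coeff (-1)) h
  simp only [Igusa.twist_coeff, Igusa.hasLead_jqModC.coeff_eq, mul_one] at h1
  rw [qExpand_coeff_of_not_dvd n _ fun hd => ?_] at h1
  · exact (Units.ne_zero _) h1.symm
  · rw [dvd_neg, show (1 : ℤ) = ((1 : ℕ) : ℤ) from rfl, Int.natCast_dvd_natCast] at hd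
    exact absurd (Nat.le_of_dvd one_pos hd) (by omega)

end Series

/-! ### The conjugates -/

variable {L} {ζ : K'ˣ} (hζ : IsPrimitiveRoot ζ q) {W : FL (N * q) L →ₐ[L] FL (N * q) L}
  (hW : IsALInvolution W)

local notation "α" => heckeAlphaBar L N q
local notation "α'" => heckeAlphaBar L (N * q) q
local notation "β'" => heckeBetaBar L (N * q) q
local notation "i₀" => ser L K' N
local notation "i₁" => ser L K' (N * q)
local notation "e₀" => ser L K' (N * q * q)
local notation "jK" => jqModC K'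

include hζ in
theorem one_lt_q_sq : 1 < q * q := by
  have := (Fact.out : q.Prime).two_le
  nlinarith

include hW in
theorem ser_W_alpha (x : FL N L) : i₁ (W (α x)) = qExpand K' q (i₀ x) := by
  rw [hW.alpha, ser_beta]

include hW in
theorem W_beta_jL : W (heckeBetaBar L N q (jL N L)) = α (jL N L) := hW.beta _

include hW in
theorem square (x : FL N L) : α' (W (α x)) = β' (α x) := by
  refine Subtype.ext ?_
  rw [coe_heckeAlphaBar, hW.alpha, coe_heckeBetaBar, coe_heckeBetaBar, coe_heckeAlphaBar]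

theorem twist_qExpand' (hζ : IsPrimitiveRoot ζ q) (m : ℤ) (x : LaurentSeries K') :
    Igusa.twist (ζ ^ m) (qExpand K' q x) = qExpand K' q x :=
  Reduction.twist_qExpand_of_pow_eq_one (by
    rw [← zpow_natCast, ← zpow_mul, mul_comm, zpow_mul, zpow_natCast, hζ.pow_eq_one, one_zpow]) x

theorem twist_qExpand_nat (hζ : IsPrimitiveRoot ζ q) (m : ℕ) (x : LaurentSeries K') :
    Igusa.twist (ζ ^ m) (qExpand K' q x) = qExpand K' q x := by
  simpa using twist_qExpand' q hζ (m : ℤ) x

theorem pow_val_inj (hζ : IsPrimitiveRoot ζ q) {a b : ZMod q} (h : ζ ^ a.val = ζ ^ b.val) :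
    a = b :=
  ZMod.val_injective q (hζ.pow_inj a.val_lt b.val_lt h)

variable (ζ) in
/-- The conjugates of level `N q` over level `N`. -/
def psi₁ (W : FL (N * q) L →ₐ[L] FL (N * q) L) :
    Option (ZMod q) → FL (N * q) L →+* LaurentSeries K'
  | none => (qExpand K' q).comp i₁
  | some a => (Igusa.twist (ζ ^ a.val)).comp ((i₁).comp W.toRingHom)

include hW hζ in
theorem psi₁_alpha (s : Option (ZMod q)) (x : FL N L) :
    psi₁ N q ζ W s (α x) = qExpand K' q (i₀ x) := by
  rcases s with _ | a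
  · show qExpand K' q (i₁ (α x)) = _
    rw [ser_alpha]
  · show Igusa.twist _ (i₁ (W (α x))) = _
    rw [ser_W_alpha N q hW, twist_qExpand_nat q hζ]

include hW in
theorem psi₁_beta_none : psi₁ N q ζ W none (heckeBetaBar L N q (jL N L)) =
    qExpand K' (q * q) jK := by
  show qExpand K' q (i₁ _) = _
  rw [ser_beta, ser_jL, qExpand_qExpand]

include hW in
theorem psi₁_beta_some (a : ZMod q) : psi₁ N q ζ W (some a) (heckeBetaBar L N q (jL N L)) =
    Igusa.twist (ζ ^ a.val) jK := by
  show Igusa.twist _ (i₁ (W _)) = _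
  rw [W_beta_jL N q hW, ser_alpha, ser_jL]

include hW hζ in
theorem psi₁_beta_injective :
    Function.Injective fun s => psi₁ N q ζ W s (heckeBetaBar L N q (jL N L)) := by
  rintro (_ | a) (_ | b) h <;> simp only [psi₁_beta_none N q hW, psi₁_beta_some N q hW] at h
  · rfl
  · exact absurd h (qExpand_jqModC_ne_twist _ (one_lt_q_sq q hζ) _)
  · exact absurd h.symm (qExpand_jqModC_ne_twist _ (one_lt_q_sq q hζ) _)
  · rw [pow_val_inj q hζ (twist_jqModC_inj h)]

variable (ι : L →+* ℂ) (hqN : ¬ q ∣ N)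

include hW hζ ι hqN in
/-- Conjugates along `α`. -/
theorem exists_cp₁ [CharZero L] (f : FL (N * q) L) : ∃ P : (FL N L)[X], P.Monic ∧
    P.natDegree = q + 1 ∧ P.eval₂ (α).toRingHom f = 0 ∧
    P.map ((qExpand K' q).comp i₀) = (X - C (qExpand K' q (i₁ f))) *
      ∏ a : ZMod q, (X - C (Igusa.twist (ζ ^ a.val) (i₁ (W f)))) := by
  have hd := algDeg_alpha N q ι hqN
  obtain ⟨h1, h2, h3⟩ := conjPoly_spec (α).toRingHom hd (Nat.succ_ne_zero q) f
  refine ⟨_, h1, h2, h3, ?_⟩
  rw [conjPoly_map (α).toRingHom hd (Nat.succ_ne_zero q) f _ (psi₁ N q ζ W)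
    (psi₁_alpha N q hζ hW) (fun a b h => psi₁_beta_injective N q hζ hW (RingHom.congr_fun h _))
    (by simp), Fintype.prod_option]
  rfl

include hW hζ ι hqN in
theorem isPowGen_beta [CharZero L] :
    IsPowGen (α).toRingHom (q + 1) (heckeBetaBar L N q (jL N L)) :=
  isPowGen_of_distinguished (α).toRingHom (algDeg_alpha N q ι hqN) ((qExpand K' q).comp i₀)
    (psi₁ N q ζ W)
    (psi₁_alpha N q hζ hW) (by simp) _ (psi₁_beta_injective N q hζ hW)

/-! ### The relation of `β' (β j)` over level `N q` -/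

include hW hζ ι hqN in
/-- A polynomial of degree `q` over level `N q` killing `z = β' (β j)`. -/
theorem exists_relPoly [CharZero L] : ∃ R : (FL (N * q) L)[X], R.Monic ∧ R.natDegree = q ∧
    R.eval₂ (α').toRingHom (β' (heckeBetaBar L N q (jL N L))) = 0 ∧
    R.eval₂ i₁ (Igusa.twist ζ jK) = 0 ∧
    R.map ((qExpand K' q).comp ((i₁).comp W.toRingHom)) =
      ∏ a : ZMod q, (X - C (Igusa.twist (ζ ^ a.val) jK)) := by
  set y := heckeBetaBar L N q (jL N L) with hy
  obtain ⟨P, hP, hdeg, hev, hmap⟩ := exists_cp₁ N q hζ hW ι hqN y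
  set P₁ := P.map ((W : FL (N * q) L →ₐ[L] FL (N * q) L).toRingHom.comp (α).toRingHom) with hP₁
  have hx : P₁.IsRoot (α (jL N L)) := by
    have := congrArg W.toRingHom hev
    rw [hom_eval₂, map_zero] at this
    rw [IsRoot.def, hP₁, eval_map, ← W_beta_jL N q hW, ← hy]
    exact this
  obtain ⟨R, hR⟩ := dvd_iff_isRoot.2 hx
  have hP₁m : P₁.Monic := hP.map _
  have hRm : R.Monic := (monic_X_sub_C _).of_mul_monic_left (hR ▸ hP₁m)
  have hRdeg : R.natDegree = q := by
    have h1 : P₁.natDegree = q + 1 := by rw [hP₁, natDegree_map, hdeg]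
    rw [hR, (monic_X_sub_C _).natDegree_mul hRm, natDegree_X_sub_C] at h1
    omega
  have hmap1 : ∀ φ : FL (N * q) L →+* LaurentSeries K',
      (∀ x, φ (W (α x)) = qExpand K' q (i₀ x)) →
      (X - C (φ (α (jL N L)))) * R.map φ = (X - C (qExpand K' (q * q) jK)) *
        ∏ a : ZMod q, (X - C (Igusa.twist (ζ ^ a.val) jK)) := by
    intro φ hφ
    have e : (X - C (φ (α (jL N L)))) * R.map φ = P₁.map φ := by
      rw [hR, Polynomial.map_mul, Polynomial.map_sub, map_X, map_C]
    rw [e, hP₁, Polynomial.map_map, show φ.comp (W.toRingHom.comp (α).toRingHom) =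
      (qExpand K' q).comp i₀ from RingHom.ext hφ, hmap, hy, ser_beta, ser_jL,
      qExpand_qExpand, W_beta_jL N q hW, ser_alpha, ser_jL]
  have hq1 : (1 : ZMod q) ≠ 0 := one_ne_zero
  refine ⟨R, hRm, hRdeg, ?_, ?_, ?_⟩
  · have hz : P₁.eval₂ (α').toRingHom (β' y) = 0 := by
      have := congrArg (β').toRingHom hev
      rw [hom_eval₂, map_zero] at this
      rw [hP₁, eval₂_map, show (α').toRingHom.comp (W.toRingHom.comp (α).toRingHom) =
        (β').toRingHom.comp (α).toRingHom from RingHom.ext (square N q hW)]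
      exact this
    rw [hR, eval₂_mul, eval₂_sub, eval₂_X, eval₂_C, mul_eq_zero] at hz
    refine hz.resolve_left fun h => ?_
    have h' := congrArg e₀ (sub_eq_zero.1 h)
    change e₀ (β' y) = e₀ (α' (α (jL N L))) at h'
    rw [ser_beta, hy, ser_beta, ser_alpha, ser_alpha, ser_jL, qExpand_qExpand] at h'
    exact qExpand_jqModC_ne_twist _ (one_lt_q_sq q hζ) 1 (h'.trans (Igusa.twist_one _).symm)
  · have h := congrArg (Polynomial.eval (Igusa.twist ζ jK)) (hmap1 i₁ fun x => ser_W_alpha N q hW x)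
    rw [eval_mul, eval_mul, eval_prod, Finset.prod_eq_zero (Finset.mem_univ (1 : ZMod q))
      (by rw [ZMod.val_one, pow_one, eval_sub, eval_X, eval_C, sub_self]), mul_zero,
      mul_eq_zero, eval_map] at h
    refine h.resolve_left fun h0 => ?_
    rw [eval_sub, eval_X, eval_C, sub_eq_zero, ser_alpha, ser_jL] at h0
    nth_rw 2 [← Igusa.twist_one (jqModC K')] at h0
    exact hζ.ne_one (Fact.out : q.Prime).one_lt (twist_jqModC_inj h0)
  · have h := hmap1 ((qExpand K' q).comp ((i₁).comp W.toRingHom)) fun x => by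
      show qExpand K' q (i₁ (W (W (α x)))) = _
      rw [hW.invol, ser_alpha]
    have e : ((qExpand K' q).comp ((i₁).comp W.toRingHom)) (α (jL N L)) =
        qExpand K' (q * q) jK := by
      show qExpand K' q (i₁ (W (α (jL N L)))) = _
      rw [ser_W_alpha N q hW, ser_jL, qExpand_qExpand]
    rw [e] at h
    exact mul_left_cancel₀ (X_sub_C_ne_zero _) h

include hW hζ ι hqN in
theorem isPowGen_z [CharZero L] :
    IsPowGen (α').toRingHom q (β' (heckeBetaBar L N q (jL N L))) := by
  have hq0 : q ≠ 0 := (Fact.out : q.Prime).ne_zero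
  refine ⟨algDeg_alpha' N q ι, fun p hp hp0 => ?_⟩
  set z := β' (heckeBetaBar L N q (jL N L))
  obtain ⟨R, hRm, hRdeg, hRz, -, hRmap⟩ := exists_relPoly N q hζ hW ι hqN
  let _ := (α').toRingHom.toAlgebra
  have hint : IsIntegral (FL (N * q) L) z := ⟨R, hRm, hRz⟩
  set m := minpoly (FL (N * q) L) z with hm
  suffices hmq : q ≤ m.natDegree by
    by_contra hne
    exact absurd (hmq.trans (natDegree_le_of_dvd (minpoly.dvd (FL (N * q) L) z hp0) hne)) hp.not_ge
  set φ := (qExpand K' q).comp ((i₁).comp W.toRingHom) with hφ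
  have hmm : (m.map φ).Monic := (minpoly.monic hint).map _
  have hdvd : m.map φ ∣ ∏ a : ZMod q, (X - C (Igusa.twist (ζ ^ a.val) jK)) := by
    rw [← hRmap]
    exact Polynomial.map_dvd φ (minpoly.dvd (FL (N * q) L) z hRz)
  obtain ⟨a₀, ha₀⟩ : ∃ a : ZMod q, (m.map φ).IsRoot (Igusa.twist (ζ ^ a.val) jK) := by
    by_contra! hno
    have hcop : IsCoprime (m.map φ) (∏ a : ZMod q, (X - C (Igusa.twist (ζ ^ a.val) jK))) :=
      IsCoprime.prod_right fun a _ =>
        ((irreducible_X_sub_C _).coprime_iff_not_dvd.2 fun h => hno a (dvd_iff_isRoot.1 h)).symm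
    have hu := hcop.isUnit_of_dvd' dvd_rfl hdvd
    have := natDegree_eq_zero_of_isUnit hu
    rw [natDegree_map] at this
    exact (minpoly.natDegree_pos hint).ne' this
  have hroot : ∀ b : ZMod q, (m.map φ).eval (Igusa.twist (ζ ^ b.val) jK) = 0 := by
    intro b
    have e : Igusa.twist (ζ ^ b.val) jK =
        Igusa.twist (ζ ^ (b.val : ℤ) * ζ ^ (-(a₀.val : ℤ))) (Igusa.twist (ζ ^ a₀.val) jK) := by
      rw [twist_twist, zpow_neg, zpow_natCast, zpow_natCast, inv_mul_cancel_right]
    have h := congrArg (Igusa.twist (ζ ^ (b.val : ℤ) * ζ ^ (-(a₀.val : ℤ)))) ha₀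
    rw [eval_map, hom_eval₂, map_zero, ← e] at h
    rw [eval_map]
    refine Eq.trans ?_ h
    congr 1
    refine RingHom.ext fun x => ?_
    show qExpand K' q _ = Igusa.twist _ (qExpand K' q _)
    rw [← zpow_add, twist_qExpand' q hζ]
  by_contra! hlt
  refine hmm.ne_zero (Polynomial.eq_zero_of_natDegree_lt_card_of_eval_eq_zero _
    (fun a b h => pow_val_inj q hζ (twist_jqModC_inj h)) hroot ?_)
  rw [natDegree_map, ZMod.card]
  exact hlt

include hW hζ ι hqN in
theorem exists_eM [CharZero L] : ∃ g : FL (N * q * q) L →+* LaurentSeries K',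
    (∀ x, g (α' x) = i₁ x) ∧ ∀ x, g (β' x) = Igusa.twist ζ (i₁ (W x)) := by
  obtain ⟨R, hRm, hRdeg, hRz, hr, -⟩ := exists_relPoly N q hζ hW ι hqN
  obtain ⟨g, hg, hgz⟩ := (isPowGen_z N q hζ hW ι hqN).exists_extend
    (Fact.out : q.Prime).ne_zero hRm hRdeg hRz i₁ hr
  refine ⟨g, hg, fun x => RingHom.congr_fun ((isPowGen_beta N q hζ hW ι hqN).ringHom_ext
    (Nat.succ_ne_zero q) (g := g.comp (β').toRingHom)
    (g' := (Igusa.twist ζ).comp ((i₁).comp W.toRingHom)) (fun c => ?_) ?_) x⟩
  · show g (β' (α c)) = Igusa.twist ζ (i₁ (W (α c)))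
    rw [← square N q hW]
    refine (hg _).trans ?_
    have := twist_qExpand_nat q hζ 1 (ser L K' N c)
    rw [pow_one] at this
    rw [ser_W_alpha N q hW, this]
  · show g (β' (heckeBetaBar L N q (jL N L))) = Igusa.twist ζ (i₁ (W _))
    rw [hgz, W_beta_jL N q hW, ser_alpha, ser_jL]

include hW hζ ι hqN in
theorem exists_e2 [CharZero L] : ∃ g : FL (N * q * q) L →+* LaurentSeries K',
    (∀ x, g (α' x) = qExpand K' q (i₁ (W x))) ∧ ∀ x, g (β' x) = i₁ (W x) := by
  obtain ⟨R, hRm, hRdeg, hRz, -, hmap⟩ := exists_relPoly N q hζ hW ι hqN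
  set φ := (qExpand K' q).comp ((i₁).comp W.toRingHom) with hφ
  have hr : R.eval₂ φ jK = 0 := by
    rw [← eval_map, hmap, eval_prod]
    refine Finset.prod_eq_zero (Finset.mem_univ (0 : ZMod q)) ?_
    rw [ZMod.val_zero, pow_zero, Igusa.twist_one, eval_sub, eval_X, eval_C, sub_self]
  obtain ⟨g, hg, hgz⟩ := (isPowGen_z N q hζ hW ι hqN).exists_extend
    (Fact.out : q.Prime).ne_zero hRm hRdeg hRz φ hr
  refine ⟨g, hg, fun x => RingHom.congr_fun ((isPowGen_beta N q hζ hW ι hqN).ringHom_ext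
    (Nat.succ_ne_zero q) (g := g.comp (β').toRingHom)
    (g' := (i₁).comp W.toRingHom) (fun c => ?_) ?_) x⟩
  · show g (β' (α c)) = i₁ (W (α c))
    rw [← square N q hW]
    refine (hg _).trans ?_
    show qExpand K' q (i₁ (W (W (α c)))) = _
    rw [hW.invol, ser_alpha, ser_W_alpha N q hW]
  · show g (β' (heckeBetaBar L N q (jL N L))) = i₁ (W _)
    rw [hgz, W_beta_jL N q hW, ser_alpha, ser_jL]

/-! ### Conjugates at level `N q²` -/

variable (σ : (ZMod q)ˣ → (K' ≃ₐ[L] K'))
  (hσ : ∀ a, σ a (ζ : K') = (ζ : K') ^ (a : ZMod q).val)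
  {eM e₂ : FL (N * q * q) L →+* LaurentSeries K'}
  (hMα : ∀ x : FL (N * q) L, eM (heckeAlphaBar L (N * q) q x) = ser L K' (N * q) x)
  (hMβ : ∀ x : FL (N * q) L,
    eM (heckeBetaBar L (N * q) q x) = Igusa.twist ζ (ser L K' (N * q) (W x)))
  (h₂α : ∀ x : FL (N * q) L,
    e₂ (heckeAlphaBar L (N * q) q x) = qExpand K' q (ser L K' (N * q) (W x)))
  (h₂β : ∀ x : FL (N * q) L, e₂ (heckeBetaBar L (N * q) q x) = ser L K' (N * q) (W x))

include hW hζ ι hqN hσ hMα hMβ h₂α h₂β in
/-- Conjugates along `α'`. -/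
theorem exists_cp₂ [CharZero L] (f : FL (N * q * q) L) : ∃ P : (FL (N * q) L)[X], P.Monic ∧
    P.natDegree = q ∧ P.eval₂ (α').toRingHom f = 0 ∧
    P.map i₁ = (X - C (e₀ f)) *
        ∏ a : (ZMod q)ˣ, (X - C (coeffMap (σ a : K' →+* K') (eM f))) ∧
    P.map ((qExpand K' q).comp ((i₁).comp W.toRingHom)) =
      ∏ a : ZMod q, (X - C (Igusa.twist (ζ ^ a.val) (e₂ f))) := by
  have hd := algDeg_alpha' (L := L) N q ι
  have hq0 : q ≠ 0 := (Fact.out : q.Prime).ne_zero
  set z := β' (heckeBetaBar L N q (jL N L))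
  obtain ⟨h1, h2, h3⟩ := conjPoly_spec (α').toRingHom hd hq0 f
  refine ⟨_, h1, h2, h3, ?_, ?_⟩
  · let ψ : Option (ZMod q)ˣ → FL (N * q * q) L →+* LaurentSeries K' := fun s =>
      s.elim e₀ fun a => (coeffMap (σ a : K' →+* K')).comp eM
    have v0 : ψ none z = qExpand K' (q * q) jK := by
      show e₀ z = _
      rw [ser_beta, ser_beta, ser_jL, qExpand_qExpand]
    have va : ∀ a : (ZMod q)ˣ, ψ (some a) z = Igusa.twist (ζ ^ (a : ZMod q).val) jK := fun a => by
      show coeffMap (σ a : K' →+* K') (eM z) = _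
      rw [hMβ, W_beta_jL N q hW, ser_alpha, ser_jL]
      exact coeffMap_twist_jqModC _ _ _ (by rw [Units.val_pow_eq_pow_val]; exact hσ a)
    have hinj : Function.Injective fun s => ψ s z := by
      rintro (_ | a) (_ | b) h <;> simp only [v0, va] at h
      · rfl
      · exact absurd h (qExpand_jqModC_ne_twist _ (one_lt_q_sq q hζ) _)
      · exact absurd h.symm (qExpand_jqModC_ne_twist _ (one_lt_q_sq q hζ) _)
      · rw [Units.ext (pow_val_inj q hζ (twist_jqModC_inj h))]
    rw [conjPoly_map (α').toRingHom hd hq0 f i₁ ψ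
      (by rintro (_ | a) x
          · exact ser_alpha L K' q (N * q) x
          · show coeffMap (σ a : K' →+* K') (eM (α' x)) = _
            rw [hMα, coeffMap_fix])
      (fun a b h => hinj (RingHom.congr_fun h _))
      (by rw [Fintype.card_option, ZMod.card_units]; omega), Fintype.prod_option]
    rfl
  · let ψ : ZMod q → FL (N * q * q) L →+* LaurentSeries K' := fun a =>
      (Igusa.twist (ζ ^ a.val)).comp e₂
    have va : ∀ a : ZMod q, ψ a z = Igusa.twist (ζ ^ a.val) jK := fun a => by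
      show Igusa.twist (ζ ^ a.val) (e₂ z) = _
      rw [h₂β, W_beta_jL N q hW, ser_alpha, ser_jL]
    rw [conjPoly_map (α').toRingHom hd hq0 f _ ψ
      (fun a x => by
        show Igusa.twist (ζ ^ a.val) (e₂ (α' x)) = qExpand K' q (i₁ (W x))
        rw [h₂α, twist_qExpand_nat q hζ])
      (fun a b h => pow_val_inj q hζ (twist_jqModC_inj (by
        have := RingHom.congr_fun h z
        rwa [va, va] at this)))
      (ZMod.card q)]
    rfl

include hW hζ ι hqN in
theorem algDeg_beta' : algDeg (β').toRingHom = q := by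
  have hWd : algDeg W.toRingHom = 1 :=
    algDeg_eq_one_of_bijective _ (Function.Involutive.bijective hW.invol)
  have h : algDeg ((β').toRingHom.comp (α).toRingHom) =
      algDeg ((α').toRingHom.comp (W.toRingHom.comp (α).toRingHom)) :=
    congrArg algDeg (RingHom.ext fun x => (square N q hW x).symm)
  rw [algDeg_comp, algDeg_comp, algDeg_comp, hWd, mul_one, algDeg_alpha N q ι hqN,
    algDeg_alpha' N q ι] at h
  exact Nat.eq_of_mul_eq_mul_left (Nat.succ_pos q) h

include hW hζ ι hqN hσ hMα hMβ h₂α h₂β in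
/-- Conjugates along `β'`. -/
theorem exists_cp₂' [CharZero L] (f : FL (N * q * q) L) : ∃ P : (FL (N * q) L)[X], P.Monic ∧
    P.natDegree = q ∧ P.eval₂ (β').toRingHom f = 0 ∧
    P.map ((i₁).comp W.toRingHom) = (X - C (e₂ f)) *
        ∏ a : (ZMod q)ˣ, (X - C (coeffMap (σ a : K' →+* K') (Igusa.twist ζ⁻¹ (eM f)))) ∧
    P.map ((qExpand K' q).comp i₁) =
      ∏ a : ZMod q, (X - C (Igusa.twist (ζ ^ a.val) (e₀ f))) := by
  have hd := algDeg_beta' (K' := K') (ζ := ζ) N q hζ hW ι hqN
  have hq0 : q ≠ 0 := (Fact.out : q.Prime).ne_zero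
  set y₀ := α' (α (jL N L))
  obtain ⟨h1, h2, h3⟩ := conjPoly_spec (β').toRingHom hd hq0 f
  refine ⟨_, h1, h2, h3, ?_, ?_⟩
  · let ψ : Option (ZMod q)ˣ → FL (N * q * q) L →+* LaurentSeries K' := fun s =>
      s.elim e₂ fun a => (coeffMap (σ a : K' →+* K')).comp ((Igusa.twist ζ⁻¹).comp eM)
    have v0 : ψ none y₀ = qExpand K' (q * q) jK := by
      show e₂ y₀ = _
      rw [h₂α, ser_W_alpha N q hW, ser_jL, qExpand_qExpand]
    have va : ∀ a : (ZMod q)ˣ,
        ψ (some a) y₀ = Igusa.twist ((ζ ^ (a : ZMod q).val)⁻¹) jK := fun a => by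
      show coeffMap (σ a : K' →+* K') (Igusa.twist ζ⁻¹ (eM y₀)) = _
      rw [hMα, ser_alpha, ser_jL]
      refine coeffMap_twist_jqModC _ _ _ ?_
      rw [Units.val_inv_eq_inv_val, Units.val_inv_eq_inv_val, map_inv₀, Units.val_pow_eq_pow_val]
      exact congrArg _ (hσ a)
    have hinj : Function.Injective fun s => ψ s y₀ := by
      rintro (_ | a) (_ | b) h <;> simp only [v0, va] at h
      · rfl
      · exact absurd h (qExpand_jqModC_ne_twist _ (one_lt_q_sq q hζ) _)
      · exact absurd h.symm (qExpand_jqModC_ne_twist _ (one_lt_q_sq q hζ) _)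
      · rw [Units.ext (pow_val_inj q hζ (inv_injective (twist_jqModC_inj h)))]
    rw [conjPoly_map (β').toRingHom hd hq0 f _ ψ
      (by rintro (_ | a) x
          · exact h₂β x
          · show coeffMap (σ a : K' →+* K') (Igusa.twist ζ⁻¹ (eM (β' x))) = i₁ (W x)
            rw [hMβ, twist_twist, inv_mul_cancel, Igusa.twist_one, coeffMap_fix])
      (fun a b h => hinj (RingHom.congr_fun h _))
      (by rw [Fintype.card_option, ZMod.card_units]; omega), Fintype.prod_option]
    rfl
  · let ψ : ZMod q → FL (N * q * q) L →+* LaurentSeries K' := fun a =>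
      (Igusa.twist (ζ ^ a.val)).comp e₀
    have va : ∀ a : ZMod q, ψ a y₀ = Igusa.twist (ζ ^ a.val) jK := fun a => by
      show Igusa.twist (ζ ^ a.val) (e₀ y₀) = _
      rw [ser_alpha, ser_alpha, ser_jL]
    rw [conjPoly_map (β').toRingHom hd hq0 f _ ψ
      (fun a x => by
        show Igusa.twist (ζ ^ a.val) (e₀ (β' x)) = qExpand K' q (i₁ x)
        rw [ser_beta, twist_qExpand_nat q hζ])
      (fun a b h => pow_val_inj q hζ (twist_jqModC_inj (by
        have := RingHom.congr_fun h y₀
        rwa [va, va] at this)))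
      (ZMod.card q)]
    rfl

end Fermat.Agent.BadPrime.Sq.Tower

end
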