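import Fermat.Agent.BadPrime.Sq.DescentDegree
import Fermat.Agent.BadPrime.Sq.KummerFixed
import Fermat.Agent.BadPrime.Sq.TowerEmb
import Mathlib.RingTheory.Norm.Basic
import Mathlib.RingTheory.Norm.Transitivity

/-!
# Norms to level `N q` of functions coming from a divisor level
-/

set_option autoImplicit false
set_option linter.style.haveILetI false
set_option linter.unusedSectionVars false

noncomputable section

open AlgebraicCurve ModularCurve Polynomial
open Fermat.Agent.Modular (FL finrank_FL functionFieldGeneration jdL jL)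
open Fermat.Agent.EichlerShimura (levelIncl levelScale coe_levelIncl coe_levelScale
  heckeAlphaBar_eq_levelIncl normAlong map_normAlong_of_compositum
  closure_range_levelIncl_levelScale)

namespace Fermat.Agent.BadPrime.Sq

set_option synthInstance.maxHeartbeats 200000

local notation "ℚ̄" => AlgebraicClosure ℚ
local notation "ι₀" => (complexEmbedding : ℚ̄ →+* ℂ)

section Field

/-- The norm of an element outside a base of prime index, from any monic relation of that degree. -/
theorem norm_eq_of_monic_root {B E : Type*} [Field B] [Field E] [Algebra B E]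
    [FiniteDimensional B E] (hq : (Module.finrank B E).Prime) {x : E}
    (hx : x ∉ Set.range (algebraMap B E)) {P : B[X]} (hP : P.Monic)
    (hdeg : P.natDegree = Module.finrank B E) (hroot : aeval x P = 0) :
    Algebra.norm B x = (-1) ^ Module.finrank B E * P.coeff 0 := by
  have hint : IsIntegral B x := IsIntegral.of_finite B x
  have hmul := Module.finrank_mul_finrank B (IntermediateField.adjoin B {x}) E
  have hne : Module.finrank B (IntermediateField.adjoin B {x}) ≠ 1 := fun h => by
    rw [IntermediateField.finrank_eq_one_iff, IntermediateField.adjoin_simple_eq_bot_iff] at h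
    exact hx (IntermediateField.mem_bot.mp h)
  have hfull := (hq.eq_one_or_self_of_dvd _ ⟨_, hmul.symm⟩).resolve_left hne
  rw [hfull, mul_eq_left₀ hq.ne_zero] at hmul
  have hmdeg : (minpoly B x).natDegree = Module.finrank B E := by
    rw [← IntermediateField.adjoin.finrank hint, hfull]
  have hmP : minpoly B x = P :=
    (eq_of_monic_of_dvd_of_natDegree_le (minpoly.monic hint) hP (minpoly.dvd B x hroot)
      (by rw [hdeg, hmdeg])).symm
  rw [Algebra.norm_eq_norm_adjoin B x, hmul, pow_one,
    ← IntermediateField.adjoin.powerBasis_gen hint,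
    Algebra.PowerBasis.norm_gen_eq_coeff_zero_minpoly,
    IntermediateField.adjoin.powerBasis_gen hint, IntermediateField.minpoly_gen,
    IntermediateField.adjoin.powerBasis_dim hint, hmdeg, hmP]

/-- A field of prime index and one more element generate. -/
theorem closure_eq_top_of_prime {K B E : Type*} [Field K] [Field B] [Field E] [Algebra K B]
    [Algebra K E] (φ : B →ₐ[K] E) (hq : (finrankAlong K φ).Prime) {S : Set E} {z : E} (hz : z ∈ S)
    (hzφ : z ∉ Set.range φ) : Subfield.closure (Set.range φ ∪ S) = ⊤ := by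
  letI := algebraAlong φ
  haveI : FiniteDimensional B E := Module.finite_of_finrank_pos hq.pos
  let C : IntermediateField B E :=
    (Subfield.closure (Set.range φ ∪ S)).toIntermediateField fun b =>
      Subfield.subset_closure (Or.inl ⟨b, rfl⟩)
  have hbot : C ≠ ⊥ := fun h => by
    have hzC : z ∈ C := Subfield.subset_closure (Or.inr hz)
    rw [h] at hzC
    exact hzφ (IntermediateField.mem_bot.mp hzC)
  have hmul := Module.finrank_mul_finrank B C E
  have hCq := (hq.eq_one_or_self_of_dvd _ ⟨_, hmul.symm⟩).resolve_left fun h =>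
    hbot (IntermediateField.finrank_eq_one_iff.mp h)
  have hC : C = ⊤ := IntermediateField.eq_of_le_of_finrank_le le_top
    (by rw [IntermediateField.finrank_top']; exact hCq.ge)
  exact eq_top_iff.mpr fun x _ => show x ∈ C from hC ▸ IntermediateField.mem_top

end Field

section Compositum

variable {M₁ N q : ℕ} [NeZero M₁] [NeZero N] [Fact q.Prime] [NeZero (M₁ * q)] [NeZero (M₁ * q * q)]
  [NeZero (N * q)] [NeZero (N * q * q)]

/-- `j(q² τ)` does not have level `N q`. -/
theorem jdL_sq_not_mem_range (hqN : ¬ q ∣ N) :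
    heckeBetaBar ℚ̄ (N * q) q (heckeBetaBar ℚ̄ N q (Modular.jL N ℚ̄)) ∉
      Set.range (heckeAlphaBar ℚ̄ (N * q) q) := by
  obtain ⟨W, hW⟩ := exists_isALInvolution (M := N) (q := q) ι₀ hqN
  have : NeZero ((q : ℕ) : ℚ̄) := ⟨Nat.cast_ne_zero.mpr (NeZero.ne q)⟩
  obtain ⟨ζ₀, hζ₀⟩ := HasEnoughRootsOfUnity.exists_primitiveRoot ℚ̄ q
  lift ζ₀ to ℚ̄ˣ using hζ₀.isUnit (NeZero.ne q) with ζ
  rintro ⟨y, hy⟩
  have h := (Tower.isPowGen_z (L := ℚ̄) (K' := ℚ̄) N q (IsPrimitiveRoot.coe_units_iff.mp hζ₀) hW
    ι₀ hqN).2 (X - C y) (by rw [natDegree_X_sub_C]; exact (Fact.out : q.Prime).one_lt)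
    (by rw [eval₂_sub, eval₂_X, eval₂_C]; exact sub_eq_zero.mpr hy.symm)
  exact X_sub_C_ne_zero y h

/-- The norm along `α` commutes with raising the level prime to `q`. -/
theorem normAlong_alpha_levelIncl (hqN : ¬ q ∣ N) (hM : M₁ ∣ N)
    (u : FL (M₁ * q * q) ℚ̄) :
    normAlong (heckeAlphaBar ℚ̄ (N * q) q)
        (EichlerShimura.levelIncl (L := ℚ̄) (mul_dvd_mul_right (mul_dvd_mul_right hM q) q) u) =
      EichlerShimura.levelIncl (L := ℚ̄) (mul_dvd_mul_right hM q)
        (normAlong (heckeAlphaBar ℚ̄ (M₁ * q) q) u) := by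
  have hq : q.Prime := Fact.out
  refine (map_normAlong_of_compositum (EichlerShimura.levelIncl (L := ℚ̄) (mul_dvd_mul_right hM q))
    (heckeAlphaBar ℚ̄ (M₁ * q) q) (heckeAlphaBar ℚ̄ (N * q) q)
    (EichlerShimura.levelIncl (L := ℚ̄) (mul_dvd_mul_right (mul_dvd_mul_right hM q) q))
    (fun x => Subtype.ext (by simp)) (finiteAlong_heckeAlphaBar _ _)
    (finiteAlong_heckeAlphaBar _ _)
    ((finrankAlong_alpha_step N q hq).trans (finrankAlong_alpha_step M₁ q hq).symm) ?_ u).symm
  refine closure_eq_top_of_prime _ ((finrankAlong_alpha_step N q hq).symm ▸ hq) ?_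
    (jdL_sq_not_mem_range hqN)
  refine ⟨heckeBetaBar ℚ̄ (M₁ * q) q (heckeBetaBar ℚ̄ M₁ q (Modular.jL M₁ ℚ̄)), Subtype.ext ?_⟩
  simp only [coe_levelIncl, coe_heckeBetaBar]
  rfl

/-- The norm along `β` commutes with raising the level prime to `q`. -/
theorem normAlong_beta_levelIncl (hqN : ¬ q ∣ N) (hqM : ¬ q ∣ M₁) (hM : M₁ ∣ N)
    (u : FL (M₁ * q * q) ℚ̄) :
    normAlong (heckeBetaBar ℚ̄ (N * q) q)
        (EichlerShimura.levelIncl (L := ℚ̄) (mul_dvd_mul_right (mul_dvd_mul_right hM q) q) u) =
      EichlerShimura.levelIncl (L := ℚ̄) (mul_dvd_mul_right hM q)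
        (normAlong (heckeBetaBar ℚ̄ (M₁ * q) q) u) := by
  have hq : q.Prime := Fact.out
  refine (map_normAlong_of_compositum (EichlerShimura.levelIncl (L := ℚ̄) (mul_dvd_mul_right hM q))
    (heckeBetaBar ℚ̄ (M₁ * q) q) (heckeBetaBar ℚ̄ (N * q) q)
    (EichlerShimura.levelIncl (L := ℚ̄) (mul_dvd_mul_right (mul_dvd_mul_right hM q) q))
    (fun x => Subtype.ext (by simp)) (finiteAlong_heckeBetaBar _ _)
    (finiteAlong_heckeBetaBar _ _)
    ((finrankAlong_beta_step N q hq hqN).trans (finrankAlong_beta_step M₁ q hq hqM).symm) ?_ u).symm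
  rw [Set.union_comm, show heckeBetaBar ℚ̄ (N * q) q = levelScale (L := ℚ̄) q (M := N * q * q) dvd_rfl
    from AlgHom.ext fun x => Subtype.ext (by rw [coe_levelScale, coe_heckeBetaBar])]
  exact closure_range_levelIncl_levelScale (fun K _ => functionFieldGeneration K) q _ _ rfl

end Compositum

end Fermat.Agent.BadPrime.Sq
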