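import Fermat.Agent.BadPrime.Sq.Core
import Fermat.Agent.BadPrime.Sq.DescentNorm

/-!
# Norms of a function of a divisor level are powers in the tower
-/

set_option autoImplicit false
set_option linter.style.haveILetI false
set_option linter.unusedSectionVars false

noncomputable section

open AlgebraicCurve ModularCurve Polynomial
open Fermat.Agent.Modular (FL)
open Fermat.Agent.EichlerShimura (normAlong)

namespace Fermat.Agent.BadPrime.Sq

set_option synthInstance.maxHeartbeats 200000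

local notation "ℚ̄" => AlgebraicClosure ℚ

variable {A : ValuationSubring ℚ̄} {k : Type} [Field k] {π : A →+* k} {q : ℕ} [Fact q.Prime]

/-- The expansions of `F₁`, `F₂` have as images the functions of levels `N q`, `N q²` with
coefficients in the inertia field. -/
structure IsModularTower (T : SqTower q (inertiaField A) π) (N : ℕ) : Prop where
  i₁_mem : ∀ c, T.i₁ c ∈ FL (N * q) ℚ̄
  e₀_mem : ∀ c, T.e₀ c ∈ FL (N * q * q) ℚ̄
  i₁_coeff : ∀ c m, (T.i₁ c).coeff m ∈ inertiaField A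
  e₀_coeff : ∀ c m, (T.e₀ c).coeff m ∈ inertiaField A
  exists_i₁ : ∀ x ∈ FL (N * q) ℚ̄, (∀ m, x.coeff m ∈ inertiaField A) → ∃ c, T.i₁ c = x
  exists_e₀ : ∀ x ∈ FL (N * q * q) ℚ̄, (∀ m, x.coeff m ∈ inertiaField A) → ∃ c, T.e₀ c = x

variable {T : SqTower q (inertiaField A) π} {N : ℕ} [NeZero N] [NeZero (N * q)]
  [NeZero (N * q * q)] (hT : IsModularTower T N)

theorem neg_one_pow_mul_neg {R : Type*} [CommRing R] {m : ℕ} (hm : 0 < m) (a b : R) :
    (-1) ^ m * (-a * ((-1) ^ (m - 1) * b)) = a * b := by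
  obtain ⟨l, rfl⟩ : ∃ l, m = l + 1 := ⟨m - 1, (Nat.sub_add_cancel hm).symm⟩
  rw [Nat.add_sub_cancel, pow_succ]
  have h : ((-1 : R) ^ l) * (-1) ^ l = 1 := by rw [← mul_pow, neg_one_mul, neg_neg, one_pow]
  linear_combination (a * b) * h

include hT in
theorem IsModularTower.coeffMap_σ_i₁ (a : (ZMod q)ˣ) (c : T.F₁) :
    coeffMap (T.σ a : ℚ̄ →+* ℚ̄) (T.i₁ c) = T.i₁ c := by
  ext m
  rw [coeffMap_coeff]
  exact (T.σ a).commutes ⟨_, hT.i₁_coeff c m⟩

include hT in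
/-- The constant term of a monic relation of degree `q` is the norm over `ℚ̄`. -/
theorem IsModularTower.i₁_norm_eq {φ : FL (N * q) ℚ̄ →ₐ[ℚ̄] FL (N * q * q) ℚ̄}
    {φ' : T.F₁ →ₐ[inertiaField A] T.F₂} (hdeg : finrankAlong ℚ̄ φ = q)
    (hφ : ∀ (c : T.F₁) (y : FL (N * q) ℚ̄), (y : LaurentSeries ℚ̄) = T.i₁ c →
      (φ y : LaurentSeries ℚ̄) = T.e₀ (φ' c))
    (hrefl : ∀ y : FL (N * q) ℚ̄, (∀ m, (φ y : LaurentSeries ℚ̄).coeff m ∈ inertiaField A) →
      ∀ m, (y : LaurentSeries ℚ̄).coeff m ∈ inertiaField A)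
    (f : T.F₂) (x : FL (N * q * q) ℚ̄) (hx : (x : LaurentSeries ℚ̄) = T.e₀ f)
    {P : T.F₁[X]} (hP : P.Monic) (hPdeg : P.natDegree = q)
    (hroot : P.eval₂ φ'.toRingHom f = 0) (hbase : ∀ g, φ' g = f → P.coeff 0 = (-g) ^ q) :
    T.i₁ ((-1) ^ q * P.coeff 0) = (normAlong φ x : LaurentSeries ℚ̄) := by
  letI := algebraAlong φ
  haveI : FiniteDimensional (FL (N * q) ℚ̄) (FL (N * q * q) ℚ̄) := Module.finite_of_finrank_pos
    (lt_of_lt_of_eq (Fact.out : q.Prime).pos hdeg.symm)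
  by_cases hmem : x ∈ Set.range φ
  · obtain ⟨y, rfl⟩ := hmem
    obtain ⟨g, hg⟩ := hT.exists_i₁ y y.2 (hrefl y fun m => hx ▸ hT.e₀_coeff f m)
    have hgf : φ' g = f := T.e₀.injective ((hφ g y hg.symm).symm.trans hx)
    show T.i₁ _ = ((Algebra.norm _ (algebraMap (FL (N * q) ℚ̄) _ y) : FL (N * q) ℚ̄) :
      LaurentSeries ℚ̄)
    rw [Algebra.norm_algebraMap, show Module.finrank (FL (N * q) ℚ̄) (FL (N * q * q) ℚ̄) = q from
      hdeg, hbase g hgf, ← mul_pow, neg_one_mul, neg_neg, map_pow, hg, IntermediateField.coe_pow]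
  · let ρ : T.F₁ →+* FL (N * q) ℚ̄ := T.i₁.codRestrict (FL (N * q) ℚ̄) hT.i₁_mem
    have hcomp : ((FL (N * q * q) ℚ̄).val.toRingHom.comp (φ.toRingHom.comp ρ)) =
        T.e₀.comp φ'.toRingHom := RingHom.ext fun c => hφ c (ρ c) rfl
    have hroot' : aeval x (P.map ρ) = 0 := by
      rw [aeval_def, eval₂_map]
      refine (FL (N * q * q) ℚ̄).val.toRingHom.injective ?_
      rw [hom_eval₂, map_zero]
      show eval₂ ((FL (N * q * q) ℚ̄).val.toRingHom.comp (φ.toRingHom.comp ρ))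
        (x : LaurentSeries ℚ̄) P = 0
      rw [hcomp, hx, ← hom_eval₂, hroot, map_zero]
    show T.i₁ _ = ((Algebra.norm _ x : FL (N * q) ℚ̄) : LaurentSeries ℚ̄)
    rw [norm_eq_of_monic_root (show (finrankAlong ℚ̄ φ).Prime by rw [hdeg]; exact Fact.out) hmem
      (hP.map ρ)
      (by rw [hP.natDegree_map ρ]; exact hPdeg.trans hdeg.symm) hroot',
      show Module.finrank (FL (N * q) ℚ̄) (FL (N * q * q) ℚ̄) = q from hdeg, coeff_map,
      map_mul, map_pow, map_neg, map_one]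
    simp [ρ]

variable {M₁ : ℕ} [NeZero M₁] [NeZero (M₁ * q)] [NeZero (M₁ * q * q)]

include hT in
/-- Rescaling a constant times a power to coefficients in the inertia field. -/
theorem IsModularTower.exists_const_pow {n : ℕ} (hn : n ≠ 0) (hM : M₁ ∣ N) (S : T.F₁) {c : ℚ̄}
    (hc : c ≠ 0) {v : FL (M₁ * q) ℚ̄} (hv : v ≠ 0)
    (h : T.i₁ S = ((algebraMap ℚ̄ (FL (M₁ * q) ℚ̄) c * v ^ n : FL (M₁ * q) ℚ̄) : LaurentSeries ℚ̄)) :
    ∃ (H : T.F₁) (κ : inertiaField A), κ ≠ 0 ∧ S = algebraMap _ T.F₁ κ * H ^ n := by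
  obtain ⟨d, u, hd, hu, hlead, rfl⟩ := exists_leadOne (N := M₁ * q) hv
  have hS : T.i₁ S = algebraMap ℚ̄ (LaurentSeries ℚ̄) (c * d ^ n) * (u : LaurentSeries ℚ̄) ^ n := by
    rw [h, mul_pow, ← map_pow, ← mul_assoc, ← map_mul]
    rfl
  have hu' : ((u : LaurentSeries ℚ̄) ^ n).leadingCoeff = 1 := by
    rw [← IntermediateField.coe_pow]; exact leadingCoeff_pow_eq_one hlead n
  have hκ : c * d ^ n ∈ inertiaField A := by
    have h1 := congrArg HahnSeries.leadingCoeff hS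
    rw [HahnSeries.leadingCoeff_mul, hu', mul_one, algebraMap_laurentSeries_eq_single,
      HahnSeries.leadingCoeff_of_single] at h1
    rw [← h1, HahnSeries.leadingCoeff_eq]
    exact hT.i₁_coeff S _
  have hcd : c * d ^ n ≠ 0 := mul_ne_zero hc (pow_ne_zero n hd)
  obtain ⟨H, hH⟩ := hT.exists_i₁ (u : LaurentSeries ℚ̄)
    (by
      have h2 := (EichlerShimura.levelIncl (L := ℚ̄) (mul_dvd_mul_right hM q) u).2
      rwa [EichlerShimura.coe_levelIncl] at h2)
    fun m => mem_inertiaField_iff.mpr fun σ hσ => by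
      have h1 := congrArg (coeffMap (σ : ℚ̄ →+* ℚ̄)) hS
      rw [show coeffMap (σ : ℚ̄ →+* ℚ̄) (T.i₁ S) = T.i₁ S from HahnSeries.ext (funext fun m => by
        rw [coeffMap_coeff]; exact mem_inertiaField_iff.mp (hT.i₁_coeff S m) σ hσ), hS,
        algebraMap_laurentSeries_eq_single, map_mul (coeffMap (σ : ℚ̄ →+* ℚ̄)),
        map_pow (coeffMap (σ : ℚ̄ →+* ℚ̄)), coeffMap_single,
        show (σ : ℚ̄ →+* ℚ̄) (c * d ^ n) = c * d ^ n from mem_inertiaField_iff.mp hκ σ hσ] at h1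
      have h2 := eq_of_pow_eq_of_leadingCoeff hn hlead
        (by rw [EichlerShimura.leadingCoeff_coeffMap _ (fun e => hu (Subtype.ext e)), hlead, map_one])
        (mul_left_cancel₀ (by rwa [Ne, HahnSeries.single_eq_zero_iff]) h1)
      exact ((congrArg (fun s : LaurentSeries ℚ̄ => s.coeff m) h2).trans (coeffMap_coeff _ _ _)).symm
  refine ⟨H, ⟨_, hκ⟩, fun e => hcd (congrArg Subtype.val e), T.i₁.injective ?_⟩
  rw [map_mul, T.i₁_algebraMap, map_pow, hH, hS, algebraMap_laurentSeries_eq_single,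
    HahnSeries.C_apply]
  rfl

include hT in
/-- The hypothesis of the core on norms. -/
theorem IsModularTower.normsArePowers (hqN : ¬ q ∣ N) (hqM : ¬ q ∣ M₁) (hM : M₁ ∣ N) {n : ℕ}
    (hn : n ≠ 0) (f : T.F₂) (u : FL (M₁ * q * q) ℚ̄)
    (hfu : T.e₀ f = (u : LaurentSeries ℚ̄))
    (hα : ∃ (c : ℚ̄) (v : FL (M₁ * q) ℚ̄), c ≠ 0 ∧ v ≠ 0 ∧
      normAlong (heckeAlphaBar ℚ̄ (M₁ * q) q) u = algebraMap ℚ̄ _ c * v ^ n)
    (hβ : ∃ (c : ℚ̄) (v : FL (M₁ * q) ℚ̄), c ≠ 0 ∧ v ≠ 0 ∧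
      normAlong (heckeBetaBar ℚ̄ (M₁ * q) q) u = algebraMap ℚ̄ _ c * v ^ n) :
    T.NormsArePowers n f := by
  have hq : q.Prime := Fact.out
  have hx : ((EichlerShimura.levelIncl (L := ℚ̄) (mul_dvd_mul_right (mul_dvd_mul_right hM q) q) u) :
      LaurentSeries ℚ̄) = T.e₀ f := by rw [EichlerShimura.coe_levelIncl, hfu]
  have hcard : Fintype.card (ZMod q)ˣ = q - 1 := ZMod.card_units q
  constructor
  · obtain ⟨P, hP, hPdeg, hroot, hmap, -⟩ := T.cp₂ f
    have h0 : T.i₁ ((-1) ^ q * P.coeff 0) =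
        T.e₀ f * ∏ a : (ZMod q)ˣ, coeffMap (T.σ a : ℚ̄ →+* ℚ̄) (T.eₘ f) := by
      rw [map_mul, ← coeff_map, hmap, coeff_zero_eq_eval_zero, eval_mul, eval_prod]
      simp only [eval_sub, eval_X, eval_C, zero_sub, Finset.prod_neg, Finset.card_univ, hcard,
        map_pow, map_neg, map_one]
      exact neg_one_pow_mul_neg hq.pos _ _
    have key := hT.i₁_norm_eq (φ := heckeAlphaBar ℚ̄ (N * q) q) (φ' := T.α')
      (finrankAlong_alpha_step N q hq)
      (fun c y h => by rw [coe_heckeAlphaBar, h, T.e₀_α'])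
      (fun y h m => by simpa using h m) f _ hx hP hPdeg hroot fun g hg => T.i₁.injective <| by
        rw [← coeff_map, hmap, coeff_zero_eq_eval_zero, eval_mul, eval_prod, ← hg]
        simp only [eval_sub, eval_X, eval_C, zero_sub, T.e₀_α', T.eₘ_α', hT.coeffMap_σ_i₁,
          Finset.prod_const, Finset.card_univ, hcard, map_pow, map_neg]
        rw [← pow_succ', Nat.sub_add_cancel hq.pos]
    rw [normAlong_alpha_levelIncl hqN hM, EichlerShimura.coe_levelIncl] at key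
    obtain ⟨c, v, hc, hv, hN⟩ := hα
    rw [hN] at key
    obtain ⟨H, κ, hκ, hHκ⟩ := hT.exists_const_pow hn hM _ hc hv key
    refine ⟨H, κ, hκ, ?_⟩
    rw [← h0, hHκ, map_mul, map_pow, T.i₁_algebraMap]
  · obtain ⟨P, hP, hPdeg, hroot, hmap, -⟩ := T.cp₂' f
    have h0 : T.i₁ (T.W ((-1) ^ q * P.coeff 0)) = T.e₂ f * ∏ a : (ZMod q)ˣ,
        coeffMap (T.σ a : ℚ̄ →+* ℚ̄) (Igusa.twist T.ζ⁻¹ (T.eₘ f)) := by
      rw [map_mul, map_mul, show T.i₁ (T.W (P.coeff 0)) = (P.map (T.i₁.comp T.W.toRingHom)).coeff 0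
        from (coeff_map (p := P) (T.i₁.comp T.W.toRingHom) 0).symm, hmap, coeff_zero_eq_eval_zero, eval_mul, eval_prod]
      simp only [eval_sub, eval_X, eval_C, zero_sub, Finset.prod_neg, Finset.card_univ, hcard,
        map_pow, map_neg, map_one]
      exact neg_one_pow_mul_neg hq.pos _ _
    have key := hT.i₁_norm_eq (φ := heckeBetaBar ℚ̄ (N * q) q) (φ' := T.β')
      (finrankAlong_beta_step N q hq hqN)
      (fun c y h => by rw [coe_heckeBetaBar, h, T.e₀_β'])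
      (fun y h m => by simpa using h ((q : ℤ) * m)) f _ hx hP hPdeg hroot fun g hg =>
      (T.i₁.comp T.W.toRingHom).injective <| by
        rw [← coeff_map, hmap, coeff_zero_eq_eval_zero, eval_mul, eval_prod, ← hg]
        simp only [eval_sub, eval_X, eval_C, zero_sub, T.e₂_β', T.eₘ_β', Tower.twist_twist,
          inv_mul_cancel, Igusa.twist_one, hT.coeffMap_σ_i₁,
          Finset.prod_const, Finset.card_univ, hcard, map_pow, map_neg]
        rw [← pow_succ', Nat.sub_add_cancel hq.pos]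
        rfl
    rw [normAlong_beta_levelIncl hqN hqM hM, EichlerShimura.coe_levelIncl] at key
    obtain ⟨c, v, hc, hv, hN⟩ := hβ
    rw [hN] at key
    obtain ⟨H, κ, hκ, hHκ⟩ := hT.exists_const_pow hn hM _ hc hv key
    refine ⟨H, κ, hκ, ?_⟩
    rw [← h0, hHκ, map_mul, map_pow, AlgHom.commutes, map_mul, map_pow, T.i₁_algebraMap]

end Fermat.Agent.BadPrime.Sq
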