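import Fermat.Agent.BadPrime.Sq.Core
import Fermat.Agent.BadPrime.JacobianHorizontal

/-!
# Functions with orders divisible by `n` are `n`-th powers away from the special fibre
-/

set_option autoImplicit false

noncomputable section

open Polynomial AlgebraicCurve

namespace Fermat.Agent.BadPrime.Sq

variable {K F : Type} [Field K] [Field F] [Algebra K F]

theorem adjoin_top_le (t : F) {x : F} (hx : x ∈ Algebra.adjoin K ({t} : Set F)) :
    x ∈ Algebra.adjoin (⊤ : Subring K) ({t} : Set F) := by
  induction hx using Algebra.adjoin_induction with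
  | mem z hz => exact Algebra.subset_adjoin hz
  | algebraMap c => exact Subalgebra.algebraMap_mem _ (⟨c, trivial⟩ : (⊤ : Subring K))
  | add a b _ _ ha hb => exact add_mem ha hb
  | mul a b _ _ ha hb => exact mul_mem ha hb

theorem mem_chartRing_top_of_isIntegral {t x : F}
    (hx : IsIntegral (Algebra.adjoin K ({t} : Set F)) x) :
    x ∈ chartRing (⊤ : Subring K) t := by
  obtain ⟨p, hp, hpx⟩ := hx
  let f : Algebra.adjoin K ({t} : Set F) →+* Algebra.adjoin (⊤ : Subring K) ({t} : Set F) :=
    ((Algebra.adjoin K ({t} : Set F)).val.toRingHom).codRestrict _ fun y => adjoin_top_le t y.2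
  refine (mem_chartRing _ t).2 ⟨p.map f, hp.map f, ?_⟩
  rw [eval₂_map]
  exact hpx

theorem aeval_mem_chartRing (t : F) (Q : K[X]) : aeval t Q ∈ chartRing (⊤ : Subring K) t :=
  adjoin_le_chartRing _ t (adjoin_top_le t (aeval_mem_adjoin_singleton K t))

variable [Curve.IsFunctionField1 K F]

/-- A function with all orders divisible by `n` is an `n`-th power up to a unit at every maximal
ideal of the affine coordinate ring. -/
theorem isPowerAway_of_dvd_ord {t : F} (ht : Transcendental K t) {n : ℕ} {f : F} (hf0 : f ≠ 0)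
    (hf : ∀ w : Place K F, (n : ℤ) ∣ w.ord f) : IsPowerAway (K := K) t n f := by
  classical
  intro P hP
  let φ : K[X] →+* chartRing (⊤ : Subring K) t :=
    (aeval t).toRingHom.codRestrict _ fun Q => aeval_mem_chartRing t Q
  have hP₀ : (P.comap φ).IsPrime := Ideal.IsPrime.comap _
  have hfin : {w : Place K F |
      ∃ h : t ∈ w.toValuationSubring, placeCentre w h = P.comap φ}.Finite := by
    by_cases hbot : P.comap φ = ⊥
    · convert Set.finite_empty
      refine Set.eq_empty_of_forall_notMem fun w hw => ?_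
      obtain ⟨h, he⟩ := hw
      exact placeCentre_ne_bot w h (he.trans hbot)
    · obtain ⟨x₀, hx₀, hx₀0⟩ := Submodule.exists_mem_ne_zero_of_ne_bot hbot
      refine (Curve.finite_ord_ne_zero (aeval t x₀)).subset fun w ⟨h, hw⟩ => ?_
      rcases mem_placeCentre.1 (hw ▸ hx₀ : x₀ ∈ placeCentre w h) with h' | h'
      · exact absurd h' fun e => hx₀0 (transcendental_iff.1 ht _ e)
      · exact (ne_of_gt h')
  obtain ⟨u, hu0, hu⟩ := Curve.exists_forall_ord_eq hfin.toFinset fun w => -(w.ord f / n)
  have hg0 : u ^ n * f ≠ 0 := mul_ne_zero (pow_ne_zero _ hu0) hf0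
  have hord : ∀ (w : Place K F) (h : t ∈ w.toValuationSubring), placeCentre w h = P.comap φ →
      w.ord (u ^ n * f) = 0 := fun w h hw => by
    rw [w.ord_mul (pow_ne_zero _ hu0) hf0, Curve.ord_pow, hu w (hfin.mem_toFinset.2 ⟨h, hw⟩),
      mul_neg, Int.mul_ediv_cancel' (hf w), neg_add_cancel]
  obtain ⟨Q, hQ, hQi⟩ := exists_notMem_isIntegral (L := K) (t := t) (f := u ^ n * f)
    (P := P.comap φ) fun w h hw => Curve.mem_of_ord_nonneg w (hord w h hw).ge
  obtain ⟨Q', hQ', hQi'⟩ := exists_notMem_isIntegral (L := K) (t := t) (f := (u ^ n * f)⁻¹)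
    (P := P.comap φ) fun w h hw => Curve.mem_of_ord_nonneg w (by rw [w.ord_inv, hord w h hw, neg_zero])
  refine ⟨u, φ Q * φ Q', hu0, fun h => (hP.isPrime.mem_or_mem h).elim hQ hQ', ?_, ?_⟩
  · rw [Subring.coe_mul, mul_comm (φ Q : F), mul_assoc]
    exact mul_mem (φ Q').2 (mem_chartRing_top_of_isIntegral hQi)
  · rw [Subring.coe_mul, mul_assoc]
    exact mul_mem (φ Q).2 (mem_chartRing_top_of_isIntegral hQi')

end Fermat.Agent.BadPrime.Sq
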