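import Fermat.Agent.BadPrime.Pushforward
import Fermat.Agent.BadPrime.Sq.DescentTower
import Fermat.Agent.BadPrime.Sq.PowerAway

/-!
# Torsion fixed by inertia and killed by both pushforwards is killed by a bounded constant

An inertia fixed `n`-torsion class has a Kummer function with coefficients in the inertia field; in
the tower at the auxiliary level the core makes a bounded power of it an `n`-th power, and the norm
brings this back to the level of the class.
-/

set_option autoImplicit false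
set_option linter.style.haveILetI false
set_option linter.unusedSectionVars false

noncomputable section

open AlgebraicCurve ModularCurve
open Fermat.Agent.Modular (FL finrank_FL)
open Fermat.Agent.EichlerShimura (normAlong)

namespace Fermat.Agent.BadPrime.Sq

set_option synthInstance.maxHeartbeats 200000

local notation "ℚ̄" => AlgebraicClosure ℚ
local notation "ι₀" => (complexEmbedding : ℚ̄ →+* ℂ)

theorem kummerFun_pow {K F : Type*} [Field K] [Field F] [Algebra K F] {n : ℕ} {x : Pic0 K F}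
    {f : F} (h : IsKummerFun n x f) (m : ℕ) : IsKummerFun n (m • x) (f ^ m) := by
  induction m with
  | zero => rw [zero_nsmul, pow_zero]; exact IsKummerFun.one
  | succ m ih => rw [succ_nsmul, pow_succ]; exact ih.mul h

variable {A : ValuationSubring ℚ̄} {k : Type} [Field k] {π : A →+* k} {q : ℕ} [Fact q.Prime]
  (T : SqTower q (inertiaField A) π) {N M₁ : ℕ} [NeZero N] [NeZero M₁] [NeZero (N * q)]
  [NeZero (N * q * q)] [NeZero (M₁ * q)] [NeZero (M₁ * q * q)]
  [Curve.IsFunctionField1 (inertiaField A) T.F₂]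

/-- Inertia fixed torsion killed by both pushforwards is killed by a constant independent of its
order. -/
theorem nsmul_eq_zero_of_tower [CharP k q] [IsAlgClosed k] (hT : IsModularTower T N)
    (hqN : ¬ q ∣ N) (hM : M₁ ∣ N) {n : ℕ} (hn : n ≠ 0) (hqn : q.Coprime n)
    (hord : ∀ (g : T.F₂) (u : FL (N * q * q) ℚ̄), (u : LaurentSeries ℚ̄) = T.e₀ g →
      (∀ v : Place ℚ̄ (FL (N * q * q) ℚ̄), (n : ℤ) ∣ v.ord u) →
      ∀ w : Place (inertiaField A) T.F₂, (n : ℤ) ∣ w.ord g)
    {x : JZero (M₁ * q * q)} (hx : n • x = 0)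
    (hfix : ∀ σ ∈ A.inertiaSubgroupIn ℚ, σ • x = x)
    (ha : alphaPush (M₁ * q) q x = 0) (hb : betaPush (M₁ * q) q x = 0) :
    ((q * (q ^ 2 - 1)) ^ 3 * finrankAlong ℚ̄ (EichlerShimura.levelIncl (L := ℚ̄)
      (mul_dvd_mul_right (mul_dvd_mul_right hM q) q))) • x = 0 := by
  have hq : q.Prime := Fact.out
  have hqM : ¬ q ∣ M₁ := fun h => hqN (h.trans hM)
  have hF₁ := EichlerShimura.isFunctionField1_modularFunctionFieldBar (M₁ * q)
  have hF₂ := EichlerShimura.isFunctionField1_modularFunctionFieldBar (M₁ * q * q)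
  have hG₂ := EichlerShimura.isFunctionField1_modularFunctionFieldBar (N * q * q)
  set ψ := EichlerShimura.levelIncl (L := ℚ̄) (mul_dvd_mul_right (mul_dvd_mul_right hM q) q) with hψ
  obtain ⟨f₀, hf₀, hinv⟩ := exists_kummer_fixed hn hx _ hfix
  -- the function of the tower
  have hcoeff : ∀ m, (f₀ : LaurentSeries ℚ̄).coeff m ∈ inertiaField A := fun m =>
    mem_inertiaField_iff.mpr fun σ hσ => by
      have h := congrArg (fun z : modularFunctionFieldBar (M₁ * q * q) =>
        (z : LaurentSeries ℚ̄).coeff m) (hinv σ hσ)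
      simpa [coe_arithmeticGalois_smul] using h
  have hψf : (ψ f₀ : LaurentSeries ℚ̄) = (f₀ : LaurentSeries ℚ̄) := EichlerShimura.coe_levelIncl _ _
  obtain ⟨g, hg⟩ := hT.exists_e₀ _ (ψ f₀).2 (by rw [hψf]; exact hcoeff)
  have hg0 : g ≠ 0 := fun e => hf₀.ne_zero (ψ.toRingHom.injective (Subtype.ext (by
    rw [map_zero]; exact hg.symm.trans (by rw [e, map_zero]; rfl))))
  have hgord : ∀ w : Place (inertiaField A) T.F₂, (n : ℤ) ∣ w.ord g := by
    refine hord g _ hg.symm fun v => ?_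
    rw [Place.ord_restrictAlong ψ (Curve.isIntegralAlong ψ) v]
    exact Dvd.dvd.mul_left (hf₀.dvd_ord _) _
  -- the two charts
  have ht : Transcendental (inertiaField A) (T.α' (T.α T.j)) := fun h =>
    T.transcendental_j ((isAlgebraic_algHom_iff (T.α'.comp T.α)
      (T.α'.comp T.α).toRingHom.injective).mp h)
  have ht' : Transcendental (inertiaField A) (T.α' (T.α T.j))⁻¹ := fun h =>
    ht (by simpa using h.inv)
  -- the norms
  obtain ⟨D, hD, hDf⟩ := hf₀.2
  rw [← hD] at ha hb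
  have hα := IsKummerFun.exists_norm_eq (heckeAlphaBar ℚ̄ (M₁ * q) q)
    (isIntegral_heckeAlphaBar _ _) (finiteAlong_heckeAlphaBar _ _) _ hf₀.ne_zero hDf
    (pushforward_alpha_mem_principal _ ha)
  have hβ := IsKummerFun.exists_norm_eq (heckeBetaBar ℚ̄ (M₁ * q) q)
    (isIntegral_heckeBetaBar _ _) (finiteAlong_heckeBetaBar _ _) _ hf₀.ne_zero hDf
    (pushforward_beta_mem_principal _ hb)
  obtain ⟨r, hr, κ, hκ, hrg⟩ := T.exists_pow_eq (Nat.pos_of_ne_zero hn) hqn hg0
    (isPowerAway_of_dvd_ord ht hg0 hgord) (isPowerAway_of_dvd_ord ht' hg0 hgord)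
    (hT.normsArePowers hqN hqM hM hn g f₀ (hg.trans hψf) hα hβ)
  -- back to the level of the class
  set c := (q * (q ^ 2 - 1)) ^ 3 with hc
  have hr' : r ∈ FL (N * q * q) ℚ̄ := by
    clear hrg
    induction hr using Submodule.span_induction with
    | mem y hy => obtain ⟨z, rfl⟩ := hy; exact hT.e₀_mem z
    | zero => exact zero_mem _
    | add y z _ _ hy hz => exact add_mem hy hz
    | smul a y _ hy =>
      rw [← HahnSeries.C_mul_eq_smul, HahnSeries.C_apply, ← algebraMap_laurentSeries_eq_single]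
      exact mul_mem ((FL (N * q * q) ℚ̄).algebraMap_mem a) hy
  set r' : FL (N * q * q) ℚ̄ := ⟨r, hr'⟩ with hr'def
  have hpow : algebraMap ℚ̄ (FL (N * q * q) ℚ̄) κ * r' ^ n = ψ (f₀ ^ c) := Subtype.ext <| by
    rw [map_pow, IntermediateField.coe_mul, IntermediateField.coe_pow, IntermediateField.coe_pow,
      ← hg, ← map_pow, ← hrg]
    show algebraMap ℚ̄ (LaurentSeries ℚ̄) κ * r ^ n = _
    rw [algebraMap_laurentSeries_eq_single, HahnSeries.C_apply]
  letI := algebraAlong ψ
  haveI : Module.Finite (FL (M₁ * q * q) ℚ̄) (FL (N * q * q) ℚ̄) :=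
    EichlerShimura.finiteAlong_levelIncl (fun K _ => finrank_FL K ι₀) _
  have hnorm : f₀ ^ (c * finrankAlong ℚ̄ ψ) =
      algebraMap ℚ̄ (FL (M₁ * q * q) ℚ̄) (κ ^ finrankAlong ℚ̄ ψ) *
        normAlong ψ r' ^ n := by
    have h1 : normAlong ψ (ψ (f₀ ^ c)) = (f₀ ^ c) ^ finrankAlong ℚ̄ ψ :=
      Algebra.norm_algebraMap (f₀ ^ c)
    have h2 : normAlong ψ (algebraMap ℚ̄ (FL (N * q * q) ℚ̄) κ) =
        algebraMap ℚ̄ (FL (M₁ * q * q) ℚ̄) κ ^ finrankAlong ℚ̄ ψ := by
      rw [← ψ.commutes κ]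
      exact Algebra.norm_algebraMap (algebraMap ℚ̄ (FL (M₁ * q * q) ℚ̄) κ)
    rw [pow_mul, ← h1, ← hpow, map_mul, map_pow, h2, map_pow]
  have hu : normAlong ψ r' ≠ 0 := fun e => hf₀.ne_zero <| by
    rw [e, zero_pow hn, mul_zero] at hnorm
    exact eq_zero_of_pow_eq_zero hnorm
  exact ((kummerFun_pow hf₀ (c * finrankAlong ℚ̄ ψ)).eq_zero_iff hn).mpr
    ⟨_, _, pow_ne_zero _ hκ, hu, hnorm⟩

end Fermat.Agent.BadPrime.Sq
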