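import Fermat.Agent.BadPrime.AuxDescent

/-!
# Degrees and generation for the steps `N ∣ N q ∣ N q²`
-/

set_option autoImplicit false
set_option linter.style.haveILetI false
set_option linter.unusedSectionVars false

noncomputable section

open AlgebraicCurve ModularCurve
open Fermat.Agent.Modular (FL finrank_FL functionFieldGeneration)
open Fermat.Agent.EichlerShimura (levelIncl levelScale coe_levelIncl coe_levelScale
  heckeAlphaBar_eq_levelIncl finrankAlong_levelIncl_mul)

namespace Fermat.Agent.BadPrime.Sq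

set_option synthInstance.maxHeartbeats 200000

local notation "ℚ̄" => AlgebraicClosure ℚ
local notation "ι₀" => (complexEmbedding : ℚ̄ →+* ℂ)

/-- `ψ(N q) = q ψ(N)` if `q ∣ N`. -/
theorem dedekindPsi_mul_prime_of_dvd {N q : ℕ} (hq : q.Prime) (hqN : q ∣ N) :
    dedekindPsi (N * q) = q * dedekindPsi N := by
  rcases eq_or_ne N 0 with rfl | hN
  · simp [dedekindPsi]
  have hset : ((N * q).divisors.filter Squarefree) = N.divisors.filter Squarefree := by
    ext d
    simp only [Finset.mem_filter, Nat.mem_divisors]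
    constructor
    · rintro ⟨⟨hd, -⟩, hsf⟩
      refine ⟨⟨?_, hN⟩, hsf⟩
      by_cases hqd : q ∣ d
      · obtain ⟨e, rfl⟩ := hqd
        have hco : Nat.Coprime q e := Nat.coprime_of_squarefree_mul hsf
        refine hco.mul_dvd_of_dvd_of_dvd hqN ?_
        exact hco.symm.dvd_of_dvd_mul_right ((dvd_mul_left e q).trans hd)
      · exact ((hq.coprime_iff_not_dvd.mpr hqd).symm).dvd_of_dvd_mul_right hd
    · rintro ⟨⟨hd, -⟩, hsf⟩
      exact ⟨⟨hd.mul_right q, Nat.mul_ne_zero hN hq.ne_zero⟩, hsf⟩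
  rw [dedekindPsi, dedekindPsi, hset, Finset.mul_sum]
  refine Finset.sum_congr rfl fun d hd => ?_
  rw [mul_comm N q]
  exact Nat.mul_div_assoc q (Nat.dvd_of_mem_divisors (Finset.mem_filter.mp hd).1)

/-- Degrees multiply. -/
theorem finrankAlong_comp {K A B C : Type*} [Field K] [Field A] [Field B] [Field C] [Algebra K A]
    [Algebra K B] [Algebra K C] (φ : A →ₐ[K] B) (ψ : B →ₐ[K] C) :
    finrankAlong K (ψ.comp φ) = finrankAlong K φ * finrankAlong K ψ := by
  letI := algebraAlong φ
  letI := algebraAlong ψ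
  letI := algebraAlong (ψ.comp φ)
  haveI : IsScalarTower A B C := IsScalarTower.of_algebraMap_eq fun _ => rfl
  exact (Module.finrank_mul_finrank A B C).symm

variable (N q : ℕ) [NeZero N] [NeZero q]

theorem finrankAlong_levelIncl_step [NeZero (N * q)] (hq : q.Prime) (hqN : q ∣ N) :
    finrankAlong ℚ̄ (levelIncl (L := ℚ̄) (dvd_mul_right N q)) = q := by
  have h := finrankAlong_levelIncl_mul (L := ℚ̄) (fun K _ => finrank_FL K ι₀) (dvd_mul_right N q)
  rw [dedekindPsi_mul_prime_of_dvd hq hqN, mul_comm q] at h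
  exact Nat.eq_of_mul_eq_mul_left (EichlerShimura.dedekindPsi_pos N) h

theorem finrankAlong_alpha_step [NeZero (N * q)] [NeZero (N * q * q)] (hq : q.Prime) :
    finrankAlong ℚ̄ (heckeAlphaBar ℚ̄ (N * q) q) = q := by
  rw [heckeAlphaBar_eq_levelIncl]
  exact finrankAlong_levelIncl_step (N * q) q hq (dvd_mul_left q N)

theorem finrankAlong_beta_step [NeZero (N * q)] [NeZero (N * q * q)] (hq : q.Prime)
    (hqN : ¬ q ∣ N) : finrankAlong ℚ̄ (heckeBetaBar ℚ̄ (N * q) q) = q := by
  have hsq : (heckeBetaBar ℚ̄ (N * q) q).comp (heckeAlphaBar ℚ̄ N q) =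
      (heckeAlphaBar ℚ̄ (N * q) q).comp (heckeBetaBar ℚ̄ N q) :=
    AlgHom.ext fun x => Subtype.ext (by simp)
  have h := congrArg (finrankAlong ℚ̄) hsq
  rw [finrankAlong_comp, finrankAlong_comp, finrankAlong_heckeBetaBar N hq hqN,
    finrankAlong_alpha_step N q hq] at h
  refine Nat.eq_of_mul_eq_mul_left ?_ h
  have h2 := finrankAlong_levelIncl_mul (L := ℚ̄) (fun K _ => finrank_FL K ι₀) (dvd_mul_right N q)
  rw [Reduction.dedekindPsi_mul_prime (NeZero.ne N) hq hqN] at h2
  rw [heckeAlphaBar_eq_levelIncl,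
    Nat.eq_of_mul_eq_mul_left (EichlerShimura.dedekindPsi_pos N) h2]
  exact Nat.succ_pos q

end Fermat.Agent.BadPrime.Sq
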