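import Fermat.Agent.BadPrime.TateEigen
import Fermat.Agent.BadPrime.Unipotent

/-!
# Carayol's lemma at `q ^ 2 ∥ M`: the Galois side

If the representation of a newform of level `M = M' q` is unipotent on inertia at `q`, then `J₀(M)`
has inertia fixed `λ`-power torsion, killed by both pushforwards to level `M'`, of unbounded order.
So a uniform bound on such torsion (`FixedKilledBound`) gives S36.
-/

set_option autoImplicit false
set_option linter.style.haveILetI false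

noncomputable section

open Polynomial IsLocalRing CongruenceSubgroup ModularFormClass ModularCurve

namespace Fermat.Agent.BadPrime.Sq

local notation "ℚ̄" => AlgebraicClosure ℚ
local notation "Γℚ" => (AlgebraicClosure ℚ ≃ₐ[ℚ] AlgebraicClosure ℚ)

/-- The inertia fixed `lam`-power torsion of `J₀(M' q)` killed by both pushforwards to level `M'`
is killed by a bounded constant. -/
def FixedKilledBound (M' q lam : ℕ) [NeZero M'] [NeZero q] : Prop :=
  ∀ A : ValuationSubring ℚ̄, A.LiesOverPrime q → ∃ c : ℕ, c ≠ 0 ∧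
    ∀ (k : ℕ) (x : JZero (M' * q)), lam ^ k • x = 0 →
      (∀ σ ∈ A.inertiaSubgroupIn ℚ, σ • x = x) →
      alphaPush M' q x = 0 → betaPush M' q x = 0 → c • x = 0

/-- A unipotent representation of a newform gives inertia fixed torsion of unbounded order killed
by both pushforwards. -/
theorem exists_fixed_killed {M M' q : ℕ} [NeZero M] [NeZero M'] [NeZero q] (hMq : M = M' * q)
    (hq : q ≠ 1) (hM : HasEigenRep M) (hM' : HasEigenRep M')
    {g : CuspForm (Gamma0 M) 2} (hg : g.IsNewform) {p : ℕ} (hp : p.Prime)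
    {O : Type} [CommRing O] [IsDomain O] [IsDiscreteValuationRing O] [CharZero O]
    (hpO : (p : O) ∈ maximalIdeal O) {ρ : GaloisRepAdic O} (hρ : IsNewformTateRep g p ρ)
    (huni : ρ.IsUnipotentOnInertiaAt q) {A : ValuationSubring ℚ̄} (hA : A.LiesOverPrime q)
    {c : ℕ} (hc : c ≠ 0) :
    ∃ (k : ℕ) (x : JZero (M' * q)), p ^ k • x = 0 ∧ c • x ≠ 0 ∧
      (∀ σ ∈ A.inertiaSubgroupIn ℚ, σ • x = x) ∧
      alphaPush M' q x = 0 ∧ betaPush M' q x = 0 := by
  obtain ⟨v, hv0, hv⟩ := exists_inertia_fixed huni hA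
  obtain ⟨c₀, hfam⟩ := exists_killed_family hMq hq hM hM' hg hp hpO hρ
  by_contra hcon
  push Not at hcon
  refine hv0 ?_
  have h1 : c • p ^ c₀ • v = 0 := by
    refine eq_zero_of_forall_pow_smul hpO fun n => ?_
    obtain ⟨m, f, h0, hn, heq, hkill⟩ := hfam n
    refine (h0 _).mp ?_
    funext i
    rw [map_nsmul, map_nsmul, Pi.smul_apply, Pi.smul_apply, Pi.zero_apply]
    by_contra hne
    refine hcon n (p ^ c₀ • f v i) ?_ hne (fun σ hσ => ?_) (hkill v i).1 (hkill v i).2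
    · rw [smul_comm, hn, smul_zero]
    · rw [show σ • (p ^ c₀ • f v i) = p ^ c₀ • σ • f v i from
        map_nsmul (DistribSMul.toAddMonoidHom (JZero (M' * q)) σ) _ _, ← heq, hv σ hσ]
  rw [← mul_smul, ← Nat.cast_smul_eq_nsmul O] at h1
  exact (smul_eq_zero.mp h1).resolve_left
    (by exact_mod_cast Nat.mul_ne_zero hc (pow_ne_zero c₀ hp.ne_zero))

/-- S36 from the bound on fixed killed torsion; the residual hypothesis is not needed. -/
theorem exists_not_isUnipotent_of_bound (hrep : ∀ (N : ℕ) [NeZero N], HasEigenRep N)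
    {M : ℕ} [NeZero M] {g : CuspForm (Gamma0 M) 2} (hg : g.IsNewform)
    (lam : ℕ) [Fact lam.Prime] (S : Finset ℕ)
    (hbound : ∀ (M₁ q : ℕ) [NeZero M₁] [NeZero q], q.Prime → q ≠ lam → ¬ q ∣ M₁ →
      M₁ * q * q = M → FixedKilledBound (M₁ * q) q lam)
    (O' : Type) [CommRing O'] [IsDomain O'] [IsDiscreteValuationRing O']
    [IsAdicComplete (maximalIdeal O') O'] [Finite (ResidueField O')]
    [CharZero O'] (hlamO' : (lam : O') ∈ maximalIdeal O')
    (chig : CuspForm.heckeAlgebra M 2 (↑S : Set ℕ) →+* ℂ)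
    (hchig : ∀ (ℓ : ℕ) (hℓ : ℓ.Prime) (hℓM : ¬ ℓ ∣ M) (hℓS : ℓ ∉ (↑S : Set ℕ)),
      chig (CuspForm.heckeAlgebra.T hℓ hℓM hℓS) = qCoeff g ℓ)
    (iota : chig.range →+* O') (hlamS : lam ∈ S)
    (hMS : ∀ q : ℕ, q.Prime → q ∣ M → q ∈ S) :
    ∃ (O'' : Type) (_ : CommRing O'') (_ : IsDomain O'') (_ : IsDiscreteValuationRing O'')
      (_ : IsAdicComplete (maximalIdeal O'') O'') (_ : Finite (ResidueField O''))
      (_ : CharZero O'') (_ : Algebra O' O'') (_ : Module.Finite O' O'')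
      (_ : IsLocalHom (algebraMap O' O'')),
      Function.Injective (algebraMap O' O'') ∧
      ∃ ρ : GaloisRepAdic O'',
        (∀ (ℓ : ℕ) (hℓ : ℓ.Prime) (hℓM : ¬ ℓ ∣ M) (hℓS : ℓ ∉ (↑S : Set ℕ)),
          ∀ A : ValuationSubring ℚ̄, A.LiesOverPrime ℓ → ∀ σ : Γℚ, A.IsFrobeniusAt σ ℓ →
            LinearMap.charpoly (ρ.ρ σ) =
              X ^ 2 - C (algebraMap O' O'' ((iota.comp chig.rangeRestrict)
                (CuspForm.heckeAlgebra.T hℓ hℓM hℓS))) * X + C ((ℓ : O''))) ∧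
        (∀ q : ℕ, q.Prime → q ≠ lam → M.factorization q = 2 →
          ¬ ρ.IsUnipotentOnInertiaAt q) := by
  obtain ⟨O'', i1, i2, i3, i4, i5, i6, i7, i8, i9, hinj, hlam, ρ, hchar, -, htate⟩ :=
    exists_newformTateRep (hrep M) hg lam S O' hlamO' chig hchig iota hlamS hMS
  refine ⟨O'', i1, i2, i3, i4, i5, i6, i7, i8, i9, hinj, ρ, hchar, fun q hq hqlam hfac huni => ?_⟩
  haveI : NeZero q := ⟨hq.ne_zero⟩
  have hdvd : q ^ 2 ∣ M := (hq.pow_dvd_iff_le_factorization (NeZero.ne M)).mpr hfac.ge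
  obtain ⟨M₁, hM₁⟩ := hdvd
  have hqM₁ : ¬ q ∣ M₁ := fun h => by
    have h3 : q ^ 3 ∣ M := by rw [hM₁, pow_succ]; exact mul_dvd_mul_left _ h
    have := (hq.pow_dvd_iff_le_factorization (NeZero.ne M)).mp h3
    omega
  haveI : NeZero M₁ := ⟨fun h => NeZero.ne M (by rw [hM₁, h, mul_zero])⟩
  have hM : M₁ * q * q = M := by rw [hM₁]; ring
  obtain ⟨A, hA⟩ := Galois.exists_valuationSubring_liesOverPrime (L := ℚ̄) hq
  obtain ⟨c, hc, hcb⟩ := hbound M₁ q hq hqlam hqM₁ hM A hA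
  haveI : NeZero (M₁ * q) := ⟨Nat.mul_ne_zero (NeZero.ne M₁) hq.ne_zero⟩
  obtain ⟨k, x, hk, hcx, hfix, ha, hb⟩ := exists_fixed_killed hM.symm hq.ne_one (hrep M)
    (hrep (M₁ * q)) hg Fact.out hlam htate huni hA hc
  exact hcx (hcb k x hk hfix ha hb)

end Fermat.Agent.BadPrime.Sq

end
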