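import Fermat.Agent.BadPrime.Sq.Setup
import Fermat.Agent.Reduction.AuxLevel
import Fermat.Agent.Reduction.DeltaRatio
import Fermat.Agent.Modular.Genus

/-!
# `(θ t)⁶/Δ` at a uniformiser of a point of `X₀(N)` in characteristic `q ∤ N`

Without elliptic points `E = div(j⁴ (j - 1728)³) - 6 div(dj)` vanishes at the finite points in
characteristic zero.  At a finite point in characteristic `q` it is divisible by `6` (lift a
uniformiser) and `< 6` (bound on the different), hence `≤ 0`; the degree of the canonical divisor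
and the equality of genera give `≥ 0`.

Owner: helper36.
-/

set_option autoImplicit false
set_option linter.style.haveILetI false
set_option synthInstance.maxHeartbeats 400000
set_option maxHeartbeats 800000

noncomputable section

open ModularCurve AlgebraicCurve KaehlerDifferential
open scoped IntermediateField

namespace Fermat.Agent.BadPrime.Sq

open Fermat.Agent.Curve Fermat.Agent.Reduction

section Generic

variable {K : Type*} [Field K] {k : Type*} [Field k]
variable {F : Type*} [Field F] [Algebra K F] {Fb : Type*} [Field Fb] [Algebra k Fb]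

theorem mapDomain_place_nonneg (r : Place K F → Place k Fb) {D : Divisor K F} (hD : 0 ≤ D) :
    (0 : Divisor k Fb) ≤ Finsupp.mapDomain r D := by
  classical
  intro Q
  rw [Finsupp.mapDomain, Finsupp.sum_apply]
  refine Finset.sum_nonneg fun P _ => ?_
  simp only [Finsupp.single_apply]
  split_ifs
  · exact hD P
  · exact le_rfl

theorem dvd_mapDomain_place (r : Place K F → Place k Fb) (D : Divisor K F) (m : ℤ) (Q : Place k Fb)
    (h : ∀ P, r P = Q → m ∣ D P) : m ∣ Finsupp.mapDomain r D Q := by
  classical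
  rw [Finsupp.mapDomain, Finsupp.sum_apply]
  refine Finset.dvd_sum fun P _ => ?_
  simp only [Finsupp.single_apply]
  split_ifs with hP
  · exact h P hP
  · exact dvd_zero m

theorem degree_mapDomain_place (r : Place K F → Place k Fb) (hr : ∀ P, (r P).deg = P.deg)
    (D : Divisor K F) : Divisor.degree (Finsupp.mapDomain r D) = Divisor.degree D := by
  induction D using Finsupp.induction with
  | zero => simp
  | single_add v n D _ _ ih =>
    rw [Finsupp.mapDomain_add, Finsupp.mapDomain_single, map_add, map_add, ih,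
      Divisor.degree_single, Divisor.degree_single, hr]

variable [IsAlgClosed K] [IsAlgClosed k] [IsFunctionField1 K F] [IsFunctionField1 k Fb]

/-- A compatible map on places carries the poles of `j` onto the poles of its reduction. -/
theorem mapDomain_poleDivisor {A : ValuationSubring K} {π : A →+* k} (G : GaussData π F Fb)
    {r : Place K F → Place k Fb} (hdeg : ∀ P, (r P).deg = P.deg) (hr : G.PlaceCompat r)
    {j : F} {jb : Fb} (hj : (j, jb) ∈ G.graph) (htr : Transcendental k jb)
    (hn : Module.finrank k⟮jb⟯ Fb = Module.finrank K⟮j⟯ F) :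
    Finsupp.mapDomain r (poleDivisor (K := K) j) = poleDivisor (K := k) jb := by
  have hjb0 : jb ≠ 0 := fun h => htr (h ▸ isAlgebraic_zero)
  have hdiv : Finsupp.mapDomain r (divisorOf (K := K) j) = divisorOf (K := k) jb :=
    Finsupp.ext fun Q => by rw [hr j jb hj hjb0 _ (fun P => rfl) Q, divisorOf_apply]
  have hsum : poleDivisor (K := K) j + divisorOf (K := K) j = poleDivisor (K := K) j⁻¹ :=
    Finsupp.ext fun P => by
      simp only [Finsupp.add_apply, poleDivisor_apply, divisorOf_apply, Place.ord_inv]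
      omega
  set M := Finsupp.mapDomain r (poleDivisor (K := K) j)
  have h1 : (0 : Divisor k Fb) ≤ M := mapDomain_place_nonneg r (poleDivisor_nonneg j)
  have h2 : (0 : Divisor k Fb) ≤ M + divisorOf (K := k) jb := by
    rw [← hdiv, ← Finsupp.mapDomain_add, hsum]
    exact mapDomain_place_nonneg r (poleDivisor_nonneg _)
  have hle : poleDivisor (K := k) jb ≤ M := fun Q => by
    have ha := h1 Q
    have hb := h2 Q
    simp only [Finsupp.coe_zero, Pi.zero_apply, Finsupp.add_apply, divisorOf_apply] at ha hb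
    rw [poleDivisor_apply]
    omega
  refine Finsupp.ext fun Q => le_antisymm ?_ (hle Q)
  by_contra hlt
  have hle' : poleDivisor (K := k) jb + Finsupp.single Q 1 ≤ M := fun Q' => by
    rcases eq_or_ne Q' Q with rfl | hne
    · rw [Finsupp.add_apply, Finsupp.single_eq_same]
      omega
    · rw [Finsupp.add_apply, Finsupp.single_eq_of_ne hne, add_zero]
      exact hle Q'
  have h := degree_le_degree hle'
  rw [map_add, Divisor.degree_single, degree_poleDivisor htr, degree_mapDomain_place r hdeg,
    degree_poleDivisor (G.transcendental_of_mem hj htr), deg_eq_one, hn] at h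
  omega

/-- `j⁴ (j - 1728)³ (dt/dj)⁶` is a unit at the finite places of the reduction, `t` a
uniformiser. -/
theorem ord_pow_six_mul_eq_zero [CharZero K] {A : ValuationSubring K} {π : A →+* k}
    (G : GaussData π F Fb) {r : Place K F → Place k Fb} (hdeg : ∀ P, (r P).deg = P.deg)
    (hr : G.PlaceCompat r) {j : F} {jb : Fb} (hj : (j, jb) ∈ G.graph) (htr : Transcendental k jb)
    (hn : Module.finrank k⟮jb⟯ Fb = Module.finrank K⟮j⟯ F)
    (hsep : Algebra.IsSeparable k⟮jb⟯ Fb)
    (hram : ∀ P : Place K F, 0 ≤ P.ord j →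
      P.ord (j ^ 4 * (j - algebraMap K F 1728) ^ 3) = 6 * P.ordDifferential (D K F j))
    (hgenus : 6 * (2 * (genusFF K F : ℤ) - 2) ≤ Module.finrank K⟮j⟯ F -
      6 * ((poleDivisor (K := K) j).support.card : ℤ))
    (hb : DifferentBound (k := k) jb)
    (hlift : ∀ t : Fb, ∃ (f c : F) (cb : Fb), D K F f = c • D K F j ∧ (c, cb) ∈ G.graph ∧
      D k Fb t = cb • D k Fb jb)
    {Q : Place k Fb} (hQ : 0 ≤ Q.ord jb) {t cb : Fb} (ht : Q.ord t = 1)
    (hcb : D k Fb t = cb • D k Fb jb) :
    cb ≠ 0 ∧ Q.ord (cb ^ 6 * (jb ^ 4 * (jb - algebraMap k Fb 1728) ^ 3)) = 0 := by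
  classical
  have : CharZero F := charZero_of_injective_algebraMap (algebraMap K F).injective
  have htrj : Transcendental K j := G.transcendental_of_mem hj htr
  have : FiniteDimensional K⟮j⟯ F := finiteDimensional_adjoin htrj
  have hsub : ∀ c : K, j - algebraMap K F c ≠ 0 := fun c h =>
    htrj (sub_eq_zero.mp h ▸ isAlgebraic_algebraMap c)
  have hsubb : ∀ c : k, jb - algebraMap k Fb c ≠ 0 := fun c h =>
    htr (sub_eq_zero.mp h ▸ isAlgebraic_algebraMap c)
  have hjb0 : jb ≠ 0 := by simpa using hsubb 0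
  have hω : D K F j ≠ 0 := D_ne_zero_of_isSeparable htrj
  have hωb : D k Fb jb ≠ 0 := D_ne_zero_of_isSeparable htr
  set L7 : F := j ^ 4 * (j - algebraMap K F 1728) ^ 3 with hL7
  set L7b : Fb := jb ^ 4 * (jb - algebraMap k Fb 1728) ^ 3 with hL7b
  have hL0 : L7 ≠ 0 := mul_ne_zero (pow_ne_zero _ (by simpa using hsub 0)) (pow_ne_zero _ (hsub _))
  have hLb0 : L7b ≠ 0 := mul_ne_zero (pow_ne_zero _ hjb0) (pow_ne_zero _ (hsubb _))
  have h7 : (L7, L7b) ∈ G.graph := by
    have h1728 : (algebraMap K F 1728, algebraMap k Fb 1728) ∈ G.graph := by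
      have h := G.algebraMap_mem (1728 : A)
      rwa [map_ofNat π 1728, show (((1728 : A)) : K) = 1728 from map_ofNat A.subtype 1728] at h
    exact G.graph.mul_mem (G.graph.pow_mem hj 4) (G.graph.pow_mem (G.graph.sub_mem hj h1728) 3)
  have hpole := mapDomain_poleDivisor G hdeg hr hj htr hn
  have hfinite : ∀ P : Place K F, 0 ≤ (r P).ord jb → 0 ≤ P.ord j := by
    intro P hP
    by_contra hcon
    have hle : Finsupp.single P (-P.ord j) ≤ poleDivisor (K := K) j := fun v => by
      rcases eq_or_ne v P with rfl | hv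
      · simp
      · simp [Finsupp.single_eq_of_ne hv]
    have hmap := mapDomain_place_nonneg r (sub_nonneg.2 hle) (r P)
    rw [sub_eq_add_neg, ← Finsupp.single_neg, Finsupp.mapDomain_add, hpole,
      Finsupp.mapDomain_single, Finsupp.add_apply, Finsupp.single_eq_same, poleDivisor_apply,
      Finsupp.coe_zero, Pi.zero_apply] at hmap
    omega
  -- the value at a uniformiser
  set E : Divisor k Fb := divisorOf (K := k) L7b - (6 : ℕ) • canonicalDivisorOf hωb with hE
  have hEapply : ∀ Q' : Place k Fb,
      E Q' = Q'.ord L7b - 6 * Q'.ordDifferential (D k Fb jb) := fun Q' => by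
    rw [hE, Finsupp.sub_apply, Finsupp.smul_apply, divisorOf_apply, canonicalDivisorOf_apply]
    simp
  have hEeq : ∀ (Q' : Place k Fb) (t' cb' : Fb), Q'.ord t' = 1 →
      D k Fb t' = cb' • D k Fb jb → cb' ≠ 0 ∧ Q'.ord (cb' ^ 6 * L7b) = E Q' := by
    intro Q' t' cb' ht' hcb'
    have h1 : ((Q'.ord t' : ℤ) : k) ≠ 0 := by rw [ht']; simp
    obtain ⟨hD0, hd⟩ := ordDifferential_D (differentials_fg_of_isCurveOver Q') h1
    have hc0 : cb' ≠ 0 := by rintro rfl; exact hD0 (by rw [hcb', zero_smul])
    rw [hcb', ordDifferential_smul_of_ne_zero Q' hc0 hωb, ht'] at hd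
    refine ⟨hc0, ?_⟩
    rw [Q'.ord_mul (pow_ne_zero _ hc0) hLb0, ord_pow, hEapply]
    push_cast
    omega
  have hEnonpos : ∀ Q' : Place k Fb, 0 ≤ Q'.ord jb → E Q' ≤ 0 := by
    intro Q' hQ'
    obtain ⟨t', -, ht'⟩ := exists_uniformizer Q'
    obtain ⟨f, c, cb', hf, hc, hcb'⟩ := hlift t'
    obtain ⟨hc0, hord⟩ := hEeq Q' t' cb' ht' hcb'
    have hcF : c ≠ 0 := G.ne_zero_of_mem hc hc0
    have hdvd : (6 : ℤ) ∣ E Q' := by
      rw [← hord, ← hr (c ^ 6 * L7) (cb' ^ 6 * L7b) (G.graph.mul_mem (G.graph.pow_mem hc 6) h7)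
        (mul_ne_zero (pow_ne_zero _ hc0) hLb0) (divisorOf (K := K) _) (fun P => rfl) Q']
      refine dvd_mapDomain_place r _ 6 Q' fun P hP => ?_
      rw [divisorOf_apply, P.ord_mul (pow_ne_zero _ hcF) hL0, ord_pow,
        hram P (hfinite P (hP ▸ hQ'))]
      exact ⟨P.ord c + P.ordDifferential (D K F j), by push_cast; ring⟩
    have := hb Q' hQ'
    rw [← hL7b] at this
    rw [hEapply] at hdvd ⊢
    omega
  -- the degree
  set Sp := (poleDivisor (K := k) jb).support
  have hSp : ∀ Q', Q' ∈ Sp ↔ Q'.ord jb < 0 := fun Q' => Modular.mem_support_poleDivisor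
  have hcard : Sp.card ≤ (poleDivisor (K := K) j).support.card := by
    have h : (Finsupp.mapDomain r (poleDivisor (K := K) j)).support ⊆
        (poleDivisor (K := K) j).support.image r := Finsupp.mapDomain_support
    rw [hpole] at h
    exact (Finset.card_le_card h).trans Finset.card_image_le
  set B : Divisor k Fb := ∑ Q' ∈ Sp, Finsupp.single Q' (Q'.ord jb + 6) with hB
  have hle : E ≤ Finsupp.single Q (E Q) + B := by
    intro Q'
    rw [Finsupp.add_apply, hB, Finsupp.finsetSum_apply]
    simp only [Finsupp.single_apply, Finset.sum_ite_eq']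
    rcases lt_or_ge (Q'.ord jb) 0 with h | h
    · have h17 : Q'.ord (jb - algebraMap k Fb 1728) = Q'.ord jb := by
        rw [sub_eq_add_neg, ord_add_eq_of_lt Q' hjb0 (by rwa [ord_neg, ord_algebraMap])]
      rw [if_pos ((hSp Q').2 h), if_neg (fun e : Q = Q' => not_lt.2 hQ (e ▸ h)), zero_add,
        hEapply, hL7b, Q'.ord_mul (pow_ne_zero _ hjb0) (pow_ne_zero _ (hsubb _)), ord_pow, ord_pow,
        h17]
      have := sub_one_le_ordDifferential_D Q' hωb
      push_cast
      omega
    · rw [if_neg (fun e => not_lt.2 h ((hSp Q').1 e)), add_zero]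
      split_ifs with e
      · rw [e]
      · exact hEnonpos Q' h
  have hdegle := degree_le_degree hle
  have hdegE : Divisor.degree E = -6 * (2 * (genusFF k Fb : ℤ) - 2) := by
    rw [hE, map_sub, map_nsmul, degree_divisorOf, degree_canonicalDivisorOf, nsmul_eq_mul]
    push_cast
    ring
  have hdegB : Divisor.degree B = -(Module.finrank k⟮jb⟯ Fb : ℤ) + 6 * (Sp.card : ℤ) := by
    rw [hB, map_sum, Finset.sum_congr rfl fun Q' _ => by
      rw [Divisor.degree_single, deg_eq_one, Nat.cast_one, mul_one], Finset.sum_add_distrib,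
      Modular.sum_poles_ord htr, Finset.sum_const, nsmul_eq_mul, mul_comm]
  rw [map_add, hdegE, hdegB, Divisor.degree_single, deg_eq_one, Nat.cast_one, mul_one, hn]
    at hdegle
  have hg : (genusFF k Fb : ℤ) ≤ genusFF K F := by exact_mod_cast G.genusFF_le
  obtain ⟨hc0, hord⟩ := hEeq Q t cb ht hcb
  refine ⟨hc0, ?_⟩
  rw [hord]
  have := hEnonpos Q hQ
  omega

end Generic

section Series

variable {k : Type*} [Field k] {M : IntermediateField k (LaurentSeries k)}

theorem qDeriv_eq_of_D_eq {x y c : M} (h : D k M x = c • D k M y) :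
    qDeriv (x : LaurentSeries k) = (c : LaurentSeries k) * qDeriv (y : LaurentSeries k) := by
  haveI : IsScalarTower k M (LaurentSeries k) := IsScalarTower.of_algebraMap_smul fun r z => by
    rw [IntermediateField.smul_def, IntermediateField.coe_algebraMap_apply, smul_eq_mul,
      ← Reduction.C_eq_algebraMap]
    exact HahnSeries.C_mul_eq_smul
  have hx := (qDerivation M).liftKaehlerDifferential_comp_D x
  have hy := (qDerivation M).liftKaehlerDifferential_comp_D y
  rw [h, map_smul, hy, IntermediateField.smul_def, smul_eq_mul] at hx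
  exact hx.symm

end Series

section X0

local notation "Qb" => AlgebraicClosure ℚ

variable (N : ℕ) [NeZero N]

theorem finrank_jBar_eq_psi :
    Module.finrank Qb⟮jBar N⟯ (modularFunctionFieldBar N) = dedekindPsi N :=
  Modular.finrank_FL N qbarEmb

/-- In characteristic zero, without elliptic points, `j⁴ (j - 1728)³/(dj)⁶` has no zero or pole
at the finite places. -/
theorem ord_jBar_eq_six_mul (h2 : nuTwo N = 0) (h3 : nuThree N = 0)
    (P : Place Qb (modularFunctionFieldBar N)) (hP : 0 ≤ P.ord (jBar N)) :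
    P.ord (jBar N ^ 4 * (jBar N - algebraMap Qb (modularFunctionFieldBar N) 1728) ^ 3) =
      6 * P.ordDifferential (D Qb (modularFunctionFieldBar N) (jBar N)) := by
  classical
  set j := jBar N
  have htr : Transcendental Qb j := transcendental_jBar N
  have hsub : ∀ c : Qb, j - algebraMap Qb (modularFunctionFieldBar N) c ≠ 0 := fun c h =>
    htr (sub_eq_zero.mp h ▸ isAlgebraic_algebraMap c)
  have hj0 : j ≠ 0 := by simpa using hsub 0
  have hexact : ∀ (c : Qb) (e : ℕ),
      e * Nat.card {P' : Place Qb (modularFunctionFieldBar N) //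
        0 < P'.ord (j - algebraMap Qb (modularFunctionFieldBar N) c)} = dedekindPsi N →
      (∀ P' : Place Qb (modularFunctionFieldBar N),
        0 < P'.ord (j - algebraMap Qb (modularFunctionFieldBar N) c) →
          P'.ord (j - algebraMap Qb (modularFunctionFieldBar N) c) ≤ e) →
      ∀ P' : Place Qb (modularFunctionFieldBar N),
        0 < P'.ord (j - algebraMap Qb (modularFunctionFieldBar N) c) →
          P'.ord (j - algebraMap Qb (modularFunctionFieldBar N) c) = e := by
    intro c e hcount hle P' hP'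
    have hsum := Modular.sum_fibre_ord htr c
    rw [finrank_jBar_eq_psi, ← hcount, ← Modular.card_fibreFinset] at hsum
    have heq : ∑ P'' ∈ Modular.fibreFinset j c,
        P''.ord (j - algebraMap Qb (modularFunctionFieldBar N) c) =
        ∑ _P'' ∈ Modular.fibreFinset j c, (e : ℤ) := by
      rw [hsum, Finset.sum_const, nsmul_eq_mul]
      push_cast
      ring
    exact (Finset.sum_eq_sum_iff_of_le fun P'' hP'' =>
      hle P'' (Modular.mem_fibreFinset.1 hP'')).1 heq P' (Modular.mem_fibreFinset.2 hP')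
  obtain ⟨c, hc⟩ := Modular.exists_fibre_of_ord_nonneg htr hP
  rw [P.ord_mul (pow_ne_zero _ hj0) (pow_ne_zero _ (hsub _)), ord_pow, ord_pow,
    Modular.ordDifferential_D_of_fibre hc]
  have hsame : ∀ c' : Qb, c' ≠ c → P.ord (j - algebraMap Qb (modularFunctionFieldBar N) c') = 0 := by
    intro c' hne
    have e : j - algebraMap Qb (modularFunctionFieldBar N) c' =
        algebraMap Qb (modularFunctionFieldBar N) (c - c') +
          (j - algebraMap Qb (modularFunctionFieldBar N) c) := by
      rw [map_sub]; ring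
    rw [e, ord_add_eq_of_lt P ((map_ne_zero _).mpr (sub_ne_zero.mpr hne.symm))
      (by rwa [ord_algebraMap]), ord_algebraMap]
  push_cast
  rcases eq_or_ne c 0 with hc0 | hc0
  · subst hc0
    have hne : (1728 : Qb) ≠ 0 := OfNat.ofNat_ne_zero 1728
    have he := hexact 0 3 (by
        have := Modular.three_mul_natCard_placesFL_zero (N := N) qbarEmb
        rw [h3, mul_zero, add_zero] at this
        simp only [map_zero, sub_zero]
        exact this)
      (fun P' h => by
        simp only [map_zero, sub_zero] at h ⊢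
        exact jBar_ord_le_three N P' h) P hc
    simp only [map_zero, sub_zero] at he hc ⊢
    rw [hsame 1728 hne, he]
    norm_num
  · have hj00 : P.ord j = 0 := by simpa using hsame 0 hc0.symm
    rcases eq_or_ne c 1728 with hc17 | hc17
    · subst hc17
      have he := hexact 1728 2 (by
          have := Modular.two_mul_natCard_placesFL_1728 (N := N) qbarEmb
          rw [h2, add_zero] at this
          exact this)
        (fun P' h => jBar_ord_le_two N P' h) P hc
      rw [hj00, he]
      norm_num
    · rw [hj00, hsame 1728 hc17.symm, jBar_ord_eq_one N hc0 hc17 P hc]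
      norm_num

theorem six_mul_genus_le (h2 : nuTwo N = 0) (h3 : nuThree N = 0) :
    6 * (2 * (genusFF Qb (modularFunctionFieldBar N) : ℤ) - 2) ≤
      Module.finrank Qb⟮jBar N⟯ (modularFunctionFieldBar N) -
        6 * ((poleDivisor (K := Qb) (jBar N)).support.card : ℤ) := by
  classical
  have hg := Modular.genusFF_eq_genusFormula N qbarEmb
  rw [genusFormula, h2, h3] at hg
  have hc : (poleDivisor (K := Qb) (jBar N)).support.card = cuspCount N := by
    rw [← Nat.card_eq_finsetCard, ← Modular.natCard_places_infinity_FL N qbarEmb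
      (Modular.sigmaCoset_injective N qbarEmb) (Modular.transcendental_jL N qbarEmb)
      (by rw [Modular.finrank_FL N qbarEmb, ← Modular.index_Gamma0 N, Subgroup.index_eq_card])]
    exact Nat.card_congr (Equiv.subtypeEquivRight fun P => Modular.mem_support_poleDivisor)
  rw [hc, finrank_jBar_eq_psi]
  have : (6 * (2 * (genusFF Qb (modularFunctionFieldBar N) : ℤ) - 2) : ℚ) =
      ((dedekindPsi N : ℤ) - 6 * (cuspCount N : ℤ) : ℤ) := by
    push_cast
    rw [show (genusFF Qb (modularFunctionFieldBar N) : ℚ) = _ from hg]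
    push_cast
    ring
  exact le_of_eq (by exact_mod_cast this)

variable {q : ℕ} [Fact q.Prime] (hqN : ¬ q ∣ N)
  (A : ValuationSubring (AlgebraicClosure ℚ)) (hA : A.LiesOverPrime q)

include hqN hA

/-- Differentials lift along the Gauss reduction. -/
theorem exists_lift_D (t : modularFunctionFieldFullC (IsLocalRing.ResidueField A) N) :
    ∃ (f c : modularFunctionFieldBar N)
      (cb : modularFunctionFieldFullC (IsLocalRing.ResidueField A) N),
      D Qb (modularFunctionFieldBar N) f = c • D Qb (modularFunctionFieldBar N) (jBar N) ∧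
      (c, cb) ∈ (gaussDataX0 N hqN A hA).graph ∧
      D (IsLocalRing.ResidueField A) _ t =
        cb • D (IsLocalRing.ResidueField A) _ (jRes (IsLocalRing.ResidueField A) N) := by
  haveI := EC.isAlgClosed_residueField A
  haveI := isSeparable_jRes N hqN A hA
  haveI : CharZero (modularFunctionFieldBar N) :=
    charZero_of_injective_algebraMap (algebraMap Qb (modularFunctionFieldBar N)).injective
  haveI : FiniteDimensional Qb⟮jBar N⟯ (modularFunctionFieldBar N) :=
    finiteDimensional_adjoin (transcendental_jBar N)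
  set k := IsLocalRing.ResidueField A
  obtain ⟨f, hfg⟩ := modGraph_exists_lift N hqN A hA t
  obtain ⟨a, b, hb, h1, h2⟩ := hfg
  obtain ⟨c, hc⟩ := Curve.exists_smul_eq_of_ne_zero
    (D_ne_zero_of_isSeparable (transcendental_jBar N)) (D Qb (modularFunctionFieldBar N) f)
  obtain ⟨cb, hcb⟩ := Curve.exists_smul_eq_of_ne_zero
    (D_ne_zero_of_isSeparable (transcendental_jRes N k)) (D k _ t)
  refine ⟨f, c, cb, hc.symm, ?_, hcb.symm⟩
  have hθ := qDeriv_eq_of_D_eq hc.symm
  have hθb := qDeriv_eq_of_D_eq hcb.symm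
  have hj : coeffMap A.subtype (jqModC A) = ((jBar N : modularFunctionFieldBar N) :
      LaurentSeries Qb) := by
    rw [coeffMap_jqModC]
    show _ = coeffEmb (AlgebraicClosure ℚ) jq
    rw [coeffEmb, ← jqModC_rat, coeffMap_jqModC]
  have hjk : coeffMap (IsLocalRing.residue A) (jqModC A) = ((jRes k N : modularFunctionFieldFullC k N) :
      LaurentSeries k) := coeffMap_jqModC _
  refine ⟨qDeriv a * b - a * qDeriv b, b * b * qDeriv (jqModC A), ?_, ?_, ?_⟩
  · rw [map_mul, map_mul, coeffMap_qDeriv, coeffMap_jqModC]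
    exact mul_ne_zero (mul_ne_zero hb hb) (qDeriv_jqModC_ne_zero k)
  · simp only [map_sub, map_mul, coeffMap_qDeriv, ← h1, qDeriv_mul, hθ, hj]
    ring
  · simp only [map_sub, map_mul, coeffMap_qDeriv, ← h2, qDeriv_mul, hθb, hjk]
    ring

/-- `(θ t)⁶/Δ` is a unit where `t` is a uniformiser. -/
theorem omega_unit (hN : (q = 2 → 3 ∣ N) ∧ (q = 3 → 2 ∣ N)) (h2 : nuTwo N = 0)
    (h3 : nuThree N = 0)
    (v : ValuationSubring (modularFunctionFieldFullC (IsLocalRing.ResidueField A) N))
    (hv : ∀ c : IsLocalRing.ResidueField A,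
      algebraMap (IsLocalRing.ResidueField A) _ c ∈ v)
    (hjv : (⟨jqModC (IsLocalRing.ResidueField A),
        jqModC_mem_full (IsLocalRing.ResidueField A) N⟩ :
        modularFunctionFieldFullC (IsLocalRing.ResidueField A) N) ∈ v)
    (t : modularFunctionFieldFullC (IsLocalRing.ResidueField A) N) (ht0 : t ≠ 0)
    (htv : t ∈ v.nonunits) (huni : ∀ s ∈ v.nonunits, ∃ r ∈ v, s = t * r) :
    ∃ u : modularFunctionFieldFullC (IsLocalRing.ResidueField A) N, u ∈ v ∧ u ∉ v.nonunits ∧
      Reduction.qDeriv (t : LaurentSeries (IsLocalRing.ResidueField A)) ^ 6 =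
        (u : LaurentSeries (IsLocalRing.ResidueField A)) *
          Igusa.deltaSeries (IsLocalRing.ResidueField A) := by
  haveI := EC.isAlgClosed_residueField A
  haveI hsep := isSeparable_jRes N hqN A hA
  set k := IsLocalRing.ResidueField A
  set G := gaussDataX0 N hqN A hA
  obtain ⟨r, hdeg, hr⟩ := G.exists_placeCompat (genusFF_le_modL N hqN A hA hN)
  have hnon : ∀ s : modularFunctionFieldFullC k N, s ∈ v.nonunits → s ≠ 0 → s⁻¹ ∉ v := by
    intro s hs hs0 hmem
    have h1 := v.mem_nonunits_iff.mp hs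
    have h2 := (v.valuation_le_one_iff _).mpr hmem
    rw [map_inv₀, inv_le_one₀ (zero_lt_iff.mpr ((Valuation.ne_zero_iff _).mpr hs0))] at h2
    exact not_le.mpr h1 h2
  have hne : v ≠ ⊤ := fun e => hnon t htv ht0 (e ▸ ValuationSubring.mem_top _)
  let Q : Place k (modularFunctionFieldFullC k N) := placeOfValuationSubring v hv hne
  have hQt : Q.ord t = 1 := by
    have hpos : 0 < Q.ord t := by
      by_contra hle
      exact hnon t htv ht0 (mem_of_ord_nonneg Q (f := t⁻¹) (by rw [Q.ord_inv]; omega))
    obtain ⟨t₀, ht₀0, ht₀⟩ := exists_uniformizer Q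
    have ht₀v : t₀ ∈ v.nonunits := by
      rw [v.mem_nonunits_iff]
      by_contra hle
      have hmem : t₀⁻¹ ∈ v := by
        rw [← v.valuation_le_one_iff, map_inv₀]
        exact inv_le_one_of_one_le₀ (not_lt.1 hle)
      have := ord_nonneg_of_mem Q (f := t₀⁻¹) hmem
      rw [Q.ord_inv] at this
      omega
    obtain ⟨s, hs, hts⟩ := huni t₀ ht₀v
    have hs0 : s ≠ 0 := fun e => ht₀0 (by rw [hts, e, mul_zero])
    have := ord_nonneg_of_mem Q (f := s) hs
    rw [hts, Q.ord_mul ht0 hs0] at ht₀
    omega
  obtain ⟨f, c, cb, -, -, hcb⟩ := exists_lift_D N hqN A hA t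
  obtain ⟨hc0, hord⟩ := ord_pow_six_mul_eq_zero G hdeg hr (jBar_jRes_mem N A)
    (transcendental_jRes N k) (finrank_jRes N hqN A hA) hsep (ord_jBar_eq_six_mul N h2 h3)
    (six_mul_genus_le N h2 h3) (differentBound_jRes N hqN A hA hN) (exists_lift_D N hqN A hA)
    (Q := Q) (ord_nonneg_of_mem Q hjv) hQt hcb
  refine ⟨_, mem_of_ord_nonneg Q hord.ge, fun hu => ?_, ?_⟩
  · have hu0 : cb ^ 6 * (jRes k N ^ 4 *
        (jRes k N - algebraMap k (modularFunctionFieldFullC k N) 1728) ^ 3) ≠ 0 := by
      have hsub : ∀ a : k, jRes k N - algebraMap k (modularFunctionFieldFullC k N) a ≠ 0 :=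
        fun a h => transcendental_jRes N k (sub_eq_zero.mp h ▸ isAlgebraic_algebraMap a)
      exact mul_ne_zero (pow_ne_zero _ hc0)
        (mul_ne_zero (pow_ne_zero _ (by simpa using hsub 0)) (pow_ne_zero _ (hsub _)))
    exact hnon _ hu hu0 (mem_of_ord_nonneg Q (by rw [Q.ord_inv, hord, neg_zero]))
  · rw [qDeriv_eq_of_D_eq hcb, mul_pow]
    show _ * qDeriv (jqModC k) ^ 6 = _
    rw [qDeriv_jqModC_pow_six, Reduction.C_eq_algebraMap]
    simp only [IntermediateField.coe_mul, IntermediateField.coe_pow, AddSubgroupClass.coe_sub,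
      IntermediateField.coe_algebraMap_apply]
    show _ = _ * ((jqModC k) ^ 4 * (jqModC k - algebraMap k (LaurentSeries k) 1728) ^ 3) * _
    ring

end X0

end Fermat.Agent.BadPrime.Sq
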