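import Fermat.Agent.BadPrime.Sq.TowerValue
import Fermat.Agent.BadPrime.Sq.Charts
import Fermat.Agent.Modular.ModularPolynomial
import Mathlib.RingTheory.RootsOfUnity.Complex

/-!
# `j(τ)` and `j(q τ)` at level `N q`

The modular polynomial `Φ_q(X, Y)` is monic of degree `q + 1` in `Y`, its constant term has degree
`q + 1` in `X` with leading coefficient `± 1` and the other coefficients have degree at most `q`.
This gives the integrality and the behaviour at the cusps.
-/

set_option autoImplicit false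
set_option synthInstance.maxHeartbeats 400000
set_option linter.unusedSectionVars false
set_option linter.style.haveILetI false

noncomputable section

open ModularCurve Polynomial
open scoped IntermediateField

namespace Fermat.Agent.BadPrime.Sq.Tower

open Fermat.Agent.Modular Fermat.Agent.BadPrime
open Fermat.Agent.Igusa (HasLead)

/-- Evaluation of integer polynomials. -/
abbrev evZ {R : Type*} [CommRing R] (x : R) : ℤ[X] →+* R := eval₂RingHom (Int.castRingHom R) x

theorem evZ_map {R R' : Type*} [CommRing R] [CommRing R'] (f : R →+* R') (x : R) :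
    f.comp (evZ x) = evZ (f x) :=
  Polynomial.ringHom_ext (fun a => by simp) (by simp)

/-- `Φ(x, y)`. -/
def modEval {R : Type*} [CommRing R] (Φ : ℤ[X][X]) (x y : R) : R := Φ.eval₂ (evZ x) y

theorem map_modEval {R R' : Type*} [CommRing R] [CommRing R'] (f : R →+* R') (Φ : ℤ[X][X])
    (x y : R) : f (modEval Φ x y) = modEval Φ (f x) (f y) := by
  rw [modEval, hom_eval₂, evZ_map, modEval]

/-- What the two cusps need from the modular polynomial. -/
structure IsCuspPoly (q : ℕ) (Φ : ℤ[X][X]) : Prop where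
  monic : Φ.Monic
  natDegree : Φ.natDegree = q + 1
  natDegree_le : ∀ i, 1 ≤ i → (Φ.coeff i).natDegree ≤ q
  natDegree_zero : (Φ.coeff 0).natDegree = q + 1
  isUnit_lead : IsUnit (Φ.coeff 0).leadingCoeff

/-! ### The degrees -/

section Bounds

variable {R : Type*} [CommRing R]

/-- The coefficient of `Y ^ i` has order at least `d i - n`. -/
def HasWeight (P : (LaurentSeries R)[X]) (d n : ℤ) : Prop :=
  ∀ (i : ℕ), ∀ k < d * i - n, (P.coeff i).coeff k = 0

theorem HasWeight.one (d : ℤ) : HasWeight (1 : (LaurentSeries R)[X]) d 0 := by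
  intro i k hk
  rcases eq_or_ne i 0 with rfl | hi
  · rw [coeff_one_zero, HahnSeries.coeff_one, if_neg]
    simp only [Nat.cast_zero, mul_zero] at hk
    omega
  · rw [coeff_one, if_neg hi, HahnSeries.coeff_zero]

theorem HasWeight.X_sub_C {r : LaurentSeries R} {d n : ℤ} (hn : d ≤ n)
    (hr : ∀ k < -n, r.coeff k = 0) : HasWeight (X - C r) d n := by
  intro i k hk
  rw [coeff_sub, coeff_X, coeff_C, HahnSeries.coeff_sub]
  rcases i with _ | _ | i
  · simp only [Nat.cast_zero, mul_zero, zero_sub] at hk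
    simp [hr k hk]
  · simp only [zero_add, if_true, Nat.cast_one, mul_one] at hk ⊢
    rw [if_neg one_ne_zero, HahnSeries.coeff_zero, sub_zero, HahnSeries.coeff_one, if_neg]
    omega
  · simp

theorem HasWeight.mul {P Q : (LaurentSeries R)[X]} {d m n : ℤ} (hP : HasWeight P d m)
    (hQ : HasWeight Q d n) : HasWeight (P * Q) d (m + n) := by
  intro i k hk
  rw [Polynomial.coeff_mul, HahnSeries.coeff_sum]
  refine Finset.sum_eq_zero fun a ha => ?_
  replace ha : a.1 + a.2 = i := Finset.HasAntidiagonal.mem_antidiagonal.1 ha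
  rw [HahnSeries.coeff_mul]
  refine Finset.sum_eq_zero fun e he => ?_
  obtain ⟨h1, h2, h3⟩ := Finset.mem_antidiagonal.1 he
  rcases lt_or_ge e.1 (d * (a.1 : ℤ) - m) with h | h
  · rw [hP a.1 e.1 h, zero_mul]
  · rw [hQ a.2 e.2 (by rw [← ha] at hk; push_cast at hk; rw [mul_add] at hk; omega), mul_zero]

theorem HasWeight.prod {ι : Type*} (s : Finset ι) {d : ℤ} {P : ι → (LaurentSeries R)[X]}
    {n : ι → ℤ} (h : ∀ i ∈ s, HasWeight (P i) d (n i)) :
    HasWeight (∏ i ∈ s, P i) d (∑ i ∈ s, n i) := by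
  classical
  induction s using Finset.induction_on with
  | empty => simpa using HasWeight.one d
  | insert a s ha ih =>
    rw [Finset.prod_insert ha, Finset.sum_insert ha]
    exact (h a (Finset.mem_insert_self a s)).mul (ih fun i hi => h i (Finset.mem_insert_of_mem hi))

end Bounds

theorem hasLead_evZ {q : ℕ} [NeZero q] (p : ℤ[X]) :
    HasLead (evZ (qExpand ℂ q (jqModC ℂ)) p) (-(q : ℤ) * p.natDegree) (p.leadingCoeff : ℂ) := by
  have hJ : ∀ l : ℕ, HasLead (qExpand ℂ q (jqModC ℂ) ^ l) (-(q : ℤ) * l) 1 := fun l => by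
    have h := ((Igusa.hasLead_jqModC (R := ℂ)).qExpand q).pow l
    rw [one_pow] at h
    rwa [show -(q : ℤ) * l = (l : ℤ) * ((q : ℤ) * -1) by ring]
  have hcoeff : ∀ k, (evZ (qExpand ℂ q (jqModC ℂ)) p).coeff k = ∑ l ∈ Finset.range (p.natDegree + 1),
      (p.coeff l : ℂ) * (qExpand ℂ q (jqModC ℂ) ^ l).coeff k := fun k => by
    rw [coe_eval₂RingHom, eval₂_eq_sum_range, HahnSeries.coeff_sum]
    refine Finset.sum_congr rfl fun l _ => ?_
    rw [eq_intCast, ← map_intCast (HahnSeries.C (Γ := ℤ) (R := ℂ)), HahnSeries.C_apply,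
      HahnSeries.coeff_single_zero_mul]
  have hq : 0 < (q : ℤ) := by exact_mod_cast Nat.pos_of_ne_zero (NeZero.ne q)
  have hlt : ∀ l ∈ Finset.range (p.natDegree + 1), ∀ k, k < -(q : ℤ) * p.natDegree →
      (p.coeff l : ℂ) * (qExpand ℂ q (jqModC ℂ) ^ l).coeff k = 0 := fun l hl k hk => by
    have hl' : (l : ℤ) ≤ p.natDegree := by exact_mod_cast Nat.lt_succ_iff.1 (Finset.mem_range.1 hl)
    rw [(hJ l).below k (by nlinarith), mul_zero]
  refine ⟨fun k hk => ?_, ?_⟩
  · rw [hcoeff]
    exact Finset.sum_eq_zero fun l hl => hlt l hl k hk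
  · rw [hcoeff, Finset.sum_eq_single p.natDegree]
    · rw [(hJ _).coeff_eq, mul_one]
      rfl
    · intro l hl hne
      have hl' : l < p.natDegree :=
        lt_of_le_of_ne (Nat.lt_succ_iff.1 (Finset.mem_range.1 hl)) hne
      rw [(hJ l).below _ (by
        have : (l : ℤ) + 1 ≤ p.natDegree := by exact_mod_cast hl'
        nlinarith), mul_zero]
    · exact fun h => absurd (Finset.self_mem_range_succ _) h

section Modular

variable {L : Type} [Field L] [Algebra ℚ L] (N q : ℕ) [NeZero N] [Fact q.Prime]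
  {W : FL (N * q) L →ₐ[L] FL (N * q) L} (hW : IsALInvolution W) (ι : L →+* ℂ) (hqN : ¬ q ∣ N)

include hW in
theorem modEval_beta (Φ : ModularPolynomialData q) :
    modEval Φ.Φ (heckeAlphaBar L N q (jL N L)) (W (heckeAlphaBar L N q (jL N L))) = 0 := by
  refine Subtype.val_injective ?_
  show (FL (N * q) L).val.toRingHom (modEval _ _ _) = _
  rw [map_modEval, hW.alpha]
  show modEval Φ.Φ (heckeAlphaBar L N q (jL N L) : LaurentSeries L)
    (heckeBetaBar L N q (jL N L) : LaurentSeries L) = 0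
  rw [coe_heckeAlphaBar, coe_heckeBetaBar]
  have hj : ((jL N L : FL N L) : LaurentSeries L) = coeffEmb L jq := rfl
  have h := congrArg (coeffEmb L) (show modEval Φ.Φ jq (qExpand ℚ q jq) = 0 from by
    rw [modEval, show evZ jq = evalAtJ from Polynomial.ringHom_ext (fun a => by simp) (by simp)]
    exact Φ.eval_eq_zero)
  rw [map_modEval, map_zero, coeffEmb, coeffMap_qExpand] at h
  rw [hj, coeffEmb]
  exact h

include hW ι hqN in
theorem isCuspPoly_modular : IsCuspPoly q (modularPolynomialData q).Φ := by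
  set Φ := (modularPolynomialData q).Φ with hΦ
  haveI : CharZero L := charZero_of_injective_algebraMap (algebraMap ℚ L).injective
  have hq := (Fact.out : q.Prime)
  have hdeg : Φ.natDegree = q + 1 := by
    rw [hΦ, (modularPolynomialData q).natDegree_eq]
    have := dedekindPsi_mul_prime_of_not_dvd (M := 1) hq
      (fun h => hq.ne_one (Nat.dvd_one.1 h)) one_ne_zero
    rwa [one_mul, dedekindPsi_one, mul_one] at this
  have hm : Φ.Monic := (modularPolynomialData q).monic
  letI : Algebra L ℂ := ι.toAlgebra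
  have hζC : IsPrimitiveRoot (Complex.exp (2 * Real.pi * Complex.I / q)) q :=
    Complex.isPrimitiveRoot_exp q hq.ne_zero
  set ζ : ℂˣ := (hζC.isUnit hq.ne_zero).unit
  have hζ : IsPrimitiveRoot ζ q := IsPrimitiveRoot.coe_units_iff.1 hζC
  set y := heckeBetaBar L N q (jL N L)
  obtain ⟨P, hP, hPdeg, hPy, hPmap⟩ := exists_cp₁ N q hζ hW ι hqN y
  have hmdeg : (Φ.map (evZ (jL N L))).natDegree = q + 1 := by rw [hm.natDegree_map, hdeg]
  have heq : Φ.map (evZ (jL N L)) = P := by
    by_contra hne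
    have hne' : Φ.map (evZ (jL N L)) - P ≠ 0 := sub_ne_zero.2 hne
    refine hne' ((isPowGen_beta N q hζ hW ι hqN).2 _ ?_ ?_)
    · have h := degree_sub_lt_left (p := Φ.map (evZ (jL N L))) (q := P)
        (by rw [degree_eq_natDegree (hm.map _).ne_zero, degree_eq_natDegree hP.ne_zero, hmdeg,
          hPdeg]) (hm.map _).ne_zero (by rw [(hm.map _).leadingCoeff, hP.leadingCoeff])
      have h' := natDegree_lt_natDegree hne' h
      rwa [hmdeg] at h'
    · rw [eval₂_sub, hPy, sub_zero, eval₂_map, evZ_map]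
      have := modEval_beta N q hW (modularPolynomialData q)
      rw [hW.alpha] at this
      exact this
  set J := qExpand ℂ q (jqModC ℂ)
  have hmap : Φ.map (evZ J) = (X - C (qExpand ℂ (q * q) (jqModC ℂ))) *
      ∏ a : ZMod q, (X - C (Igusa.twist (ζ ^ a.val) (jqModC ℂ))) := by
    rw [← heq, Polynomial.map_map, evZ_map] at hPmap
    have hy : ser L ℂ (N * q) y = J := by rw [ser_beta, ser_jL]
    rw [hy, W_beta_jL N q hW, ser_alpha, ser_jL, qExpand_qExpand] at hPmap
    simpa [J, ser_jL] using hPmap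
  have hcoeff : ∀ i, evZ J (Φ.coeff i) = (Φ.map (evZ J)).coeff i := fun i => (coeff_map _ i).symm
  have hjC := Igusa.hasLead_jqModC (R := ℂ)
  have htw : ∀ a : ZMod q, HasLead (Igusa.twist (ζ ^ a.val) (jqModC ℂ)) (-1)
      ((((ζ ^ a.val) ^ (-1 : ℤ) : ℂˣ) : ℂ) * 1) := fun a => hjC.twist _
  have hB : HasLead (qExpand ℂ (q * q) (jqModC ℂ)) (((q * q : ℕ) : ℤ) * -1) 1 := hjC.qExpand _
  have hw : HasWeight (Φ.map (evZ J)) 1 ((q : ℤ) * q + q) := by
    rw [hmap]
    refine HasWeight.mul (HasWeight.X_sub_C (n := (q : ℤ) * q) (by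
      have := hq.pos; exact_mod_cast Nat.mul_pos this this) fun k hk => hB.below k (by
        push_cast; linarith)) ?_
    have h := HasWeight.prod (R := ℂ) (Finset.univ : Finset (ZMod q))
      (P := fun a => X - C (Igusa.twist (ζ ^ a.val) (jqModC ℂ))) (n := fun _ => 1)
      fun a _ => HasWeight.X_sub_C le_rfl fun k hk => (htw a).below k hk
    simpa using h
  refine ⟨hm, hdeg, fun i hi => ?_, ?_, ?_⟩
  · by_contra hlt
    have hd : (q : ℤ) + 1 ≤ ((Φ.coeff i).natDegree : ℤ) := by exact_mod_cast not_le.1 hlt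
    have h0 := hw i (-(q : ℤ) * (Φ.coeff i).natDegree) (by
      have : (1 : ℤ) ≤ i := by exact_mod_cast hi
      nlinarith [mul_le_mul_of_nonneg_left hd (Int.natCast_nonneg q)])
    rw [← hcoeff, (hasLead_evZ (Φ.coeff i)).coeff_eq, Int.cast_eq_zero, leadingCoeff_eq_zero] at h0
    rw [h0, natDegree_zero] at hlt
    exact hlt (Nat.zero_le _)
  all_goals
    have h2 : ∀ a : ZMod q, HasLead (-Igusa.twist (ζ ^ a.val) (jqModC ℂ)) (-1)
        (-((((ζ ^ a.val) ^ (-1 : ℤ) : ℂˣ) : ℂ) * 1)) := fun a =>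
      ⟨fun k hk => by rw [HahnSeries.coeff_neg, (htw a).below k hk, neg_zero],
        by rw [HahnSeries.coeff_neg, (htw a).coeff_eq]⟩
    have hlead : HasLead (evZ J (Φ.coeff 0)) (-(q : ℤ) * (q + 1))
        (-1 * ∏ a : ZMod q, -((((ζ ^ a.val) ^ (-1 : ℤ) : ℂˣ) : ℂ) * 1)) := by
      rw [hcoeff, hmap, coeff_zero_eq_eval_zero, eval_mul, eval_prod]
      simp only [eval_sub, eval_X, eval_C, zero_sub]
      refine HasLead.mul' (m := ((q * q : ℕ) : ℤ) * -1) ⟨fun k hk => by
          rw [HahnSeries.coeff_neg, hB.below k hk, neg_zero],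
        by rw [HahnSeries.coeff_neg, hB.coeff_eq]⟩
        (HasLead.prod Finset.univ fun a _ => h2 a) ?_ rfl
      simp [ZMod.card]
      ring
    set c : ℂ := -1 * ∏ a : ZMod q, -((((ζ ^ a.val) ^ (-1 : ℤ) : ℂˣ) : ℂ) * 1) with hc
    have hc2 : c ^ (2 * q) = 1 := by
      rw [hc, mul_pow, ← Finset.prod_pow, pow_mul, neg_one_sq, one_pow, one_mul]
      refine Finset.prod_eq_one fun a _ => ?_
      rw [neg_pow, pow_mul (-1 : ℂ), neg_one_sq, one_pow, one_mul, mul_one,
        ← Units.val_pow_eq_pow_val, ← zpow_natCast, ← zpow_mul, mul_comm, zpow_mul, zpow_natCast,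
        ← pow_mul, mul_comm, pow_mul, mul_comm 2 q, pow_mul, hζ.pow_eq_one, one_pow, one_pow,
        one_zpow, Units.val_one]
    have hc0 : c ≠ 0 := fun h => by
      rw [h, zero_pow (by have := hq.pos; omega)] at hc2
      exact zero_ne_one hc2
    have hlc : ((Φ.coeff 0).leadingCoeff : ℂ) ≠ 0 := by
      intro h0
      rw [Int.cast_eq_zero, leadingCoeff_eq_zero] at h0
      exact hlead.ne_zero hc0 (by rw [h0, map_zero])
    have hidx := (hasLead_evZ (q := q) (Φ.coeff 0)).index_unique hlc hlead hc0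
  · have hq0 : -(q : ℤ) ≠ 0 := neg_ne_zero.2 (Nat.cast_ne_zero.2 hq.ne_zero)
    have := mul_left_cancel₀ hq0 hidx
    exact_mod_cast this
  · have e : ((Φ.coeff 0).leadingCoeff : ℂ) = c :=
      (hidx ▸ hasLead_evZ (q := q) (Φ.coeff 0)).eq_coeff hlead
    refine IsUnit.of_pow_eq_one (n := 2 * q) ?_ (by have := hq.pos; omega)
    have h := congrArg (· ^ (2 * q)) e
    simp only [hc2] at h
    exact_mod_cast h

end Modular

/-! ### The consequences -/

section Chart

variable {L F : Type} [Field L] [Field F] [Algebra L F] (S : Subring L) {q : ℕ} {Φ : ℤ[X][X]}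

theorem evZ_mem_adjoin (x : F) (p : ℤ[X]) : evZ x p ∈ Algebra.adjoin S ({x} : Set F) := by
  rw [coe_eval₂RingHom, eval₂_eq_sum_range]
  exact sum_mem fun i _ => mul_mem (intCast_mem _ _)
    (pow_mem (Algebra.self_mem_adjoin_singleton _ _) i)

/-- The monic relation makes `y` integral over `S[x]`. -/
theorem mem_chartRing_of_modEval (hm : Φ.Monic) {x y : F} (h : modEval Φ x y = 0) :
    y ∈ chartRing S x := by
  let f : ℤ[X] →+* Algebra.adjoin S ({x} : Set F) :=
    (evZ x).codRestrict _ (evZ_mem_adjoin S x)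
  refine (mem_chartRing S x).2 ⟨Φ.map f, hm.map f, ?_⟩
  rw [eval₂_map]
  exact h

theorem mem_cuspRing_of_monic {t x : F} {n : ℕ} (hn : n ≠ 0) (c : ℕ → F)
    (hc : ∀ i < n, c i ∈ cuspBase S t) (h : x ^ n + ∑ i ∈ Finset.range n, c i * x ^ i = 0) :
    x ∈ cuspRing S t := by
  classical
  let cB : ℕ → cuspBase S t := fun i => if hi : i < n then ⟨c i, hc i hi⟩ else 0
  refine ⟨X ^ n + ∑ i ∈ Finset.range n, C (cB i) * X ^ i,
    monic_X_pow_add (lt_of_le_of_lt (degree_sum_le _ _) ?_), ?_⟩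
  · rw [Finset.sup_lt_iff (WithBot.bot_lt_coe _)]
    exact fun i hi => lt_of_le_of_lt (degree_C_mul_X_pow_le _ _)
      (WithBot.coe_lt_coe.2 (Finset.mem_range.1 hi))
  · rw [eval₂_add, eval₂_X_pow, eval₂_finsetSum, ← h]
    refine congrArg _ (Finset.sum_congr rfl fun i hi => ?_)
    rw [eval₂_mul, eval₂_C, eval₂_X_pow]
    simp only [cB, dif_pos (Finset.mem_range.1 hi)]
    rfl

theorem cuspBase_le (t : F) {x : F} (hx : x ∈ cuspBase S t) : x ∈ cuspRing S t :=
  isIntegral_algebraMap (R := cuspBase S t) (A := F) (x := ⟨x, hx⟩)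

theorem intCast_mem_cuspBase (t : F) (n : ℤ) : (n : F) ∈ cuspBase S t := intCast_mem _ n

theorem inv_mem_cuspBase (t : F) : t⁻¹ ∈ cuspBase S t :=
  Subring.subset_closure (Or.inl (Or.inr rfl))

/-- `p(x) / x ^ m` lies at the cusp for `m ≥ deg p`. -/
theorem evZ_div_mem {x : F} (hx : x ≠ 0) (p : ℤ[X]) {m : ℕ} (hm : p.natDegree ≤ m) :
    evZ x p / x ^ m ∈ cuspBase S x := by
  rw [coe_eval₂RingHom, eval₂_eq_sum_range, Finset.sum_div]
  refine sum_mem fun i hi => ?_
  have hi' : i ≤ m := (Nat.lt_succ_iff.1 (Finset.mem_range.1 hi)).trans hm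
  rw [mul_div_assoc, eq_intCast]
  refine mul_mem (intCast_mem_cuspBase S x _) ?_
  rw [show x ^ i / x ^ m = x⁻¹ ^ (m - i) by
    rw [inv_pow, eq_comm, inv_eq_one_div, div_eq_div_iff (pow_ne_zero _ hx) (pow_ne_zero _ hx),
      one_mul, ← pow_add, Nat.add_sub_cancel' hi']]
  exact pow_mem (inv_mem_cuspBase S x) _

/-- The inverse of `p(x) / x ^ (deg p)` for a unit leading coefficient. -/
theorem evZ_div_inv_mem {x : F} (hx : x ≠ 0) {p : ℤ[X]} (hp : IsUnit p.leadingCoeff) :
    (evZ x p / x ^ p.natDegree)⁻¹ ∈ cuspBase S x := by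
  classical
  set m := p.natDegree
  refine Subring.subset_closure (Or.inr
    ⟨∑ i ∈ Finset.range (m + 1), C (p.coeff i : L) * X ^ (m - i), fun i => ?_, ?_, ?_, ?_⟩)
  · rw [finsetSum_coeff]
    refine sum_mem fun j _ => ?_
    rw [coeff_C_mul_X_pow]
    split_ifs
    · exact intCast_mem _ _
    · exact zero_mem _
  all_goals
    have h0 : (∑ i ∈ Finset.range (m + 1), C (p.coeff i : L) * X ^ (m - i)).coeff 0 =
        (p.leadingCoeff : L) := by
      rw [finsetSum_coeff, Finset.sum_eq_single m]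
      · rw [coeff_C_mul_X_pow, if_pos (Nat.sub_self m).symm]
        rfl
      · intro i hi hne
        rw [coeff_C_mul_X_pow, if_neg]
        have := Finset.mem_range.1 hi
        omega
      · simp
  · rw [h0]
    rcases Int.isUnit_iff.1 hp with h | h <;> rw [h] <;> simp
  · rw [h0]
    rcases Int.isUnit_iff.1 hp with h | h <;> rw [h] <;> simp
  · congr 1
    rw [coe_eval₂RingHom, eval₂_eq_sum_range, Finset.sum_div, map_sum]
    refine Finset.sum_congr rfl fun i hi => ?_
    have hi' : i ≤ m := Nat.lt_succ_iff.1 (Finset.mem_range.1 hi)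
    rw [map_mul, aeval_C, map_intCast, eq_intCast, aeval_X_pow, mul_div_assoc, inv_pow]
    congr 1
    rw [inv_eq_one_div, div_eq_div_iff (pow_ne_zero _ hx) (pow_ne_zero _ hx), one_mul, ← pow_add,
      Nat.add_sub_cancel' hi']

/-- Near `x = ∞`. -/
theorem cusp_of_modEval (hΦ : IsCuspPoly q Φ) (hq : q ≠ 0) {x y : F} (htr : Transcendental L x)
    [CharZero L] (hy : y ≠ 0) (h : modEval Φ x y = 0) :
    y⁻¹ ∈ cuspRing S x ∧ y / x ^ q ∈ cuspRing S x ∧ x / y ^ q ∈ cuspRing S x := by
  have hx : x ≠ 0 := fun h => htr (h ▸ isAlgebraic_zero)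
  have hsum : ∑ i ∈ Finset.range (q + 2), evZ x (Φ.coeff i) * y ^ i = 0 := by
    rw [modEval, eval₂_eq_sum_range, hΦ.natDegree] at h
    exact h
  have htop : evZ x (Φ.coeff (q + 1)) = 1 := by
    rw [← hΦ.natDegree, hΦ.monic.coeff_natDegree, map_one]
  set c₀ := evZ x (Φ.coeff 0) / x ^ (q + 1) with hc₀def
  have hc₀ : c₀ ≠ 0 := by
    refine div_ne_zero (fun h0 => ?_) (pow_ne_zero _ hx)
    have e : evZ x (Φ.coeff 0) = aeval x ((Φ.coeff 0).map (Int.castRingHom L)) := by
      rw [aeval_def, eval₂_map, coe_eval₂RingHom,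
        RingHom.ext_int ((algebraMap L F).comp (Int.castRingHom L)) (Int.castRingHom F)]
    have h1 := transcendental_iff.1 htr _ (e ▸ h0)
    rw [Polynomial.map_eq_zero_iff (Int.castRingHom L).injective_int] at h1
    have := hΦ.natDegree_zero
    rw [h1, natDegree_zero] at this
    omega
  have hc₀i : c₀⁻¹ ∈ cuspBase S x := by
    have := evZ_div_inv_mem S hx hΦ.isUnit_lead
    rwa [hΦ.natDegree_zero] at this
  have hdeg : ∀ i, (Φ.coeff i).natDegree ≤ q + 1 := fun i => by
    rcases Nat.eq_zero_or_pos i with rfl | hi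
    · exact hΦ.natDegree_zero.le
    · exact (hΦ.natDegree_le i hi).trans (Nat.le_succ q)
  have hv : y⁻¹ ∈ cuspRing S x := by
    refine mem_cuspRing_of_monic S (Nat.succ_ne_zero q)
      (fun l => evZ x (Φ.coeff (q + 1 - l)) / x ^ (q + 1) * c₀⁻¹)
      (fun l _ => mul_mem (evZ_div_mem S hx _ (hdeg _)) hc₀i) ?_
    have h1 : ∑ l ∈ Finset.range (q + 2), evZ x (Φ.coeff (q + 1 - l)) * y⁻¹ ^ l = 0 := by
      have h2 := congrArg (· * y⁻¹ ^ (q + 1)) hsum
      simp only [zero_mul, Finset.sum_mul] at h2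
      rw [← Finset.sum_range_reflect] at h2
      rw [← h2]
      refine Finset.sum_congr rfl fun l hl => ?_
      have hl' : l ≤ q + 1 := Nat.lt_succ_iff.1 (Finset.mem_range.1 hl)
      rw [show q + 2 - 1 - l = q + 1 - l by omega, mul_assoc]
      congr 1
      conv_rhs => rw [show q + 1 = (q + 1 - l) + l by omega, pow_add, ← mul_assoc,
        Nat.add_sub_cancel, ← mul_pow, mul_inv_cancel₀ hy, one_pow, one_mul]
    rw [Finset.sum_range_succ, Nat.sub_self] at h1
    have h3 : evZ x (Φ.coeff 0) = c₀ * x ^ (q + 1) := by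
      rw [hc₀def, div_mul_cancel₀ _ (pow_ne_zero _ hx)]
    have hd : x ^ (q + 1) * c₀ ≠ 0 := mul_ne_zero (pow_ne_zero _ hx) hc₀
    refine mul_left_cancel₀ hd ?_
    rw [mul_zero, mul_add, Finset.mul_sum, ← h1, h3,
      add_comm (∑ l ∈ Finset.range (q + 1), _) (c₀ * x ^ (q + 1) * _)]
    congr 1
    · rw [Nat.succ_eq_add_one]
      ring
    · refine Finset.sum_congr rfl fun l _ => ?_
      field_simp
  have hz : y / x ^ q ∈ cuspRing S x := by
    refine mem_cuspRing_of_monic S (Nat.succ_ne_zero q)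
      (fun i => evZ x (Φ.coeff i) / x ^ (q * (q + 1 - i)))
      (fun i hi => evZ_div_mem S hx _ ?_) ?_
    · rcases Nat.eq_zero_or_pos i with rfl | hi0
      · rw [hΦ.natDegree_zero, Nat.sub_zero]
        exact Nat.le_mul_of_pos_left _ (Nat.pos_of_ne_zero hq)
      · exact (hΦ.natDegree_le i hi0).trans (Nat.le_mul_of_pos_right _ (by omega))
    · have h1 := congrArg (· / x ^ (q * (q + 1))) hsum
      simp only [zero_div] at h1
      rw [Finset.sum_range_succ, htop, one_mul, add_div, Finset.sum_div] at h1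
      rw [← h1, add_comm (∑ i ∈ Finset.range (q + 1), _) (y ^ (q + 1) / _), div_pow, ← pow_mul]
      congr 1
      refine Finset.sum_congr rfl fun i hi => ?_
      have hi' : i ≤ q + 1 := (Finset.mem_range.1 hi).le
      rw [div_pow, ← pow_mul, div_mul_div_comm, ← pow_add, ← mul_add, Nat.sub_add_cancel hi']
  refine ⟨hv, hz, ?_⟩
  have h1 : c₀ * (x / y ^ q) +
      (∑ j ∈ Finset.range q, evZ x (Φ.coeff (j + 1)) / x ^ q * y⁻¹ ^ (q - (j + 1)) + y / x ^ q) =
        0 := by
    have h2 := congrArg (fun u => u / (x ^ q * y ^ q)) hsum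
    simp only [zero_div] at h2
    rw [Finset.sum_range_succ, htop, one_mul, Finset.sum_range_succ', pow_zero, mul_one, add_div,
      add_div, Finset.sum_div] at h2
    rw [← h2]
    have e1 : c₀ * (x / y ^ q) = evZ x (Φ.coeff 0) / (x ^ q * y ^ q) := by
      rw [hc₀def, pow_succ]
      field_simp
    have e2 : y / x ^ q = y ^ (q + 1) / (x ^ q * y ^ q) := by
      rw [pow_succ]
      field_simp
    have e3 : ∀ j ∈ Finset.range q, evZ x (Φ.coeff (j + 1)) / x ^ q * y⁻¹ ^ (q - (j + 1)) =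
        evZ x (Φ.coeff (j + 1)) * y ^ (j + 1) / (x ^ q * y ^ q) := by
      intro j hj
      have hj' : j + 1 ≤ q := Finset.mem_range.1 hj
      rw [inv_pow, ← div_eq_mul_inv, div_div,
        div_eq_div_iff (mul_ne_zero (pow_ne_zero _ hx) (pow_ne_zero _ hy))
          (mul_ne_zero (pow_ne_zero _ hx) (pow_ne_zero _ hy))]
      conv_lhs => rw [show q = (j + 1) + (q - (j + 1)) by omega, pow_add y]
      rw [show (j + 1) + (q - (j + 1)) = q by omega]
      ring
    rw [e1, e2, Finset.sum_congr rfl e3]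
    ring
  have e : x / y ^ q = -(c₀⁻¹ *
      (∑ j ∈ Finset.range q, evZ x (Φ.coeff (j + 1)) / x ^ q * y⁻¹ ^ (q - (j + 1)) + y / x ^ q)) := by
    rw [eq_neg_iff_add_eq_zero]
    refine mul_left_cancel₀ hc₀ ?_
    rw [mul_add, mul_inv_cancel_left₀ hc₀, mul_zero, h1]
  rw [e]
  refine neg_mem (mul_mem (cuspBase_le S x hc₀i) (add_mem (sum_mem fun j _ => mul_mem
    (cuspBase_le S x (evZ_div_mem S hx _ (hΦ.natDegree_le _ (Nat.le_add_left 1 j))))
    (pow_mem hv _)) hz))

end Chart

section Final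

variable {L K' : Type} [Field L] [Algebra ℚ L] [Field K'] [Algebra L K']
  (N q : ℕ) [NeZero N] [Fact q.Prime] (A : ValuationSubring K')
  {W : FL (N * q) L →ₐ[L] FL (N * q) L} (hW : IsALInvolution W) (ι : L →+* ℂ) (hqN : ¬ q ∣ N)

local notation "αj" => heckeAlphaBar L N q (jL N L)

include hW in
theorem isIntegral_W_alpha_jL :
    W (heckeAlphaBar L N q (jL N L)) ∈
      chartRing (baseRing A L) (heckeAlphaBar L N q (jL N L)) :=
  mem_chartRing_of_modEval _ (modularPolynomialData q).monic (modEval_beta N q hW _)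

include hW ι hqN in
/-- The behaviour of `j(τ)` and `j(qτ)` at the cusps. -/
theorem cusp_W_alpha_jL :
    (W αj)⁻¹ ∈ cuspRing (baseRing A L) αj ∧
      αj⁻¹ ∈ cuspRing (baseRing A L) (W αj) ∧
      W αj / αj ^ q ∈ cuspRing (baseRing A L) αj ∧
      αj / W αj ^ q ∈ cuspRing (baseRing A L) αj := by
  have hΦ := isCuspPoly_modular N q hW ι hqN
  have h1 := modEval_beta N q hW (modularPolynomialData q)
  have h2 := congrArg W.toRingHom h1
  rw [map_modEval, map_zero] at h2
  change modEval _ (W αj) (W (W αj)) = 0 at h2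
  rw [hW.invol] at h2
  haveI : CharZero L := charZero_of_injective_algebraMap (algebraMap ℚ L).injective
  have htx : Transcendental L αj := fun ha => transcendental_jL N ι
    ((isAlgebraic_algHom_iff (heckeAlphaBar L N q) (RingHom.injective _)).1 ha)
  have hty : Transcendental L (W αj) := fun ha =>
    htx ((isAlgebraic_algHom_iff W (RingHom.injective _)).1 ha)
  have hx : αj ≠ 0 := fun h => htx (h ▸ isAlgebraic_zero)
  have hy : W αj ≠ 0 := (_root_.map_ne_zero _).2 hx
  have hq : q ≠ 0 := (Fact.out : q.Prime).ne_zero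
  exact ⟨(cusp_of_modEval _ hΦ hq htx hy h1).1, (cusp_of_modEval _ hΦ hq hty hx h2).1,
    (cusp_of_modEval _ hΦ hq htx hy h1).2.1, (cusp_of_modEval _ hΦ hq htx hy h1).2.2⟩

end Final

end Fermat.Agent.BadPrime.Sq.Tower

end
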