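import Fermat.Agent.BadPrime.Sq.TowerValue
import Fermat.Agent.BadPrime.Sq.Charts
import Fermat.Agent.BadPrime.Sq.ResidueField
import Fermat.Agent.BadPrime.ChartOnto
import Fermat.Agent.BadPrime.RegularDescent
import Fermat.Agent.BadPrime.FullResidue

/-!
# Reduction of level `N` over the coefficient field of the tower

The reductions of level `N` fill out `k(j(q^d) : d ∣ N)`, regular elements lift to elements
integral over the base of the chart, and elements regular on the generic fibre with a reduction
are integral over it.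
-/

set_option autoImplicit false
set_option synthInstance.maxHeartbeats 400000
set_option linter.unusedSectionVars false
set_option linter.style.haveILetI false

noncomputable section

open ModularCurve Polynomial
open scoped IntermediateField

namespace Fermat.Agent.BadPrime.Sq.Tower

open Fermat.Agent.Reduction Fermat.Agent.Modular Fermat.Agent.BadPrime

local notation "ℚ̄" => AlgebraicClosure ℚ

/-- Integrality over `(⊤ : Subring K)[t]` is integrality over `K[t]`. -/
theorem mem_chartRing_top {K F : Type} [Field K] [Field F] [Algebra K F] {t x : F} :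
    x ∈ chartRing (⊤ : Subring K) t ↔ IsIntegral (Algebra.adjoin K ({t} : Set F)) x := by
  have h1 : ∀ y, y ∈ Algebra.adjoin (⊤ : Subring K) ({t} : Set F) →
      y ∈ Algebra.adjoin K ({t} : Set F) := fun y hy => by
    induction hy using Algebra.adjoin_induction with
    | mem z hz => exact Algebra.subset_adjoin hz
    | algebraMap c => exact Subalgebra.algebraMap_mem _ (c : K)
    | add a b _ _ ha hb => exact add_mem ha hb
    | mul a b _ _ ha hb => exact mul_mem ha hb
  have h2 : ∀ y, y ∈ Algebra.adjoin K ({t} : Set F) →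
      y ∈ Algebra.adjoin (⊤ : Subring K) ({t} : Set F) := fun y hy => by
    induction hy using Algebra.adjoin_induction with
    | mem z hz => exact Algebra.subset_adjoin hz
    | algebraMap c => exact Subalgebra.algebraMap_mem _ (⟨c, Subring.mem_top c⟩ : (⊤ : Subring K))
    | add a b _ _ ha hb => exact add_mem ha hb
    | mul a b _ _ ha hb => exact mul_mem ha hb
  constructor
  · rintro ⟨p, hp, hpx⟩
    let f : Algebra.adjoin (⊤ : Subring K) ({t} : Set F) →+* Algebra.adjoin K ({t} : Set F) :=
      ((Algebra.adjoin (⊤ : Subring K) ({t} : Set F)).val.toRingHom).codRestrict _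
        fun y => h1 y y.2
    exact ⟨p.map f, hp.map f, by rw [eval₂_map]; exact hpx⟩
  · rintro ⟨p, hp, hpx⟩
    let f : Algebra.adjoin K ({t} : Set F) →+* Algebra.adjoin (⊤ : Subring K) ({t} : Set F) :=
      ((Algebra.adjoin K ({t} : Set F)).val.toRingHom).codRestrict _ fun y => h2 y y.2
    exact ⟨p.map f, hp.map f, by rw [eval₂_map]; exact hpx⟩

variable {L : Type} [Field L] [Algebra ℚ L] [Algebra.IsAlgebraic ℚ L]
  [Algebra L ℚ̄] [IsScalarTower ℚ L ℚ̄]
  (N : ℕ) [NeZero N] {q : ℕ} [Fact q.Prime] (hqN : ¬ q ∣ N)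
  (A : ValuationSubring ℚ̄) (hA : A.LiesOverPrime q)
  (hsurj : ∀ r : IsLocalRing.ResidueField A, ∃ (c : L) (hc : algebraMap L ℚ̄ c ∈ A),
    IsLocalRing.residue A ⟨_, hc⟩ = r)

local notation "kA" => IsLocalRing.ResidueField A
local notation "πA" => IsLocalRing.residue A
local notation "πL" => baseRed (IsLocalRing.residue A) L
local notation "sN" => ser L ℚ̄ N

include hqN hA in
theorem fullResidueDegree : HasFullResidueDegree kA L N := by
  haveI : IsAlgClosed kA := EC.isAlgClosed_residueField A
  exact hasFullResidueDegree_of_embedding N hqN A hA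
    (AL := A.comap (algebraMap L ℚ̄)) (fun _ ha => ha) πL (RingHom.id _)

/-- A reduction over `ℚ̄` of an element over `L` comes from one over `L`. -/
theorem hasGaussRed_descend {f : FL N L} {g : LaurentSeries kA}
    (h : HasGaussRed πA (sN f) g) : HasGaussRed πL (f : LaurentSeries L) g := by
  have key : ∃ g', HasGaussRed πL (f : LaurentSeries L) g' := by
    rcases (gaussFL πL N).mem_or_inv_mem f with hf | hf
    · exact (mem_gaussFL πL).1 hf
    · rcases eq_or_ne f 0 with rfl | hf0
      · exact ⟨0, by simpa using hasGaussRed_zero⟩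
      obtain ⟨g', hg'⟩ := (mem_gaussFL πL).1 hf
      rw [IntermediateField.coe_inv] at hg'
      rcases eq_or_ne g' 0 with rfl | hg0
      · have h0 := (hasGaussRed_base hg').mul h
        rw [map_inv₀, ← ser_apply, inv_mul_cancel₀ ((_root_.map_ne_zero _).2 hf0), zero_mul] at h0
        exact absurd (h0.unique hasGaussRed_one) zero_ne_one
      · exact ⟨g'⁻¹, by simpa using hg'.inv hg0⟩
  obtain ⟨g', hg'⟩ := key
  rwa [h.unique (hasGaussRed_base hg')]

include hqN hA hsurj in
theorem res_mem {f : FL N L} {g : LaurentSeries kA} (h : HasGaussRed πA (sN f) g) :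
    g ∈ modularFunctionFieldFullC kA N :=
  hasGaussRed_mem_fullC (baseRed_surjective hsurj) (fullResidueDegree N hqN A hA)
    (hasGaussRed_descend N A h)

include hsurj in
theorem res_lift {g : LaurentSeries kA} (hg : g ∈ modularFunctionFieldFullC kA N) :
    ∃ f : FL N L, HasGaussRed πA (sN f) g := by
  obtain ⟨f, hf⟩ := exists_hasGaussRed_of_mem_fullC (L := L) (π := πL) (baseRed_surjective hsurj) hg
  exact ⟨f, hasGaussRed_base hf⟩

set_option maxHeartbeats 1000000 in
include hqN hA hsurj in
/-- An element integral over `L[t]` with a reduction is integral over the base of the chart. -/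
theorem mem_chartRing_baseRing (b : Bool) {f : FL N L}
    (hreg : f ∈ chartRing (⊤ : Subring L) (chartCoord L N b))
    (hg : ∃ g, HasGaussRed πA (sN f) g) :
    f ∈ chartRing (baseRing A L) (chartCoord L N b) := by
  set AL := A.comap (algebraMap L ℚ̄)
  obtain ⟨g, hg⟩ := hg
  set K := L⟮jL N L⟯ with hK
  letI : Algebra (gaussJ πL N) (FL N L) :=
    ((algebraMap K (FL N L)).comp (algebraMap (gaussJ πL N) K)).toAlgebra
  haveI : IsScalarTower (gaussJ πL N) K (FL N L) :=
    IsScalarTower.of_algebraMap_eq fun _ => rfl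
  have h1 : IsIntegral (gaussJ πL N) f :=
    isIntegral_gaussFL (baseRed_surjective hsurj) (fullResidueDegree N hqN A hA)
      ((mem_gaussFL πL).2 ⟨g, hasGaussRed_descend N A hg⟩)
  set t := chartCoord L N b with ht
  set tK : K := ⟨t, chartCoord_mem_adjoin b⟩ with htK
  have haev : ∀ p : L[X], ((Polynomial.aeval tK p : K) : FL N L) =
      Polynomial.aeval t p := fun p => (Polynomial.aeval_algHom_apply K.val tK p).symm
  have htr : Transcendental L t := fun ha =>
    transcendental_chartCoordRed L b (by
      rw [← coe_chartCoord (M := N)]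
      exact ha.algHom (FL N L).val)
  letI algX : Algebra L[X] K := (Polynomial.aeval (R := L) tK).toRingHom.toAlgebra
  letI algXF : Algebra L[X] (FL N L) := (Polynomial.aeval (R := L) t).toRingHom.toAlgebra
  haveI : IsScalarTower L[X] K (FL N L) := IsScalarTower.of_algebraMap_eq fun p => (haev p).symm
  have hinjX : Function.Injective (algebraMap L[X] K) := fun p p' h =>
    transcendental_iff_injective.1 htr (by
      rw [← haev, ← haev]
      exact congrArg Subtype.val h)
  haveI : FaithfulSMul L[X] K := (faithfulSMul_iff_algebraMap_injective _ _).2 hinjX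
  haveI : IsFractionRing L[X] K := IsFractionRing.of_field L[X] K fun z => by
    have hz : (z : FL N L) ∈ L⟮t⟯ := by
      cases b with
      | false => exact z.2
      | true =>
        show (z : FL N L) ∈ L⟮(jL N L)⁻¹⟯
        rw [Curve.adjoin_inv]
        exact z.2
    obtain ⟨r, s, hrs⟩ := (IntermediateField.mem_adjoin_simple_iff L _).1 hz
    refine ⟨r, s, Subtype.ext ?_⟩
    rw [IntermediateField.coe_div]
    exact hrs.trans (congrArg₂ (· / ·) (haev r).symm (haev s).symm)
  have h2 : IsIntegral L[X] f := by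
    obtain ⟨p, hp, hpx⟩ := mem_chartRing_top.1 hreg
    let s : L[X] →+* Algebra.adjoin L ({t} : Set (FL N L)) :=
      (Polynomial.aeval ⟨t, Algebra.self_mem_adjoin_singleton L t⟩).toRingHom
    have hs : ∀ r : L[X], (s r : FL N L) = Polynomial.aeval t r := fun r =>
      (Polynomial.aeval_algHom_apply (Subalgebra.val _) _ r).symm
    have hsurjS : Function.Surjective s := by
      rintro ⟨a, ha⟩
      rw [Algebra.adjoin_singleton_eq_range_aeval] at ha
      obtain ⟨r, rfl⟩ := ha
      exact ⟨r, Subtype.ext (hs r)⟩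
    obtain ⟨P, hPp, -, hP⟩ := Polynomial.lifts_and_natDegree_eq_and_monic
      (show p ∈ Polynomial.lifts s from Polynomial.map_surjective s hsurjS p) hp
    refine ⟨P, hP, ?_⟩
    rw [← hPp, eval₂_map] at hpx
    rw [show algebraMap L[X] (FL N L) =
      (algebraMap (Algebra.adjoin L ({t} : Set (FL N L))) (FL N L)).comp s from
        RingHom.ext fun r => (hs r).symm]
    exact hpx
  let φ : AL[X] →+* L[X] := mapRingHom AL.subtype
  letI algA : Algebra AL[X] K := ((algebraMap L[X] K).comp φ).toAlgebra
  letI algAF : Algebra AL[X] (FL N L) := ((algebraMap L[X] (FL N L)).comp φ).toAlgebra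
  haveI : IsScalarTower AL[X] K (FL N L) :=
    IsScalarTower.of_algebraMap_eq fun p => (haev (φ p)).symm
  have h3 : IsIntegral AL[X] f := by
    refine isIntegral_of_isIntegral_pair (K := K) (R₁ := gaussJ πL N) (R₂ := L[X]) (R := AL[X])
      ?_ h1 h2
    rintro z ⟨a, rfl⟩ ⟨p, hp⟩
    obtain ⟨gb, hgb⟩ := a.2
    have hp' : ((algebraMap (gaussJ πL N) K a : FL N L)) = Polynomial.aeval t p :=
      (congrArg Subtype.val hp).symm.trans (haev p)
    have hred : HasGaussRed πL (p.eval₂ HahnSeries.C (t : LaurentSeries L)) gb := by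
      have e : ∀ r : L[X], ((Polynomial.aeval t r : FL N L) : LaurentSeries L) =
          r.eval₂ HahnSeries.C (t : LaurentSeries L) := fun r => by
        induction r using Polynomial.induction_on' with
        | add r r' hr hr' => rw [map_add, eval₂_add, ← hr, ← hr']; rfl
        | monomial i c =>
          rw [aeval_monomial, eval₂_monomial, IntermediateField.coe_mul, coe_algebraMap_FL,
            IntermediateField.coe_pow]
      rw [← e, ← hp']
      exact hgb
    have hpA : ∀ i, p.coeff i ∈ AL := coeff_mem_of_hasGaussRed_aeval πL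
      (hasGaussRed_chartCoord (A := AL) (π := πL) N b) (transcendental_chartCoordRed _ b) p hred
    obtain ⟨P, hP⟩ := (Polynomial.mem_lifts p).1
      ((Polynomial.lifts_iff_coeff_lifts (f := AL.subtype) p).2 fun i => ⟨⟨_, hpA i⟩, rfl⟩)
    refine ⟨P, ?_⟩
    show algebraMap L[X] K (φ P) = _
    rw [show φ P = p from hP]
    exact hp
  obtain ⟨p, hp, hpx⟩ := h3
  let c : AL →+* Algebra.adjoin (baseRing A L) ({t} : Set (FL N L)) :=
    { toFun := fun a => algebraMap (baseRing A L) _ (⟨a, a.2⟩ : baseRing A L)
      map_one' := map_one (algebraMap (baseRing A L) _)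
      map_mul' := fun a a' => map_mul (algebraMap (baseRing A L) _) (⟨a, a.2⟩ : baseRing A L)
        ⟨a', a'.2⟩
      map_zero' := map_zero (algebraMap (baseRing A L) _)
      map_add' := fun a a' => map_add (algebraMap (baseRing A L) _) (⟨a, a.2⟩ : baseRing A L)
        ⟨a', a'.2⟩ }
  let e : AL[X] →+* Algebra.adjoin (baseRing A L) ({t} : Set (FL N L)) :=
    eval₂RingHom c ⟨t, Algebra.self_mem_adjoin_singleton (baseRing A L) t⟩
  refine (mem_chartRing _ _).2 ⟨p.map e, hp.map e, ?_⟩
  rw [eval₂_map]
  refine Eq.trans ?_ hpx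
  congr 1
  refine Polynomial.ringHom_ext (fun a => ?_) ?_
  · show (e (C a) : FL N L) = Polynomial.aeval t (φ (C a))
    simp [e, φ, c]
    rfl
  · show (e X : FL N L) = Polynomial.aeval t (φ X)
    simp [e, φ]

include hqN hA hsurj in
/-- Regular elements of the special fibre lift integrally. -/
theorem exists_chart_lift (hN : (q = 2 → 3 ∣ N) ∧ (q = 3 → 2 ∣ N)) (b : Bool)
    {g : LaurentSeries kA}
    (hg : g ∈ resRing (modularFunctionFieldFullC kA N) (chartCoordRed kA b)) :
    ∃ f ∈ chartRing (baseRing A L) (chartCoord L N b), HasGaussRed πA (sN f) g := by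
  haveI : Algebra.IsAlgebraic ℚ ℚ̄ := AlgebraicClosure.isAlgebraic ℚ
  haveI : IsAlgClosure ℚ ℚ̄ := ⟨inferInstance, inferInstance⟩
  haveI : Normal ℚ ℚ̄ := IsAlgClosure.normal ℚ _
  haveI : Normal L ℚ̄ := Normal.tower_top_of_normal ℚ L ℚ̄
  obtain ⟨hgX, hreg⟩ := mem_resRing_iff.1 hg
  have hbar := exists_regular_lift_bar N hqN A hA hN hgX
  obtain ⟨x, hx, hxr, hxg⟩ : ∃ x ∈ FL N ℚ̄,
      IsRegularOver (coeffMap (algebraMap L ℚ̄) (chartCoordRed L b)) x ∧ HasGaussRed πA x g := by
    cases b with
    | false =>
      obtain ⟨x, hx, hxr, hxg⟩ := hbar.1 hreg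
      exact ⟨x, hx, by rwa [chartCoordRed, cond_false, coeffMap_jqModC], hxg⟩
    | true =>
      obtain ⟨x, hx, hxr, hxg⟩ := hbar.2 hreg
      exact ⟨x, hx, by rwa [chartCoordRed, cond_true, map_inv₀, coeffMap_jqModC], hxg⟩
  obtain ⟨n, d, y, hxy, hy⟩ := exists_regular_combination N hx hxr
  obtain ⟨c, hc⟩ := exists_combination_hasGaussRed (AL := A.comap (algebraMap L ℚ̄))
    (ι := algebraMap L ℚ̄) (π := πA) (κ := RingHom.id _) (fun _ ha => ha) (fun a => (baseRed_apply (π := IsLocalRing.residue A) (L := L) a).symm)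
    (baseRed_surjective hsurj) y (fun i => (hy i).1) d (b := g) (by
      rw [coeffMap_id, ← hxy]
      exact hxg)
  set z := ∑ i, HahnSeries.C (c i) * y i
  have hz : z ∈ FL N L := sum_mem fun i _ => mul_mem (by
    rw [Reduction.C_eq_algebraMap]
    exact IntermediateField.algebraMap_mem _ _) (hy i).1
  have hzr : IsRegularOver (chartCoordRed L b) z :=
    IsRegularOver.sum _ fun i _ => (IsRegularOver.const _ (c i)).mul (hy i).2
  refine ⟨⟨z, hz⟩, mem_chartRing_baseRing N hqN A hA hsurj b (mem_chartRing_top.2
    ((isRegularOver_iff_isIntegral_adjoin _ _).1 (by rwa [coe_chartCoord])))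
    ⟨g, hasGaussRed_base hc⟩, hasGaussRed_base hc⟩

end Fermat.Agent.BadPrime.Sq.Tower

end
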