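import Fermat.Agent.BadPrime.Sq.TowerCusp
import Fermat.Agent.BadPrime.Sq.ChartsMap
import Fermat.Agent.BadPrime.Sq.TowerRes
import Fermat.Agent.Reduction.DifferentSmall
import Fermat.Agent.LevelP.X0.Unit

/-!
# The unit `Δ(q τ) / Δ(τ)` at level `N q`
-/

set_option autoImplicit false
set_option synthInstance.maxHeartbeats 400000
set_option linter.unusedSectionVars false
set_option linter.style.haveILetI false

noncomputable section

open ModularCurve Polynomial
open scoped IntermediateField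

namespace Fermat.Agent.BadPrime.Sq.Tower

open Fermat.Agent.Modular Fermat.Agent.BadPrime
open Fermat.Agent.Igusa (HasLead)
open Fermat.Agent.LevelP.X0 (wSeries wSeries_mul hasLead_wSeries)

variable (L : Type) [Field L] [Algebra ℚ L] (N q : ℕ) [NeZero N] [Fact q.Prime]

theorem deltaRatio_mem_FL :
    qExpand L q (Igusa.deltaSeries L) / Igusa.deltaSeries L ∈ FL (N * q) L := by
  haveI : CharZero L := charZero_of_injective_algebraMap (algebraMap ℚ L).injective
  show _ ∈ laurentBaseChange L (modularFunctionFieldFull (N * q))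
  rw [← Reduction.fullC_le_base]
  exact Reduction.deltaRatio_mem (N * q) q (dvd_mul_left q N)
    (Nat.cast_ne_zero.2 (Fact.out : q.Prime).ne_zero) (Reduction.isIntegral_jqd L q).isAlgebraic

/-- `Δ(q τ) / Δ(τ)` in the function field of level `N q`. -/
def hUnit : FL (N * q) L := ⟨_, deltaRatio_mem_FL L N q⟩

theorem ser_hUnit_mul (K' : Type) [Field K'] [Algebra L K'] :
    ser L K' (N * q) (hUnit L N q) * Igusa.deltaSeries K' =
      qExpand K' q (Igusa.deltaSeries K') := by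
  have h := congrArg (coeffMap (algebraMap L K'))
    (div_mul_cancel₀ (qExpand L q (Igusa.deltaSeries L))
      ((Igusa.hasLead_deltaSeries (R := L)).ne_zero one_ne_zero))
  rw [map_mul, coeffMap_qExpand, Igusa.coeffMap_deltaSeries] at h
  exact h

theorem ser_hUnit_eq (K' : Type) [Field K'] [Algebra L K'] :
    ser L K' (N * q) (hUnit L N q) = ((wSeries q K')⁻¹ : (LaurentSeries K')ˣ) := by
  have hΔ : Igusa.deltaSeries K' ≠ 0 := (Igusa.hasLead_deltaSeries (R := K')).ne_zero one_ne_zero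
  refine Units.eq_inv_of_mul_eq_one_right (mul_right_cancel₀ hΔ ?_)
  rw [one_mul, mul_right_comm, ser_hUnit_mul, mul_comm, wSeries_mul]

theorem hasLead_ser_hUnit (K' : Type) [Field K'] [Algebra L K'] :
    HasLead (ser L K' (N * q) (hUnit L N q)) ((q : ℤ) - 1) 1 := by
  rw [ser_hUnit_eq]
  have h := (hasLead_wSeries q K').inv_unit (u := wSeries q K') (c := 1)
  rw [inv_one, Units.val_one, neg_sub] at h
  exact h

variable {L} {W : FL (N * q) L →ₐ[L] FL (N * q) L} (hW : IsALInvolution W) (ι : L →+* ℂ)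
  (hqN : ¬ q ∣ N)

local notation "αj" => heckeAlphaBar L N q (jL N L)
local notation "ℚ̄" => AlgebraicClosure ℚ

variable [Algebra L ℚ̄] [IsScalarTower ℚ L ℚ̄]

variable (L) in
/-- Extension of constants to `ℚ̄`. -/
def extBar (M : ℕ) : FL M L →+* FL M ℚ̄ :=
  (ser L ℚ̄ M).codRestrict (FL M ℚ̄) fun x => by
    show coeffMap (algebraMap L ℚ̄) (x : LaurentSeries L) ∈ _
    have hx := x.2
    generalize (x : LaurentSeries L) = z at hx ⊢
    change z ∈ laurentBaseChange L (modularFunctionFieldFull M) at hx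
    rw [mem_laurentBaseChange_iff] at hx
    induction hx using Subfield.closure_induction with
    | mem w hw =>
      rcases hw with ⟨a, rfl⟩ | ⟨u, hu, rfl⟩
      · rw [algebraMap_laurentSeries_eq_single, coeffMap_single,
          ← algebraMap_laurentSeries_eq_single]
        exact IntermediateField.algebraMap_mem _ _
      · rw [coeffEmb, coeffMap_coeffMap, RingHom.ext_rat ((algebraMap L ℚ̄).comp (algebraMap ℚ L))
          (algebraMap ℚ ℚ̄)]
        exact coeffEmb_mem_laurentBaseChange ℚ̄ hu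
    | one => rw [map_one]; exact one_mem _
    | add a b _ _ ha hb => rw [map_add]; exact add_mem ha hb
    | neg a _ ha => rw [map_neg]; exact neg_mem ha
    | inv a _ ha => rw [map_inv₀]; exact inv_mem ha
    | mul a b _ _ ha hb => rw [map_mul]; exact mul_mem ha hb

theorem coe_extBar (M : ℕ) (x : FL M L) :
    (extBar L M x : LaurentSeries ℚ̄) = ser L ℚ̄ M x := rfl

theorem exists_primitive_qbar : ∃ ζ : ℚ̄ˣ, IsPrimitiveRoot ζ q := by
  haveI : NeZero (q : ℚ̄) := ⟨Nat.cast_ne_zero.2 (Fact.out : q.Prime).ne_zero⟩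
  obtain ⟨z, hz⟩ := HasEnoughRootsOfUnity.exists_primitiveRoot ℚ̄ q
  exact ⟨(hz.isUnit (Fact.out : q.Prime).ne_zero).unit, IsPrimitiveRoot.coe_units_iff.1 hz⟩

include hW ι hqN in
theorem ser_W_hUnit :
    ser L ℚ̄ (N * q) (W (hUnit L N q)) * ser L ℚ̄ (N * q) (hUnit L N q) =
      HahnSeries.C ((q : ℚ̄) ^ 12)⁻¹ := by
  haveI : CharZero L := charZero_of_injective_algebraMap (algebraMap ℚ L).injective
  obtain ⟨ζ, hζ⟩ := exists_primitive_qbar (q := q)
  obtain ⟨s1, s2, -⟩ := LevelP.X0.swap_spec q N hqN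
  let g' : FL (N * q) L →+* LaurentSeries ℚ̄ :=
    ((FL (N * q) ℚ̄).val.toRingHom.comp
      (LevelP.X0.swap q N : FL (N * q) ℚ̄ →+* FL (N * q) ℚ̄)).comp (extBar L (N * q))
  have hg : ∀ z, g' z = ((LevelP.X0.swap q N (extBar L (N * q) z) : FL (N * q) ℚ̄) :
      LaurentSeries ℚ̄) := fun z => rfl
  have key : (ser L ℚ̄ (N * q)).comp W.toRingHom = g' := by
    refine (isPowGen_beta N q hζ hW ι hqN).ringHom_ext (Nat.succ_ne_zero q) (fun c => ?_) ?_
    · show ser L ℚ̄ (N * q) (W (heckeAlphaBar L N q c)) = g' (heckeAlphaBar L N q c)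
      rw [hg, show extBar L (N * q) (heckeAlphaBar L N q c) =
        heckeAlphaBar ℚ̄ N q (extBar L N c) from Subtype.ext (by
          rw [coe_extBar, coe_heckeAlphaBar, ser_alpha, coe_extBar]), s1, coe_heckeBetaBar,
        coe_extBar, ser_W_alpha N q hW]
    · show ser L ℚ̄ (N * q) (W (heckeBetaBar L N q (jL N L))) = g' (heckeBetaBar L N q (jL N L))
      rw [hg, show extBar L (N * q) (heckeBetaBar L N q (jL N L)) =
        heckeBetaBar ℚ̄ N q (extBar L N (jL N L)) from Subtype.ext (by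
          rw [coe_extBar, coe_heckeBetaBar, ser_beta, coe_extBar]), s2, coe_heckeAlphaBar,
        coe_extBar, W_beta_jL N q hW, ser_alpha]
  have he : extBar L (N * q) (hUnit L N q) = (LevelP.X0.unitW q N)⁻¹ := Subtype.ext (by
    rw [coe_extBar, ser_hUnit_eq, IntermediateField.coe_inv, LevelP.X0.coe_unitW,
      Units.val_inv_eq_inv_val])
  have hWh := RingHom.congr_fun key (hUnit L N q)
  change ser L ℚ̄ (N * q) (W (hUnit L N q)) = g' (hUnit L N q) at hWh
  rw [hWh, hg, he, map_inv₀, IntermediateField.coe_inv, LevelP.X0.swap_unitW q N hqN, mul_inv,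
    inv_inv, ser_hUnit_eq, mul_assoc, Units.mul_inv, mul_one, map_inv₀]

/-- Integrality over `L[j]` inside the series over `ℚ̄` descends to the function field. -/
theorem mem_chartRing_of_series {M : ℕ} [NeZero M] (f : FL M L)
    (hf : ((ser L ℚ̄ M).comp (Polynomial.aeval (R := L) (jL M L)).toRingHom).IsIntegralElem
      (ser L ℚ̄ M f)) :
    f ∈ chartRing (⊤ : Subring L) (jL M L) := by
  obtain ⟨p, hp, hpf⟩ := hf
  let s : L[X] →+* Algebra.adjoin L ({jL M L} : Set (FL M L)) :=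
    (Polynomial.aeval ⟨jL M L, Algebra.self_mem_adjoin_singleton L _⟩).toRingHom
  refine mem_chartRing_top.2 ⟨p.map s, hp.map s, (ser L ℚ̄ M).injective ?_⟩
  rw [map_zero, eval₂_map, hom_eval₂, ← hpf]
  congr 1
  refine RingHom.ext fun r => congrArg (ser L ℚ̄ M) ?_
  exact (Polynomial.aeval_algHom_apply (Subalgebra.val _) _ r).symm

include hW ι hqN in
theorem hUnit_mem_chartRing :
    hUnit L N q ∈ chartRing (⊤ : Subring L) (heckeAlphaBar L N q (jL N L)) ∧
      (hUnit L N q)⁻¹ ∈ chartRing (⊤ : Subring L) (heckeAlphaBar L N q (jL N L)) := by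
  have hj : heckeAlphaBar L N q (jL N L) = jL (N * q) L := Subtype.ext rfl
  rw [hj]
  set τ : L[X] →+* LaurentSeries ℚ̄ :=
    (ser L ℚ̄ (N * q)).comp (Polynomial.aeval (jL (N * q) L)).toRingHom with hτ
  letI : Algebra L[X] (LaurentSeries ℚ̄) := τ.toAlgebra
  set B := integralClosure L[X] (LaurentSeries ℚ̄)
  have hjB : jqModC ℚ̄ ∈ B := by
    have h : IsIntegral L[X] (τ X) := isIntegral_algebraMap
    rwa [hτ, RingHom.comp_apply, AlgHom.toRingHom_eq_coe, RingHom.coe_coe, aeval_X, ser_jL] at h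
  have hCB : ∀ c : ℚ̄, (HahnSeries.C c : LaurentSeries ℚ̄) ∈ B := by
    intro c
    haveI : Algebra.IsAlgebraic ℚ ℚ̄ := AlgebraicClosure.isAlgebraic ℚ
    obtain ⟨p, hp, hpc⟩ := (((Algebra.IsAlgebraic.isAlgebraic (R := ℚ) c).isIntegral).tower_top :
      IsIntegral L c)
    refine ⟨p.map C, hp.map C, ?_⟩
    have e : (algebraMap L[X] (LaurentSeries ℚ̄)).comp C =
        (HahnSeries.C : ℚ̄ →+* LaurentSeries ℚ̄).comp (algebraMap L ℚ̄) := by
      refine RingHom.ext fun a => ?_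
      show ser L ℚ̄ (N * q) (Polynomial.aeval (jL (N * q) L) (C a)) = _
      rw [aeval_C, ser_algebraMap]
      rfl
    rw [eval₂_map, e, ← hom_eval₂, hpc, map_zero]
  obtain ⟨P, hP, hP0, ⟨c, hc, hPc⟩, -⟩ :=
    LevelP.X0.exists_relation (⊤ : ValuationSubring ℚ̄) q
  set Q : (LaurentSeries ℚ̄)[X] :=
    P.map ((coeffMap (⊤ : ValuationSubring ℚ̄).subtype).comp
      (eval₂RingHom HahnSeries.C (jqModC _))) with hQ
  set w : LaurentSeries ℚ̄ := ((wSeries q ℚ̄ : (LaurentSeries ℚ̄)ˣ) : LaurentSeries ℚ̄) with hw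
  have hQw : Q.eval w = 0 := by
    have h := congrArg (coeffMap (⊤ : ValuationSubring ℚ̄).subtype) hP0
    rw [map_zero, Igusa.evalJU, coe_eval₂RingHom, hom_eval₂, LevelP.X0.coeffMap_wSeries] at h
    rw [hQ, eval_map]
    exact h
  have hQB : ∀ i, Q.coeff i ∈ B := by
    intro i
    rw [hQ, coeff_map, RingHom.comp_apply, coe_eval₂RingHom, hom_eval₂, coeffMap_jqModC,
      eval₂_eq_sum_range]
    refine sum_mem fun n _ => mul_mem ?_ (pow_mem hjB n)
    rw [RingHom.comp_apply, HahnSeries.C_apply, coeffMap_single, ← HahnSeries.C_apply]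
    exact hCB _
  have hQm : Q.Monic := hP.map _
  have hwB : w ∈ B := by
    obtain ⟨Q', hQ', -, hQ'm⟩ := Polynomial.lifts_and_natDegree_eq_and_monic
      ((Polynomial.lifts_iff_coeff_lifts (f := algebraMap B (LaurentSeries ℚ̄)) Q).2
        fun i => ⟨⟨_, hQB i⟩, rfl⟩) hQm
    exact isIntegral_trans (R := L[X]) (A := B) w
      ⟨Q', hQ'm, by rw [eval₂_eq_eval_map, hQ', hQw]⟩
  have hwiB : w⁻¹ ∈ B := by
    have h0 : Q.coeff 0 = HahnSeries.C (c : ℚ̄) := by
      rw [hQ, coeff_map, hPc, RingHom.comp_apply, coe_eval₂RingHom, eval₂_C, HahnSeries.C_apply,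
        coeffMap_single]
      rfl
    have h := congrArg (Polynomial.eval w) Q.X_mul_divX_add
    rw [eval_add, eval_mul, eval_X, eval_C, hQw, h0] at h
    have hc0 : (c : ℚ̄) ≠ 0 := fun e => hc (Subtype.ext e)
    have e : w⁻¹ = -(HahnSeries.C (c : ℚ̄)⁻¹ * Q.divX.eval w) := by
      refine inv_eq_of_mul_eq_one_right ?_
      rw [mul_neg, ← mul_assoc, mul_comm w, mul_assoc, eq_neg_of_add_eq_zero_left h, mul_neg,
        neg_neg, ← map_mul, inv_mul_cancel₀ hc0, map_one]
    rw [e, eval_eq_sum_range]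
    exact neg_mem (mul_mem (hCB _) (sum_mem fun n _ =>
      mul_mem (by rw [coeff_divX]; exact hQB _) (pow_mem hwB n)))
  have hser : ser L ℚ̄ (N * q) (hUnit L N q) = w⁻¹ := by
    rw [ser_hUnit_eq, hw, Units.val_inv_eq_inv_val]
  refine ⟨mem_chartRing_of_series (M := N * q) _ ?_, mem_chartRing_of_series (M := N * q) _ ?_⟩
  · rw [hser]; exact hwiB
  · rw [map_inv₀, hser, inv_inv]; exact hwB

theorem coeff_evZ_field {R : Type*} [Field R] (J : LaurentSeries R) {m : ℤ}
    (hJ : HasLead J m 1) (hm : m < 0) (r : R[X]) :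
    HasLead (r.eval₂ HahnSeries.C J) (m * r.natDegree) r.leadingCoeff := by
  have hJl : ∀ l : ℕ, HasLead (J ^ l) ((l : ℤ) * m) 1 := fun l => by
    have h := hJ.pow l
    rwa [one_pow] at h
  have hcoeff : ∀ k, (r.eval₂ HahnSeries.C J).coeff k =
      ∑ l ∈ Finset.range (r.natDegree + 1), r.coeff l * (J ^ l).coeff k := fun k => by
    rw [eval₂_eq_sum_range, HahnSeries.coeff_sum]
    exact Finset.sum_congr rfl fun l _ => by
      rw [HahnSeries.C_apply, HahnSeries.coeff_single_zero_mul]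
  refine ⟨fun k hk => ?_, ?_⟩
  · rw [hcoeff]
    refine Finset.sum_eq_zero fun l hl => ?_
    have hl' : (l : ℤ) ≤ r.natDegree := by
      exact_mod_cast Nat.lt_succ_iff.1 (Finset.mem_range.1 hl)
    rw [(hJl l).below k (by nlinarith), mul_zero]
  · rw [hcoeff, Finset.sum_eq_single r.natDegree]
    · rw [show m * (r.natDegree : ℤ) = (r.natDegree : ℤ) * m from mul_comm _ _,
        (hJl _).coeff_eq, mul_one]
      rfl
    · intro l hl hne
      have hl' : (l : ℤ) + 1 ≤ r.natDegree := by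
        exact_mod_cast lt_of_le_of_ne (Nat.lt_succ_iff.1 (Finset.mem_range.1 hl)) hne
      rw [(hJl l).below _ (by nlinarith), mul_zero]
    · exact fun h => absurd (Finset.self_mem_range_succ _) h

include ι in
/-- An element of level one integral over `L[j]` is a polynomial in `j`. -/
theorem exists_eq_aeval_of_level_one {c : FL 1 L}
    (hc : c ∈ chartRing (⊤ : Subring L) (jL 1 L)) :
    ∃ r : L[X], Polynomial.aeval (jL 1 L) r = c := by
  have htr : Transcendental L (jL 1 L) := transcendental_jL 1 ι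
  have hall : ∀ z : FL 1 L, z ∈ L⟮jL 1 L⟯ := by
    have h1 := finrank_FL (L := L) 1 ι
    rw [dedekindPsi_one] at h1
    intro z
    obtain ⟨a, ha⟩ := (finrank_eq_one_iff_of_nonzero' (1 : FL 1 L) one_ne_zero).1 h1 z
    rw [← ha, Algebra.smul_def, mul_one]
    exact a.2
  letI : Algebra L[X] (FL 1 L) := (Polynomial.aeval (R := L) (jL 1 L)).toRingHom.toAlgebra
  haveI : FaithfulSMul L[X] (FL 1 L) :=
    (faithfulSMul_iff_algebraMap_injective _ _).2 (transcendental_iff_injective.1 htr)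
  haveI : IsFractionRing L[X] (FL 1 L) := IsFractionRing.of_field L[X] (FL 1 L) fun z => by
    obtain ⟨r, s, hrs⟩ := (IntermediateField.mem_adjoin_simple_iff L _).1 (hall z)
    exact ⟨r, s, hrs⟩
  obtain ⟨p, hp, hpc⟩ := mem_chartRing_top.1 hc
  let s : L[X] →+* Algebra.adjoin L ({jL 1 L} : Set (FL 1 L)) :=
    (Polynomial.aeval ⟨jL 1 L, Algebra.self_mem_adjoin_singleton L _⟩).toRingHom
  have hs : Function.Surjective s := by
    rintro ⟨a, ha⟩
    rw [Algebra.adjoin_singleton_eq_range_aeval] at ha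
    obtain ⟨r, rfl⟩ := ha
    exact ⟨r, Subtype.ext (Polynomial.aeval_algHom_apply (Subalgebra.val _) _ r).symm⟩
  obtain ⟨P, hPp, -, hP⟩ := Polynomial.lifts_and_natDegree_eq_and_monic
    (show p ∈ Polynomial.lifts s from Polynomial.map_surjective s hs p) hp
  have hint : IsIntegral L[X] c := by
    refine ⟨P, hP, ?_⟩
    rw [← hPp, eval₂_map] at hpc
    rw [show algebraMap L[X] (FL 1 L) =
      (algebraMap (Algebra.adjoin L ({jL 1 L} : Set (FL 1 L))) (FL 1 L)).comp s from
        RingHom.ext fun r => Polynomial.aeval_algHom_apply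
          (Subalgebra.val (Algebra.adjoin L ({jL 1 L} : Set (FL 1 L))))
          ⟨jL 1 L, Algebra.self_mem_adjoin_singleton L _⟩ r]
    exact hpc
  exact IsIntegrallyClosed.isIntegral_iff.1 hint

set_option maxHeartbeats 1000000 in
include ι in
/-- The statement at level `q`. -/
theorem cusp_hUnit_one (hq1 : ¬ q ∣ 1) {W₁ : FL (1 * q) L →ₐ[L] FL (1 * q) L}
    (hW₁ : IsALInvolution W₁) :
    hUnit L 1 q * W₁ (heckeAlphaBar L 1 q (jL 1 L)) / heckeAlphaBar L 1 q (jL 1 L) ∈
      chartRing (⊤ : Subring L) (heckeAlphaBar L 1 q (jL 1 L))⁻¹ := by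
  haveI : CharZero L := charZero_of_injective_algebraMap (algebraMap ℚ L).injective
  obtain ⟨ζ, hζ⟩ := exists_primitive_qbar (q := q)
  set α := heckeAlphaBar L 1 q
  set x := α (jL 1 L) with hxdef
  set v := hUnit L 1 q * W₁ x with hvdef
  have hq0 : (0 : ℤ) < q := by exact_mod_cast (Fact.out : q.Prime).pos
  have hvint : v ∈ chartRing (⊤ : Subring L) x :=
    mul_mem (hUnit_mem_chartRing 1 q hW₁ ι hq1).1
      (mem_chartRing_of_modEval _ (modularPolynomialData q).monic (modEval_beta 1 q hW₁ _))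
  obtain ⟨P, hP, hPdeg, hPv, hPmap⟩ := exists_cp₁ 1 q hζ hW₁ ι hq1 v
  -- the coefficients are polynomials in `j`
  have hcoef : ∀ i, P.coeff i ∈ chartRing (⊤ : Subring L) (jL 1 L) := fun i => by
    refine coeff_prod_mem_chartRing (ι := Option (ZMod q)) α
      ((qExpand ℚ̄ q).comp (ser L ℚ̄ (1 * q))) (psi₁ 1 q ζ W₁) (fun a => ?_) (fun a c => ?_)
      hvint ?_ i
    · rw [psi₁_alpha 1 q hζ hW₁]
      exact congrArg (qExpand ℚ̄ q) (ser_alpha L ℚ̄ q 1 _).symm
    · rw [← α.commutes c, psi₁_alpha 1 q hζ hW₁]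
      exact congrArg (qExpand ℚ̄ q) (ser_alpha L ℚ̄ q 1 _).symm
    · rw [Fintype.prod_option, show ((qExpand ℚ̄ q).comp (ser L ℚ̄ (1 * q))).comp α.toRingHom =
        (qExpand ℚ̄ q).comp (ser L ℚ̄ 1) from
          RingHom.ext fun y => congrArg (qExpand ℚ̄ q) (ser_alpha L ℚ̄ q 1 y)]
      exact hPmap
  choose r hr using fun i => exists_eq_aeval_of_level_one ι (hcoef i)
  set J := qExpand ℚ̄ q (jqModC ℚ̄) with hJ
  have hjl := Igusa.hasLead_jqModC (R := ℚ̄)
  have hJlead : HasLead J (-(q : ℤ)) 1 := by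
    have h := hjl.qExpand q
    rwa [show (q : ℤ) * -1 = -(q : ℤ) by ring] at h
  -- the roots have order at least `- q`
  have hserv : HasLead (qExpand ℚ̄ q (ser L ℚ̄ (1 * q) v)) (-(q : ℤ)) 1 := by
    have h1 : HasLead (ser L ℚ̄ (1 * q) v) (-1) 1 := by
      rw [hvdef, map_mul, hxdef, ser_W_alpha 1 q hW₁, ser_jL]
      exact (hasLead_ser_hUnit L 1 q ℚ̄).mul' hJlead (by ring) (one_mul 1)
    have h := h1.qExpand q
    rwa [show (q : ℤ) * -1 = -(q : ℤ) by ring] at h
  have hserWv : HasLead (ser L ℚ̄ (1 * q) (W₁ v)) (-(q : ℤ)) ((q : ℚ̄) ^ 12)⁻¹ := by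
    have hWh : ser L ℚ̄ (1 * q) (W₁ (hUnit L 1 q)) =
        HahnSeries.C ((q : ℚ̄) ^ 12)⁻¹ * (wSeries q ℚ̄ : LaurentSeries ℚ̄) := by
      refine mul_right_cancel₀ ((_root_.map_ne_zero (ser L ℚ̄ (1 * q))).2 (fun h0 =>
        (hasLead_ser_hUnit L 1 q ℚ̄).ne_zero one_ne_zero (by rw [h0, map_zero]) : hUnit L 1 q ≠ 0)) ?_
      rw [ser_W_hUnit 1 q hW₁ ι hq1, ser_hUnit_eq, mul_assoc, Units.mul_inv, mul_one]
    rw [hvdef, map_mul, map_mul, hW₁.invol, hWh, hxdef, ser_alpha, ser_jL]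
    exact ((HasLead.single 0 _).mul' (hasLead_wSeries q ℚ̄) (zero_add _) (mul_one _)).mul' hjl
      (by ring) (mul_one _)
  have hw : HasWeight (P.map ((qExpand ℚ̄ q).comp (ser L ℚ̄ 1))) (q : ℤ) ((q : ℤ) + q * q) := by
    rw [hPmap]
    refine HasWeight.mul (HasWeight.X_sub_C le_rfl fun k hk => hserv.below k hk) ?_
    have h := HasWeight.prod (R := ℚ̄) (Finset.univ : Finset (ZMod q)) (d := (q : ℤ))
      (P := fun a => X - C (Igusa.twist (ζ ^ a.val) (ser L ℚ̄ (1 * q) (W₁ v))))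
      (n := fun _ => (q : ℤ))
      fun a _ => HasWeight.X_sub_C le_rfl fun k hk => (hserWv.twist _).below k hk
    simpa using h
  have hdeg : ∀ i ≤ q, (r i).natDegree ≤ q + 1 - i := by
    intro i hi
    by_contra hlt
    have hr0 : r i ≠ 0 := fun h => hlt (by rw [h, natDegree_zero]; exact Nat.zero_le _)
    have hd : ((q : ℤ) + 2 - i) ≤ ((r i).natDegree : ℤ) := by omega
    have hlead := coeff_evZ_field J hJlead (by omega) ((r i).map (algebraMap L ℚ̄))
    rw [natDegree_map] at hlead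
    have e : (P.map ((qExpand ℚ̄ q).comp (ser L ℚ̄ 1))).coeff i =
        ((r i).map (algebraMap L ℚ̄)).eval₂ HahnSeries.C J := by
      rw [coeff_map, ← hr i, eval₂_map, aeval_def, hom_eval₂]
      congr 1
      · exact RingHom.ext fun a => by
          show qExpand ℚ̄ q (ser L ℚ̄ 1 (algebraMap L (FL 1 L) a)) = _
          rw [ser_algebraMap, qExpand_C]
          rfl
      · show qExpand ℚ̄ q (ser L ℚ̄ 1 (jL 1 L)) = J
        rw [ser_jL]
    have h0 := hw i (-(q : ℤ) * (r i).natDegree) (by nlinarith)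
    rw [e, hlead.coeff_eq] at h0
    rw [leadingCoeff_eq_zero, Polynomial.map_eq_zero_iff (algebraMap L ℚ̄).injective] at h0
    exact hr0 h0
  -- divide by `x ^ (q + 1)`
  have htx : Transcendental L x := fun ha => transcendental_jL 1 ι
    ((isAlgebraic_algHom_iff α (RingHom.injective _)).1 ha)
  have hx : x ≠ 0 := fun h => htx (h ▸ isAlgebraic_zero)
  let c : ℕ → FL (1 * q) L := fun i => Polynomial.aeval x (r i) / x ^ (q + 1 - i)
  let p : (FL (1 * q) L)[X] := X ^ (q + 1) + ∑ i ∈ Finset.range (q + 1), C (c i) * X ^ i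
  have hp : p.Monic := monic_X_pow_add (lt_of_le_of_lt (degree_sum_le _ _) (by
    rw [Finset.sup_lt_iff (WithBot.bot_lt_coe _)]
    exact fun i hi => lt_of_le_of_lt (degree_C_mul_X_pow_le _ _)
      (WithBot.coe_lt_coe.2 (Finset.mem_range.1 hi))))
  have hcmem : ∀ i ≤ q, c i ∈ chartRing (⊤ : Subring L) x⁻¹ := by
    intro i hi
    show Polynomial.aeval x (r i) / x ^ (q + 1 - i) ∈ _
    rw [aeval_eq_sum_range, Finset.sum_div]
    refine sum_mem fun l hl => ?_
    have hl' : l ≤ q + 1 - i := (Nat.lt_succ_iff.1 (Finset.mem_range.1 hl)).trans (hdeg i hi)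
    rw [Algebra.smul_def, mul_div_assoc, show x ^ l / x ^ (q + 1 - i) = x⁻¹ ^ (q + 1 - i - l) by
      rw [inv_pow, eq_comm, inv_eq_one_div, div_eq_div_iff (pow_ne_zero _ hx) (pow_ne_zero _ hx),
        one_mul (x ^ (q + 1 - i)), ← pow_add, Nat.add_sub_cancel' hl']]
    exact mul_mem (algebraMap_mem_chartRing _ _ trivial) (pow_mem (self_mem_chartRing _ _) _)
  refine mem_chartRing_of_monic hp (fun i => ?_) ?_
  · simp only [p, coeff_add, coeff_X_pow, finsetSum_coeff, coeff_C_mul_X_pow]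
    refine add_mem (by split_ifs <;> [exact one_mem _; exact zero_mem _]) (sum_mem fun l hl => ?_)
    split_ifs
    · exact hcmem l (Nat.lt_succ_iff.1 (Finset.mem_range.1 hl))
    · exact zero_mem _
  · have h0 : ∑ i ∈ Finset.range (q + 2), Polynomial.aeval x (r i) * v ^ i = 0 := by
      rw [← hPv, eval₂_eq_sum_range, hPdeg]
      refine Finset.sum_congr rfl fun i _ => ?_
      rw [AlgHom.toRingHom_eq_coe, RingHom.coe_coe, ← hr i, ← Polynomial.aeval_algHom_apply]
    rw [Finset.sum_range_succ, show Polynomial.aeval x (r (q + 1)) = 1 by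
      rw [hxdef, Polynomial.aeval_algHom_apply, hr, ← hPdeg, hP.coeff_natDegree, map_one],
      one_mul (v ^ (q + 1))] at h0
    simp only [p, eval_add, eval_X_pow, eval_finsetSum, eval_mul, eval_C]
    refine mul_left_cancel₀ (pow_ne_zero (q + 1) hx) ?_
    rw [mul_zero, mul_add, Finset.mul_sum, add_comm, ← h0]
    congr 1
    · refine Finset.sum_congr rfl fun i hi => ?_
      show x ^ (q + 1) * (Polynomial.aeval x (r i) / x ^ (q + 1 - i) * (v / x) ^ i) = _
      conv_lhs => rw [show x ^ (q + 1) = x ^ (q + 1 - i) * x ^ i by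
        rw [← pow_add, Nat.sub_add_cancel (Finset.mem_range.1 hi).le]]
      rw [div_pow]
      field_simp
    · rw [← mul_pow, mul_div_cancel₀ _ hx]

include hW ι hqN in
/-- `E₄(qτ)³ / E₄(τ)³` has no pole at the cusps. -/
theorem cusp_hUnit :
    hUnit L N q * W αj / αj ∈ chartRing (⊤ : Subring L) αj⁻¹ := by
  have hq1 : ¬ q ∣ 1 := fun h => (Fact.out : q.Prime).ne_one (Nat.dvd_one.1 h)
  obtain ⟨W₁, hW₁⟩ := exists_isALInvolution (M := 1) ι hq1
  let φ : FL (1 * q) L →ₐ[L] FL (N * q) L :=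
    EichlerShimura.levelIncl (Nat.mul_dvd_mul_right (one_dvd N) q)
  have h1 : φ (hUnit L 1 q) = hUnit L N q := Subtype.ext (EichlerShimura.coe_levelIncl _ _)
  have h2 : φ (heckeAlphaBar L 1 q (jL 1 L)) = αj := Subtype.ext (by
    rw [EichlerShimura.coe_levelIncl, coe_heckeAlphaBar, coe_heckeAlphaBar]
    rfl)
  have h3 : φ (W₁ (heckeAlphaBar L 1 q (jL 1 L))) = W αj := Subtype.ext (by
    rw [EichlerShimura.coe_levelIncl, hW₁.alpha, hW.alpha, coe_heckeBetaBar, coe_heckeBetaBar]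
    rfl)
  have h := map_mem_chartRing φ (cusp_hUnit_one q ι hq1 hW₁)
  rwa [map_inv₀, map_div₀, map_mul, h1, h2, h3] at h

end Fermat.Agent.BadPrime.Sq.Tower

end
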