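import Fermat.Agent.BadPrime.Sq.TowerRes
import Fermat.Agent.BadPrime.Sq.TowerCusp
import Fermat.Agent.BadPrime.Sq.TowerDelta
import Fermat.Agent.BadPrime.Sq.OmegaUnit

/-!
# The tower `N ∣ N q ∣ N q²` over a coefficient field with an `SqBase`

`F₀`, `F₁`, `F₂` are `FL N K`, `FL (N q) K`, `FL (N q²) K`, the maps `α'`, `β'` are the Hecke
degeneracy maps and `i₀`, `i₁`, `e₀` are the expansions at `∞`.
-/

set_option autoImplicit false
set_option synthInstance.maxHeartbeats 400000
set_option linter.unusedSectionVars false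

noncomputable section

open ModularCurve Polynomial
open scoped IntermediateField

namespace Fermat.Agent.BadPrime.Sq

open Fermat.Agent.Modular Fermat.Agent.BadPrime Tower

local notation "ℚ̄" => AlgebraicClosure ℚ

variable {q : ℕ} [Fact q.Prime] (N : ℕ) [NeZero N] (hqN : ¬ q ∣ N)
  (A : ValuationSubring ℚ̄) (hA : A.LiesOverPrime q) (K : IntermediateField ℚ ℚ̄)

theorem isAlgebraic_qbar : Algebra.IsAlgebraic ℚ ℚ̄ := AlgebraicClosure.isAlgebraic ℚ

attribute [local instance] isAlgebraic_qbar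

theorem isAlgebraic_coeffField : Algebra.IsAlgebraic ℚ K :=
  Algebra.IsAlgebraic.of_injective (algebraMap K ℚ̄).toRatAlgHom (algebraMap K ℚ̄).injective

attribute [local instance] isAlgebraic_coeffField

/-- An embedding of the coefficient field in `ℂ`. -/
def coeffEmbC : K →+* ℂ := Reduction.qbarEmb.comp (algebraMap K ℚ̄)

/-- The Atkin–Lehner involution of level `N q` over `K`. -/
def sqW (hqN : ¬ q ∣ N) : FL (N * q) K →ₐ[K] FL (N * q) K :=
  (exists_isALInvolution (M := N) (coeffEmbC K) hqN).choose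

theorem isALInvolution_sqW : IsALInvolution (sqW N K hqN) :=
  (exists_isALInvolution (M := N) (coeffEmbC K) hqN).choose_spec

variable {K} (B : SqBase q K (IsLocalRing.residue A))

/-- The expansion at the cusp `1 / (N q)`. -/
def sqEM : FL (N * q * q) K →+* LaurentSeries ℚ̄ :=
  (exists_eM N q B.primitive (isALInvolution_sqW N hqN K) (coeffEmbC K) hqN).choose

theorem sqEM_alpha (x : FL (N * q) K) :
    sqEM N hqN A B (heckeAlphaBar K (N * q) q x) = ser K ℚ̄ (N * q) x :=
  (exists_eM N q B.primitive (isALInvolution_sqW N hqN K) (coeffEmbC K) hqN).choose_spec.1 x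

theorem sqEM_beta (x : FL (N * q) K) :
    sqEM N hqN A B (heckeBetaBar K (N * q) q x) =
      Igusa.twist B.ζ (ser K ℚ̄ (N * q) (sqW N K hqN x)) :=
  (exists_eM N q B.primitive (isALInvolution_sqW N hqN K) (coeffEmbC K) hqN).choose_spec.2 x

/-- The expansion of `f(W τ)`. -/
def sqE2 : FL (N * q * q) K →+* LaurentSeries ℚ̄ :=
  (exists_e2 N q B.primitive (isALInvolution_sqW N hqN K) (coeffEmbC K) hqN).choose

theorem sqE2_alpha (x : FL (N * q) K) :
    sqE2 N hqN A B (heckeAlphaBar K (N * q) q x) =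
      qExpand ℚ̄ q (ser K ℚ̄ (N * q) (sqW N K hqN x)) :=
  (exists_e2 N q B.primitive (isALInvolution_sqW N hqN K) (coeffEmbC K) hqN).choose_spec.1 x

theorem sqE2_beta (x : FL (N * q) K) :
    sqE2 N hqN A B (heckeBetaBar K (N * q) q x) = ser K ℚ̄ (N * q) (sqW N K hqN x) :=
  (exists_e2 N q B.primitive (isALInvolution_sqW N hqN K) (coeffEmbC K) hqN).choose_spec.2 x

set_option maxHeartbeats 4000000 in
/-- The tower over the coefficient field `K`. -/
@[reducible]
def sqTower (hN : (q = 2 → 3 ∣ N) ∧ (q = 3 → 2 ∣ N)) (h2 : nuTwo N = 0) (h3 : nuThree N = 0) :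
    SqTower q K (IsLocalRing.residue A) where
  toSqBase := B
  F₀ := FL N K
  F₁ := FL (N * q) K
  F₂ := FL (N * q * q) K
  i₀ := ser K ℚ̄ N
  i₁ := ser K ℚ̄ (N * q)
  e₀ := ser K ℚ̄ (N * q * q)
  eₘ := sqEM N hqN A B
  e₂ := sqE2 N hqN A B
  i₀_algebraMap := ser_algebraMap K ℚ̄ N
  i₁_algebraMap := ser_algebraMap K ℚ̄ (N * q)
  e₀_algebraMap := ser_algebraMap K ℚ̄ (N * q * q)
  eₘ_algebraMap c := by
    rw [← (heckeAlphaBar K (N * q) q).commutes c]
    exact (sqEM_alpha N hqN A B _).trans (ser_algebraMap K ℚ̄ (N * q) c)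
  e₂_algebraMap c := by
    rw [← (heckeAlphaBar K (N * q) q).commutes c]
    refine (sqE2_alpha N hqN A B _).trans ?_
    rw [AlgHom.commutes]
    exact (congrArg _ (ser_algebraMap K ℚ̄ (N * q) c)).trans (qExpand_C q _)
  α := heckeAlphaBar K N q
  W := sqW N K hqN
  W_W := (isALInvolution_sqW N hqN K).invol
  i₁_α := ser_alpha K ℚ̄ q N
  i₁_W_α := ser_W_alpha N q (isALInvolution_sqW N hqN K)
  α' := heckeAlphaBar K (N * q) q
  β' := heckeBetaBar K (N * q) q
  square := square N q (isALInvolution_sqW N hqN K)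
  e₀_α' := ser_alpha K ℚ̄ q (N * q)
  e₀_β' := ser_beta K ℚ̄ q (N * q)
  eₘ_α' := sqEM_alpha N hqN A B
  eₘ_β' := sqEM_beta N hqN A B
  e₂_α' := sqE2_alpha N hqN A B
  e₂_β' := sqE2_beta N hqN A B
  cp₁ f := exists_cp₁ N q B.primitive (isALInvolution_sqW N hqN K) (coeffEmbC K) hqN f
  cp₂ f := exists_cp₂ N q B.primitive (isALInvolution_sqW N hqN K) (coeffEmbC K) hqN B.σ B.σ_ζ
    (sqEM_alpha N hqN A B) (sqEM_beta N hqN A B) (sqE2_alpha N hqN A B) (sqE2_beta N hqN A B) f
  cp₂' f := exists_cp₂' N q B.primitive (isALInvolution_sqW N hqN K) (coeffEmbC K) hqN B.σ B.σ_ζ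
    (sqEM_alpha N hqN A B) (sqEM_beta N hqN A B) (sqE2_alpha N hqN A B) (sqE2_beta N hqN A B) f
  value_i₁ _ hf := value_ser (Nat.cast_ne_zero.2 (Fact.out : q.Prime).ne_zero) B.uniform _ hf
  value_e₀ _ hf := value_ser (Nat.cast_ne_zero.2 (Fact.out : q.Prime).ne_zero) B.uniform _ hf
  value_eₘ _ hf := value_eM B.primitive B.natCast_mem_nonunits B.uniform N
    (isALInvolution_sqW N hqN K) (coeffEmbC K) hqN (sqEM_alpha N hqN A B) (sqEM_beta N hqN A B) hf
  value_e₂ f hf := by
    obtain ⟨f', hf'⟩ := exists_e2_eq_ser B.primitive N (isALInvolution_sqW N hqN K) (coeffEmbC K)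
      hqN (sqE2_alpha N hqN A B) (sqE2_beta N hqN A B) f
    rw [hf']
    refine value_ser (Nat.cast_ne_zero.2 (Fact.out : q.Prime).ne_zero) B.uniform _ ?_
    rintro rfl
    exact (_root_.map_ne_zero (sqE2 N hqN A B)).2 hf (hf'.trans (map_zero _))
  j := jL N K
  i₀_j := ser_jL K ℚ̄ N
  transcendental_j := transcendental_jL N (coeffEmbC K)
  finite_j := Module.finite_of_finrank_pos (by
    rw [finrank_FL N (coeffEmbC K)]
    exact EichlerShimura.dedekindPsi_pos N)
  isIntegral_W_j := isIntegral_W_alpha_jL N q A (isALInvolution_sqW N hqN K)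
  cusp_j := cusp_W_alpha_jL N q A (isALInvolution_sqW N hqN K) (coeffEmbC K) hqN
  resField := modularFunctionFieldFullC (IsLocalRing.ResidueField A) N
  jqModC_mem := jqModC_mem_full _ N
  finite_res := finite_res _ N
  separable_res g hg := by
    have : IsAlgClosed (IsLocalRing.ResidueField A) := EC.isAlgClosed_residueField A
    exact separable_res N hg
  res_mem _ _ h := res_mem N hqN A hA B.surj h
  res_lift _ hg := res_lift N A B.surj hg
  res_lift_fin _ hg := exists_chart_lift N hqN A hA B.surj hN false hg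
  res_lift_inf _ hg := exists_chart_lift N hqN A hA B.surj hN true hg
  integral_fin _ hf hg := mem_chartRing_baseRing N hqN A hA B.surj false hf hg
  integral_inf _ hf hg := mem_chartRing_baseRing N hqN A hA B.surj true hf hg
  rational_span _ hg := rational_span A hA N hg
  omega_unit v hv hjv t ht0 htv huni := omega_unit N hqN A hA hN h2 h3 v hv hjv t ht0 htv huni
  h := hUnit K N q
  i₁_h := ser_hUnit_mul K N q ℚ̄
  i₁_W_h := ser_W_hUnit N q (isALInvolution_sqW N hqN K) (coeffEmbC K) hqN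
  h_mem := (hUnit_mem_chartRing N q (isALInvolution_sqW N hqN K) (coeffEmbC K) hqN).1
  h_inv_mem := (hUnit_mem_chartRing N q (isALInvolution_sqW N hqN K) (coeffEmbC K) hqN).2
  cusp_h := cusp_hUnit N q (isALInvolution_sqW N hqN K) (coeffEmbC K) hqN

end Fermat.Agent.BadPrime.Sq

end
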