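import Fermat.Agent.BadPrime.Sq.Descent
import Fermat.Agent.BadPrime.Sq.Eigen
import Fermat.Agent.BadPrime.Sq.Instance
import Fermat.Agent.Curve.Transport
import Fermat.Agent.EC.Red.ResidueQbar
import Mathlib.NumberTheory.LSeries.PrimesInAP

/-!
# The bound on fixed killed torsion from the modular towers
-/

set_option autoImplicit false
set_option linter.style.haveILetI false
set_option linter.unusedSectionVars false

noncomputable section

open AlgebraicCurve ModularCurve IsLocalRing
open Fermat.Agent.Modular (FL)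
open Fermat.Agent.EichlerShimura (bcHom coe_bcHom)
open Fermat.Agent.Curve (mapPlace ord_mapPlace)

namespace Fermat.Agent.BadPrime.Sq

set_option synthInstance.maxHeartbeats 200000

local notation "ℚ̄" => AlgebraicClosure ℚ

variable {A : ValuationSubring ℚ̄}

/-- Functions with coefficients in a subfield are defined over it. -/
theorem exists_ser_eq {M : ℕ} [NeZero M] (k₀ : IntermediateField ℚ ℚ̄) {x : LaurentSeries ℚ̄}
    (hx : x ∈ FL M ℚ̄) (hc : ∀ m, x.coeff m ∈ k₀) :
    ∃ y : FL M k₀, coeffMap (algebraMap k₀ ℚ̄) (y : LaurentSeries k₀) = x := by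
  let y : LaurentSeries k₀ := ⟨fun m => ⟨x.coeff m, hc m⟩, x.isPWO_support.mono fun m hm => by
    simp only [Function.mem_support] at hm ⊢
    exact fun e => hm (Subtype.ext e)⟩
  have hy : coeffMap (algebraMap k₀ ℚ̄) y = x := by
    ext m
    rw [coeffMap_coeff]
    rfl
  refine ⟨⟨y, EichlerShimura.mem_of_coeffMap_mem _ (levelVal k₀) ?_⟩, hy⟩
  exact hy.symm ▸ hx

variable {k : Type} [Field k] {π : A →+* k} {q : ℕ} [Fact q.Prime]

/-- The hypotheses on a tower built on the expansions of `FL (N q^i)` over the inertia field. -/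
theorem isModularTower_of_range (T : SqTower q (inertiaField A) π) {N : ℕ} [NeZero (N * q)]
    [NeZero (N * q * q)]
    (h₁ : Set.range T.i₁ = Set.range fun y : FL (N * q) (inertiaField A) =>
      coeffMap (algebraMap (inertiaField A) ℚ̄) (y : LaurentSeries (inertiaField A)))
    (h₂ : Set.range T.e₀ = Set.range fun y : FL (N * q * q) (inertiaField A) =>
      coeffMap (algebraMap (inertiaField A) ℚ̄) (y : LaurentSeries (inertiaField A))) :
    IsModularTower T N where
  i₁_mem c := by
    obtain ⟨y, hy⟩ : T.i₁ c ∈ Set.range _ := h₁ ▸ Set.mem_range_self c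
    rw [← hy]
    exact (bcHom (modularFunctionFieldFull (N * q)) (levelVal (inertiaField A)) y).2
  e₀_mem c := by
    obtain ⟨y, hy⟩ : T.e₀ c ∈ Set.range _ := h₂ ▸ Set.mem_range_self c
    rw [← hy]
    exact (bcHom (modularFunctionFieldFull (N * q * q)) (levelVal (inertiaField A)) y).2
  i₁_coeff c m := by
    obtain ⟨y, hy⟩ : T.i₁ c ∈ Set.range _ := h₁ ▸ Set.mem_range_self c
    rw [← hy, coeffMap_coeff]
    exact ((y : LaurentSeries (inertiaField A)).coeff m).2
  e₀_coeff c m := by
    obtain ⟨y, hy⟩ : T.e₀ c ∈ Set.range _ := h₂ ▸ Set.mem_range_self c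
    rw [← hy, coeffMap_coeff]
    exact ((y : LaurentSeries (inertiaField A)).coeff m).2
  exists_i₁ x hx hc := by
    have h : x ∈ Set.range T.i₁ := h₁ ▸ exists_ser_eq _ hx hc
    exact h
  exists_e₀ x hx hc := by
    have h : x ∈ Set.range T.e₀ := h₂ ▸ exists_ser_eq _ hx hc
    exact h

variable {T : SqTower q (inertiaField A) π} {N : ℕ} [NeZero (N * q * q)]

/-- The top of a modular tower is the function field over the inertia field. -/
theorem IsModularTower.exists_algEquiv (hT : IsModularTower T N) :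
    ∃ e : T.F₂ ≃ₐ[inertiaField A] FL (N * q * q) (inertiaField A),
      ∀ c, coeffMap (algebraMap (inertiaField A) ℚ̄) (e c : LaurentSeries (inertiaField A)) =
        T.e₀ c := by
  choose s hs using fun c => exists_ser_eq (inertiaField A) (hT.e₀_mem c) (hT.e₀_coeff c)
  let ser : FL (N * q * q) (inertiaField A) →+* LaurentSeries ℚ̄ :=
    (coeffMap (algebraMap (inertiaField A) ℚ̄)).comp
      (FL (N * q * q) (inertiaField A)).val.toRingHom
  have hser : Function.Injective ser := RingHom.injective _
  let e : T.F₂ →ₐ[inertiaField A] FL (N * q * q) (inertiaField A) :=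
    { toFun := s
      map_one' := hser (show ser (s 1) = ser 1 from (hs 1).trans (by rw [map_one, map_one]))
      map_mul' := fun a b => hser (show ser (s (a * b)) = ser (s a * s b) from (hs _).trans (by
        rw [map_mul, map_mul, ← hs a, ← hs b]; rfl))
      map_zero' := hser (show ser (s 0) = ser 0 from (hs 0).trans (by rw [map_zero, map_zero]))
      map_add' := fun a b => hser (show ser (s (a + b)) = ser (s a + s b) from (hs _).trans (by
        rw [map_add, map_add, ← hs a, ← hs b]; rfl))
      commutes' := fun c => hser (show ser (s _) = ser (algebraMap _ _ c) from (hs _).trans (by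
        rw [T.e₀_algebraMap]
        show _ = coeffMap _ (algebraMap _ (LaurentSeries (inertiaField A)) c)
        rw [algebraMap_laurentSeries_eq_single, coeffMap_single]
        rfl)) }
  refine ⟨AlgEquiv.ofBijective e ⟨e.toRingHom.injective, fun y => ?_⟩, hs⟩
  obtain ⟨c, hc⟩ := hT.exists_e₀ (ser y)
    (bcHom (modularFunctionFieldFull (N * q * q)) (levelVal (inertiaField A)) y).2 fun m => by
      show (coeffMap (algebraMap (inertiaField A) ℚ̄) (y : LaurentSeries (inertiaField A))).coeff m ∈ _
      rw [coeffMap_coeff]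
      exact ((y : LaurentSeries (inertiaField A)).coeff m).2
  exact ⟨c, hser ((hs c).trans hc)⟩

/-- The bound on fixed killed torsion at `q² ∥ M₁ q²`: the tower lives at the level
`N = M₁ L r`, with `L ≡ 11 mod 12` killing the elliptic points and `r` a small prime. -/
theorem fixedKilledBound {M₁ lam : ℕ} [NeZero M₁] [NeZero (M₁ * q)] (hlam : lam.Prime)
    (hqlam : q ≠ lam) (hqM : ¬ q ∣ M₁) : FixedKilledBound (M₁ * q) q lam := by
  intro A hA
  have hq : q.Prime := Fact.out
  haveI : CharP (ResidueField A) q := EC.charP_residueField A hq hA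
  haveI : IsAlgClosed (ResidueField A) := EC.isAlgClosed_residueField A
  obtain ⟨L, hqL, hL, hL12⟩ := Nat.forall_exists_prime_gt_and_modEq q (q := 12) (a := 11)
    (by omega) (by decide)
  have hL12 : L % 12 = 11 := by simpa [Nat.ModEq] using hL12
  let r := if q = 2 then 3 else 2
  have hr : r.Prime := by
    dsimp only [r]; split_ifs
    · exact Nat.prime_three
    · exact Nat.prime_two
  have hqr : q ≠ r := by dsimp only [r]; split_ifs <;> omega
  have hqN : ¬ q ∣ M₁ * L * r := fun h => (hq.dvd_mul.mp h).elim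
    (fun h => (hq.dvd_mul.mp h).elim hqM fun h' =>
      hqL.ne ((Nat.prime_dvd_prime_iff_eq hq hL).mp h'))
    fun h' => hqr ((Nat.prime_dvd_prime_iff_eq hq hr).mp h')
  haveI : NeZero (M₁ * L * r) :=
    ⟨Nat.mul_ne_zero (Nat.mul_ne_zero (NeZero.ne M₁) hL.ne_zero) hr.ne_zero⟩
  haveI : NeZero (M₁ * L * r * q) := ⟨Nat.mul_ne_zero (NeZero.ne _) (NeZero.ne q)⟩
  haveI : NeZero (M₁ * L * r * q * q) := ⟨Nat.mul_ne_zero (NeZero.ne _) (NeZero.ne q)⟩
  haveI : NeZero (M₁ * q * q) := ⟨Nat.mul_ne_zero (NeZero.ne _) (NeZero.ne q)⟩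
  have hr23 : (q = 2 → 3 ∣ M₁ * L * r) ∧ (q = 3 → 2 ∣ M₁ * L * r) :=
    ⟨fun h => by simp [r, h], fun h => by simp [r, h]⟩
  have hLN : L ∣ M₁ * L * r := (dvd_mul_left L M₁).trans (dvd_mul_right _ r)
  let T := sqTower (M₁ * L * r) hqN A hA (inertiaBase hq hA) hr23
    (nuTwo_eq_zero_of_dvd hL (by omega) hLN) (nuThree_eq_zero_of_dvd hL (by omega) hLN)
  have hT : IsModularTower T (M₁ * L * r) := isModularTower_of_range T rfl rfl
  have hM : M₁ ∣ M₁ * L * r := (dvd_mul_right M₁ L).trans (dvd_mul_right _ r)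
  obtain ⟨e, he⟩ := hT.exists_algEquiv
  haveI := isFunctionField1_level (M₁ * L * r * q * q) (inertiaField A)
  haveI : Curve.IsFunctionField1 (inertiaField A) T.F₂ :=
    Curve.isFunctionField1_of_algEquiv e.symm
  refine ⟨_, ?_, fun j x hx hfix ha hb => nsmul_eq_zero_of_tower T hT hqN hM
    (pow_ne_zero j hlam.ne_zero) (((Nat.coprime_primes hq hlam).mpr hqlam).pow_right j) ?_ hx hfix
    ha hb⟩
  · refine Nat.mul_ne_zero (pow_ne_zero 3 (Nat.mul_ne_zero hq.ne_zero ?_)) ?_
    · have : 2 ^ 2 ≤ q ^ 2 := Nat.pow_le_pow_left hq.two_le 2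
      omega
    · intro h0
      have h1 := EichlerShimura.finrankAlong_levelIncl_mul (L := ℚ̄)
        (fun K _ => Modular.finrank_FL K (complexEmbedding : ℚ̄ →+* ℂ))
        (mul_dvd_mul_right (mul_dvd_mul_right hM q) q)
      rw [h0, mul_zero] at h1
      exact (EichlerShimura.dedekindPsi_pos (M₁ * L * r * q * q)).ne h1
  · intro g u hu hdvd w
    rw [← ord_mapPlace e w g]
    refine ord_dvd_level (fun v => ?_) _
    rw [show bcHom (modularFunctionFieldFull (M₁ * L * r * q * q)) (levelVal (inertiaField A)) (e g) = u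
      from Subtype.ext ((he g).trans hu.symm)]
    exact hdvd v

end Fermat.Agent.BadPrime.Sq
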