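import Fermat.Agent.BadPrime.Sq.Level

/-!
# The Atkin–Lehner dual of the tower

The dual exchanges the two degeneracy maps at both steps, so that the three expansions of level
`N q²` appear in the opposite order.
-/

set_option autoImplicit false
set_option linter.unusedSectionVars false

noncomputable section

open ModularCurve Polynomial

namespace Fermat.Agent.BadPrime.Sq

variable {q : ℕ} [Fact q.Prime] {K K' k : Type} [Field K] [Field K'] [Algebra K K'] [Field k]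
  [CharZero K] [CharP k q] {A : ValuationSubring K'} {π : A →+* k}

/-- The same coefficient data with `ζ⁻¹` in place of `ζ`. -/
def SqBase.flip (B : SqBase q K π) : SqBase q K π where
  ζ := B.ζ⁻¹
  primitive := IsPrimitiveRoot.inv_iff.2 B.primitive
  σ := B.σ
  σ_ζ a := by rw [Units.val_inv_eq_inv_val, map_inv₀, B.σ_ζ, inv_pow]
  σ_mem := B.σ_mem
  σ_res := B.σ_res
  isLocalHom := B.isLocalHom
  surj := B.surj
  natCast_mem_nonunits := B.natCast_mem_nonunits
  uniform := B.uniform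

theorem twist_C (c : K'ˣ) (a : K') : Igusa.twist c (HahnSeries.C a) = HahnSeries.C a := by
  ext m
  rcases eq_or_ne m 0 with rfl | hm
  · simp [Igusa.twist_coeff]
  · simp [Igusa.twist_coeff, HahnSeries.C_apply, HahnSeries.coeff_single_of_ne hm]

theorem map_mem_cuspRing {F F' : Type} [Field F] [Field F'] [Algebra K F] [Algebra K F']
    {S : Subring K} {t : F} (φ : F →ₐ[K] F') {x : F} (hx : x ∈ cuspRing S t) :
    φ x ∈ cuspRing S (φ t) := by
  have hle : ∀ y ∈ cuspBase S t, φ y ∈ cuspBase S (φ t) := by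
    intro y hy
    induction hy using Subring.closure_induction with
    | mem z hz =>
      refine Subring.subset_closure ?_
      rcases hz with (⟨c, hc, rfl⟩ | hz) | ⟨d, h1, h2, h3, rfl⟩
      · exact Or.inl (Or.inl ⟨c, hc, (φ.commutes c).symm⟩)
      · rw [Set.mem_singleton_iff] at hz
        exact Or.inl (Or.inr (by rw [hz, map_inv₀]; rfl))
      · exact Or.inr ⟨d, h1, h2, h3, by rw [map_inv₀, ← aeval_algHom_apply, map_inv₀]⟩
    | zero => rw [map_zero]; exact zero_mem _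
    | one => rw [map_one]; exact one_mem _
    | add a b _ _ ha hb => rw [map_add]; exact add_mem ha hb
    | neg a _ ha => rw [map_neg]; exact neg_mem ha
    | mul a b _ _ ha hb => rw [map_mul]; exact mul_mem ha hb
  obtain ⟨p, hp, hpx⟩ := hx
  let f : cuspBase S t →+* cuspBase S (φ t) :=
    (φ.toRingHom.comp (cuspBase S t).subtype).codRestrict _ fun y => hle y y.2
  refine ⟨p.map f, hp.map f, ?_⟩
  rw [eval₂_map]
  have h := congrArg φ.toRingHom hpx
  rw [hom_eval₂, map_zero] at h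
  exact h

theorem neg_val_pow {c : K'ˣ} (hc : c ^ q = 1) (a : ZMod q) : (c⁻¹) ^ (-a).val = c ^ a.val := by
  rw [inv_pow, inv_eq_iff_mul_eq_one, ← pow_add]
  rcases eq_or_ne a 0 with rfl | ha
  · simp
  · haveI := NeZero.mk ha
    rw [ZMod.val_neg_of_ne_zero, Nat.sub_add_cancel (ZMod.val_lt a).le, hc]

theorem twist_mul (c c' : K'ˣ) (x : LaurentSeries K') :
    Igusa.twist (c * c') x = Igusa.twist c (Igusa.twist c' x) := by
  ext m
  simp only [Igusa.twist_coeff, mul_zpow, Units.val_mul]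
  ring

namespace SqTower

variable (T : SqTower q K π)

theorem value_eₘ_twist (f : T.F₂) (hf : f ≠ 0) : ∃ (i : ℤ) (g : LaurentSeries k), g ≠ 0 ∧
    HasGaussRed π (HahnSeries.C ((1 - ((T.ζ⁻¹ : K'ˣ) : K')) ^ i) * Igusa.twist T.ζ⁻¹ (T.eₘ f)) g := by
  haveI := T.isLocalHom
  obtain ⟨i, g, hg, h⟩ := T.value_eₘ f hf
  have hζ : (T.ζ⁻¹) ^ q = 1 := by rw [inv_pow, T.ζ_pow, inv_one]
  have h1 : HasGaussRed π (HahnSeries.C ((1 - (T.ζ : K')) ^ i) * Igusa.twist T.ζ⁻¹ (T.eₘ f)) g := by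
    have h2 := hasGaussRed_twist hζ h
    rwa [map_mul, twist_C] at h2
  obtain ⟨u, hu, -⟩ := exists_res_eq_one (π := π) T.ζ_pow
  set V : Aˣ := (-u)⁻¹ ^ i with hV
  set ψ : Aˣ →* K'ˣ := Units.map A.subtype.toMonoidHom with hψ
  have hψV : ((V : A) : K') = (ψ V : K') := rfl
  have e : (1 - (T.ζ : K')) = (ψ (-u) : K') * (1 - ((T.ζ⁻¹ : K'ˣ) : K')) := by
    show _ = ((( -u : Aˣ) : A) : K') * _
    rw [Units.val_neg, NegMemClass.coe_neg, hu, Units.val_inv_eq_inv_val, mul_sub, mul_one, neg_mul,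
      mul_inv_cancel₀ T.ζ.ne_zero]
    ring
  refine ⟨i, HahnSeries.C (π (V : A)) * g, mul_ne_zero ?_ hg, ?_⟩
  · exact (map_ne_zero_iff _ HahnSeries.C_injective).2 ((Units.isUnit V).map π).ne_zero
  · have h2 := (hasGaussRed_C (π := π) (V : A)).mul h1
    rwa [← mul_assoc, ← map_mul, hψV, hV, map_zpow, map_inv, e, mul_zpow, ← mul_assoc,
      ← Units.val_zpow_eq_zpow_val, ← Units.val_mul, inv_zpow, inv_mul_cancel, Units.val_one,
      one_mul] at h2

/-- The dual tower. -/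
def dual : SqTower q K π where
  toSqBase := T.toSqBase.flip
  F₀ := T.F₀
  F₁ := T.F₁
  F₂ := T.F₂
  i₀ := T.i₀
  i₁ := T.i₁.comp T.W.toRingHom
  e₀ := T.e₂
  eₘ := (Igusa.twist T.ζ⁻¹).comp T.eₘ
  e₂ := T.e₀
  i₀_algebraMap := T.i₀_algebraMap
  i₁_algebraMap c := by
    show T.i₁ (T.W (algebraMap K T.F₁ c)) = _
    rw [AlgHom.commutes, T.i₁_algebraMap]
  e₀_algebraMap := T.e₂_algebraMap
  eₘ_algebraMap c := by
    show Igusa.twist T.ζ⁻¹ (T.eₘ _) = _
    rw [T.eₘ_algebraMap, twist_C]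
  e₂_algebraMap := T.e₀_algebraMap
  α := T.W.comp T.α
  W := T.W
  W_W := T.W_W
  i₁_α c := by
    show T.i₁ (T.W (T.W (T.α c))) = _
    rw [T.W_W, T.i₁_α]
  i₁_W_α c := by
    show T.i₁ (T.W (T.W (T.W (T.α c)))) = _
    rw [T.W_W, T.i₁_W_α]
  α' := T.β'
  β' := T.α'
  square c := by
    show T.β' (T.W (T.W (T.α c))) = T.α' (T.W (T.α c))
    rw [T.W_W, T.square]
  e₀_α' c := T.e₂_β' c
  e₀_β' c := T.e₂_α' c
  eₘ_α' c := by
    show Igusa.twist T.ζ⁻¹ (T.eₘ (T.β' c)) = T.i₁ (T.W c)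
    rw [T.eₘ_β', ← twist_mul, inv_mul_cancel, Igusa.twist_one]
  eₘ_β' c := by
    show Igusa.twist T.ζ⁻¹ (T.eₘ (T.α' c)) = Igusa.twist T.ζ⁻¹ (T.i₁ (T.W (T.W c)))
    rw [T.eₘ_α', T.W_W]
  e₂_α' c := by
    show T.e₀ (T.β' c) = qExpand K' q (T.i₁ (T.W (T.W c)))
    rw [T.e₀_β', T.W_W]
  e₂_β' c := by
    show T.e₀ (T.α' c) = T.i₁ (T.W (T.W c))
    rw [T.e₀_α', T.W_W]
  cp₁ f := by
    obtain ⟨P, hP, hdeg, hf, hmap⟩ := T.cp₁ (T.W f)
    refine ⟨P, hP, hdeg, ?_, ?_⟩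
    · have h := congrArg T.W hf
      rw [map_zero] at h
      change T.W.toRingHom (P.eval₂ T.α.toRingHom (T.W f)) = 0 at h
      rw [Polynomial.hom_eval₂] at h
      change P.eval₂ _ (T.W (T.W f)) = 0 at h
      rw [T.W_W] at h
      exact h
    · rw [hmap]
      refine congrArg _ ?_
      refine Fintype.prod_equiv (Equiv.neg (ZMod q)) _ _ fun a => ?_
      show _ = X - C (Igusa.twist ((T.ζ⁻¹) ^ (-a).val) (T.i₁ (T.W (T.W f))))
      rw [neg_val_pow T.ζ_pow]
  cp₂ f := by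
    obtain ⟨P, hP, hdeg, hf, h₁, h₂⟩ := T.cp₂' f
    refine ⟨P, hP, hdeg, hf, h₁, ?_⟩
    have e : (T.i₁.comp T.W.toRingHom).comp T.W.toRingHom = T.i₁ :=
      RingHom.ext fun c => congrArg T.i₁ (T.W_W c)
    rw [e, h₂]
    refine Fintype.prod_equiv (Equiv.neg (ZMod q)) _ _ fun a => ?_
    show _ = X - C (Igusa.twist ((T.ζ⁻¹) ^ (-a).val) (T.e₀ f))
    rw [neg_val_pow T.ζ_pow]
  cp₂' f := by
    obtain ⟨P, hP, hdeg, hf, h₁, h₂⟩ := T.cp₂ f
    have e : (T.i₁.comp T.W.toRingHom).comp T.W.toRingHom = T.i₁ :=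
      RingHom.ext fun c => congrArg T.i₁ (T.W_W c)
    refine ⟨P, hP, hdeg, hf, ?_, ?_⟩
    · rw [e, h₁]
      refine congrArg _ (Finset.prod_congr rfl fun a _ => ?_)
      show _ = X - C (coeffMap (T.σ a : K' →+* K')
        (Igusa.twist (T.ζ⁻¹)⁻¹ (Igusa.twist T.ζ⁻¹ (T.eₘ f))))
      rw [inv_inv, ← twist_mul, mul_inv_cancel, Igusa.twist_one]
    · rw [h₂]
      refine Fintype.prod_equiv (Equiv.neg (ZMod q)) _ _ fun a => ?_
      show _ = X - C (Igusa.twist ((T.ζ⁻¹) ^ (-a).val) (T.e₂ f))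
      rw [neg_val_pow T.ζ_pow]
  value_i₁ f hf := T.value_i₁ (T.W f) (by rwa [Ne, map_eq_zero])
  value_e₀ := T.value_e₂
  value_eₘ := T.value_eₘ_twist
  value_e₂ := T.value_e₀
  j := T.j
  i₀_j := T.i₀_j
  transcendental_j := T.transcendental_j
  finite_j := T.finite_j
  isIntegral_W_j := by
    show T.W (T.W (T.α T.j)) ∈ chartRing (baseRing A K) (T.W (T.α T.j))
    exact map_mem_chartRing T.W T.isIntegral_W_j
  cusp_j := by
    obtain ⟨h1, h2, h3, h4⟩ := T.cusp_j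
    have e : (T.W.comp T.α) T.j = T.W (T.α T.j) := rfl
    have e' : T.W ((T.W.comp T.α) T.j) = T.α T.j := T.W_W _
    rw [e', e]
    have hW : ∀ x, x ∈ cuspRing (baseRing A K) (T.α T.j) →
        T.W x ∈ cuspRing (baseRing A K) (T.W (T.α T.j)) := fun x hx => map_mem_cuspRing T.W hx
    have h3' := hW _ h3
    have h4' := hW _ h4
    rw [map_div₀, map_pow, T.W_W] at h3' h4'
    exact ⟨h2, h1, h3', h4'⟩
  resField := T.resField
  jqModC_mem := T.jqModC_mem
  finite_res := T.finite_res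
  separable_res := T.separable_res
  res_mem := T.res_mem
  res_lift := T.res_lift
  res_lift_fin := T.res_lift_fin
  res_lift_inf := T.res_lift_inf
  integral_fin := T.integral_fin
  integral_inf := T.integral_inf
  rational_span := T.rational_span
  omega_unit := T.omega_unit
  h := T.W T.h
  i₁_h := by
    show T.i₁ (T.W (T.W T.h)) * _ = _
    rw [T.W_W, T.i₁_h]
  i₁_W_h := by
    show T.i₁ (T.W (T.W (T.W T.h))) * T.i₁ (T.W (T.W T.h)) = _
    rw [T.W_W, T.W_W, T.i₁_W_h]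
  h_mem := by
    show T.W T.h ∈ chartRing (⊤ : Subring K) (T.W (T.α T.j))
    exact map_mem_chartRing T.W T.h_mem
  h_inv_mem := by
    show (T.W T.h)⁻¹ ∈ chartRing (⊤ : Subring K) (T.W (T.α T.j))
    rw [← map_inv₀]
    exact map_mem_chartRing T.W T.h_inv_mem
  cusp_h := by
    show T.W T.h * T.W (T.W (T.α T.j)) / T.W (T.α T.j) ∈
      chartRing (⊤ : Subring K) (T.W (T.α T.j))⁻¹
    have h := map_mem_chartRing T.W T.cusp_h
    rwa [map_inv₀, map_div₀, map_mul] at h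

@[simp] theorem dual_W : T.dual.W = T.W := rfl

theorem dual_x₁ : T.dual.x₁ = T.W T.x₁ := rfl

end SqTower

end Fermat.Agent.BadPrime.Sq
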