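import Fermat.Agent.BadPrime.Sq.Setup
import Fermat.Agent.BadPrime.GaussLaurent

/-!
# Gauss reductions and the substitutions `Q ↦ Q ^ q`, `Q ↦ ζ Q`
-/

set_option autoImplicit false
set_option linter.unusedSectionVars false

noncomputable section

open ModularCurve

namespace Fermat.Agent.BadPrime.Sq

variable {K' k : Type} [Field K'] [Field k] {A : ValuationSubring K'} {π : A →+* k}

variable (π) in
/-- The series with a reduction. -/
def gaussSeries : Subring (LaurentSeries K') where
  carrier := {x | ∃ g, HasGaussRed π x g}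
  zero_mem' := ⟨0, hasGaussRed_zero⟩
  one_mem' := ⟨1, hasGaussRed_one⟩
  add_mem' := fun ⟨_, h⟩ ⟨_, h'⟩ => ⟨_, h.add h'⟩
  mul_mem' := fun ⟨_, h⟩ ⟨_, h'⟩ => ⟨_, h.mul h'⟩
  neg_mem' := fun ⟨_, h⟩ => ⟨_, h.neg⟩

theorem mem_gaussSeries {x : LaurentSeries K'} :
    x ∈ gaussSeries π ↔ ∃ g, HasGaussRed π x g := Iff.rfl

variable (π) in
/-- The reduction of series, as a ring homomorphism. -/
def seriesRed : gaussSeries π →+* LaurentSeries k where
  toFun x := x.2.choose
  map_zero' := (Subring.zero_mem (gaussSeries π)).choose_spec.unique hasGaussRed_zero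
  map_one' := (Subring.one_mem (gaussSeries π)).choose_spec.unique hasGaussRed_one
  map_add' x y := (x + y).2.choose_spec.unique (x.2.choose_spec.add y.2.choose_spec)
  map_mul' x y := (x * y).2.choose_spec.unique (x.2.choose_spec.mul y.2.choose_spec)

theorem hasGaussRed_seriesRed (x : gaussSeries π) :
    HasGaussRed π (x : LaurentSeries K') (seriesRed π x) :=
  x.2.choose_spec

theorem seriesRed_eq {x : gaussSeries π} {g : LaurentSeries k}
    (h : HasGaussRed π (x : LaurentSeries K') g) : seriesRed π x = g :=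
  (hasGaussRed_seriesRed x).unique h

theorem hasGaussRed_natCast (n : ℕ) : HasGaussRed π (n : LaurentSeries K') (n : LaurentSeries k) := by
  induction n with
  | zero => simpa using hasGaussRed_zero
  | succ n ih => push_cast; exact ih.add hasGaussRed_one

theorem hasGaussRed_sum {ι : Type*} (s : Finset ι) {x : ι → LaurentSeries K'}
    {g : ι → LaurentSeries k} (h : ∀ i ∈ s, HasGaussRed π (x i) (g i)) :
    HasGaussRed π (∑ i ∈ s, x i) (∑ i ∈ s, g i) := by
  classical
  induction s using Finset.induction_on with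
  | empty => simpa using hasGaussRed_zero
  | insert a s ha ih =>
    rw [Finset.sum_insert ha, Finset.sum_insert ha]
    exact (h a (Finset.mem_insert_self a s)).add (ih fun i hi => h i (Finset.mem_insert_of_mem hi))

theorem hasGaussRed_prod {ι : Type*} (s : Finset ι) {x : ι → LaurentSeries K'}
    {g : ι → LaurentSeries k} (h : ∀ i ∈ s, HasGaussRed π (x i) (g i)) :
    HasGaussRed π (∏ i ∈ s, x i) (∏ i ∈ s, g i) := by
  classical
  induction s using Finset.induction_on with
  | empty => simpa using hasGaussRed_one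
  | insert a s ha ih =>
    rw [Finset.prod_insert ha, Finset.prod_insert ha]
    exact (h a (Finset.mem_insert_self a s)).mul (ih fun i hi => h i (Finset.mem_insert_of_mem hi))

theorem hasGaussRed_jqModC : HasGaussRed π (jqModC K') (jqModC k) := by
  have h := hasGaussRed_coeffMap (π := π) (jqModC A)
  rwa [coeffMap_jqModC, coeffMap_jqModC] at h

theorem hasGaussRed_deltaSeries :
    HasGaussRed π (Igusa.deltaSeries K') (Igusa.deltaSeries k) := by
  have h := hasGaussRed_coeffMap (π := π) (Igusa.deltaSeries A)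
  rwa [Igusa.coeffMap_deltaSeries, Igusa.coeffMap_deltaSeries] at h

section Expand

variable {q : ℕ} [NeZero q]

theorem hasGaussRed_qExpand {x : LaurentSeries K'} {g : LaurentSeries k}
    (h : HasGaussRed π x g) : HasGaussRed π (qExpand K' q x) (qExpand k q g) := by
  obtain ⟨a, b, hb, e₁, e₂⟩ := h
  refine ⟨qExpand A q a, qExpand A q b, ?_, ?_, ?_⟩
  · rw [coeffMap_qExpand]
    exact (map_ne_zero_iff _ (qExpand_injective q)).2 hb
  · rw [coeffMap_qExpand, coeffMap_qExpand, ← e₁, map_mul]
  · rw [coeffMap_qExpand, coeffMap_qExpand, ← e₂, map_mul]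

/-- A series with a value whose expansion has a reduction has one. -/
theorem exists_hasGaussRed_of_qExpand [IsLocalHom π] {x : LaurentSeries K'}
    (hval : ∃ (c : K') (g : LaurentSeries k), g ≠ 0 ∧ HasGaussRed π (HahnSeries.C c * x) g)
    {G : LaurentSeries k} (h : HasGaussRed π (qExpand K' q x) G) :
    ∃ g, HasGaussRed π x g := by
  obtain ⟨c, g, hg, hcg⟩ := hval
  rcases eq_or_ne c 0 with rfl | hc
  · rw [map_zero, zero_mul] at hcg
    exact absurd (hcg.unique hasGaussRed_zero) hg
  rcases A.mem_or_inv_mem c⁻¹ with hmem | hmem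
  · refine ⟨HahnSeries.C (π ⟨_, hmem⟩) * g, ?_⟩
    have := (hasGaussRed_C (π := π) ⟨_, hmem⟩).mul hcg
    rwa [← mul_assoc, ← map_mul, inv_mul_cancel₀ hc, map_one, one_mul] at this
  · rw [inv_inv] at hmem
    have h1 := (hasGaussRed_C (π := π) ⟨_, hmem⟩).mul h
    have h2 := hasGaussRed_qExpand (q := q) hcg
    rw [map_mul, qExpand_C] at h2
    have h3 := h1.unique h2
    refine ⟨HahnSeries.C (π ⟨c, hmem⟩)⁻¹ * g, ?_⟩
    have hπ : π ⟨c, hmem⟩ ≠ 0 := fun h0 => by
      rw [h0, map_zero, zero_mul, eq_comm, map_eq_zero_iff _ (qExpand_injective q)] at h3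
      exact hg h3
    have hcA : c⁻¹ ∈ A := by
      obtain ⟨v, hv⟩ := (isUnit_of_map_unit π _ (isUnit_iff_ne_zero.2 hπ)).exists_right_inv
      rw [inv_eq_of_mul_eq_one_right (congrArg Subtype.val hv)]
      exact v.2
    have := (hasGaussRed_C (π := π) ⟨_, hcA⟩).mul hcg
    rw [← mul_assoc, ← map_mul, inv_mul_cancel₀ hc, map_one, one_mul] at this
    have e : π ⟨c⁻¹, hcA⟩ = (π ⟨c, hmem⟩)⁻¹ := eq_inv_of_mul_eq_one_left (by
      rw [← map_mul, ← map_one π]
      exact congrArg π (Subtype.ext (inv_mul_cancel₀ hc)))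
    rwa [e] at this

end Expand

section Twist

variable {q : ℕ} [Fact q.Prime] [CharP k q]

/-- A root of unity of order `q` is integral and reduces to one. -/
theorem exists_res_eq_one {c : K'ˣ} (hc : c ^ q = 1) :
    ∃ u : Aˣ, ((u : A) : K') = c ∧ π u = 1 := by
  have hq : q ≠ 0 := (Fact.out : q.Prime).ne_zero
  have hc' : (c : K') ^ q = 1 := by rw [← Units.val_pow_eq_pow_val, hc, Units.val_one]
  have hmem : (c : K') ∈ A := by
    rcases A.mem_or_inv_mem (c : K') with h | h
    · exact h
    · have h' : (c : K') = (c : K')⁻¹ ^ (q - 1) := by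
        rw [inv_pow]
        refine eq_inv_of_mul_eq_one_left ?_
        rw [← pow_succ', Nat.sub_add_cancel (Nat.one_le_iff_ne_zero.2 hq), hc']
      rw [h']
      exact pow_mem h _
  refine ⟨(IsUnit.of_pow_eq_one (M := A) (a := ⟨_, hmem⟩) (Subtype.ext hc') hq).unit,
    by rw [IsUnit.unit_spec], ?_⟩
  rw [IsUnit.unit_spec]
  have h1 : (π ⟨_, hmem⟩ - 1) ^ q = 0 := by
    rw [sub_pow_char, one_pow, ← map_pow, show (⟨_, hmem⟩ : A) ^ q = 1 from Subtype.ext hc',
      map_one, sub_self]
  exact sub_eq_zero.1 (eq_zero_of_pow_eq_zero h1)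

theorem hasGaussRed_twist {c : K'ˣ} (hc : c ^ q = 1) {x : LaurentSeries K'}
    {g : LaurentSeries k} (h : HasGaussRed π x g) : HasGaussRed π (Igusa.twist c x) g := by
  obtain ⟨u, hu, hu1⟩ := exists_res_eq_one (π := π) hc
  obtain ⟨a, b, hb, e₁, e₂⟩ := h
  have hmap : Units.map π.toMonoidHom u = 1 := Units.ext hu1
  have hmapK : Units.map A.subtype.toMonoidHom u = c := Units.ext hu
  have h1 : ∀ z : LaurentSeries A, coeffMap π (Igusa.twist u z) = coeffMap π z := fun z => by
    rw [Igusa.coeffMap_twist, hmap, Igusa.twist_one]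
  have h2 : ∀ z : LaurentSeries A, coeffMap A.subtype (Igusa.twist u z) =
      Igusa.twist c (coeffMap A.subtype z) := fun z => by
    rw [Igusa.coeffMap_twist, hmapK]
  exact ⟨Igusa.twist u a, Igusa.twist u b, by rw [h1]; exact hb, by rw [h2, h2, ← e₁, map_mul],
    by rw [h1, h1, e₂]⟩

/-- `n ≡ (1 - c ^ n) / (1 - c)` modulo the maximal ideal. -/
theorem exists_res_one_sub_zpow {u : Aˣ} (hu : π u = 1) (n : ℤ) :
    ∃ r : A, (1 - ((u ^ n : Aˣ) : A)) = (1 - (u : A)) * r ∧ π r = n := by
  induction n using Int.induction_on with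
  | zero => exact ⟨0, by simp, by simp⟩
  | succ m ih =>
    obtain ⟨r, hr, hπr⟩ := ih
    refine ⟨1 + (u : A) * r, ?_, ?_⟩
    · rw [zpow_add_one, Units.val_mul]
      linear_combination (u : A) * hr
    · rw [map_add, map_one, map_mul, hu, one_mul, hπr]
      push_cast; ring
  | pred m ih =>
    obtain ⟨r, hr, hπr⟩ := ih
    refine ⟨((u⁻¹ : Aˣ) : A) * (r - 1), ?_, ?_⟩
    · rw [zpow_sub_one, Units.val_mul]
      linear_combination ((u⁻¹ : Aˣ) : A) * hr - u.inv_mul
    · rw [map_mul, map_sub, map_one, hπr]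
      have : π ((u⁻¹ : Aˣ) : A) = 1 := by
        have h := congrArg π u.inv_mul
        rwa [map_mul, hu, mul_one, map_one] at h
      rw [this, one_mul]
      push_cast; ring

/-- `(x - x(cQ)) / (1 - c)` reduces to `θ` of the reduction. -/
theorem hasGaussRed_sub_twist_div [IsLocalHom π] {c : K'ˣ} (hc : c ^ q = 1) (hc1 : c ≠ 1)
    {x : LaurentSeries K'} {g : LaurentSeries k} (h : HasGaussRed π x g) :
    HasGaussRed π (HahnSeries.C (1 - (c : K'))⁻¹ * (x - Igusa.twist c x))
      (Reduction.qDeriv g) := by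
  obtain ⟨u, hu, hu1⟩ := exists_res_eq_one (π := π) hc
  have hne : (1 : K') - c ≠ 0 := sub_ne_zero.2 fun h1 => hc1 (Units.ext h1.symm)
  choose r hr hπr using exists_res_one_sub_zpow (π := π) hu1
  have key : ∀ a : LaurentSeries A, ∃ d : LaurentSeries A,
      coeffMap A.subtype d = HahnSeries.C (1 - (c : K'))⁻¹ *
          (coeffMap A.subtype a - Igusa.twist c (coeffMap A.subtype a)) ∧
        coeffMap π d = Reduction.qDeriv (coeffMap π a) := by
    intro a
    refine ⟨⟨fun n => r n * a.coeff n, a.isPWO_support.mono fun n hn h0 => hn (by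
      simp [h0])⟩, ?_, ?_⟩
    · ext n
      have hrn : (1 : K') - ((c ^ n : K'ˣ) : K') = (1 - (c : K')) * (r n : K') := by
        have h1 := congrArg Subtype.val (hr n)
        push_cast at h1
        rw [← hu]
        convert h1 using 2
        rw [show c = Units.map A.subtype.toMonoidHom u from Units.ext hu.symm, ← map_zpow]
        rfl
      rw [Reduction.coeff_C_mul, HahnSeries.coeff_sub, Igusa.twist_coeff]
      show (r n : K') * (a.coeff n : K') = _
      rw [coeffMap_coeff]
      show (r n : K') * (a.coeff n : K') = (1 - (c : K'))⁻¹ *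
        ((a.coeff n : K') - ((c ^ n : K'ˣ) : K') * (a.coeff n : K'))
      field_simp
      linear_combination -(a.coeff n : K') * hrn
    · ext n
      rw [Reduction.qDeriv_coeff]
      show π (r n * a.coeff n) = (n : k) * π (a.coeff n)
      rw [map_mul, hπr]
  obtain ⟨a, b, hb, e₁, e₂⟩ := h
  have hmap : Units.map π.toMonoidHom u = 1 := Units.ext hu1
  have hmapK : Units.map A.subtype.toMonoidHom u = c := Units.ext hu
  obtain ⟨da, hda, hda'⟩ := key a
  obtain ⟨db, hdb, hdb'⟩ := key b
  refine ⟨da * Igusa.twist u b - Igusa.twist u a * db, b * Igusa.twist u b, ?_, ?_, ?_⟩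
  · rw [map_mul, Igusa.coeffMap_twist, hmap, Igusa.twist_one]
    exact mul_ne_zero hb hb
  · simp only [map_mul, map_sub, Igusa.coeffMap_twist, hmapK, hda, hdb, ← e₁]
    ring
  · simp only [map_mul, map_sub, Igusa.coeffMap_twist, hmap, Igusa.twist_one, hda', hdb', ← e₂,
      Reduction.qDeriv_mul]
    ring

end Twist

end Fermat.Agent.BadPrime.Sq
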