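import Fermat.Agent.BadPrime.Sq.Charts
import Fermat.Agent.BadPrime.Sq.ChartsMap
import Fermat.Agent.BadPrime.Sq.Series
import Fermat.Agent.BadPrime.RegularModels
import Mathlib.Algebra.Polynomial.BigOperators
import Mathlib.RingTheory.RootsOfUnity.Lemmas

/-!
# Level `N q`: the two components and the integral model
-/

set_option autoImplicit false
set_option linter.unusedSectionVars false
set_option linter.style.haveILetI false

noncomputable section

open ModularCurve Polynomial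

namespace Fermat.Agent.BadPrime.Sq

variable {q : ℕ} [Fact q.Prime] {K K' k : Type} [Field K] [Field K'] [Algebra K K'] [Field k]
  [CharZero K] [CharP k q] {A : ValuationSubring K'} {π : A →+* k} (T : SqTower q K π)

namespace SqTower

include T in
theorem natCast_ne_zero' : (q : K') ≠ 0 := by
  have : CharZero K' := charZero_of_injective_algebraMap (algebraMap K K').injective
  exact Nat.cast_ne_zero.2 (Fact.out : q.Prime).ne_zero

theorem ζ_pow : T.ζ ^ q = 1 := T.primitive.pow_eq_one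

theorem ζ_pow_pow (a : ℕ) : (T.ζ ^ a) ^ q = 1 := by
  rw [← pow_mul, mul_comm, pow_mul, T.ζ_pow, one_pow]

theorem mem_baseRing {c : K} : c ∈ baseRing A K ↔ algebraMap K K' c ∈ A := Iff.rfl

include T in
theorem natCast_mem : (q : K) ∈ baseRing A K := _root_.natCast_mem _ q

include T in
theorem hasGaussRed_C_natCast : HasGaussRed π (HahnSeries.C (q : K')) 0 := by
  have h := hasGaussRed_natCast (π := π) q
  rw [← map_natCast (HahnSeries.C (Γ := ℤ) (R := K'))] at h
  rwa [← map_natCast (algebraMap k (LaurentSeries k)), CharP.cast_eq_zero k q, map_zero] at h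

include T in
/-- A series with a value has a reduction, or its inverse has. -/
theorem exists_res_or_inv {x : LaurentSeries K'} (hval : x ≠ 0 → ∃ (i : ℤ) (g : LaurentSeries k),
    g ≠ 0 ∧ HasGaussRed π (HahnSeries.C ((q : K') ^ i) * x) g) :
    (∃ g, HasGaussRed π x g) ∨ ∃ g, HasGaussRed π x⁻¹ g := by
  rcases eq_or_ne x 0 with rfl | hx
  · exact Or.inl ⟨0, hasGaussRed_zero⟩
  obtain ⟨i, g, hg, h⟩ := hval hx
  have hqm := fun m : ℕ => (T.hasGaussRed_C_natCast).pow m
  have hq := T.natCast_ne_zero'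
  rcases le_or_gt i 0 with hi | hi
  · obtain ⟨m, hm⟩ := Int.eq_ofNat_of_zero_le (show 0 ≤ -i by omega)
    refine Or.inl ⟨_, (?_ : HasGaussRed π x ((0 : LaurentSeries k) ^ m * g))⟩
    have h1 := (hqm m).mul h
    rwa [← map_pow, ← mul_assoc, ← map_mul, ← zpow_natCast, ← zpow_add₀ hq,
      show (m : ℤ) + i = 0 by omega, zpow_zero, map_one, one_mul] at h1
  · obtain ⟨m, rfl⟩ := Int.eq_ofNat_of_zero_le hi.le
    refine Or.inr ⟨_, (?_ : HasGaussRed π x⁻¹ ((0 : LaurentSeries k) ^ m * g⁻¹))⟩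
    have h1 := (hqm m).mul (h.inv hg)
    rwa [← map_pow, zpow_natCast, mul_inv, ← mul_assoc, mul_inv_cancel₀
      ((map_ne_zero_iff _ HahnSeries.C_injective).2 (pow_ne_zero m hq)), one_mul] at h1

include T in
/-- A series with a value and zero reduction is divisible by `q`. -/
theorem exists_res_div {x : LaurentSeries K'} (hval : x ≠ 0 → ∃ (i : ℤ) (g : LaurentSeries k),
    g ≠ 0 ∧ HasGaussRed π (HahnSeries.C ((q : K') ^ i) * x) g) (h0 : HasGaussRed π x 0) :
    ∃ g, HasGaussRed π (HahnSeries.C (q : K')⁻¹ * x) g := by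
  rcases eq_or_ne x 0 with rfl | hx
  · exact ⟨0, by rw [mul_zero]; exact hasGaussRed_zero⟩
  obtain ⟨i, g, hg, h⟩ := hval hx
  have hqm := fun m : ℕ => (T.hasGaussRed_C_natCast).pow m
  have hq := T.natCast_ne_zero'
  rcases le_or_gt 0 i with hi | hi
  · obtain ⟨m, rfl⟩ := Int.eq_ofNat_of_zero_le hi
    have h1 := (hqm m).mul h0
    rw [← map_pow, ← zpow_natCast, mul_zero] at h1
    exact absurd (h.unique h1) hg
  · obtain ⟨m, hm⟩ := Int.eq_ofNat_of_zero_le (show 0 ≤ -1 - i by omega)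
    refine ⟨_, (?_ : HasGaussRed π _ ((0 : LaurentSeries k) ^ m * g))⟩
    have h1 := (hqm m).mul h
    rwa [← map_pow, ← mul_assoc, ← map_mul, ← zpow_natCast, ← zpow_add₀ hq,
      show (m : ℤ) + i = -1 by omega, zpow_neg_one] at h1

/-- `j(τ)` at level `N q`. -/
abbrev x₁ : T.F₁ := T.α T.j

/-- The chart at finite `j` of level `N q`. -/
abbrev B₁ : Subring T.F₁ := chartRing (baseRing A K) T.x₁

/-- `f` reduces to `g` on the component of `∞`. -/
abbrev Res₀ (f : T.F₁) (g : LaurentSeries k) : Prop := HasGaussRed π (T.i₁ f) g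

/-- `f` reduces to `g` on the other component. -/
abbrev Res₁ (f : T.F₁) (g : LaurentSeries k) : Prop := HasGaussRed π (T.i₁ (T.W f)) g

/-- The coordinate ring of the special fibre at level `N`. -/
abbrev resFin : Subring (LaurentSeries k) := resRing T.resField (jqModC k)

include T in
theorem isUniformiser : IsUniformiser (baseRing A K) (q : K) := by
  refine ⟨T.natCast_mem, fun h => ?_, fun c hc => ?_⟩
  · rw [mem_baseRing, map_inv₀, map_natCast] at h
    have h2 : (q : K')⁻¹ * (q : K') ∈ A.nonunits := by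
      obtain ⟨hq, hmax⟩ := ValuationSubring.mem_nonunits_iff_exists_mem_maximalIdeal.1 T.natCast_mem_nonunits
      exact ValuationSubring.mem_nonunits_iff_exists_mem_maximalIdeal.2
        ⟨A.mul_mem _ _ h hq, Ideal.mul_mem_left _ ⟨_, h⟩ hmax⟩
    rw [inv_mul_cancel₀ T.natCast_ne_zero', ValuationSubring.mem_nonunits_iff, map_one] at h2
    exact lt_irrefl 1 h2
  · obtain ⟨i, h1, h2⟩ := T.uniform c hc
    refine ⟨i, ?_, ?_⟩ <;> rw [mem_baseRing, map_div₀, map_zpow₀, map_natCast]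
    · exact h1
    · exact h2

theorem res₀_natCast : T.Res₀ (q : T.F₁) 0 := by
  show HasGaussRed π (T.i₁ (q : T.F₁)) 0
  rw [map_natCast, ← map_natCast (HahnSeries.C (Γ := ℤ) (R := K'))]
  exact T.hasGaussRed_C_natCast

theorem i₁_x : T.i₁ T.x₁ = jqModC K' := by
  rw [SqTower.x₁, T.i₁_α, T.i₀_j]

theorem i₁_W_x : T.i₁ (T.W T.x₁) = qExpand K' q (jqModC K') := by
  rw [SqTower.x₁, T.i₁_W_α, T.i₀_j]

/-- The elements with a reduction on the component of `∞`. -/
def V₀ : ValuationSubring T.F₁ :=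
  { (gaussSeries π).comap T.i₁ with
    mem_or_inv_mem' := fun f => by
      have := T.exists_res_or_inv (x := T.i₁ f)
        (fun h => T.value_i₁ f (fun h0 => h (by rw [h0, map_zero])))
      rwa [← map_inv₀] at this }

theorem mem_V₀ {f : T.F₁} : f ∈ T.V₀ ↔ ∃ g, T.Res₀ f g := Iff.rfl

theorem algebraMap_mem_V₀ {c : K} (hc : c ∈ baseRing A K) : algebraMap K T.F₁ c ∈ T.V₀ :=
  ⟨_, by rw [T.i₁_algebraMap]; exact hasGaussRed_C ⟨_, hc⟩⟩

theorem chartRing_le_valuationSubring {F : Type} [Field F] [Algebra K F] (V : ValuationSubring F)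
    {S : Subring K} (hS : ∀ c ∈ S, algebraMap K F c ∈ V) {t : F} (ht : t ∈ V) {x : F}
    (hx : x ∈ chartRing S t) : x ∈ V := by
  have hle : ∀ y ∈ Algebra.adjoin S {t}, y ∈ V := by
    intro y hy
    induction hy using Algebra.adjoin_induction with
    | mem z hz => rwa [Set.mem_singleton_iff.1 hz]
    | algebraMap c => exact hS _ c.2
    | add a b _ _ ha hb => exact add_mem ha hb
    | mul a b _ _ ha hb => exact mul_mem ha hb
  obtain ⟨p, hp, hpx⟩ := (mem_chartRing S t).1 hx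
  let f : Algebra.adjoin S {t} →+* V :=
    ((Algebra.adjoin S {t}).val.toRingHom).codRestrict V.toSubring fun y => hle y y.2
  have hint : IsIntegral V x := by
    refine ⟨p.map f, hp.map f, ?_⟩
    rw [eval₂_map]
    exact hpx
  obtain ⟨y, hy⟩ := IsIntegrallyClosed.isIntegral_iff.1 hint
  exact hy ▸ y.2

/-- Conjugates of an element of level `N q` over level `N`. -/
def conj₁ (o : Option (ZMod q)) : T.F₁ →+* LaurentSeries K' :=
  o.elim ((qExpand K' q).comp T.i₁) fun a =>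
    (Igusa.twist (T.ζ ^ a.val)).comp (T.i₁.comp T.W.toRingHom)

theorem exists_conj₁ (f : T.F₁) : ∃ P : Polynomial T.F₀, P.Monic ∧ P.natDegree = q + 1 ∧
    P.eval₂ T.α.toRingHom f = 0 ∧
    P.map (((qExpand K' q).comp T.i₁).comp T.α.toRingHom) = ∏ o, (X - C (T.conj₁ o f)) := by
  obtain ⟨P, hP, hdeg, hf, hmap⟩ := T.cp₁ f
  refine ⟨P, hP, hdeg, hf, ?_⟩
  rw [Fintype.prod_option]
  rw [show ((qExpand K' q).comp T.i₁).comp T.α.toRingHom = (qExpand K' q).comp T.i₀ from
    RingHom.ext fun c => congrArg (qExpand K' q) (T.i₁_α c)]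
  exact hmap

theorem value_i₀ (c : T.F₀) (hc : c ≠ 0) : ∃ (u : K') (g : LaurentSeries k), g ≠ 0 ∧
    HasGaussRed π (HahnSeries.C u * T.i₀ c) g := by
  obtain ⟨i, g, hg, h⟩ := T.value_i₁ (T.α c) (by rwa [Ne, map_eq_zero])
  exact ⟨_, g, hg, by rwa [T.i₁_α] at h⟩

theorem mem_B₁ {f : T.F₁} (hf : f ∈ chartRing (⊤ : Subring K) T.x₁) (h₀ : ∃ g, T.Res₀ f g)
    (h₁ : ∃ g, T.Res₁ f g) : f ∈ T.B₁ := by
  haveI := T.isLocalHom
  obtain ⟨g₀, h₀⟩ := h₀
  obtain ⟨g₁, h₁⟩ := h₁
  obtain ⟨P, hP, -, hf0, hmap⟩ := T.exists_conj₁ f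
  have htw : ∀ (a : ZMod q) (x : LaurentSeries K'),
      Igusa.twist (T.ζ ^ a.val) (qExpand K' q x) = qExpand K' q x := fun a x => by
    ext m
    rw [Igusa.twist_coeff]
    by_cases hm : (q : ℤ) ∣ m
    · obtain ⟨i, rfl⟩ := hm
      rw [zpow_mul, zpow_natCast, T.ζ_pow_pow, one_zpow, Units.val_one, one_mul]
    · rw [qExpand_coeff_of_not_dvd q x hm, mul_zero]
  have hcoeff : ∀ i, P.coeff i ∈ chartRing (baseRing A K) T.j := by
    intro i
    refine T.integral_fin _ ?_ ?_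
    · refine coeff_prod_mem_chartRing T.α ((qExpand K' q).comp T.i₁) T.conj₁ (f := f) ?_ ?_ hf hmap i
      · rintro (_ | a)
        · rfl
        · show Igusa.twist (T.ζ ^ a.val) (T.i₁ (T.W T.x₁)) = qExpand K' q (T.i₁ T.x₁)
          rw [T.i₁_W_x, T.i₁_x, htw]
      · rintro (_ | a) c
        · rfl
        · show Igusa.twist (T.ζ ^ a.val) (T.i₁ (T.W (algebraMap K T.F₁ c))) =
            qExpand K' q (T.i₁ (algebraMap K T.F₁ c))
          rw [AlgHom.commutes, T.i₁_algebraMap, qExpand_C, ← qExpand_C (R := K') q, htw]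
    · rcases eq_or_ne (P.coeff i) 0 with h | h
      · exact ⟨0, by rw [h, map_zero]; exact hasGaussRed_zero⟩
      have hroots : ∀ o, ∃ g, HasGaussRed π (T.conj₁ o f) g := by
        rintro (_ | a)
        · exact ⟨_, hasGaussRed_qExpand h₀⟩
        · exact ⟨_, hasGaussRed_twist (T.ζ_pow_pow _) h₁⟩
      have hmem : (qExpand K' q) (T.i₀ (P.coeff i)) ∈ gaussSeries π := by
        have e : (P.map (((qExpand K' q).comp T.i₁).comp T.α.toRingHom)).coeff i ∈
            gaussSeries π := by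
          rw [hmap]
          have : (∏ o, (X - C (T.conj₁ o f))) =
              (∏ o, (X - C (⟨_, hroots o⟩ : gaussSeries π))).map (gaussSeries π).subtype := by
            simp [Polynomial.map_prod]
          rw [this, coeff_map]
          exact SetLike.coe_mem _
        rw [coeff_map] at e
        rwa [← T.i₁_α]
      obtain ⟨G, hG⟩ := hmem
      exact exists_hasGaussRed_of_qExpand (T.value_i₀ _ h) hG
  refine mem_chartRing_of_monic (p := P.map T.α.toRingHom) (hP.map _) (fun i => ?_)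
    (by rw [eval_map]; exact hf0)
  rw [coeff_map]
  exact map_mem_chartRing T.α (hcoeff i)

theorem W_mem_B₁ {f : T.F₁} (hf : f ∈ T.B₁) : T.W f ∈ T.B₁ := by
  exact chartRing_le_of_mem le_rfl T.isIntegral_W_j (map_mem_chartRing T.W hf)

theorem α_mem_B₁ {t : T.F₀} (ht : t ∈ chartRing (baseRing A K) T.j) : T.α t ∈ T.B₁ := by
  exact map_mem_chartRing T.α ht

theorem exists_res {f : T.F₁} (hf : f ∈ T.B₁) : ∃ g, T.Res₀ f g :=
  T.mem_V₀.1 (chartRing_le_valuationSubring T.V₀ (fun _ hc => T.algebraMap_mem_V₀ hc)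
    (T.mem_V₀.2 ⟨jqModC k, by show HasGaussRed π _ _; rw [T.i₁_x]; exact hasGaussRed_jqModC⟩) hf)

theorem qExpand_jqModC_eq_pow : qExpand k q (jqModC k) = jqModC k ^ q := by
  conv_rhs => rw [← qExpand_frobTwist (q := q) (jqModC k)]
  rw [frobTwist, coeffMap_jqModC]

theorem jqModC_sub_pow_ne_zero : jqModC k ^ (q ^ 2) - jqModC k ≠ 0 := by
  intro h
  have h1 := sub_eq_zero.1 h
  have h2 : (jqModC k ^ (q ^ 2)).coeff (-((q ^ 2 : ℕ) : ℤ)) = 1 := coeff_jqModC_pow_self k (q ^ 2)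
  rw [h1, coeff_jqModC_of_lt k] at h2
  · exact zero_ne_one h2
  · have : 2 ≤ q ^ 2 := le_trans (Fact.out : q.Prime).two_le (Nat.le_self_pow two_ne_zero q)
    omega

/-- Reductions on the component of `∞` lie in the residue field of level `N`. -/
theorem res₀_mem {f : T.F₁} {g : LaurentSeries k} (hf : T.Res₀ f g) : g ∈ T.resField := by
  haveI := T.isLocalHom
  rcases eq_or_ne f 0 with rfl | hf0
  · have : g = 0 := hf.unique (by simpa [Res₀] using hasGaussRed_zero)
    rw [this]; exact zero_mem _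
  -- `s` separates the two components
  set sb : LaurentSeries k := jqModC k ^ (q ^ 2) - jqModC k with hsb
  set s : T.F₁ := T.W T.x₁ ^ q - T.x₁ with hs
  have hs₀ : T.Res₀ s sb := by
    show HasGaussRed π _ _
    rw [hs, map_sub, map_pow, T.i₁_W_x, T.i₁_x, hsb, pow_two q, pow_mul, ← qExpand_jqModC_eq_pow (k := k),
      sub_eq_add_neg, sub_eq_add_neg]
    exact ((hasGaussRed_qExpand hasGaussRed_jqModC).pow q).add (hasGaussRed_jqModC.neg)
  have hs₁ : T.Res₁ s 0 := by
    show HasGaussRed π _ _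
    rw [hs, map_sub, map_pow, T.W_W, map_sub, map_pow, T.i₁_W_x, T.i₁_x, sub_eq_add_neg]
    have := (hasGaussRed_jqModC (π := π)).pow q |>.add (hasGaussRed_qExpand (q := q) hasGaussRed_jqModC).neg
    rwa [qExpand_jqModC_eq_pow (k := k), add_neg_cancel] at this
  have hval : ∀ x : T.F₁, T.i₁ x ≠ 0 → ∃ (i : ℤ) (g : LaurentSeries k), g ≠ 0 ∧
      HasGaussRed π (HahnSeries.C ((q : K') ^ i) * T.i₁ x) g := fun x h =>
    T.value_i₁ x (fun h0 => h (by rw [h0, map_zero]))
  obtain ⟨gs, hgs⟩ := T.exists_res_div (hval (T.W s)) hs₁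
  obtain ⟨i, gf, -, hgf⟩ := T.value_i₁ (T.W f) (by rwa [Ne, map_eq_zero])
  obtain ⟨N, hN⟩ : ∃ N : ℕ, i ≤ N := ⟨i.toNat, Int.self_le_toNat i⟩
  have hq := T.natCast_ne_zero'
  obtain ⟨g₁, hg₁⟩ : ∃ g₁, T.Res₁ (f * s ^ N) g₁ := by
    obtain ⟨m, hm⟩ := Int.eq_ofNat_of_zero_le (show 0 ≤ (N : ℤ) - i by omega)
    refine ⟨(0 : LaurentSeries k) ^ m * gf * gs ^ N, ?_⟩
    have h := ((T.hasGaussRed_C_natCast.pow m).mul hgf).mul (hgs.pow N)
    show HasGaussRed π _ _
    have e : T.i₁ (T.W (f * s ^ N)) = HahnSeries.C (q : K') ^ m *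
        (HahnSeries.C ((q : K') ^ i) * T.i₁ (T.W f)) *
          (HahnSeries.C (q : K')⁻¹ * T.i₁ (T.W s)) ^ N := by
      rw [show T.i₁ (T.W (f * s ^ N)) = T.i₁ (T.W f) * T.i₁ (T.W s) ^ N by simp only [map_mul, map_pow],
        mul_pow, ← map_pow HahnSeries.C, ← map_pow HahnSeries.C]
      have e1 : (q : K') ^ m * (q : K') ^ i * ((q : K')⁻¹) ^ N = 1 := by
        rw [inv_pow, ← zpow_natCast, ← zpow_natCast, ← zpow_add₀ hq, ← zpow_neg, ← zpow_add₀ hq,
          show (m : ℤ) + i + -(N : ℤ) = 0 by omega, zpow_zero]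
      calc T.i₁ (T.W f) * T.i₁ (T.W s) ^ N
          = HahnSeries.C ((q : K') ^ m * (q : K') ^ i * ((q : K')⁻¹) ^ N) *
              (T.i₁ (T.W f) * T.i₁ (T.W s) ^ N) := by rw [e1, map_one, one_mul]
        _ = _ := by rw [map_mul, map_mul]; ring
    rwa [e]
  obtain ⟨P, hP, hdeg, -, hmap⟩ := T.exists_conj₁ (f * s ^ N)
  -- the trace
  have htr : qExpand K' q (T.i₀ (-P.nextCoeff)) = ∑ o, T.conj₁ o (f * s ^ N) := by
    have h := congrArg Polynomial.nextCoeff hmap
    rw [prod_X_sub_C_nextCoeff, nextCoeff_map (RingHom.injective _)] at h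
    rw [map_neg, map_neg, neg_eq_iff_eq_neg, ← h, ← T.i₁_α]
    rfl
  have hsum : HasGaussRed π (∑ o, T.conj₁ o (f * s ^ N)) (qExpand k q (g * sb ^ N)) := by
    have h1 : ∀ o : Option (ZMod q), HasGaussRed π (T.conj₁ o (f * s ^ N))
        (o.elim (qExpand k q (g * sb ^ N)) fun _ => g₁) := by
      rintro (_ | a)
      · refine hasGaussRed_qExpand ?_
        rw [map_mul, map_pow]
        exact hf.mul (hs₀.pow N)
      · exact hasGaussRed_twist (T.ζ_pow_pow _) hg₁
    have h2 := hasGaussRed_sum Finset.univ fun o _ => h1 o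
    conv at h2 => arg 3; rw [Fintype.sum_option]; simp only [Option.elim_none, Option.elim_some]
    rwa [show (∑ a : ZMod q, g₁) = 0 by
      rw [Finset.sum_const, Finset.card_univ, ZMod.card, nsmul_eq_mul,
        ← map_natCast (algebraMap k (LaurentSeries k)), CharP.cast_eq_zero, map_zero, zero_mul],
      add_zero] at h2
  rw [← htr] at hsum
  have hX : g * sb ^ N ∈ T.resField := by
    rcases eq_or_ne (-P.nextCoeff) 0 with h | h
    · rw [h, map_zero, map_zero] at hsum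
      have := hsum.unique hasGaussRed_zero
      rw [map_eq_zero_iff _ (qExpand_injective q)] at this
      rw [this]; exact zero_mem _
    · obtain ⟨g', hg'⟩ := exists_hasGaussRed_of_qExpand (T.value_i₀ _ h) hsum
      rw [qExpand_injective q (hsum.unique (hasGaussRed_qExpand hg'))]
      exact T.res_mem _ _ hg'
  have hsbX : sb ∈ T.resField := sub_mem (pow_mem T.jqModC_mem _) T.jqModC_mem
  have := div_mem hX (pow_mem hsbX N)
  rwa [mul_div_cancel_right₀ _ (pow_ne_zero N jqModC_sub_pow_ne_zero)] at this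

theorem isIntegral_res {f : T.F₁} (hf : f ∈ T.B₁) {g : LaurentSeries k} (hg : T.Res₀ f g) :
    IsIntegral (Algebra.adjoin k {jqModC k}) g := by
  have hx : T.x₁ ∈ (gaussSeries π).comap T.i₁ :=
    ⟨_, by rw [T.i₁_x]; exact hasGaussRed_jqModC⟩
  let φ : (gaussSeries π).comap T.i₁ →+* LaurentSeries k :=
    (seriesRed π).comp ((T.i₁.comp ((gaussSeries π).comap T.i₁).subtype).codRestrict _ fun y => y.2)
  have hle : ∀ y ∈ Algebra.adjoin (baseRing A K) {T.x₁}, ∃ h : y ∈ (gaussSeries π).comap T.i₁,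
      φ ⟨y, h⟩ ∈ Algebra.adjoin k {jqModC k} := by
    intro y hy
    induction hy using Algebra.adjoin_induction with
    | mem z hz =>
      rw [Set.mem_singleton_iff] at hz
      subst hz
      refine ⟨hx, ?_⟩
      rw [show φ ⟨_, hx⟩ = jqModC k from seriesRed_eq (by
        show HasGaussRed π (T.i₁ T.x₁) _; rw [T.i₁_x]; exact hasGaussRed_jqModC)]
      exact Algebra.self_mem_adjoin_singleton k _
    | algebraMap c =>
      show ∃ h, φ ⟨algebraMap K T.F₁ (c : K), h⟩ ∈ Algebra.adjoin k {jqModC k}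
      refine ⟨T.algebraMap_mem_V₀ c.2, ?_⟩
      rw [show φ ⟨_, T.algebraMap_mem_V₀ c.2⟩ = HahnSeries.C (π ⟨_, c.2⟩) from seriesRed_eq (by
        show HasGaussRed π (T.i₁ (algebraMap K T.F₁ (c : K))) _
        rw [T.i₁_algebraMap]; exact hasGaussRed_C ⟨_, c.2⟩)]
      rw [show (HahnSeries.C (π ⟨_, c.2⟩) : LaurentSeries k) = algebraMap k _ (π ⟨_, c.2⟩) by
        rw [algebraMap_laurentSeries_eq_single, HahnSeries.C_apply]]
      exact Subalgebra.algebraMap_mem _ _
    | add a b _ _ ha hb =>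
      obtain ⟨ha, ha'⟩ := ha
      obtain ⟨hb, hb'⟩ := hb
      exact ⟨add_mem ha hb, by simpa using (map_add φ ⟨a, ha⟩ ⟨b, hb⟩).symm ▸ add_mem ha' hb'⟩
    | mul a b _ _ ha hb =>
      obtain ⟨ha, ha'⟩ := ha
      obtain ⟨hb, hb'⟩ := hb
      exact ⟨mul_mem ha hb, by simpa using (map_mul φ ⟨a, ha⟩ ⟨b, hb⟩).symm ▸ mul_mem ha' hb'⟩
  obtain ⟨p, hp, hpf⟩ := (mem_chartRing _ _).1 hf
  let ψ : Algebra.adjoin (baseRing A K) {T.x₁} →+* (gaussSeries π).comap T.i₁ :=
    ((Algebra.adjoin (baseRing A K) {T.x₁}).val.toRingHom).codRestrict _ fun y => (hle y y.2).1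
  let χ : Algebra.adjoin (baseRing A K) {T.x₁} →+* Algebra.adjoin k {jqModC k} :=
    (φ.comp ψ).codRestrict _ fun y => (hle y y.2).2
  refine ⟨p.map χ, hp.map χ, ?_⟩
  have h0 : p.eval₂ ψ ⟨f, ⟨g, hg⟩⟩ = 0 := Subtype.ext (by
    show ((gaussSeries π).comap T.i₁).subtype _ = 0
    rw [hom_eval₂]; exact hpf)
  have h1 := congrArg φ h0
  rw [hom_eval₂, map_zero, show φ ⟨f, ⟨g, hg⟩⟩ = g from seriesRed_eq hg] at h1
  rw [eval₂_map]
  exact h1

theorem exists_res₀ {f : T.F₁} (hf : f ∈ T.B₁) : ∃ g ∈ T.resFin, T.Res₀ f g := by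
  obtain ⟨g, hg⟩ := T.exists_res hf
  exact ⟨g, ⟨T.res₀_mem hg, T.isIntegral_res hf hg⟩, hg⟩

theorem exists_res₁ {f : T.F₁} (hf : f ∈ T.B₁) : ∃ g ∈ T.resFin, T.Res₁ f g := by
  exact T.exists_res₀ (T.W_mem_B₁ hf)

/-- Vanishing on both components means divisibility by `q`. -/
theorem div_mem_B₁ {f : T.F₁} (hf : f ∈ T.B₁) (h₀ : T.Res₀ f 0) (h₁ : T.Res₁ f 0) :
    f / (q : T.F₁) ∈ T.B₁ := by
  have hinv : algebraMap K T.F₁ (q : K)⁻¹ = ((q : T.F₁))⁻¹ := by rw [map_inv₀, map_natCast]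
  rw [div_eq_mul_inv, ← hinv]
  have hq : ∀ x : T.F₁, T.i₁ (x * algebraMap K T.F₁ (q : K)⁻¹) =
      HahnSeries.C (q : K')⁻¹ * T.i₁ x := fun x => by
    rw [map_mul, T.i₁_algebraMap, map_inv₀, map_natCast, mul_comm]
  refine T.mem_B₁ (mul_mem (chartRing_mono _ _ le_top hf)
    (algebraMap_mem_chartRing _ _ (Subring.mem_top _))) ?_ ?_
  · show ∃ g, HasGaussRed π _ g
    rw [hq]
    exact T.exists_res_div (fun h => T.value_i₁ f (fun h' => h (by rw [h', map_zero]))) h₀
  · show ∃ g, HasGaussRed π _ g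
    rw [map_mul, AlgHom.commutes, hq]
    exact T.exists_res_div (fun h => T.value_i₁ _ (fun h' => h (by rw [h', map_zero]))) h₁

/-- `(θ t) ^ (q - 1)` lies in the residue field. -/
theorem qDeriv_pow_mem [IsAlgClosed k] {t : LaurentSeries k} (ht : t ∈ T.resFin) :
    Reduction.qDeriv t ^ (q - 1) ∈ T.resField := by
  haveI := T.isLocalHom
  classical
  -- the derivative of the conjugate polynomial of `j(qτ)`
  obtain ⟨P, hP, -, -, hmap⟩ := T.cp₁ (T.W T.x₁)
  set Pb : Polynomial T.F₁ := P.map (T.W.comp T.α).toRingHom with hPb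
  set J := jqModC K' with hJ
  have hPbmap : Pb.map T.i₁ =
      (X - C J) * ((X - C (qExpand K' q (qExpand K' q J))) *
        ∏ a ∈ (Finset.univ : Finset (ZMod q)).erase 0, (X - C (Igusa.twist (T.ζ ^ a.val) J))) := by
    rw [hPb, Polynomial.map_map, show T.i₁.comp (T.W.comp T.α).toRingHom =
      (qExpand K' q).comp T.i₀ from RingHom.ext fun c => T.i₁_W_α c, hmap, T.i₁_W_x, T.W_W, T.i₁_x,
      ← Finset.mul_prod_erase _ _ (Finset.mem_univ (0 : ZMod q))]
    simp only [ZMod.val_zero, pow_zero, Igusa.twist_one]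
    ring
  set D : T.F₁ := Pb.derivative.eval T.x₁ / ((q : T.F₁) * (T.x₁ - T.W T.x₁ ^ q)) with hD
  have hDi : T.i₁ (Pb.derivative.eval T.x₁) = (J - qExpand K' q (qExpand K' q J)) *
      ∏ a ∈ (Finset.univ : Finset (ZMod q)).erase 0, (J - Igusa.twist (T.ζ ^ a.val) J) := by
    have e := congrArg (fun p : Polynomial (LaurentSeries K') => p.derivative.eval J) hPbmap
    simp only [derivative_map, derivative_mul, eval_add, eval_mul, derivative_sub, derivative_X,
      derivative_C, sub_zero, eval_one, one_mul, eval_sub, eval_X, eval_C, sub_self, zero_mul,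
      add_zero, eval_prod] at e
    rw [hJ, ← T.i₁_x, eval_map_apply, T.i₁_x] at e
    rw [hJ]
    exact e
  have hζne : ∀ a ∈ (Finset.univ : Finset (ZMod q)).erase 0, T.ζ ^ a.val ≠ 1 := by
    intro a ha h1
    refine Finset.ne_of_mem_erase ha ((ZMod.val_eq_zero a).1 ?_)
    exact Nat.eq_zero_of_dvd_of_lt ((T.primitive.pow_eq_one_iff_dvd _).1 h1) (ZMod.val_lt a)
  have hprod : (q : K') = ∏ a ∈ (Finset.univ : Finset (ZMod q)).erase 0,
      (1 - ((T.ζ : K') ^ a.val)) := by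
    have h1 : q - 1 + 1 = q := Nat.succ_pred_eq_of_pos (Fact.out : q.Prime).pos
    have h2 := IsPrimitiveRoot.prod_one_sub_pow_eq_order (μ := (T.ζ : K')) (n := q - 1)
      (by rw [h1]; exact IsPrimitiveRoot.coe_units_iff.2 T.primitive)
    have hq : (q : K') = ((q - 1 : ℕ) : K') + 1 := by exact_mod_cast congrArg (Nat.cast (R := K')) h1.symm
    rw [hq, ← h2]
    refine Finset.prod_bij (fun i _ => ((i + 1 : ℕ) : ZMod q)) ?_ ?_ ?_ ?_
    · intro i hi
      rw [Finset.mem_range] at hi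
      refine Finset.mem_erase.2 ⟨fun h0 => ?_, Finset.mem_univ _⟩
      have := Nat.le_of_dvd (Nat.succ_pos i) ((ZMod.natCast_eq_zero_iff _ _).1 h0)
      omega
    · intro i hi i' hi' h
      rw [Finset.mem_range] at hi hi'
      have := congrArg ZMod.val h
      rw [ZMod.val_natCast, ZMod.val_natCast, Nat.mod_eq_of_lt (by omega),
        Nat.mod_eq_of_lt (by omega)] at this
      omega
    · intro a ha
      have hlt := ZMod.val_lt a
      have hpos : 0 < a.val := Nat.pos_of_ne_zero fun h0 =>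
        Finset.ne_of_mem_erase ha ((ZMod.val_eq_zero a).1 h0)
      exact ⟨a.val - 1, Finset.mem_range.2 (by omega), by
        rw [Nat.sub_add_cancel hpos, ZMod.natCast_zmod_val]⟩
    · intro i hi
      rw [Finset.mem_range] at hi
      rw [ZMod.val_natCast, Nat.mod_eq_of_lt (by omega)]
  set jb := jqModC k with hjb
  have hne : jb - jb ^ (q ^ 2) ≠ 0 := fun h => jqModC_sub_pow_ne_zero (k := k) (q := q)
    (by rw [← hjb, ← neg_sub, h, neg_zero])
  have hden : HasGaussRed π (J - qExpand K' q J ^ q) (jb - jb ^ (q ^ 2)) := by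
    rw [sub_eq_add_neg, sub_eq_add_neg, pow_two q, pow_mul, ← qExpand_jqModC_eq_pow (k := k)]
    exact hasGaussRed_jqModC.add ((hasGaussRed_qExpand hasGaussRed_jqModC).pow q).neg
  have hnum : HasGaussRed π (J - qExpand K' q (qExpand K' q J)) (jb - jb ^ (q ^ 2)) := by
    have h := hasGaussRed_jqModC.add
      (hasGaussRed_qExpand (q := q) (hasGaussRed_qExpand (q := q) (hasGaussRed_jqModC (π := π)))).neg
    rwa [qExpand_jqModC_eq_pow (k := k), map_pow, qExpand_jqModC_eq_pow (k := k), ← pow_mul, ← pow_two, ← hjb,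
      ← sub_eq_add_neg, ← sub_eq_add_neg] at h
  have hDred : T.Res₀ D (Reduction.qDeriv jb ^ (q - 1)) := by
    show HasGaussRed π _ _
    have e : T.i₁ D = ((J - qExpand K' q (qExpand K' q J)) * (J - qExpand K' q J ^ q)⁻¹) *
        ∏ a ∈ (Finset.univ : Finset (ZMod q)).erase 0,
          (HahnSeries.C (1 - ((T.ζ ^ a.val : K'ˣ) : K'))⁻¹ * (J - Igusa.twist (T.ζ ^ a.val) J)) := by
      rw [hD, map_div₀, map_mul, map_natCast, map_sub, map_pow, T.i₁_W_x, T.i₁_x, hDi,
        Finset.prod_mul_distrib, ← map_prod]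
      simp only [Units.val_pow_eq_pow_val]
      rw [Finset.prod_inv_distrib, ← hprod, map_inv₀, map_natCast, ← hJ]
      field_simp
    rw [e]
    have h := (hnum.mul (hden.inv hne)).mul (hasGaussRed_prod _ fun a ha =>
      hasGaussRed_sub_twist_div (T.ζ_pow_pow _) (hζne a ha) hasGaussRed_jqModC)
    rwa [mul_inv_cancel₀ hne, one_mul, Finset.prod_const, Finset.card_erase_of_mem (Finset.mem_univ _),
      Finset.card_univ, ZMod.card] at h
  have hjX := T.res₀_mem hDred
  -- change of variable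
  have hqj : Reduction.qDeriv jb ≠ 0 := Reduction.qDeriv_jqModC_ne_zero k
  obtain ⟨c, hc, htc⟩ := Reduction.exists_qDeriv_eq hqj (Reduction.transcendental_jqModC k)
    (T.separable_res t ht.1).isIntegral T.resField T.jqModC_mem ht.1
  rw [htc, mul_pow]
  exact mul_mem (pow_mem hc _) hjX

theorem res₀_h_inv :
    T.Res₀ T.h⁻¹ (Igusa.deltaSeries k / qExpand k q (Igusa.deltaSeries k)) := by
  have hΔ : ∀ (R : Type) [Field R], qExpand R q (Igusa.deltaSeries R) ≠ 0 := fun R _ =>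
    (map_ne_zero_iff _ (qExpand_injective q)).2
      ((Igusa.hasLead_deltaSeries (R := R)).ne_zero one_ne_zero)
  have h0 : T.i₁ T.h ≠ 0 := fun h => hΔ K' (by rw [← T.i₁_h, h, zero_mul])
  have hinv : T.i₁ T.h⁻¹ = Igusa.deltaSeries K' * (qExpand K' q (Igusa.deltaSeries K'))⁻¹ := by
    rw [map_inv₀, ← T.i₁_h, mul_inv, mul_left_comm,
      mul_inv_cancel₀ ((Igusa.hasLead_deltaSeries (R := K')).ne_zero one_ne_zero), mul_one]
  show HasGaussRed π _ _
  rw [hinv, div_eq_mul_inv]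
  exact hasGaussRed_deltaSeries.mul ((hasGaussRed_qExpand hasGaussRed_deltaSeries).inv (hΔ k))

theorem i₁_h_ne_zero : T.i₁ T.h ≠ 0 := fun h => by
  have := T.i₁_h
  rw [h, zero_mul] at this
  exact (map_ne_zero_iff _ (qExpand_injective q)).2
    ((Igusa.hasLead_deltaSeries (R := K')).ne_zero one_ne_zero) this.symm

theorem hasGaussRed_i₁_h : HasGaussRed π (T.i₁ T.h)
    (Igusa.deltaSeries k / qExpand k q (Igusa.deltaSeries k))⁻¹ := by
  have h := T.res₀_h_inv
  have hne : Igusa.deltaSeries k / qExpand k q (Igusa.deltaSeries k) ≠ 0 :=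
    div_ne_zero ((Igusa.hasLead_deltaSeries (R := k)).ne_zero one_ne_zero)
      ((map_ne_zero_iff _ (qExpand_injective q)).2
        ((Igusa.hasLead_deltaSeries (R := k)).ne_zero one_ne_zero))
  have := h.inv hne
  rwa [map_inv₀, inv_inv] at this

theorem i₁_W_h_inv : T.i₁ (T.W T.h⁻¹) = HahnSeries.C ((q : K') ^ 12) * T.i₁ T.h := by
  rw [map_inv₀, map_inv₀]
  have hne : (HahnSeries.C ((q : K') ^ 12) : LaurentSeries K') ≠ 0 :=
    (map_ne_zero_iff _ HahnSeries.C_injective).2 (pow_ne_zero _ T.natCast_ne_zero')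
  refine inv_eq_of_mul_eq_one_right ?_
  rw [mul_left_comm, T.i₁_W_h, ← map_mul, mul_inv_cancel₀ (pow_ne_zero _ T.natCast_ne_zero'),
    map_one]

theorem res₁_h_inv : T.Res₁ T.h⁻¹ 0 := by
  have := (T.hasGaussRed_C_natCast.pow 12).mul T.hasGaussRed_i₁_h
  rw [zero_pow (by norm_num), zero_mul, ← map_pow, ← T.i₁_W_h_inv] at this
  exact this

/-- `q¹² h` on the other component. -/
theorem res₁_h : ∃ g, HasGaussRed π (HahnSeries.C ((q : K') ^ 12) * T.i₁ (T.W T.h)) g := by
  refine ⟨Igusa.deltaSeries k / qExpand k q (Igusa.deltaSeries k), ?_⟩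
  have h : HahnSeries.C ((q : K') ^ 12) * T.i₁ (T.W T.h) = T.i₁ T.h⁻¹ := by
    rw [map_inv₀]
    refine eq_inv_of_mul_eq_one_left ?_
    rw [mul_assoc, T.i₁_W_h, ← map_mul, mul_inv_cancel₀ (pow_ne_zero _ T.natCast_ne_zero'), map_one]
  rw [h]
  exact T.res₀_h_inv

/-- The ideal of the component of `∞`. -/
def P₀ : Ideal T.B₁ where
  carrier := {f | T.Res₀ f 0}
  zero_mem' := by simpa [Res₀, Res₁] using hasGaussRed_zero
  add_mem' := fun {f g} hf hg => by simpa [Res₀, Res₁] using hf.add hg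
  smul_mem' := fun c f hf => by
    obtain ⟨g, -, hg⟩ := T.exists_res₀ c.2
    simpa [Res₀, Res₁] using hg.mul hf

/-- The ideal of the other component. -/
def P₁ : Ideal T.B₁ where
  carrier := {f | T.Res₁ f 0}
  zero_mem' := by simpa [Res₀, Res₁] using hasGaussRed_zero
  add_mem' := fun {f g} hf hg => by simpa [Res₀, Res₁] using hf.add hg
  smul_mem' := fun c f hf => by
    obtain ⟨g, -, hg⟩ := T.exists_res₁ c.2
    simpa [Res₀, Res₁] using hg.mul hf

/-- A point on both components. -/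
def IsCrossing (M : Ideal T.B₁) : Prop := T.P₀ ≤ M ∧ T.P₁ ≤ M

end SqTower

end Fermat.Agent.BadPrime.Sq
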