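import Fermat.Agent.BadPrime.Sq.LevelTwoBase
import Mathlib.RingTheory.Ideal.GoingUp
import Mathlib.RingTheory.Noetherian.Basic

/-!
# Level `N q²`: finiteness and the vertical data
-/

set_option autoImplicit false
set_option linter.unusedSectionVars false
set_option linter.style.haveILetI false
set_option synthInstance.maxHeartbeats 200000

noncomputable section

open ModularCurve Polynomial

namespace Fermat.Agent.BadPrime.Sq

/-- A chart over a discrete valuation ring is noetherian. -/
theorem isNoetherianRing_chartRing {K F : Type} [Field K] [Field F] [Algebra K F] [CharZero K]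
    {S : Subring K} {ϖ : K} (hS : IsUniformiser S ϖ) {t : F} (ht : Transcendental K t)
    [FiniteDimensional (IntermediateField.adjoin K {t}) F] :
    IsNoetherianRing (chartRing S t) := by
  haveI := hS.isDiscreteValuationRing
  obtain ⟨s, hs⟩ := exists_chartRing_le_span hS ht
  haveI : IsNoetherianRing (Algebra.adjoin S {t}) := by
    rw [Algebra.adjoin_singleton_eq_range_aeval]
    exact isNoetherianRing_range (aeval (R := S) t).toRingHom
  set C := integralClosure (Algebra.adjoin S {t}) F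
  haveI : IsNoetherian (Algebra.adjoin S {t})
      (Submodule.span (Algebra.adjoin S {t}) (s : Set F)) :=
    isNoetherian_span_of_finite _ s.finite_toSet
  haveI : IsNoetherian (Algebra.adjoin S {t}) (Subalgebra.toSubmodule C) :=
    isNoetherian_of_le (fun x hx => hs x hx)
  have : IsNoetherianRing C :=
    isNoetherian_of_tower (Algebra.adjoin S {t}) (S := C) (M := C) ‹_›
  exact this

variable {q : ℕ} [Fact q.Prime] {K K' k : Type} [Field K] [Field K'] [Algebra K K'] [Field k]
  [CharZero K] [CharP k q] [IsAlgClosed k] {A : ValuationSubring K'} {π : A →+* k}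
  (T : SqTower q K π)

namespace SqTower

theorem natCast_F₂_ne_zero : (q : T.F₂) ≠ 0 := by
  rw [← map_natCast (algebraMap K T.F₂)]
  exact (_root_.map_ne_zero _).2 (Nat.cast_ne_zero.2 (Fact.out : q.Prime).ne_zero)

/-- A bounded power of a function without residue is divisible by `q` on every branch. -/
theorem exists_pow_div_natCast : ∃ e : ℕ, ∀ x : T.F₂, (∀ i, T.Res₂ i x 0) →
    ∀ i, ∃ g, T.Res₂ i (x ^ e / (q : T.F₂)) g := by
  choose w hw using fun i => T.exists_hasVal T.natCast_F₂_ne_zero i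
  refine ⟨(∑ i, (w i).natAbs) + 1, fun x hx i => ?_⟩
  rcases eq_or_ne x 0 with rfl | hx0
  · refine ⟨0, ?_⟩
    rw [zero_pow (Nat.succ_ne_zero _), zero_div]
    simpa [Res₂] using hasGaussRed_zero (π := π)
  obtain ⟨v, hv⟩ := T.exists_hasVal hx0 i
  set e := (∑ i, (w i).natAbs) + 1
  have h := HasVal.mul T (HasVal.zpow T hv (e : ℤ)) (HasVal.inv T (hw i))
  rw [zpow_natCast, ← div_eq_mul_inv] at h
  refine HasVal.exists_res T h ?_
  have h1 : (e : ℤ) ≤ e * v :=
    le_mul_of_one_le_right (by positivity) (HasVal.pos_of_res_zero T hv (hx i))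
  have h2 : (w i).natAbs ≤ ∑ i, (w i).natAbs :=
    Finset.single_le_sum (f := fun i => (w i).natAbs) (fun _ _ => Nat.zero_le _) (Finset.mem_univ i)
  have h3 : (w i).natAbs + 1 ≤ e := Nat.add_le_add_right h2 1
  omega

/-- An element of the model without residue has a power divisible by `q`. -/
theorem exists_pow_eq_natCast_mul (b : Bool) {x : T.B₂ b} (hx : T.red b x = 0) :
    ∃ (e : ℕ) (y : T.B₂ b), x ^ e = (q : T.B₂ b) * y := by
  obtain ⟨e, he⟩ := T.exists_pow_div_natCast
  have h0 : ∀ i, T.Res₂ i (x : T.F₂) 0 := fun i => by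
    have h := T.res₂_red b x i
    rwa [hx] at h
  have htop : (x : T.F₂) ^ e / (q : T.F₂) ∈ chartRing (⊤ : Subring K) (T.t₂ b) := by
    rw [div_eq_mul_inv, ← map_natCast (algebraMap K T.F₂), ← map_inv₀]
    exact mul_mem (pow_mem (chartRing_mono _ _ le_top x.2) e)
      (algebraMap_mem_chartRing _ _ trivial)
  refine ⟨e, ⟨_, T.mem_B₂ htop (he _ h0)⟩, Subtype.ext ?_⟩
  push_cast
  rw [mul_div_cancel₀ _ T.natCast_F₂_ne_zero]

/-- The coordinate ring is integral over a ring containing the constants and a power of the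
coordinate. -/
theorem isIntegral_of_range (b : Bool) {B : Type} [CommRing B] (φ : B →+* T.R b)
    (hc : ∀ c : k, ∃ x, φ x = algebraMap k (T.R b) c) {e : ℕ} (he : e ≠ 0)
    (ht : ∃ x, (φ x : LaurentSeries k) = coord b ^ e) : φ.IsIntegral := by
  intro g
  letI : Algebra B (T.R b) := φ.toAlgebra
  letI : Algebra B (LaurentSeries k) := ((T.R b).subtype.comp φ).toAlgebra
  haveI : IsScalarTower B (T.R b) (LaurentSeries k) :=
    IsScalarTower.of_algebraMap_eq fun _ => rfl
  refine (isIntegral_algebraMap_iff (A := T.R b) (B := LaurentSeries k)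
    Subtype.val_injective).1 ?_
  have hI : ∀ z ∈ Algebra.adjoin k {coord (k := k) b}, IsIntegral B z := by
    intro z hz
    induction hz using Algebra.adjoin_induction with
    | mem w hw =>
      obtain ⟨x, hx⟩ := ht
      rw [Set.mem_singleton_iff.1 hw]
      refine IsIntegral.of_pow (Nat.pos_of_ne_zero he) ?_
      rw [← hx]
      exact isIntegral_algebraMap
    | algebraMap c =>
      obtain ⟨x, hx⟩ := hc c
      have e : algebraMap k (LaurentSeries k) c = algebraMap B (LaurentSeries k) x :=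
        (Reduction.C_eq_algebraMap c).symm.trans
          (congrArg (fun g : T.R b => (g : LaurentSeries k)) hx).symm
      rw [e]
      exact isIntegral_algebraMap
    | add a b _ _ ha hb => exact ha.add hb
    | mul a b _ _ ha hb => exact ha.mul hb
  obtain ⟨p, hp, hpx⟩ := g.2.2
  let j : Algebra.adjoin k {coord (k := k) b} →+* integralClosure B (LaurentSeries k) :=
    ((Algebra.adjoin k {coord (k := k) b}).val.toRingHom).codRestrict _ fun z => hI z z.2
  refine isIntegral_trans (R := B) (A := integralClosure B (LaurentSeries k))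
    (g : LaurentSeries k) ⟨p.map j, hp.map j, ?_⟩
  rw [eval₂_map]
  exact hpx

/-- A point of the special fibre lies on a branch. -/
theorem exists_ker_ev_eq (b : Bool) (M : Ideal (T.B₂ b)) [M.IsMaximal] (hq : (q : T.B₂ b) ∈ M) :
    ∃ i p, RingHom.ker (T.ev b i p) = M := by
  classical
  -- some branch passes through `M`
  obtain ⟨i, hi⟩ : ∃ i : Fin 3, ∀ x : T.B₂ b, T.red b x i = 0 → x ∈ M := by
    by_contra hcon
    push Not at hcon
    choose x hx hxM using hcon
    have hz : T.red b (x 0 * x 1 * x 2) = 0 := by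
      funext j
      rw [map_mul, map_mul, Pi.mul_apply, Pi.mul_apply, Pi.zero_apply]
      fin_cases j <;> simp [hx]
    obtain ⟨e, y, he⟩ := T.exists_pow_eq_natCast_mul b hz
    have hM : M.IsPrime := inferInstance
    exact (hM.mem_or_mem (hM.mem_of_pow_mem e (he ▸ M.mul_mem_right _ hq))).elim
      (fun h => (hM.mem_or_mem h).elim (hxM 0) (hxM 1)) (hxM 2)
  let φ : T.B₂ b →+* T.R b := (Pi.evalRingHom (fun _ => T.R b) i).comp (T.red b)
  have hφ : φ.IsIntegral := T.isIntegral_of_range b φ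
    (fun c => ⟨T.constB b c, T.red_constB b c i⟩)
    (expo_ne_zero (q := q) i) ⟨⟨T.t₂ b, self_mem_chartRing _ _⟩, T.red_eq (T.res₂_t₂ b i)⟩
  letI : Algebra (T.B₂ b) (T.R b) := φ.toAlgebra
  haveI : Algebra.IsIntegral (T.B₂ b) (T.R b) := ⟨hφ⟩
  obtain ⟨P, hP, hPM⟩ := Ideal.exists_ideal_over_maximal_of_isIntegral (S := T.R b) M
    fun x hx => hi x hx
  haveI := hP
  obtain ⟨p, hp⟩ := T.exists_point b P
  refine ⟨i, p, Eq.trans ?_ hPM⟩
  ext x
  rw [RingHom.mem_ker, Ideal.mem_comap, ← hp, RingHom.mem_ker]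
  rfl

theorem isNoetherianRing_B₂ (b : Bool) : IsNoetherianRing (T.B₂ b) := by
  haveI := T.finite_x₂
  cases b
  · haveI := finite_adjoin_inv (K := K) (t := T.x₂)
    exact isNoetherianRing_chartRing (t := T.x₂⁻¹) T.isUniformiser
      (fun h => T.transcendental_x₂ (inv_inv T.x₂ ▸ h.inv))
  · exact isNoetherianRing_chartRing (t := T.x₂) T.isUniformiser T.transcendental_x₂

theorem exists_pow_mul_mem_B₂ (b : Bool) (f : T.B₂ b) :
    ∃ L : ℕ, T.t₂ (!b) ^ L * (f : T.F₂) ∈ T.B₂ (!b) := by
  have hx0 : T.x₂ ≠ 0 := fun h => T.transcendental_x₂ (h ▸ isAlgebraic_zero)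
  have ht0 : T.t₂ (!b) ≠ 0 := by cases b <;> simp [SqTower.t₂, hx0]
  have htinv : (T.t₂ (!b))⁻¹ = T.t₂ b := by cases b <;> simp [SqTower.t₂]
  obtain ⟨L, hL⟩ := exists_pow_mul_mem_chartRing (T.t₂ (!b)) ht0 (x := (f : T.F₂))
    (by rw [htinv]; exact chartRing_mono _ _ le_top f.2)
  refine ⟨L, T.mem_B₂ hL fun i => ?_⟩
  obtain ⟨g, hg⟩ := T.exists_res_of_mem f.2 i
  exact ⟨_, T.res₂_mul (T.res₂_pow (T.res₂_t₂ (!b) i) L) hg⟩

/-- The vertical data for `Roots.lean`. -/
theorem exists_verticalRing : ∃ D : VerticalRing (baseRing A K) (q : K) T.x₂,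
    ∀ f, D.Small f ↔ ∀ i, T.Res₂ i f 0 := by
  refine ⟨{
    V := T.gaussRing₂
    sm := {
      carrier := {x | ∀ i, T.Res₂ i (x : T.F₂) 0}
      add_mem' := fun {a b} ha hb i => by
        simpa [Res₂] using HasGaussRed.add (ha i) (hb i)
      zero_mem' := fun i => by simpa [Res₂] using hasGaussRed_zero (π := π)
      smul_mem' := fun c x hx i => by
        obtain ⟨g, hg⟩ := c.2 i
        simpa using T.res₂_mul hg (hx i) }
    rootClosed := fun x m hm hx i => ?_
    chart_le := fun u hu x hx i => ?_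
    mem_chart := fun u hu x hx hxV => ?_
    isUnit_one_add := fun x hx => ?_
    exists_pow_eq := ?_ }, fun f => ⟨fun h => h.2, fun h => ⟨fun i => ⟨0, h i⟩, h⟩⟩⟩
  · rcases T.exists_res_or_inv₂ i x with h | ⟨g, hg⟩
    · exact h
    rcases eq_or_ne x 0 with rfl | hx0
    · exact ⟨0, by simpa [Res₂] using hasGaussRed_zero (π := π)⟩
    obtain ⟨g', hg'⟩ := hx i
    obtain ⟨l, rfl⟩ := Nat.exists_eq_succ_of_ne_zero hm
    refine ⟨g' * g ^ l, ?_⟩
    have h := T.res₂_mul hg' (T.res₂_pow hg l)
    rwa [pow_succ', mul_assoc, ← mul_pow, mul_inv_cancel₀ hx0, one_pow, mul_one] at h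
  · rcases Set.mem_insert_iff.1 hu with rfl | hu
    · exact T.exists_res_of_mem (b := true) hx i
    · rw [Set.mem_singleton_iff.1 hu] at hx
      exact T.exists_res_of_mem (b := false) hx i
  · rcases Set.mem_insert_iff.1 hu with rfl | hu
    · exact T.mem_B₂ (b := true) hx hxV
    · rw [Set.mem_singleton_iff.1 hu] at hx ⊢
      exact T.mem_B₂ (b := false) hx hxV
  · have h1 : ∀ i, T.Res₂ i (1 + (x : T.F₂)) 1 := fun i => by
      simpa [Res₂] using HasGaussRed.add (hasGaussRed_one (π := π)) (hx i)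
    have hne : (1 : T.F₂) + x ≠ 0 := fun h => one_ne_zero (α := LaurentSeries k)
      ((h1 0).unique (by rw [h, map_zero]; exact hasGaussRed_zero))
    refine isUnit_iff_exists_inv.2 ⟨⟨(1 + (x : T.F₂))⁻¹, fun i => ⟨1, ?_⟩⟩,
      Subtype.ext (mul_inv_cancel₀ hne)⟩
    show HasGaussRed π _ _
    rw [map_inv₀]
    simpa using (h1 i).inv one_ne_zero
  · obtain ⟨e, he⟩ := T.exists_pow_div_natCast
    refine ⟨e, fun x hx => ⟨⟨(x : T.F₂) ^ e / (q : T.F₂), he _ hx⟩, ?_⟩⟩
    rw [map_natCast, mul_div_cancel₀]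
    exact T.natCast_F₂_ne_zero

end SqTower

end Fermat.Agent.BadPrime.Sq
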