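import Fermat.Agent.BadPrime.Sq.LevelTwoPoints
import Fermat.Agent.BadPrime.Sq.LevelTwoFinite

/-!
# Level `N q²`: three branches and their integral model

The statements are in `LevelTwoBase`, `LevelTwoPoints` and `LevelTwoFinite`.
-/
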