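import Fermat.Agent.BadPrime.Sq.Charts
import Mathlib.RingTheory.Nullstellensatz

/-!
# An exact root from approximate roots in two charts

If `g` has roots modulo the small elements in both charts of a model, with the same residues, then
`g` has an exact `n`-th root after extending the constants to an algebraically closed field.  The
two charts are glued with a bounded loss of precision, and the exact root comes from the
Nullstellensatz.
-/

set_option autoImplicit false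
set_option linter.style.haveILetI false
set_option linter.unusedSectionVars false

noncomputable section

open Polynomial

namespace Fermat.Agent.BadPrime.Sq

variable {K F : Type} [Field K] [Field F] [Algebra K F] {S : Subring K} {ϖ : K}

/-- The data at the vertical primes used for gluing. -/
structure VerticalRing (S : Subring K) (ϖ : K) (t : F) where
  /-- The semilocal ring. -/
  V : Subring F
  /-- The small elements. -/
  sm : Ideal V
  rootClosed : ∀ (x : F) (m : ℕ), m ≠ 0 → x ^ m ∈ V → x ∈ V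
  chart_le : ∀ u ∈ ({t, t⁻¹} : Set F), ∀ x ∈ chartRing S u, x ∈ V
  mem_chart : ∀ u ∈ ({t, t⁻¹} : Set F), ∀ x ∈ chartRing (⊤ : Subring K) u, x ∈ V → x ∈ chartRing S u
  isUnit_one_add : ∀ x ∈ sm, IsUnit (1 + x)
  exists_pow_eq : ∃ e : ℕ, ∀ x ∈ sm, ∃ y : V, (x : F) ^ e = algebraMap K F ϖ * y

namespace VerticalRing

variable {t : F} (D : VerticalRing S ϖ t)

/-- `x` is small. -/
def Small (x : F) : Prop := ∃ h : x ∈ D.V, (⟨x, h⟩ : D.V) ∈ D.sm

/-- `x` is divisible by `ϖ ^ N`. -/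
def Div (N : ℕ) (x : F) : Prop := ∃ v ∈ D.V, x = algebraMap K F ϖ ^ N * v

theorem Small.mem {x : F} (h : D.Small x) : x ∈ D.V := h.1

theorem small_zero : D.Small 0 := ⟨D.V.zero_mem, D.sm.zero_mem⟩

theorem Small.add {x y : F} (hx : D.Small x) (hy : D.Small y) : D.Small (x + y) :=
  ⟨D.V.add_mem hx.1 hy.1, D.sm.add_mem hx.2 hy.2⟩

theorem Small.neg {x : F} (hx : D.Small x) : D.Small (-x) :=
  ⟨D.V.neg_mem hx.1, D.sm.neg_mem hx.2⟩

theorem Small.mul_left {x v : F} (hv : v ∈ D.V) (hx : D.Small x) : D.Small (v * x) :=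
  ⟨D.V.mul_mem hv hx.1, D.sm.mul_mem_left ⟨v, hv⟩ hx.2⟩

theorem Small.one_add_mul {a b : F} (ha : D.Small (a - 1)) (hb : D.Small (b - 1)) :
    D.Small (a * b - 1) := by
  have hbV : b ∈ D.V := by simpa using D.V.add_mem hb.1 D.V.one_mem
  rw [show a * b - 1 = b * (a - 1) + (b - 1) by ring]
  exact (ha.mul_left D hbV).add D hb

theorem Small.one_add_pow {a : F} (ha : D.Small (a - 1)) (m : ℕ) : D.Small (a ^ m - 1) := by
  induction m with
  | zero => simpa using D.small_zero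
  | succ m ih => rw [pow_succ]; exact ih.one_add_mul D ha

theorem Div.mul_left {x v : F} {N : ℕ} (hv : v ∈ D.V) (hx : D.Div N x) : D.Div N (v * x) := by
  obtain ⟨w, hw, rfl⟩ := hx
  exact ⟨v * w, D.V.mul_mem hv hw, by ring⟩

theorem Div.add {x y : F} {N : ℕ} (hx : D.Div N x) (hy : D.Div N y) : D.Div N (x + y) := by
  obtain ⟨v, hv, rfl⟩ := hx
  obtain ⟨w, hw, rfl⟩ := hy
  exact ⟨v + w, D.V.add_mem hv hw, by ring⟩

theorem inv_natCast_mem {n : ℕ} (hn : ((n : K))⁻¹ ∈ S) : ((n : F))⁻¹ ∈ D.V := by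
  rw [← map_natCast (algebraMap K F), ← map_inv₀]
  exact D.chart_le t (Set.mem_insert _ _) _ (algebraMap_mem_chartRing S t hn)

end VerticalRing

/-- `(1 - y) ^ n` to second order. -/
theorem exists_one_sub_pow_eq {R : Type*} [CommRing R] (B : Subring R) {y : R} (hy : y ∈ B)
    (n : ℕ) : ∃ r ∈ B, (1 - y) ^ n = 1 - n * y + y ^ 2 * r := by
  induction n with
  | zero => exact ⟨0, B.zero_mem, by simp⟩
  | succ n ih =>
    obtain ⟨r, hr, h⟩ := ih
    refine ⟨r * (1 - y) + n, B.add_mem (B.mul_mem hr (B.sub_mem B.one_mem hy)) (natCast_mem B n), ?_⟩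
    rw [pow_succ, h]
    push_cast
    ring

variable {t : F} (D : VerticalRing S ϖ t) {n : ℕ} {g : F}

/-- Newton's iteration in a chart. -/
theorem exists_newton (hn : ((n : K))⁻¹ ∈ S) [CharZero K] (hn0 : n ≠ 0) {u : F}
    (hu : u ∈ ({t, t⁻¹} : Set F)) {a : F} (ha : a ^ n * g ∈ chartRing S u)
    (hsm : D.Small (a ^ n * g - 1)) (N : ℕ) :
    ∃ w, w ∈ chartRing S u ∧ D.Small (w - 1) ∧ (a * w) ^ n * g ∈ chartRing S u ∧
      D.Div N ((a * w) ^ n * g - 1) := by
  have : CharZero F := charZero_of_injective_algebraMap (algebraMap K F).injective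
  have hnF : ((n : F))⁻¹ ∈ chartRing S u := by
    rw [← map_natCast (algebraMap K F), ← map_inv₀]
    exact algebraMap_mem_chartRing S u hn
  have hne : (n : F) ≠ 0 := Nat.cast_ne_zero.2 hn0
  set e := a ^ n * g - 1 with he
  have heB : e ∈ chartRing S u := sub_mem ha (one_mem _)
  have step : ∀ j : ℕ, ∃ w, w ∈ chartRing S u ∧ D.Small (w - 1) ∧
      ∃ r ∈ chartRing S u, (a * w) ^ n * g - 1 = e ^ 2 ^ j * r := by
    intro j
    induction j with
    | zero => exact ⟨1, one_mem _, by simpa using D.small_zero, 1, one_mem _, by simp [he]⟩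
    | succ j ih =>
      obtain ⟨w, hw, hw1, r, hr, hwr⟩ := ih
      set y := (n : F)⁻¹ * ((a * w) ^ n * g - 1) with hy
      have hyB : y ∈ chartRing S u :=
        mul_mem hnF (hwr ▸ mul_mem (pow_mem heB _) hr)
      obtain ⟨s, hs, hsy⟩ := exists_one_sub_pow_eq (chartRing S u) hyB n
      have hy1 : D.Small (1 - y - 1) := by
        rw [show 1 - y - 1 = (-((n : F)⁻¹ * r)) * e ^ 2 ^ j by rw [hy, hwr]; ring]
        refine VerticalRing.Small.mul_left D
          (neg_mem (D.chart_le u hu _ (mul_mem hnF hr))) ?_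
        obtain ⟨m, hm⟩ := Nat.exists_eq_add_of_le' (Nat.one_le_two_pow (n := j))
        rw [hm, pow_succ]
        exact VerticalRing.Small.mul_left D (pow_mem hsm.1 m) hsm
      refine ⟨w * (1 - y), mul_mem hw (sub_mem (one_mem _) hyB), hw1.one_add_mul D hy1,
        (n : F)⁻¹ ^ 2 * r ^ 2 * (s * (1 + n * y) - n ^ 2), ?_, ?_⟩
      · exact mul_mem (mul_mem (pow_mem hnF 2) (pow_mem hr 2))
          (sub_mem (mul_mem hs (add_mem (one_mem _) (mul_mem (natCast_mem _ n) hyB)))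
            (pow_mem (natCast_mem _ n) 2))
      · have h1 : (a * w) ^ n * g = 1 + n * y := by rw [hy, mul_inv_cancel_left₀ hne]; ring
        have h2 : y = (n : F)⁻¹ * (e ^ 2 ^ j * r) := by rw [hy, hwr]
        calc (a * (w * (1 - y))) ^ n * g - 1 = (a * w) ^ n * g * (1 - y) ^ n - 1 := by
              rw [← mul_assoc a w, mul_pow _ (1 - y)]; ring
          _ = y ^ 2 * (s * (1 + n * y) - n ^ 2) := by rw [h1, hsy]; ring
          _ = _ := by rw [pow_succ 2 j, pow_mul, h2]; ring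
  obtain ⟨m, hm⟩ := D.exists_pow_eq
  obtain ⟨w, hw, hw1, r, hr, hwr⟩ := step (m * N)
  refine ⟨w, hw, hw1, ?_, ?_⟩
  · have := add_mem (hwr ▸ mul_mem (pow_mem heB (2 ^ (m * N))) hr) (one_mem (chartRing S u))
    rwa [sub_add_cancel] at this
  · obtain ⟨v, hv⟩ := hm ⟨e, hsm.1⟩ hsm.2
    obtain ⟨l, hl⟩ := Nat.exists_eq_add_of_le (Nat.lt_pow_self (n := m * N) one_lt_two).le
    refine ⟨(v : F) ^ N * (e ^ l * r), D.V.mul_mem (pow_mem v.2 N)
      (D.chart_le u hu _ (mul_mem (pow_mem heB l) hr)), ?_⟩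
    rw [hwr, hl, pow_add, pow_mul]
    rw [show e ^ m = algebraMap K F ϖ * (v : F) from hv]
    ring

section Glue

variable (hn : ((n : K))⁻¹ ∈ S) (hn0 : n ≠ 0) (hg : g ≠ 0)

variable (S) in
/-- The lattice `{a | a ^ n * g` integral over `S[u]}`. -/
def rootMod (n : ℕ) (g : F) (hn0 : n ≠ 0) (u : F) : Submodule S F where
  carrier := {a | a ^ n * g ∈ chartRing S u}
  zero_mem' := by
    show (0 : F) ^ n * g ∈ chartRing S u
    rw [zero_pow hn0, zero_mul]
    exact zero_mem _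
  add_mem' := by
    intro a b (ha : a ^ n * g ∈ chartRing S u) (hb : b ^ n * g ∈ chartRing S u)
    show (a + b) ^ n * g ∈ chartRing S u
    rw [add_pow, Finset.sum_mul]
    refine sum_mem fun i hi => ?_
    obtain ⟨l, hl⟩ := Nat.exists_eq_add_of_le (Nat.lt_succ_iff.1 (Finset.mem_range.1 hi))
    rw [show a ^ i * b ^ (n - i) * (n.choose i : F) * g =
      (n.choose i : F) * (a ^ i * b ^ (n - i) * g) by ring]
    refine mul_mem (natCast_mem _ _) (mem_chartRing_of_pow S u hn0 ?_)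
    have key : (a ^ i * b ^ (n - i) * g) ^ n = (a ^ n * g) ^ i * (b ^ n * g) ^ (n - i) := by
      rw [hl, Nat.add_sub_cancel_left]
      ring
    rw [key]
    exact mul_mem (pow_mem ha i) (pow_mem hb _)
  smul_mem' := by
    intro r a (ha : a ^ n * g ∈ chartRing S u)
    show (r • a) ^ n * g ∈ chartRing S u
    rw [show r • a = algebraMap K F r * a from Algebra.smul_def (r : K) a, mul_pow, mul_assoc]
    exact mul_mem (pow_mem (algebraMap_mem_chartRing S u r.2) n) ha

theorem mem_rootMod {hn0 : n ≠ 0} {u a : F} :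
    a ∈ rootMod S n g hn0 u ↔ a ^ n * g ∈ chartRing S u := Iff.rfl

/-- Multiplication by a member of the chart. -/
theorem mul_mem_rootMod {u a v : F} (hv : v ∈ chartRing S u) (ha : a ∈ rootMod S n g hn0 u) :
    v * a ∈ rootMod S n g hn0 u := by
  rw [mem_rootMod, mul_pow, mul_assoc]
  exact mul_mem (pow_mem hv n) ha

variable (hS : IsUniformiser S ϖ) [CharZero K] (ht : Transcendental K t)
  [FiniteDimensional (IntermediateField.adjoin K {t}) F]

theorem adjoin_simple_inv (t : F) :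
    IntermediateField.adjoin K {t⁻¹} = IntermediateField.adjoin K {t} := by
  refine le_antisymm (IntermediateField.adjoin_simple_le_iff.2
    (inv_mem (IntermediateField.mem_adjoin_simple_self K t)))
    (IntermediateField.adjoin_simple_le_iff.2 ?_)
  have := inv_mem (IntermediateField.mem_adjoin_simple_self K t⁻¹)
  rwa [inv_inv] at this

include hS ht hg in
/-- The lattice lies in a finite `S[t]`-module. -/
theorem exists_rootMod_le_span :
    ∃ s : Finset F, ∀ a ∈ rootMod S n g hn0 t,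
      a ∈ Submodule.span (Algebra.adjoin S {t}) (s : Set F) := by
  classical
  obtain ⟨s, hs⟩ := exists_chartRing_le_span hS ht
  obtain ⟨d, hd, hd0, hdg⟩ := exists_mul_mem_chartRing hS g⁻¹ (t := t)
  refine ⟨s.image fun x => d⁻¹ * x, fun a ha => ?_⟩
  have hda : d * a ∈ chartRing S t := by
    refine mem_chartRing_of_pow S t hn0 ?_
    obtain ⟨l, rfl⟩ := Nat.exists_eq_add_of_le' (Nat.pos_of_ne_zero hn0)
    rw [show (d * a) ^ (l + 1) = (a ^ (l + 1) * g) * ((d * g⁻¹) * d ^ l) by field_simp; ring]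
    exact mul_mem ha (mul_mem hdg (pow_mem hd _))
  have h := Submodule.apply_mem_span_image_of_mem_span
    (LinearMap.mulLeft (Algebra.adjoin S {t}) d⁻¹) (hs _ hda)
  rw [LinearMap.mulLeft_apply, inv_mul_cancel_left₀ hd0] at h
  rwa [Finset.coe_image]

theorem finite_adjoin_inv : FiniteDimensional (IntermediateField.adjoin K {t⁻¹}) F := by
  rw [adjoin_simple_inv t]
  infer_instance

include hS ht hg in
/-- The common lattice is finite over `S`. -/
theorem fg_inf_rootMod : (rootMod S n g hn0 t ⊓ rootMod S n g hn0 t⁻¹).FG := by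
  haveI := finite_adjoin_inv (K := K) (t := t)
  obtain ⟨s₀, h₀⟩ := exists_rootMod_le_span hn0 hg hS ht
  obtain ⟨s₁, h₁⟩ := exists_rootMod_le_span hn0 hg hS (t := t⁻¹) (fun h => ht (by simpa using h.inv))
  exact fg_of_le_span hS ht _ s₀ s₁ (fun x hx => h₀ x hx.1) fun x hx => h₁ x hx.2

include D in
theorem VerticalRing.mem_chart_of_pow_mul {u : F} (hu : u ∈ ({t, t⁻¹} : Set F)) {x : F}
    (hx : x ∈ D.V) {L : ℕ} (h : u ^ L * x ∈ chartRing (⊤ : Subring K) u) :
    u ^ L * x ∈ chartRing S u :=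
  D.mem_chart u hu _ h (D.V.mul_mem (D.V.pow_mem (D.chart_le u hu u (self_mem_chartRing S u)) L) hx)

include D in
/-- Clearing the poles of an element of the lattice of the chart `u'` at `u = 0`. -/
theorem exists_pow_mul_mem_rootMod (ht0 : t ≠ 0) {u u' : F}
    (hu : (u = t ∧ u' = t⁻¹) ∨ (u = t⁻¹ ∧ u' = t)) {a : F} (ha : a ∈ rootMod S n g hn0 u') :
    ∃ L, u ^ L * a ∈ rootMod S n g hn0 u := by
  have huu : u' = u⁻¹ ∧ u ≠ 0 ∧ u ∈ ({t, t⁻¹} : Set F) ∧ u' ∈ ({t, t⁻¹} : Set F) := by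
    rcases hu with ⟨rfl, rfl⟩ | ⟨rfl, rfl⟩ <;> simp [ht0]
  obtain ⟨hu', hu0, hmem, hmem'⟩ := huu
  obtain ⟨L, hL⟩ := exists_pow_mul_mem_chartRing u hu0
    (x := a ^ n * g) (by rw [← hu']; exact chartRing_mono S u' le_top ha)
  have hL' := D.mem_chart_of_pow_mul hmem (D.chart_le u' hmem' _ ha) hL
  obtain ⟨l, hl⟩ := Nat.exists_eq_add_of_le' (Nat.pos_of_ne_zero hn0)
  refine ⟨L, ?_⟩
  rw [mem_rootMod, show (u ^ L * a) ^ n * g = (u ^ L) ^ l * (u ^ L * (a ^ n * g)) by
    rw [hl]; ring]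
  exact mul_mem (pow_mem (pow_mem (self_mem_chartRing S u) L) l) hL'

include hS ht hg D in
/-- Bounded torsion: an element of the overlap divisible into the two charts is so with bounded
loss. -/
theorem exists_bound : ∃ c : ℕ, ∀ (N : ℕ) (w : F), (∃ L, t ^ L * w ∈ rootMod S n g hn0 t) →
    algebraMap K F ϖ ^ N * w ∈ rootMod S n g hn0 t ⊔ rootMod S n g hn0 t⁻¹ →
    algebraMap K F ϖ ^ c * w ∈ rootMod S n g hn0 t ⊔ rootMod S n g hn0 t⁻¹ := by
  classical
  have := hS.isDiscreteValuationRing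
  have ht0 : t ≠ 0 := fun h => ht (h ▸ isAlgebraic_zero)
  obtain ⟨s, hs⟩ := exists_rootMod_le_span hn0 hg hS ht
  -- the lattice as a module over `S[t]`
  let R := Algebra.adjoin S {t}
  haveI : IsNoetherianRing R := by
    let e : Polynomial S →ₐ[S] R := Polynomial.aeval ⟨t, Algebra.self_mem_adjoin_singleton S t⟩
    refine isNoetherianRing_of_surjective _ _ e.toRingHom fun r => ?_
    obtain ⟨p, hp⟩ := (Algebra.adjoin_singleton_eq_range_aeval S t).le r.2
    refine ⟨p, Subtype.ext ?_⟩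
    show ((Polynomial.aeval (⟨t, Algebra.self_mem_adjoin_singleton S t⟩ : R) p : R) : F) = r
    rw [← Subalgebra.coe_val, ← Polynomial.aeval_algHom_apply]
    exact hp
  let I : Submodule R F :=
    { toAddSubmonoid := (rootMod S n g hn0 t).toAddSubmonoid
      smul_mem' := fun r a ha => by
        show r • a ∈ rootMod S n g hn0 t
        exact mul_mem_rootMod hn0 (adjoin_le_chartRing S t r.2) ha }
  obtain ⟨gens, hgens⟩ : I.FG :=
    Submodule.FG.of_le (Submodule.fg_span s.finite_toSet) fun a ha => hs a ha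
  have hgI : ∀ e ∈ gens, e ∈ rootMod S n g hn0 t := fun e he =>
    show e ∈ I from hgens ▸ Submodule.subset_span he
  have hinv : ∀ e : gens, ∃ L, t⁻¹ ^ L * (e : F) ∈ rootMod S n g hn0 t⁻¹ := fun e =>
    exists_pow_mul_mem_rootMod D hn0 ht0 (Or.inr ⟨rfl, rfl⟩) (hgI _ e.2)
  choose m hm using hinv
  set M₀ := rootMod S n g hn0 t ⊔ rootMod S n g hn0 t⁻¹ with hM₀
  let T : Finset F := (gens.attach.sigma fun e => Finset.range (m e)).image
    fun eb => t⁻¹ ^ eb.2 * (eb.1 : F)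
  let G : Submodule S F := Submodule.span S (T : Set F)
  have hG : ∀ w, (∃ L, t ^ L * w ∈ rootMod S n g hn0 t) → w ∈ M₀ ⊔ G := by
    rintro w ⟨L, hL⟩
    suffices h : ∀ x ∈ Submodule.span R (gens : Set F), t⁻¹ ^ L * x ∈ M₀ ⊔ G by
      have h1 := h _ (show t ^ L * w ∈ Submodule.span R (gens : Set F) by rw [hgens]; exact hL)
      rwa [inv_pow, inv_mul_cancel_left₀ (pow_ne_zero L ht0)] at h1
    intro x hx
    rw [Submodule.mem_span_finset] at hx
    obtain ⟨f, -, rfl⟩ := hx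
    rw [Finset.mul_sum]
    refine Submodule.sum_mem _ fun e he => ?_
    obtain ⟨p, hp⟩ := (Algebra.adjoin_singleton_eq_range_aeval S t).le (f e).2
    rw [show f e • e = ((f e : R) : F) * e from rfl, ← hp]
    show t⁻¹ ^ L * (aeval t p * e) ∈ M₀ ⊔ G
    rw [aeval_eq_sum_range, Finset.sum_mul, Finset.mul_sum]
    refine Submodule.sum_mem _ fun l _ => ?_
    rw [smul_mul_assoc, mul_smul_comm]
    refine Submodule.smul_mem _ _ ?_
    rcases le_or_gt L l with h | h
    · refine Submodule.mem_sup_left (Submodule.mem_sup_left ?_)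
      obtain ⟨b, rfl⟩ := Nat.exists_eq_add_of_le h
      rw [show t⁻¹ ^ L * (t ^ (L + b) * e) = t ^ b * e by
        rw [inv_pow, pow_add, mul_assoc, inv_mul_cancel_left₀ (pow_ne_zero L ht0)]]
      exact mul_mem_rootMod hn0 (pow_mem (self_mem_chartRing S t) b) (hgI e he)
    · obtain ⟨b, rfl⟩ := Nat.exists_eq_add_of_le h.le
      rw [show t⁻¹ ^ (l + b) * (t ^ l * e) = t⁻¹ ^ b * e by
        rw [pow_add, inv_pow, inv_pow]; field_simp]
      rcases lt_or_ge b (m ⟨e, he⟩) with hb | hb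
      · exact Submodule.mem_sup_right (Submodule.subset_span (Finset.mem_image.2
          ⟨⟨⟨e, he⟩, b⟩, Finset.mem_sigma.2 ⟨Finset.mem_attach _ _, Finset.mem_range.2 hb⟩, rfl⟩))
      · refine Submodule.mem_sup_left (Submodule.mem_sup_right ?_)
        obtain ⟨b', rfl⟩ := Nat.exists_eq_add_of_le' hb
        rw [pow_add, mul_assoc]
        exact mul_mem_rootMod hn0 (pow_mem (self_mem_chartRing S t⁻¹) b') (hm ⟨e, he⟩)
  let U : ℕ →o Submodule S G :=
    ⟨fun c => ((M₀.comap ((⟨ϖ, hS.mem⟩ : S) ^ c • LinearMap.id)).comap G.subtype), by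
      intro c c' hcc x hx
      obtain ⟨b, rfl⟩ := Nat.exists_eq_add_of_le' hcc
      simp only [Submodule.mem_comap, LinearMap.smul_apply, LinearMap.id_apply] at hx ⊢
      rw [pow_add, mul_smul]
      exact M₀.smul_mem _ hx⟩
  haveI : Module.Finite S G := Module.Finite.iff_fg.2 (Submodule.fg_span T.finite_toSet)
  obtain ⟨c, hc⟩ := monotone_stabilizes_iff_noetherian.mpr inferInstance U
  refine ⟨c, fun N w hw hNw => ?_⟩
  have hsmul : ∀ (l : ℕ) (x : F), ((⟨ϖ, hS.mem⟩ : S) ^ l) • x = algebraMap K F ϖ ^ l * x :=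
    fun l x => by
      rw [Algebra.smul_def, map_pow]
      rfl
  obtain ⟨b, hb, y, hy, rfl⟩ := Submodule.mem_sup.1 (hG w hw)
  have hb' : ∀ l, algebraMap K F ϖ ^ l * b ∈ M₀ := fun l => hsmul l b ▸ M₀.smul_mem _ hb
  have hyN : (⟨y, hy⟩ : G) ∈ U (max N c) := by
    show ((⟨ϖ, hS.mem⟩ : S) ^ max N c) • y ∈ M₀
    obtain ⟨l, hl⟩ := Nat.exists_eq_add_of_le' (le_max_left N c)
    rw [hl, pow_add, mul_smul, hsmul N]
    refine M₀.smul_mem _ ?_
    have := M₀.sub_mem hNw (hb' N)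
    rwa [mul_add, add_sub_cancel_left] at this
  rw [← hc _ (le_max_right N c)] at hyN
  rw [mul_add]
  refine M₀.add_mem (hb' c) ?_
  rw [← hsmul]
  exact hyN

include hS ht hg hn D in
/-- Approximate roots from two charts with the same residues glue to global ones. -/
theorem exists_global_approx {a₀ a₁ : F} (h₀ : a₀ ^ n * g ∈ chartRing S t)
    (h₁ : a₁ ^ n * g ∈ chartRing S t⁻¹) (hs₀ : D.Small (a₀ ^ n * g - 1))
    (hs₁ : D.Small (a₁ ^ n * g - 1)) (hs : D.Small (a₀ * a₁ ^ (n - 1) * g - 1)) (M : ℕ) :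
    ∃ a, a ∈ rootMod S n g hn0 t ⊓ rootMod S n g hn0 t⁻¹ ∧ D.Div M (a ^ n * g - 1) := by
  have : CharZero F := charZero_of_injective_algebraMap (algebraMap K F).injective
  have ht0 : t ≠ 0 := fun h => ht (h ▸ isAlgebraic_zero)
  have htmem : t ∈ ({t, t⁻¹} : Set F) := Set.mem_insert _ _
  have htimem : t⁻¹ ∈ ({t, t⁻¹} : Set F) := Set.mem_insert_of_mem _ rfl
  have hϖ : algebraMap K F ϖ ≠ 0 := (_root_.map_ne_zero _).2 hS.ne_zero
  have hϖV : algebraMap K F ϖ ∈ D.V :=
    D.chart_le t htmem _ (algebraMap_mem_chartRing S t hS.mem)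
  obtain ⟨c, hc⟩ := exists_bound D hn0 hg hS ht
  set N := M + c with hN
  obtain ⟨w₀, hw₀, hw₀1, hb₀, hd₀⟩ := exists_newton D hn hn0 htmem h₀ hs₀ N
  obtain ⟨w₁, hw₁, hw₁1, hb₁, hd₁⟩ := exists_newton D hn hn0 htimem h₁ hs₁ N
  set b₀ := a₀ * w₀ with hb₀def
  set b₁ := a₁ * w₁ with hb₁def
  obtain ⟨l, hl⟩ := Nat.exists_eq_add_of_le' (Nat.pos_of_ne_zero hn0)
  -- the quotient of the two roots
  set y := b₀ * b₁ ^ (n - 1) * g with hy
  have hyn : y ^ n = (b₀ ^ n * g) * (b₁ ^ n * g) ^ (n - 1) := by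
    rw [hy, hl, Nat.add_sub_cancel]; ring
  have hyV : y ∈ D.V := D.rootClosed y n hn0 (hyn ▸ D.V.mul_mem (D.chart_le t htmem _ hb₀)
    (D.V.pow_mem (D.chart_le _ htimem _ hb₁) _))
  have hy1 : D.Small (y - 1) := by
    rw [show y = (a₀ * a₁ ^ (n - 1) * g) * (w₀ * w₁ ^ (n - 1)) by
      rw [hy, hb₀def, hb₁def, mul_pow]; ring]
    exact hs.one_add_mul D (hw₀1.one_add_mul D (hw₁1.one_add_pow D _))
  have hyd : D.Div N (y - 1) := by
    -- `σ` is a unit
    set σ := ∑ i ∈ Finset.range n, y ^ i with hσ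
    have hnV := D.inv_natCast_mem hn
    have hσn : D.Small ((n : F)⁻¹ * (σ - n)) := by
      refine VerticalRing.Small.mul_left D hnV ?_
      rw [show σ - n = ∑ i ∈ Finset.range n, (y ^ i - 1) by simp [hσ, Finset.sum_sub_distrib]]
      exact Finset.sum_induction _ D.Small (fun _ _ => VerticalRing.Small.add D) D.small_zero
        fun i _ => hy1.one_add_pow D i
    obtain ⟨⟨hσV, hσm⟩, hu⟩ : (∃ h, (⟨(n : F)⁻¹ * (σ - n), h⟩ : D.V) ∈ D.sm) ∧ True := ⟨hσn, trivial⟩
    obtain ⟨v, hv⟩ := (D.isUnit_one_add _ hσm).exists_right_inv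
    have hv' : (1 + (n : F)⁻¹ * (σ - n)) * (v : F) = 1 := congrArg Subtype.val hv
    have hne : (n : F) ≠ 0 := Nat.cast_ne_zero.2 hn0
    have hσv : σ * ((n : F)⁻¹ * v) = 1 := by
      rw [← hv']
      field_simp
      ring
    have h2 : D.Div N (y ^ n - 1) := by
      rw [hyn]
      have key : ∀ j : ℕ, D.Div N ((b₀ ^ n * g) * (b₁ ^ n * g) ^ j - 1) := by
        intro j
        induction j with
        | zero => simpa using hd₀
        | succ j ih =>
          rw [show (b₀ ^ n * g) * (b₁ ^ n * g) ^ (j + 1) - 1 =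
            (b₁ ^ n * g) * ((b₀ ^ n * g) * (b₁ ^ n * g) ^ j - 1) + (b₁ ^ n * g - 1) by ring]
          exact (ih.mul_left D (D.chart_le _ htimem _ hb₁)).add D hd₁
      exact key _
    have h3 : y ^ n - 1 = (y - 1) * σ := by rw [hσ, mul_comm, geom_sum_mul]
    rw [show y - 1 = ((n : F)⁻¹ * v) * (y ^ n - 1) by
      rw [h3]; linear_combination -(y - 1) * hσv]
    exact h2.mul_left D (D.V.mul_mem hnV v.2)
  obtain ⟨v, hvV, hv⟩ := hyd
  obtain ⟨v', hv'V, hv'⟩ := hd₁
  -- the difference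
  set w := v * b₁ + (-v') * b₀ with hw
  have hdiff : b₀ - b₁ = algebraMap K F ϖ ^ N * w := by
    have : b₀ - b₁ = (y - 1) * b₁ - b₀ * (b₁ ^ n * g - 1) := by
      rw [hy, hl, Nat.add_sub_cancel]; ring
    rw [this, hv, hv', hw]; ring
  -- `v` and `v'` are integral on the overlap
  have hC : ∀ z : F, (∃ L, t ^ L * z ∈ chartRing (⊤ : Subring K) t) →
      ∀ z' : F, z' ∈ D.V → z = algebraMap K F ϖ ^ N * z' →
      ∃ L, t ^ L * z' ∈ chartRing S t := by
    rintro z ⟨L, hL⟩ z' hz' rfl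
    refine ⟨L, D.mem_chart_of_pow_mul htmem hz' ?_⟩
    have h1 := mul_mem (algebraMap_mem_chartRing (⊤ : Subring K) t
      (Subring.mem_top ((ϖ ^ N)⁻¹))) hL
    rwa [map_inv₀, map_pow, show (algebraMap K F ϖ ^ N)⁻¹ * (t ^ L * (algebraMap K F ϖ ^ N * z')) =
      t ^ L * z' by field_simp] at h1
  have hJmul : ∀ z a : F, (∃ L, t ^ L * z ∈ chartRing S t) →
      (∃ L, t ^ L * a ∈ rootMod S n g hn0 t) → ∃ L, t ^ L * (z * a) ∈ rootMod S n g hn0 t := by
    rintro z a ⟨L, hL⟩ ⟨L', hL'⟩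
    exact ⟨L + L', by
      rw [show t ^ (L + L') * (z * a) = (t ^ L * z) * (t ^ L' * a) by ring]
      exact mul_mem_rootMod hn0 hL hL'⟩
  obtain ⟨L₁, hL₁⟩ := exists_pow_mul_mem_chartRing t ht0 (chartRing_mono S t⁻¹ le_top hb₁)
  have hy1' : ∃ L, t ^ L * (y - 1) ∈ chartRing (⊤ : Subring K) t := by
    refine ⟨L₁, ?_⟩
    rw [mul_sub, mul_one]
    refine sub_mem (mem_chartRing_of_pow _ _ hn0 ?_) (pow_mem (self_mem_chartRing _ t) _)
    rw [mul_pow, hyn, show (t ^ L₁) ^ n * (b₀ ^ n * g * (b₁ ^ n * g) ^ (n - 1)) =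
      (b₀ ^ n * g) * t ^ L₁ * (t ^ L₁ * (b₁ ^ n * g)) ^ (n - 1) by rw [hl, Nat.add_sub_cancel]; ring]
    exact mul_mem (mul_mem (chartRing_mono S t le_top hb₀) (pow_mem (self_mem_chartRing _ t) _))
      (pow_mem hL₁ _)
  have hb₁' : ∃ L, t ^ L * (b₁ ^ n * g - 1) ∈ chartRing (⊤ : Subring K) t := ⟨L₁, by
    rw [mul_sub, mul_one]; exact sub_mem hL₁ (pow_mem (self_mem_chartRing _ t) _)⟩
  have hwJ : ∃ L, t ^ L * w ∈ rootMod S n g hn0 t := by
    obtain ⟨L, hL⟩ := hJmul v b₁ (hC _ hy1' v hvV hv)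
      (exists_pow_mul_mem_rootMod D hn0 ht0 (Or.inl ⟨rfl, rfl⟩) hb₁)
    obtain ⟨L', hL'⟩ := hJmul v' b₀ (hC _ hb₁' v' hv'V hv') ⟨0, by rw [pow_zero, one_mul]; exact hb₀⟩
    refine ⟨L + L', ?_⟩
    rw [show t ^ (L + L') * w = t ^ L' * (t ^ L * (v * b₁)) - t ^ L * (t ^ L' * (v' * b₀)) by
      rw [hw]; ring]
    exact Submodule.sub_mem _ (mul_mem_rootMod hn0 (pow_mem (self_mem_chartRing S t) _) hL)
      (mul_mem_rootMod hn0 (pow_mem (self_mem_chartRing S t) _) hL')
  have hsum : algebraMap K F ϖ ^ N * w ∈ rootMod S n g hn0 t ⊔ rootMod S n g hn0 t⁻¹ := by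
    rw [← hdiff]
    exact Submodule.sub_mem _ (Submodule.mem_sup_left hb₀) (Submodule.mem_sup_right hb₁)
  obtain ⟨r₀, hr₀, r₁, hr₁, hr⟩ := Submodule.mem_sup.1 (hc N w hwJ hsum)
  have hsmul : ∀ {u : F} (l : ℕ) {x : F}, x ∈ rootMod S n g hn0 u →
      algebraMap K F ϖ ^ l * x ∈ rootMod S n g hn0 u := fun {u} l _ hx =>
    mul_mem_rootMod hn0 (pow_mem (algebraMap_mem_chartRing S u hS.mem) l) hx
  refine ⟨b₀ - algebraMap K F ϖ ^ M * r₀, ⟨Submodule.sub_mem _ hb₀ (hsmul M hr₀), ?_⟩, ?_⟩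
  · have : b₀ - algebraMap K F ϖ ^ M * r₀ = b₁ + algebraMap K F ϖ ^ M * r₁ := by
      rw [hN, pow_add] at hdiff
      linear_combination hdiff - (algebraMap K F ϖ ^ M) * hr
    show b₀ - algebraMap K F ϖ ^ M * r₀ ∈ rootMod S n g hn0 t⁻¹
    rw [this]
    exact Submodule.add_mem _ hb₁ (hsmul M hr₁)
  · set a := b₀ - algebraMap K F ϖ ^ M * r₀ with ha
    have haI : a ∈ rootMod S n g hn0 t := Submodule.sub_mem _ hb₀ (hsmul M hr₀)
    obtain ⟨e, he, he'⟩ := hd₀
    have hsum' : ∀ i ∈ Finset.range n, -(r₀ * (a ^ i * b₀ ^ (n - 1 - i)) * g) ∈ D.V := by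
      intro i hi
      refine D.V.neg_mem (D.rootClosed _ n hn0 ?_)
      obtain ⟨j, hj⟩ := Nat.exists_eq_add_of_lt (Finset.mem_range.1 hi)
      rw [show (r₀ * (a ^ i * b₀ ^ (n - 1 - i)) * g) ^ n =
        (r₀ ^ n * g) * (a ^ n * g) ^ i * (b₀ ^ n * g) ^ (n - 1 - i) by
          rw [show n - 1 - i = j by omega, hj]; ring_nf]
      exact D.chart_le t htmem _ (mul_mem (mul_mem (mem_rootMod.1 hr₀) (pow_mem (mem_rootMod.1 haI) i)) (pow_mem hb₀ _))
    refine ⟨(∑ i ∈ Finset.range n, -(r₀ * (a ^ i * b₀ ^ (n - 1 - i)) * g)) +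
      algebraMap K F ϖ ^ c * e, D.V.add_mem (D.V.sum_mem hsum') (D.V.mul_mem (D.V.pow_mem hϖV c) he), ?_⟩
    have h2 := geom_sum₂_mul a b₀ n
    rw [mul_add, Finset.mul_sum, ← mul_assoc, ← pow_add, ← hN, ← he',
      Finset.sum_congr rfl (fun i _ => show algebraMap K F ϖ ^ M *
        -(r₀ * (a ^ i * b₀ ^ (n - 1 - i)) * g) = (a ^ i * b₀ ^ (n - 1 - i)) * (a - b₀) * g by
          rw [ha]; ring), ← Finset.sum_mul, ← Finset.sum_mul, h2]
    ring

include hS ht hg hn hn0 D in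
/-- The exact root. -/
theorem exists_root {K' Ω : Type} [Field K'] [IsAlgClosed K'] [Algebra K K'] [Field Ω]
    [Algebra K' Ω] (i : F →+* Ω)
    (hi : ∀ c : K, i (algebraMap K F c) = algebraMap K' Ω (algebraMap K K' c))
    {a₀ a₁ : F} (h₀ : a₀ ^ n * g ∈ chartRing S t) (h₁ : a₁ ^ n * g ∈ chartRing S t⁻¹)
    (hs₀ : D.Small (a₀ ^ n * g - 1)) (hs₁ : D.Small (a₁ ^ n * g - 1))
    (hs : D.Small (a₀ * a₁ ^ (n - 1) * g - 1)) :
    ∃ r ∈ Submodule.span K' (Set.range i), r ^ n * i g = 1 := by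
  classical
  have := hS.isDiscreteValuationRing
  have := hS.isFractionRing
  set Λ := rootMod S n g hn0 t ⊓ rootMod S n g hn0 t⁻¹
  obtain ⟨T, hT⟩ := fg_inf_rootMod hn0 hg hS ht
  set Γ := rootMod S 1 (1 : F) one_ne_zero t ⊓ rootMod S 1 (1 : F) one_ne_zero t⁻¹
  haveI : Module.Finite S Γ := Module.Finite.iff_fg.2 (fg_inf_rootMod one_ne_zero one_ne_zero hS ht)
  have hΓ : ∀ x, x ∈ chartRing S t → x ∈ chartRing S t⁻¹ → x ∈ Γ := fun x hx hx' =>
    ⟨(mem_rootMod).2 (by simpa using hx), (mem_rootMod).2 (by simpa using hx')⟩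
  haveI : Module.IsTorsionFree S Γ := Module.IsTorsionFree.comap id
    (fun r hr => hr) fun r x => rfl
  let γ := Module.Free.chooseBasis S Γ
  let ι := Module.Free.ChooseBasisIndex S Γ
  let b : T → F := fun x => x
  have hb : ∀ x : T, (x : F) ∈ Λ := fun x => hT.le (Submodule.subset_span x.2)
  -- the monomial coefficients lie in `Γ`
  have hmon : ∀ f : Fin n → T, (∏ k, b (f k)) * g ∈ Γ := by
    intro f
    have key : ∀ u : F, (∀ x : T, (x : F) ∈ rootMod S n g hn0 u) →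
        (∏ k, b (f k)) * g ∈ chartRing S u := by
      intro u hu
      refine mem_chartRing_of_pow S u hn0 ?_
      rw [mul_pow, ← Finset.prod_pow, show g ^ n = ∏ _k : Fin n, g by simp, ← Finset.prod_mul_distrib]
      exact prod_mem fun k _ => hu _
    exact hΓ _ (key t fun x => (hb x).1) (key t⁻¹ fun x => (hb x).2)
  have h1Γ : (1 : F) ∈ Γ := hΓ _ (one_mem _) (one_mem _)
  let eqn : ι → MvPolynomial T K := fun l =>
    (∑ f : Fin n → T, MvPolynomial.C ((γ.repr ⟨_, hmon f⟩ l : S) : K) * ∏ k, MvPolynomial.X (f k)) -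
      MvPolynomial.C ((γ.repr ⟨1, h1Γ⟩ l : S) : K)
  have hzero : (MvPolynomial.zeroLocus K' (Ideal.span (Set.range eqn))).Nonempty := by
    by_contra hempty
    rw [Set.not_nonempty_iff_eq_empty] at hempty
    have h1 := MvPolynomial.vanishingIdeal_zeroLocus_eq_radical (K := K') (Ideal.span (Set.range eqn))
    rw [hempty, MvPolynomial.vanishingIdeal_empty, eq_comm, Ideal.radical_eq_top] at h1
    obtain ⟨h, hh⟩ := Ideal.mem_span_range_iff_exists_fun.1
      (show (1 : MvPolynomial T K) ∈ Ideal.span (Set.range eqn) by rw [h1]; trivial)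
    obtain ⟨⟨d, hd⟩, hdh⟩ := IsLocalization.exist_integer_multiples (nonZeroDivisors S)
      ((Finset.univ : Finset ι).sigma fun l => (h l).support) fun le => (h le.1).coeff le.2
    have hd0 : d ≠ 0 := nonZeroDivisors.ne_zero hd
    obtain ⟨u, m, hum⟩ := hS.exists_unit_mul_pow hd0
    obtain ⟨a, ⟨ha0, ha1⟩, v, hv, hav⟩ := exists_global_approx D hn hn0 hg hS ht h₀ h₁ hs₀ hs₁ hs (m + 1)
    obtain ⟨x, hx⟩ : ∃ x : T → S, ∑ j, x j • (j : F) = a := by
      have : a ∈ Submodule.span S (T : Set F) := by rw [hT]; exact ⟨ha0, ha1⟩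
      rw [Submodule.mem_span_finset'] at this
      exact this
    have hϖ : algebraMap K F ϖ ≠ 0 := (_root_.map_ne_zero _).2 hS.ne_zero
    have hvΓ : v ∈ Γ := by
      have hv' : v = algebraMap K F (ϖ ^ (m + 1))⁻¹ * (a ^ n * g - 1) := by
        rw [hav, map_inv₀, map_pow, inv_mul_cancel_left₀ (pow_ne_zero _ hϖ)]
      refine hΓ v (D.mem_chart t (Set.mem_insert _ _) v ?_ hv)
        (D.mem_chart t⁻¹ (Set.mem_insert_of_mem _ rfl) v ?_ hv) <;> rw [hv']
      · exact mul_mem (algebraMap_mem_chartRing _ t (Subring.mem_top _))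
          (sub_mem (chartRing_mono S t le_top ha0) (one_mem _))
      · exact mul_mem (algebraMap_mem_chartRing _ t⁻¹ (Subring.mem_top _))
          (sub_mem (chartRing_mono S t⁻¹ le_top ha1) (one_mem _))
    let x' : T → K := fun j => x j
    have hpow : a ^ n = ∑ f : Fin n → T, (∏ k, x (f k)) • ∏ k, b (f k) := by
      rw [← hx, ← Fin.prod_const, Finset.prod_univ_sum]
      simp only [Fintype.piFinset_univ]
      exact Finset.sum_congr rfl fun f _ => by rw [Finset.prod_smul]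
    have heval : ∀ l, MvPolynomial.eval x' (eqn l) =
        ((⟨ϖ, hS.mem⟩ : S) : K) ^ (m + 1) * ((γ.repr ⟨v, hvΓ⟩ l : S) : K) := by
      intro l
      have e : (∑ f : Fin n → T, (∏ k, x (f k)) • (⟨_, hmon f⟩ : Γ)) - ⟨1, h1Γ⟩ =
          ((⟨ϖ, hS.mem⟩ : S) ^ (m + 1)) • (⟨v, hvΓ⟩ : Γ) := by
        refine Subtype.ext ?_
        simp only [AddSubgroupClass.coe_sub, AddSubmonoidClass.coe_finsetSum, SetLike.val_smul]
        rw [Algebra.smul_def ((⟨ϖ, hS.mem⟩ : S) ^ (m + 1)), map_pow]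
        show _ = algebraMap K F ϖ ^ (m + 1) * v
        rw [← hav, hpow, Finset.sum_mul]
        simp only [smul_mul_assoc]
      have := congrArg (fun z : Γ => ((γ.repr z l : S) : K)) e
      simp only [map_sub, map_sum, map_smul, Finsupp.sub_apply, Finsupp.coe_finsetSum, Finset.sum_apply,
        Finsupp.smul_apply, smul_eq_mul] at this
      push_cast at this
      rw [← this]
      simp only [eqn, map_sub, map_sum, map_mul, map_prod, MvPolynomial.eval_C, MvPolynomial.eval_X]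
      congr 1
      exact Finset.sum_congr rfl fun f _ => mul_comm _ _
    have hhl : ∀ l, ∃ z : S, (d : K) * MvPolynomial.eval x' (h l) = z := by
      intro l
      rw [MvPolynomial.eval_eq, Finset.mul_sum]
      have : ∑ e ∈ (h l).support, (d : K) * ((h l).coeff e * ∏ j ∈ e.support, x' j ^ e j) ∈ S := by
        refine S.sum_mem fun e he => ?_
        rw [← mul_assoc]
        refine S.mul_mem ?_ (S.prod_mem fun j _ => S.pow_mem (x j).2 _)
        obtain ⟨z, hz⟩ := hdh ⟨l, e⟩ (Finset.mem_sigma.2 ⟨Finset.mem_univ _, he⟩)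
        have : (z : K) = (d : K) * (h l).coeff e := by
          rw [Algebra.smul_def] at hz; exact hz
        exact this ▸ z.2
      exact ⟨⟨_, this⟩, rfl⟩
    choose z hz using hhl
    have h2 : (d : K) = ((⟨ϖ, hS.mem⟩ : S) : K) ^ (m + 1) *
        ((∑ l, z l * γ.repr ⟨v, hvΓ⟩ l : S) : K) := by
      have := congrArg (fun p => (d : K) * MvPolynomial.eval x' p) hh
      simp only [map_one, mul_one, map_sum, map_mul] at this
      rw [← this]
      push_cast
      rw [Finset.mul_sum, Finset.mul_sum]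
      refine Finset.sum_congr rfl fun l _ => ?_
      rw [heval, ← hz]
      ring
    set zsum := (∑ l, z l * γ.repr ⟨v, hvΓ⟩ l : S)
    have h3 : (u : S) * (⟨ϖ, hS.mem⟩ : S) ^ m =
        (⟨ϖ, hS.mem⟩ : S) ^ m * ((⟨ϖ, hS.mem⟩ : S) * zsum) := by
      rw [← hum]
      refine Subtype.ext ?_
      push_cast
      rw [h2]
      ring
    rw [mul_comm (u : S)] at h3
    have h4 := mul_left_cancel₀ (pow_ne_zero _ hS.irreducible.ne_zero) h3
    exact hS.irreducible.not_isUnit (isUnit_of_mul_isUnit_left (h4 ▸ u.isUnit))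
  obtain ⟨x, hx⟩ := hzero
  refine ⟨∑ j, x j • i (b j), Submodule.sum_mem _ fun j _ =>
    Submodule.smul_mem _ _ (Submodule.subset_span ⟨_, rfl⟩), ?_⟩
  have hx' : ∀ l, ∑ f : Fin n → T,
      algebraMap K K' ((γ.repr ⟨_, hmon f⟩ l : S) : K) * ∏ k, x (f k) =
        algebraMap K K' ((γ.repr ⟨1, h1Γ⟩ l : S) : K) := fun l => by
    have := hx (eqn l) (Ideal.subset_span ⟨l, rfl⟩)
    simpa [eqn, sub_eq_zero] using this
  have hexp : ∀ z : Γ, i (z : F) =
      ∑ l, algebraMap K' Ω (algebraMap K K' ((γ.repr z l : S) : K)) * i ((γ l : Γ) : F) := by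
    intro z
    conv_lhs => rw [← γ.sum_repr z]
    simp only [AddSubmonoidClass.coe_finsetSum, map_sum, SetLike.val_smul]
    refine Finset.sum_congr rfl fun l _ => ?_
    rw [Algebra.smul_def, map_mul]
    exact congrArg (· * _) (hi _)
  calc (∑ j, x j • i (b j)) ^ n * i g
      = ∑ f : Fin n → T, algebraMap K' Ω (∏ k, x (f k)) * i ((∏ k, b (f k)) * g) := by
        rw [← Fin.prod_const, Finset.prod_univ_sum, Finset.sum_mul]
        simp only [Fintype.piFinset_univ]
        refine Finset.sum_congr rfl fun f _ => ?_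
        simp only [Algebra.smul_def, Finset.prod_mul_distrib, map_mul, map_prod, mul_assoc]
    _ = ∑ f : Fin n → T, ∑ l, algebraMap K' Ω
          (algebraMap K K' ((γ.repr ⟨_, hmon f⟩ l : S) : K) * ∏ k, x (f k)) * i ((γ l : Γ) : F) := by
        refine Finset.sum_congr rfl fun f _ => ?_
        rw [show i ((∏ k, b (f k)) * g) = i (((⟨_, hmon f⟩ : Γ) : F)) from rfl, hexp, Finset.mul_sum]
        refine Finset.sum_congr rfl fun l _ => ?_
        rw [map_mul]
        ring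
    _ = ∑ l, algebraMap K' Ω (algebraMap K K' ((γ.repr ⟨1, h1Γ⟩ l : S) : K)) * i ((γ l : Γ) : F) := by
        rw [Finset.sum_comm]
        refine Finset.sum_congr rfl fun l _ => ?_
        rw [← Finset.sum_mul, ← map_sum, hx' l]
    _ = 1 := by rw [← hexp ⟨1, h1Γ⟩]; exact map_one i

end Glue

end Fermat.Agent.BadPrime.Sq
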