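import Fermat.Agent.BadPrime.Sq.ResCurve
import Fermat.Agent.BadPrime.Sq.Dual
import Fermat.Agent.BadPrime.Sq.Roots
import Fermat.Agent.BadPrime.Sq.CuspClear

/-!
# Level `N q²`: three branches and their reductions
-/

set_option autoImplicit false
set_option linter.unusedSectionVars false

noncomputable section

open ModularCurve Polynomial

namespace Fermat.Agent.BadPrime.Sq

variable {q : ℕ} [Fact q.Prime] {K K' k : Type} [Field K] [Field K'] [Algebra K K'] [Field k]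
  [CharZero K] [CharP k q] [IsAlgClosed k] {A : ValuationSubring K'} {π : A →+* k}
  (T : SqTower q K π)

namespace SqTower

/-- `j(τ)` at level `N q²`. -/
abbrev x₂ : T.F₂ := T.α' T.x₁

/-- `j(q τ)` at level `N q²`. -/
abbrev y₂ : T.F₂ := T.α' (T.W T.x₁)

/-- `j(q² τ)` at level `N q²`. -/
abbrev z₂ : T.F₂ := T.β' (T.W T.x₁)

/-- The coordinate of level `N q` at finite `j(τ)` or at `j(τ) ≠ 0`. -/
def t₁ (b : Bool) : T.F₁ := bif b then T.x₁ else T.x₁⁻¹

/-- The coordinate of level `N q²` at finite `j(τ)` or at `j(τ) ≠ 0`. -/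
def t₂ (b : Bool) : T.F₂ := bif b then T.x₂ else T.x₂⁻¹

/-- The two charts of level `N q²`. -/
abbrev B₂ (b : Bool) : Subring T.F₂ := chartRing (baseRing A K) (T.t₂ b)

/-- The three expansions. -/
def e : Fin 3 → (T.F₂ →+* LaurentSeries K') := ![T.e₀, T.eₘ, T.e₂]

theorem e_zero : T.e 0 = T.e₀ := rfl

theorem e_one : T.e 1 = T.eₘ := rfl

theorem e_two : T.e 2 = T.e₂ := rfl

/-- `f` reduces to `g` on the branch `i`. -/
abbrev Res₂ (i : Fin 3) (f : T.F₂) (g : LaurentSeries k) : Prop := HasGaussRed π (T.e i f) g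

/-- The uniformisers of the three branches. -/
def ϖ : Fin 3 → K' := ![(q : K'), 1 - (T.ζ : K'), (q : K')]

/-- `f` has the value `v` on the branch `i`. -/
def HasVal (i : Fin 3) (f : T.F₂) (v : ℤ) : Prop :=
  ∃ g : LaurentSeries k, g ≠ 0 ∧ HasGaussRed π (HahnSeries.C (T.ϖ i ^ (-v)) * T.e i f) g

theorem one_sub_ζ_ne_zero : (1 : K') - T.ζ ≠ 0 := fun h =>
  T.primitive.ne_one (Fact.out : q.Prime).one_lt (Units.ext (by rw [Units.val_one, sub_eq_zero.1 h]))

theorem ϖ_ne_zero (i : Fin 3) : T.ϖ i ≠ 0 := by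
  fin_cases i
  · exact T.natCast_ne_zero'
  · exact T.one_sub_ζ_ne_zero
  · exact T.natCast_ne_zero'

theorem hasGaussRed_C_ϖ (i : Fin 3) : HasGaussRed π (HahnSeries.C (T.ϖ i)) 0 := by
  have hζ : HasGaussRed π (HahnSeries.C (1 - (T.ζ : K'))) 0 := by
    obtain ⟨u, hu, hu1⟩ := exists_res_eq_one (π := π) T.ζ_pow
    have h := hasGaussRed_C (π := π) (1 - (u : A))
    rw [map_sub, map_one, hu1, sub_self, map_zero] at h
    push_cast [hu] at h
    exact h
  fin_cases i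
  · exact T.hasGaussRed_C_natCast
  · exact hζ
  · exact T.hasGaussRed_C_natCast

theorem exists_hasVal {f : T.F₂} (hf : f ≠ 0) (i : Fin 3) : ∃ v, T.HasVal i f v := by
  obtain ⟨j, g, hg, h⟩ : ∃ (j : ℤ) (g : LaurentSeries k), g ≠ 0 ∧
      HasGaussRed π (HahnSeries.C (T.ϖ i ^ j) * T.e i f) g := by
    fin_cases i
    · exact T.value_e₀ f hf
    · exact T.value_eₘ f hf
    · exact T.value_e₂ f hf
  exact ⟨-j, g, hg, by rwa [neg_neg]⟩

theorem hasVal_zero_iff {i : Fin 3} {f : T.F₂} : T.HasVal i f 0 ↔ ∃ g ≠ 0, T.Res₂ i f g := by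
  simp only [HasVal, neg_zero, zpow_zero, map_one, one_mul]

theorem hasVal_unique {i : Fin 3} {f : T.F₂} {v v' : ℤ} (h : T.HasVal i f v)
    (h' : T.HasVal i f v') : v = v' := by
  wlog hle : v ≤ v' generalizing v v'
  · exact (this h' h (le_of_not_ge hle)).symm
  by_contra hne
  obtain ⟨g, hg, hfg⟩ := h
  obtain ⟨g', -, hfg'⟩ := h'
  obtain ⟨m, hm⟩ := Int.eq_ofNat_of_zero_le (show 0 ≤ v' - v by omega)
  have h1 := ((T.hasGaussRed_C_ϖ i).pow m).mul hfg'
  rw [← map_pow, ← mul_assoc, ← map_mul, ← zpow_natCast, ← zpow_add₀ (T.ϖ_ne_zero i),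
    show (m : ℤ) + -v' = -v by omega, zero_pow (show m ≠ 0 by omega), zero_mul] at h1
  exact hg (hfg.unique h1)

theorem HasVal.mul {i : Fin 3} {f f' : T.F₂} {v v' : ℤ} (h : T.HasVal i f v)
    (h' : T.HasVal i f' v') : T.HasVal i (f * f') (v + v') := by
  obtain ⟨g, hg, hfg⟩ := h
  obtain ⟨g', hg', hfg'⟩ := h'
  refine ⟨g * g', mul_ne_zero hg hg', ?_⟩
  have h1 := hfg.mul hfg'
  rwa [mul_mul_mul_comm, ← map_mul, ← map_mul, ← zpow_add₀ (T.ϖ_ne_zero i), ← neg_add] at h1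

theorem HasVal.res_eq_pow {i : Fin 3} {f : T.F₂} {v : ℤ} (h : T.HasVal i f v) {m : ℕ}
    (hm : (m : ℤ) ≤ v) : ∃ g, T.Res₂ i f ((0 : LaurentSeries k) ^ m * g) ∧
      ((m : ℤ) = v → g ≠ 0) := by
  obtain ⟨g, hg, hfg⟩ := h
  obtain ⟨l, hl⟩ := Int.eq_ofNat_of_zero_le (show 0 ≤ v - m by omega)
  refine ⟨(0 : LaurentSeries k) ^ l * g, ?_, fun hmv => ?_⟩
  · have h1 := ((T.hasGaussRed_C_ϖ i).pow (m + l)).mul hfg
    rwa [← map_pow, ← mul_assoc, ← map_mul, ← zpow_natCast, ← zpow_add₀ (T.ϖ_ne_zero i),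
      show ((m + l : ℕ) : ℤ) + -v = 0 by omega, zpow_zero, map_one, one_mul, pow_add, mul_assoc] at h1
  · obtain rfl : l = 0 := by omega
    rwa [pow_zero, one_mul]

/-- Positive values reduce to zero. -/
theorem HasVal.res_zero {i : Fin 3} {f : T.F₂} {v : ℤ} (h : T.HasVal i f v) (hv : 0 < v) :
    T.Res₂ i f 0 := by
  obtain ⟨g, hg, -⟩ := h.res_eq_pow T (m := 1) (by omega)
  rwa [pow_one, zero_mul] at hg

/-- Values that are not negative have reductions. -/
theorem HasVal.exists_res {i : Fin 3} {f : T.F₂} {v : ℤ} (h : T.HasVal i f v) (hv : 0 ≤ v) :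
    ∃ g, T.Res₂ i f g :=
  let ⟨g, hg, _⟩ := h.res_eq_pow T (m := 0) (by exact_mod_cast hv)
  ⟨_, hg⟩

theorem HasVal.ne_zero {i : Fin 3} {f : T.F₂} {v : ℤ} (h : T.HasVal i f v) : f ≠ 0 := by
  rintro rfl
  obtain ⟨g, hg, hfg⟩ := h
  rw [map_zero, mul_zero] at hfg
  exact hg (hfg.unique hasGaussRed_zero)

theorem HasVal.inv {i : Fin 3} {f : T.F₂} {v : ℤ} (h : T.HasVal i f v) :
    T.HasVal i f⁻¹ (-v) := by
  obtain ⟨g, hg, hfg⟩ := h
  refine ⟨g⁻¹, inv_ne_zero hg, ?_⟩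
  have h1 := hfg.inv hg
  rwa [mul_inv, ← map_inv₀, ← map_inv₀, ← zpow_neg] at h1

theorem HasVal.zpow {i : Fin 3} {f : T.F₂} {v : ℤ} (h : T.HasVal i f v) (m : ℤ) :
    T.HasVal i (f ^ m) (m * v) := by
  have key : ∀ m : ℕ, T.HasVal i (f ^ m) ((m : ℤ) * v) := by
    intro m
    induction m with
    | zero =>
      rw [pow_zero, Nat.cast_zero, zero_mul]
      exact (T.hasVal_zero_iff).2 ⟨1, one_ne_zero, by simpa [Res₂] using hasGaussRed_one⟩
    | succ m ih =>
      rw [pow_succ, Nat.cast_succ, add_one_mul]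
      exact ih.mul T h
  obtain ⟨l, rfl | rfl⟩ := m.eq_nat_or_neg
  · rw [zpow_natCast]
    exact key l
  · rw [zpow_neg, zpow_natCast, neg_mul]
    exact (key l).inv T

theorem transcendental_x₂ : Transcendental K T.x₂ := by
  intro h
  exact T.transcendental_j ((isAlgebraic_algHom_iff (T.α'.comp T.α) (T.α'.comp T.α).injective).1 h)

theorem exists_span_of_roots {F L : Type} [Field F] [Field L] [CharZero F] (a : F →+* L) (D : ℕ)
    (h : ∀ x : L, ∃ P : Polynomial F, P.Monic ∧ P.natDegree ≤ D ∧ P.eval₂ a x = 0) :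
    ∃ s : Finset L, ∀ x : L, ∃ c : L → F, x = ∑ y ∈ s, a (c y) * y := by
  classical
  letI := a.toAlgebra
  have hint : ∀ x : L, IsIntegral F x ∧ (minpoly F x).natDegree ≤ D := by
    intro x
    obtain ⟨P, hP, hD, hx⟩ := h x
    refine ⟨⟨P, hP, hx⟩, le_trans ?_ hD⟩
    exact natDegree_le_natDegree (minpoly.min F x hP hx)
  haveI : Algebra.IsIntegral F L := ⟨fun x => (hint x).1⟩
  haveI : Algebra.IsSeparable F L := Algebra.IsAlgebraic.isSeparable_of_perfectField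
  have hex : ∃ N, ∀ x : L, (minpoly F x).natDegree ≤ N := ⟨D, fun x => (hint x).2⟩
  obtain ⟨z, hz⟩ : ∃ z : L, ∀ x : L, (minpoly F x).natDegree ≤ (minpoly F z).natDegree := by
    by_contra hcon
    push Not at hcon
    have key : ∀ m : ℕ, ∃ x : L, m ≤ (minpoly F x).natDegree := by
      intro m
      induction m with
      | zero => exact ⟨0, Nat.zero_le _⟩
      | succ m ih =>
        obtain ⟨x, hx⟩ := ih
        obtain ⟨y, hy⟩ := hcon x
        exact ⟨y, by omega⟩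
    obtain ⟨x, hx⟩ := key (D + 1)
    have := (hint x).2
    omega
  have htop : ∀ x : L, x ∈ IntermediateField.adjoin F {z} := by
    intro x
    set E := IntermediateField.adjoin F ({z, x} : Set L) with hE
    haveI : FiniteDimensional F E :=
      IntermediateField.finiteDimensional_adjoin fun y _ => (hint y).1
    obtain ⟨w, hw⟩ := Field.exists_primitive_element F E
    have hdeg : Module.finrank F E = (minpoly F (w : L)).natDegree := by
      rw [← IntermediateField.minpoly_eq w, ← IntermediateField.adjoin.finrank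
        (Algebra.IsIntegral.isIntegral w), hw, IntermediateField.finrank_top']
    have hle : IntermediateField.adjoin F {z} ≤ E :=
      IntermediateField.adjoin.mono F _ _ (by simp)
    have heq : IntermediateField.adjoin F {z} = E := by
      refine IntermediateField.eq_of_le_of_finrank_le hle ?_
      rw [hdeg, IntermediateField.adjoin.finrank (hint z).1]
      exact hz _
    rw [heq]
    exact IntermediateField.subset_adjoin F _ (by simp)
  haveI : FiniteDimensional F (IntermediateField.adjoin F ({z} : Set L)) :=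
    IntermediateField.adjoin.finiteDimensional (hint z).1
  let b := Module.finBasis F (IntermediateField.adjoin F ({z} : Set L))
  refine ⟨Finset.univ.image fun l => (b l : L), fun x => ⟨fun y =>
    ∑ l, if (b l : L) = y then b.repr ⟨x, htop x⟩ l else 0, ?_⟩⟩
  have hinj : Function.Injective fun l => (b l : L) := fun l l' hl => b.injective (Subtype.ext hl)
  rw [Finset.sum_image fun l _ l' _ hl => hinj hl]
  have e := congrArg Subtype.val (b.sum_repr ⟨x, htop x⟩)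
  simp only [AddSubmonoidClass.coe_finsetSum, IntermediateField.coe_smul, Algebra.smul_def] at e
  refine e.symm.trans (Finset.sum_congr rfl fun l _ => ?_)
  beta_reduce
  rw [Finset.sum_eq_single l (fun l' _ hl' => if_neg fun h => hl' (hinj h))
    (fun h => absurd (Finset.mem_univ l) h), if_pos rfl, MulMemClass.coe_mul]
  rfl

theorem finite_x₂ : FiniteDimensional (IntermediateField.adjoin K {T.x₂}) T.F₂ := by
  classical
  haveI : CharZero T.F₀ := charZero_of_injective_algebraMap (algebraMap K T.F₀).injective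
  haveI : CharZero T.F₁ := charZero_of_injective_algebraMap (algebraMap K T.F₁).injective
  obtain ⟨s₁, hs₁⟩ := exists_span_of_roots T.α.toRingHom (q + 1) fun x => by
    obtain ⟨P, hP, hd, hx, -⟩ := T.cp₁ x
    exact ⟨P, hP, hd.le, hx⟩
  obtain ⟨s₂, hs₂⟩ := exists_span_of_roots T.α'.toRingHom q fun x => by
    obtain ⟨P, hP, hd, hx, -⟩ := T.cp₂ x
    exact ⟨P, hP, hd.le, hx⟩
  haveI := T.finite_j
  obtain ⟨s₀, hs₀⟩ := Module.Finite.fg_top (R := IntermediateField.adjoin K {T.j}) (M := T.F₀)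
  set φ : T.F₀ →ₐ[K] T.F₂ := T.α'.comp T.α with hφ
  have hφj : ∀ c ∈ IntermediateField.adjoin K {T.j}, φ c ∈ IntermediateField.adjoin K {T.x₂} := by
    intro c hc
    have h1 : φ c ∈ (IntermediateField.adjoin K {T.j}).map φ := ⟨c, hc, rfl⟩
    rwa [IntermediateField.adjoin_map, Set.image_singleton] at h1
  set u : Finset T.F₂ :=
    ((s₀.image φ) ×ˢ ((s₁.image T.α') ×ˢ s₂)).image fun p => p.1 * (p.2.1 * p.2.2) with hu
  set M := Submodule.span (IntermediateField.adjoin K {T.x₂}) (u : Set T.F₂) with hM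
  have step : ∀ (c : T.F₀), ∀ y₁ ∈ s₁, ∀ y₂ ∈ s₂, φ c * (T.α' y₁ * y₂) ∈ M := by
    intro c y₁ hy₁ y₂ hy₂
    have hc : c ∈ Submodule.span (IntermediateField.adjoin K {T.j}) (s₀ : Set T.F₀) :=
      hs₀ ▸ Submodule.mem_top
    induction hc using Submodule.span_induction with
    | mem z hz =>
      refine Submodule.subset_span ?_
      rw [hu, Finset.mem_coe, Finset.mem_image]
      exact ⟨(φ z, (T.α' y₁, y₂)), Finset.mem_product.2 ⟨Finset.mem_image_of_mem _ hz,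
        Finset.mem_product.2 ⟨Finset.mem_image_of_mem _ hy₁, hy₂⟩⟩, rfl⟩
    | zero => rw [map_zero, zero_mul]; exact zero_mem _
    | add a b _ _ ha hb => rw [map_add, add_mul]; exact add_mem ha hb
    | smul a z _ hz =>
      rw [show a • z = (a : T.F₀) * z from rfl, map_mul, mul_assoc]
      exact M.smul_mem ⟨φ a, hφj _ a.2⟩ hz
  refine ⟨⟨u, eq_top_iff.2 fun f _ => ?_⟩⟩
  obtain ⟨c, rfl⟩ := hs₂ f
  refine Submodule.sum_mem _ fun y₂ hy₂ => ?_
  obtain ⟨d, hd⟩ := hs₁ (c y₂)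
  rw [hd, map_sum, Finset.sum_mul]
  refine Submodule.sum_mem _ fun y₁ hy₁ => ?_
  rw [map_mul, mul_assoc]
  exact step _ y₁ hy₁ y₂ hy₂

theorem res₂_α'₀ {f : T.F₁} {g : LaurentSeries k} (h : T.Res₀ f g) :
    T.Res₂ 0 (T.α' f) g ∧ T.Res₂ 1 (T.α' f) g := by
  refine ⟨?_, ?_⟩
  · show HasGaussRed π (T.e₀ (T.α' f)) g
    rw [T.e₀_α']; exact h
  · show HasGaussRed π (T.eₘ (T.α' f)) g
    rw [T.eₘ_α']; exact h

theorem res₂_α'₁ {f : T.F₁} {g : LaurentSeries k} (h : T.Res₁ f g) :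
    T.Res₂ 2 (T.α' f) (qExpand k q g) := by
  show HasGaussRed π (T.e₂ (T.α' f)) _
  rw [T.e₂_α']
  exact hasGaussRed_qExpand h

theorem res₂_β'₀ {f : T.F₁} {g : LaurentSeries k} (h : T.Res₀ f g) :
    T.Res₂ 0 (T.β' f) (qExpand k q g) := by
  show HasGaussRed π (T.e₀ (T.β' f)) _
  rw [T.e₀_β']
  exact hasGaussRed_qExpand h

theorem res₂_β'₁ {f : T.F₁} {g : LaurentSeries k} (h : T.Res₁ f g) :
    T.Res₂ 1 (T.β' f) g ∧ T.Res₂ 2 (T.β' f) g := by
  refine ⟨?_, ?_⟩
  · show HasGaussRed π (T.eₘ (T.β' f)) g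
    rw [T.eₘ_β']; exact hasGaussRed_twist T.ζ_pow h
  · show HasGaussRed π (T.e₂ (T.β' f)) g
    rw [T.e₂_β']; exact h

theorem x₂_mem : T.x₂ ∈ T.B₂ true := self_mem_chartRing _ _

theorem y₂_mem : T.y₂ ∈ T.B₂ true := by
  exact map_mem_chartRing T.α' T.isIntegral_W_j

theorem β'_mem {f : T.F₁} (hf : f ∈ T.B₁) : T.β' f ∈ T.B₂ true := by
  have h := map_mem_chartRing T.β' hf
  rw [show T.β' T.x₁ = T.y₂ from (T.square T.j).symm] at h
  exact mem_chartRing_of_mem T.y₂_mem h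

theorem z₂_mem : T.z₂ ∈ T.B₂ true := by
  exact T.β'_mem (T.W_mem_B₁ (self_mem_chartRing _ _))

theorem chartRing_z₂ : chartRing (baseRing A K) T.z₂ = T.B₂ true := by
  ext f
  refine ⟨fun hf => mem_chartRing_of_mem T.z₂_mem hf, fun hf => mem_chartRing_of_mem ?_ hf⟩
  have hx : T.x₁ ∈ chartRing (baseRing A K) (T.W T.x₁) := by
    simpa [SqTower.x₁, T.W_W] using map_mem_chartRing T.W T.isIntegral_W_j
  have hy : T.y₂ ∈ chartRing (baseRing A K) T.z₂ := by
    rw [show T.y₂ = T.β' T.x₁ from T.square T.j]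
    exact map_mem_chartRing T.β' hx
  exact mem_chartRing_of_mem hy (map_mem_chartRing T.α' hx)

/-- The coordinate of level `N`. -/
def t₀ (b : Bool) : T.F₀ := bif b then T.j else T.j⁻¹

theorem t₁_eq (b : Bool) : T.t₁ b = T.α (T.t₀ b) := by
  cases b
  · exact (map_inv₀ T.α T.j).symm
  · rfl

theorem t₂_eq (b : Bool) : T.t₂ b = T.α' (T.t₁ b) := by
  cases b
  · exact (map_inv₀ T.α' T.x₁).symm
  · rfl

theorem jqModC_ne_zero' (k : Type) [Field k] : jqModC k ≠ 0 := fun h =>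
  Reduction.transcendental_jqModC k (h ▸ isAlgebraic_zero)

theorem res₀_t₁ (b : Bool) : T.Res₀ (T.t₁ b) (coord b) := by
  have h : T.Res₀ T.x₁ (jqModC k) := by
    show HasGaussRed π _ _
    rw [T.i₁_x]; exact hasGaussRed_jqModC
  cases b
  · show HasGaussRed π (T.i₁ T.x₁⁻¹) (jqModC k)⁻¹
    rw [map_inv₀]
    exact h.inv (jqModC_ne_zero' k)
  · exact h

theorem res₁_t₁ (b : Bool) : T.Res₁ (T.t₁ b) (coord b ^ q) := by
  have h : T.Res₁ T.x₁ (jqModC k ^ q) := by
    show HasGaussRed π _ _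
    rw [T.i₁_W_x, ← qExpand_jqModC_eq_pow]; exact hasGaussRed_qExpand hasGaussRed_jqModC
  cases b
  · show HasGaussRed π (T.i₁ (T.W T.x₁⁻¹)) ((jqModC k)⁻¹ ^ q)
    rw [map_inv₀, map_inv₀, inv_pow]
    exact h.inv (pow_ne_zero q (jqModC_ne_zero' k))
  · exact h

/-- The exponent of the coordinate on the branch `i`. -/
def expo (q : ℕ) : Fin 3 → ℕ := ![1, 1, q ^ 2]

theorem expo_ne_zero (i : Fin 3) : expo q i ≠ 0 := by
  fin_cases i
  · exact one_ne_zero
  · exact one_ne_zero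
  · exact pow_ne_zero 2 (Fact.out : q.Prime).ne_zero

theorem qExpand_coord_pow (b : Bool) (m : ℕ) :
    qExpand k q (coord b ^ m) = (coord b ^ q) ^ m := by
  cases b
  · show qExpand k q ((jqModC k)⁻¹ ^ m) = ((jqModC k)⁻¹ ^ q) ^ m
    rw [map_pow, map_inv₀, qExpand_jqModC_eq_pow]
    simp only [inv_pow]
  · show qExpand k q (jqModC k ^ m) = (jqModC k ^ q) ^ m
    rw [map_pow, qExpand_jqModC_eq_pow]

theorem res₂_t₂ (b : Bool) (i : Fin 3) : T.Res₂ i (T.t₂ b) (coord b ^ expo q i) := by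
  rw [t₂_eq]
  fin_cases i
  · simpa [expo] using (T.res₂_α'₀ (T.res₀_t₁ b)).1
  · simpa [expo] using (T.res₂_α'₀ (T.res₀_t₁ b)).2
  · have h := T.res₂_α'₁ (T.res₁_t₁ b)
    rw [qExpand_coord_pow, ← pow_mul, ← pow_two] at h
    simpa [expo] using h

theorem hasGaussRed_σ (a : (ZMod q)ˣ) {x : LaurentSeries K'} {g : LaurentSeries k}
    (h : HasGaussRed π x g) : HasGaussRed π (coeffMap (T.σ a : K' →+* K') x) g := by
  obtain ⟨a₀, b₀, hb, e₁, e₂⟩ := h
  let s : A →+* A := ((T.σ a : K' →+* K').comp A.subtype).codRestrict A fun c => T.σ_mem a c c.2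
  have hs : A.subtype.comp s = (T.σ a : K' →+* K').comp A.subtype := rfl
  have hsπ : π.comp s = π := RingHom.ext fun c => T.σ_res a c
  have hA : ∀ y : LaurentSeries A, coeffMap A.subtype (coeffMap s y) =
      coeffMap (T.σ a : K' →+* K') (coeffMap A.subtype y) := fun y => by
    ext m; simp only [coeffMap_coeff]; rfl
  have hk : ∀ y : LaurentSeries A, coeffMap π (coeffMap s y) = coeffMap π y := fun y => by
    ext m; simp only [coeffMap_coeff]; exact RingHom.congr_fun hsπ _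
  refine ⟨coeffMap s a₀, coeffMap s b₀, by rwa [hk], ?_, by rw [hk, hk]; exact e₂⟩
  rw [hA, hA, ← map_mul, ← e₁]

/-- Conjugates along `α'`. -/
def conj₂ (o : Option (ZMod q)ˣ) : T.F₂ →+* LaurentSeries K' :=
  o.elim T.e₀ fun a => (coeffMap (T.σ a : K' →+* K')).comp T.eₘ

theorem res₂_mem_aux {b : Bool} {f : T.F₁} (hf : f ∈ chartRing (⊤ : Subring K) (T.t₁ b))
    (h₀ : ∃ g, T.Res₀ f g) (h₁ : ∃ g, T.Res₁ f g) :
    f ∈ chartRing (baseRing A K) (T.t₁ b) := by
  haveI := T.isLocalHom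
  obtain ⟨g₀, h₀⟩ := h₀
  obtain ⟨g₁, h₁⟩ := h₁
  obtain ⟨P, hP, -, hf0, hmap⟩ := T.exists_conj₁ f
  have htw : ∀ (a : ZMod q) (x : LaurentSeries K'),
      Igusa.twist (T.ζ ^ a.val) (qExpand K' q x) = qExpand K' q x := fun a x => by
    ext m
    rw [Igusa.twist_coeff]
    by_cases hm : (q : ℤ) ∣ m
    · obtain ⟨i, rfl⟩ := hm
      rw [zpow_mul, zpow_natCast, T.ζ_pow_pow, one_zpow, Units.val_one, one_mul]
    · rw [qExpand_coeff_of_not_dvd q x hm, mul_zero]
  rw [t₁_eq] at hf ⊢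
  have hcoeff : ∀ i, P.coeff i ∈ chartRing (baseRing A K) (T.t₀ b) := by
    intro i
    have htop : P.coeff i ∈ chartRing (⊤ : Subring K) (T.t₀ b) := by
      refine coeff_prod_mem_chartRing T.α ((qExpand K' q).comp T.i₁) T.conj₁ (f := f) ?_ ?_ hf hmap i
      · rintro (_ | a)
        · rfl
        · show Igusa.twist (T.ζ ^ a.val) (T.i₁ (T.W (T.α (T.t₀ b)))) =
            qExpand K' q (T.i₁ (T.α (T.t₀ b)))
          rw [T.i₁_W_α, T.i₁_α, htw]
      · rintro (_ | a) c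
        · rfl
        · show Igusa.twist (T.ζ ^ a.val) (T.i₁ (T.W (algebraMap K T.F₁ c))) =
            qExpand K' q (T.i₁ (algebraMap K T.F₁ c))
          rw [AlgHom.commutes, T.i₁_algebraMap, qExpand_C, ← qExpand_C (R := K') q, htw]
    have hres : ∃ g, HasGaussRed π (T.i₀ (P.coeff i)) g := by
      rcases eq_or_ne (P.coeff i) 0 with h | h
      · exact ⟨0, by rw [h, map_zero]; exact hasGaussRed_zero⟩
      have hroots : ∀ o, ∃ g, HasGaussRed π (T.conj₁ o f) g := by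
        rintro (_ | a)
        · exact ⟨_, hasGaussRed_qExpand h₀⟩
        · exact ⟨_, hasGaussRed_twist (T.ζ_pow_pow _) h₁⟩
      have hmem : (qExpand K' q) (T.i₀ (P.coeff i)) ∈ gaussSeries π := by
        have e : (P.map (((qExpand K' q).comp T.i₁).comp T.α.toRingHom)).coeff i ∈
            gaussSeries π := by
          rw [hmap]
          have : (∏ o, (X - C (T.conj₁ o f))) =
              (∏ o, (X - C (⟨_, hroots o⟩ : gaussSeries π))).map (gaussSeries π).subtype := by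
            simp [Polynomial.map_prod]
          rw [this, coeff_map]
          exact SetLike.coe_mem _
        rw [coeff_map] at e
        rwa [← T.i₁_α]
      obtain ⟨G, hG⟩ := hmem
      exact exists_hasGaussRed_of_qExpand (T.value_i₀ _ h) hG
    cases b
    · exact T.integral_inf _ htop hres
    · exact T.integral_fin _ htop hres
  refine mem_chartRing_of_monic (p := P.map T.α.toRingHom) (hP.map _) (fun i => ?_)
    (by rw [eval_map]; exact hf0)
  rw [coeff_map]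
  exact map_mem_chartRing T.α (hcoeff i)

theorem map_e₀_eq (P : Polynomial T.F₁) :
    P.map (T.e₀.comp T.α'.toRingHom) = P.map T.i₁ :=
  congrArg (fun φ => P.map φ) (RingHom.ext fun c => T.e₀_α' c)

/-- The conjugate polynomial of a function with three reductions has integral coefficients. -/
theorem coeff_cp₂_mem {b : Bool} {f : T.F₂} (hf : f ∈ chartRing (⊤ : Subring K) (T.t₂ b))
    (h : ∀ i, ∃ g, T.Res₂ i f g) {P : Polynomial T.F₁}
    (h₁ : P.map T.i₁ = (X - C (T.e₀ f)) *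
        ∏ a : (ZMod q)ˣ, (X - C (coeffMap (T.σ a : K' →+* K') (T.eₘ f))))
    (h₂ : P.map ((qExpand K' q).comp (T.i₁.comp T.W.toRingHom)) =
      ∏ a : ZMod q, (X - C (Igusa.twist (T.ζ ^ a.val) (T.e₂ f)))) (i : ℕ) :
    P.coeff i ∈ chartRing (baseRing A K) (T.t₁ b) := by
  haveI := T.isLocalHom
  have hmap : P.map (T.e₀.comp T.α'.toRingHom) = ∏ o, (X - C (T.conj₂ o f)) := by
    rw [map_e₀_eq, h₁, Fintype.prod_option]
    rfl
  refine T.res₂_mem_aux ?_ ?_ ?_
  · rw [t₂_eq] at hf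
    refine coeff_prod_mem_chartRing T.α' T.e₀ T.conj₂ (f := f) ?_ ?_ hf hmap i
    · rintro (_ | a)
      · rfl
      · show coeffMap (T.σ a : K' →+* K') (T.eₘ (T.α' (T.t₁ b))) = T.e₀ (T.α' (T.t₁ b))
        rw [T.eₘ_α', T.e₀_α', t₁_eq, T.i₁_α]
        cases b
        · show coeffMap (T.σ a : K' →+* K') (T.i₀ T.j⁻¹) = T.i₀ T.j⁻¹
          rw [map_inv₀, map_inv₀, T.i₀_j, coeffMap_jqModC]
        · show coeffMap (T.σ a : K' →+* K') (T.i₀ T.j) = T.i₀ T.j
          rw [T.i₀_j, coeffMap_jqModC]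
    · rintro (_ | a) c
      · rfl
      · show coeffMap (T.σ a : K' →+* K') (T.eₘ (algebraMap K T.F₂ c)) =
          T.e₀ (algebraMap K T.F₂ c)
        rw [T.eₘ_algebraMap, T.e₀_algebraMap, Igusa.coeffMap_C]
        exact congrArg HahnSeries.C ((T.σ a).commutes c)
  · show T.i₁ (P.coeff i) ∈ gaussSeries π
    have hroots : ∀ o, T.conj₂ o f ∈ gaussSeries π := by
      rintro (_ | a)
      · exact h 0
      · obtain ⟨g, hg⟩ := h 1
        exact ⟨g, T.hasGaussRed_σ _ hg⟩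
    rw [show T.i₁ (P.coeff i) = (P.map T.i₁).coeff i from (coeff_map T.i₁ i).symm, ← T.map_e₀_eq, hmap,
      show (∏ o, (X - C (T.conj₂ o f))) =
        (∏ o, (X - C (⟨_, hroots o⟩ : gaussSeries π))).map (gaussSeries π).subtype by
          simp [Polynomial.map_prod], coeff_map]
    exact SetLike.coe_mem _
  · rcases eq_or_ne (P.coeff i) 0 with h0 | h0
    · refine ⟨0, ?_⟩
      show HasGaussRed π (T.i₁ (T.W (P.coeff i))) 0
      rw [h0, map_zero, map_zero]
      exact hasGaussRed_zero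
    have hroots : ∀ a : ZMod q, Igusa.twist (T.ζ ^ a.val) (T.e₂ f) ∈ gaussSeries π := fun a => by
      obtain ⟨g, hg⟩ := h 2
      exact ⟨g, hasGaussRed_twist (T.ζ_pow_pow _) hg⟩
    have hmem : qExpand K' q (T.i₁ (T.W (P.coeff i))) ∈ gaussSeries π := by
      rw [show qExpand K' q (T.i₁ (T.W (P.coeff i))) =
          (P.map ((qExpand K' q).comp (T.i₁.comp T.W.toRingHom))).coeff i from
            (coeff_map ((qExpand K' q).comp (T.i₁.comp T.W.toRingHom)) i).symm,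
        h₂, show (∏ a : ZMod q, (X - C (Igusa.twist (T.ζ ^ a.val) (T.e₂ f)))) =
          (∏ a, (X - C (⟨_, hroots a⟩ : gaussSeries π))).map (gaussSeries π).subtype by
            simp [Polynomial.map_prod], coeff_map]
      exact SetLike.coe_mem _
    obtain ⟨G, hG⟩ := hmem
    obtain ⟨j, g, hg, hj⟩ := T.value_i₁ (T.W (P.coeff i)) (by rwa [Ne, map_eq_zero])
    exact exists_hasGaussRed_of_qExpand ⟨_, g, hg, hj⟩ hG

/-- The ring `S[t]`-integral elements are those with three reductions among the `K[t]`-integral. -/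
theorem mem_B₂ {b : Bool} {f : T.F₂} (hf : f ∈ chartRing (⊤ : Subring K) (T.t₂ b))
    (h : ∀ i, ∃ g, T.Res₂ i f g) : f ∈ T.B₂ b := by
  obtain ⟨P, hP, -, hf0, h₁, h₂⟩ := T.cp₂ f
  refine mem_chartRing_of_monic (p := P.map T.α'.toRingHom) (hP.map _) (fun i => ?_)
    (by rw [eval_map]; exact hf0)
  rw [coeff_map, t₂_eq]
  exact map_mem_chartRing T.α' (T.coeff_cp₂_mem hf h h₁ h₂ i)

theorem exists_res_or_inv₂ (i : Fin 3) (f : T.F₂) :
    (∃ g, T.Res₂ i f g) ∨ ∃ g, T.Res₂ i f⁻¹ g := by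
  rcases eq_or_ne f 0 with rfl | hf
  · exact Or.inl ⟨0, by simpa [Res₂] using hasGaussRed_zero⟩
  obtain ⟨v, hv⟩ := T.exists_hasVal hf i
  rcases le_total 0 v with h | h
  · exact Or.inl (hv.exists_res T h)
  · exact Or.inr ((hv.inv T).exists_res T (by omega))

/-- The elements with a reduction on the branch `i`. -/
def V₂ (i : Fin 3) : ValuationSubring T.F₂ :=
  { (gaussSeries π).comap (T.e i) with
    mem_or_inv_mem' := T.exists_res_or_inv₂ i }

theorem mem_V₂ {i : Fin 3} {f : T.F₂} : f ∈ T.V₂ i ↔ ∃ g, T.Res₂ i f g := Iff.rfl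

theorem e_algebraMap (i : Fin 3) (c : K) :
    T.e i (algebraMap K T.F₂ c) = HahnSeries.C (algebraMap K K' c) := by
  fin_cases i
  · exact T.e₀_algebraMap c
  · exact T.eₘ_algebraMap c
  · exact T.e₂_algebraMap c

theorem res₂_algebraMap (i : Fin 3) {c : K} (hc : c ∈ baseRing A K) :
    T.Res₂ i (algebraMap K T.F₂ c) (HahnSeries.C (π ⟨_, hc⟩)) := by
  show HasGaussRed π _ _
  rw [e_algebraMap]
  exact hasGaussRed_C ⟨_, hc⟩

theorem exists_res_of_mem {b : Bool} {f : T.F₂} (hf : f ∈ T.B₂ b) (i : Fin 3) :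
    ∃ g, T.Res₂ i f g :=
  chartRing_le_valuationSubring (T.V₂ i) (fun _ hc => ⟨_, T.res₂_algebraMap i hc⟩)
    ⟨_, T.res₂_t₂ b i⟩ hf

theorem res₂_x₂ (i : Fin 3) : T.Res₂ i T.x₂ (jqModC k ^ expo q i) := T.res₂_t₂ true i

theorem res₂_y₂ (i : Fin 3) : T.Res₂ i T.y₂ (jqModC k ^ q) := by
  have h₀ : T.Res₀ (T.W T.x₁) (jqModC k ^ q) := T.res₁_t₁ true
  have h₁ : T.Res₁ (T.W T.x₁) (jqModC k) := by
    show HasGaussRed π (T.i₁ (T.W (T.W T.x₁))) _
    rw [T.W_W, T.i₁_x]; exact hasGaussRed_jqModC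
  fin_cases i
  · exact (T.res₂_α'₀ h₀).1
  · exact (T.res₂_α'₀ h₀).2
  · have h := T.res₂_α'₁ h₁
    rwa [qExpand_jqModC_eq_pow] at h

theorem res₂_z₂ : T.Res₂ 0 T.z₂ (jqModC k ^ (q ^ 2)) ∧ T.Res₂ 1 T.z₂ (jqModC k) ∧
    T.Res₂ 2 T.z₂ (jqModC k) := by
  have h₀ : T.Res₀ (T.W T.x₁) (jqModC k ^ q) := T.res₁_t₁ true
  have h₁ : T.Res₁ (T.W T.x₁) (jqModC k) := by
    show HasGaussRed π (T.i₁ (T.W (T.W T.x₁))) _
    rw [T.W_W, T.i₁_x]; exact hasGaussRed_jqModC
  refine ⟨?_, T.res₂_β'₁ h₁⟩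
  have h := T.res₂_β'₀ h₀
  rwa [map_pow, qExpand_jqModC_eq_pow, ← pow_mul, ← pow_two] at h

theorem res₂_sub {i : Fin 3} {f f' : T.F₂} {g g' : LaurentSeries k} (h : T.Res₂ i f g)
    (h' : T.Res₂ i f' g') : T.Res₂ i (f - f') (g - g') := by
  show HasGaussRed π _ _
  rw [sub_eq_add_neg, sub_eq_add_neg, map_add, map_neg]
  exact h.add h'.neg

theorem HasVal.pos_of_res_zero {i : Fin 3} {f : T.F₂} {v : ℤ} (h : T.HasVal i f v)
    (h0 : T.Res₂ i f 0) : 0 < v := by
  by_contra hv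
  obtain ⟨g, hg, hfg⟩ := h
  obtain ⟨m, hm⟩ := Int.eq_ofNat_of_zero_le (show 0 ≤ -v by omega)
  have h1 := ((T.hasGaussRed_C_ϖ i).pow m).mul h0
  rw [mul_zero, ← map_pow, ← zpow_natCast, ← hm] at h1
  exact hg (hfg.unique h1)

theorem exists_pow_mul_res_zero {i : Fin 3} {s : T.F₂} (hs : T.Res₂ i s 0) (f : T.F₂) :
    ∃ M : ℕ, ∀ N, M ≤ N → T.Res₂ i (f * s ^ N) 0 := by
  rcases eq_or_ne f 0 with rfl | hf
  · exact ⟨0, fun N _ => by simpa [Res₂] using hasGaussRed_zero (π := π)⟩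
  rcases eq_or_ne s 0 with rfl | hs0
  · refine ⟨1, fun N hN => ?_⟩
    rw [zero_pow (by omega), mul_zero]
    simpa [Res₂] using hasGaussRed_zero (π := π)
  obtain ⟨v, hv⟩ := T.exists_hasVal hf i
  obtain ⟨w, hw⟩ := T.exists_hasVal hs0 i
  refine ⟨(1 - v).toNat, fun N hN => ?_⟩
  have h := hv.mul T (hw.zpow T (N : ℤ))
  rw [zpow_natCast] at h
  refine h.res_zero T ?_
  have h1 : (N : ℤ) ≤ N * w := le_mul_of_one_le_right (by positivity) (hw.pos_of_res_zero T hs)
  omega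

theorem res₂_mul {i : Fin 3} {f f' : T.F₂} {g g' : LaurentSeries k} (h : T.Res₂ i f g)
    (h' : T.Res₂ i f' g') : T.Res₂ i (f * f') (g * g') := by
  show HasGaussRed π _ _
  rw [map_mul]
  exact h.mul h'

theorem res₂_pow {i : Fin 3} {f : T.F₂} {g : LaurentSeries k} (h : T.Res₂ i f g) (m : ℕ) :
    T.Res₂ i (f ^ m) (g ^ m) := by
  show HasGaussRed π _ _
  rw [map_pow]
  exact h.pow m

/-- The trace of a function which reduces on the first two branches. -/
theorem trace_res_mem (f : T.F₂) {g₀ g₁ : LaurentSeries k} (h₀ : T.Res₂ 0 f g₀)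
    (h₁ : T.Res₂ 1 f g₁) : g₀ - g₁ ∈ T.resField := by
  obtain ⟨P, -, -, -, hP, -⟩ := T.cp₂ f
  have hP' : P.map T.i₁ = ∏ o, (X - C (T.conj₂ o f)) := by
    rw [hP, Fintype.prod_option]; rfl
  have h := congrArg Polynomial.nextCoeff hP'
  rw [prod_X_sub_C_nextCoeff, nextCoeff_map (RingHom.injective _)] at h
  have htr : T.i₁ (-P.nextCoeff) = ∑ o, T.conj₂ o f := by rw [map_neg, h, neg_neg]
  refine T.res₀_mem (f := -P.nextCoeff) ?_
  show HasGaussRed π _ _
  rw [htr, Fintype.sum_option]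
  have hcard : (∑ _a : (ZMod q)ˣ, g₁) = -g₁ := by
    rw [Finset.sum_const, Finset.card_univ, ZMod.card_units, nsmul_eq_mul,
      Nat.cast_sub (Fact.out : q.Prime).pos, ← map_natCast (algebraMap k (LaurentSeries k)) q,
      CharP.cast_eq_zero k q, map_zero, Nat.cast_one]
    ring
  rw [sub_eq_add_neg, ← hcard]
  exact HasGaussRed.add h₀ (hasGaussRed_sum Finset.univ fun a _ => T.hasGaussRed_σ a h₁)

theorem res₂_zero_mem {f : T.F₂} {g : LaurentSeries k} (h : T.Res₂ 0 f g) : g ∈ T.resField := by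
  have hs₀ : T.Res₂ 0 (T.z₂ - T.x₂) (jqModC k ^ (q ^ 2) - jqModC k) := by
    simpa [expo] using T.res₂_sub T.res₂_z₂.1 (T.res₂_x₂ 0)
  have hs₁ : T.Res₂ 1 (T.z₂ - T.x₂) 0 := by
    simpa [expo] using T.res₂_sub T.res₂_z₂.2.1 (T.res₂_x₂ 1)
  obtain ⟨M, hM⟩ := T.exists_pow_mul_res_zero hs₁ f
  have h1 := T.trace_res_mem _ (T.res₂_mul h (T.res₂_pow hs₀ M)) (hM M le_rfl)
  rw [sub_zero] at h1
  have := div_mem h1 (pow_mem (sub_mem (pow_mem T.jqModC_mem (q ^ 2)) T.jqModC_mem) M)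
  rwa [mul_div_cancel_right₀ _ (pow_ne_zero M jqModC_sub_pow_ne_zero)] at this

theorem res₂_one_mem {f : T.F₂} {g : LaurentSeries k} (h : T.Res₂ 1 f g) : g ∈ T.resField := by
  have hs₀ : T.Res₂ 0 (T.z₂ - T.y₂ ^ q) 0 := by
    have h := T.res₂_sub T.res₂_z₂.1 (T.res₂_pow (T.res₂_y₂ 0) q)
    rwa [← pow_mul, ← pow_two, sub_self] at h
  have hs₁ : T.Res₂ 1 (T.z₂ - T.y₂ ^ q) (jqModC k - jqModC k ^ (q ^ 2)) := by
    have h := T.res₂_sub T.res₂_z₂.2.1 (T.res₂_pow (T.res₂_y₂ 1) q)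
    rwa [← pow_mul, ← pow_two] at h
  obtain ⟨M, hM⟩ := T.exists_pow_mul_res_zero hs₀ f
  have h1 := T.trace_res_mem _ (hM M le_rfl) (T.res₂_mul h (T.res₂_pow hs₁ M))
  rw [zero_sub] at h1
  have := div_mem (neg_mem h1) (pow_mem (sub_mem T.jqModC_mem (pow_mem T.jqModC_mem (q ^ 2))) M)
  rwa [neg_neg, mul_div_cancel_right₀ _ (pow_ne_zero M (fun h0 => jqModC_sub_pow_ne_zero
    (k := k) (q := q) (by rw [← neg_sub, h0, neg_zero])))] at this

/-- A reduction with no pole lies in the residue field of level `N`. -/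
theorem res₂_mem {i : Fin 3} {f : T.F₂} {g : LaurentSeries k} (h : T.Res₂ i f g) :
    g ∈ T.resField := by
  fin_cases i
  · exact T.res₂_zero_mem h
  · exact T.res₂_one_mem h
  · exact T.dual.res₂_zero_mem (f := f) h

/-- Reductions of the model lie in the coordinate ring of level `N`. -/
theorem exists_res₂ {b : Bool} {f : T.F₂} (hf : f ∈ T.B₂ b) (i : Fin 3) :
    ∃ g : T.R b, T.Res₂ i f g := by
  obtain ⟨g, hg⟩ := T.exists_res_of_mem hf i
  refine ⟨⟨g, T.res₂_mem hg, ?_⟩, hg⟩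
  let φ : T.V₂ i →+* LaurentSeries k :=
    (seriesRed π).comp (((T.e i).comp (T.V₂ i).toSubring.subtype).codRestrict _ fun y => y.2)
  have hφ : ∀ {y : T.F₂} (hy : y ∈ T.V₂ i) {r : LaurentSeries k}, T.Res₂ i y r →
      φ ⟨y, hy⟩ = r := fun _ _ h => seriesRed_eq h
  have hle : ∀ y ∈ Algebra.adjoin (baseRing A K) {T.t₂ b}, ∃ h : y ∈ T.V₂ i,
      φ ⟨y, h⟩ ∈ Algebra.adjoin k {coord b} := by
    intro y hy
    induction hy using Algebra.adjoin_induction with
    | mem z hz =>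
      rw [Set.mem_singleton_iff] at hz
      subst hz
      refine ⟨⟨_, T.res₂_t₂ b i⟩, ?_⟩
      rw [hφ _ (T.res₂_t₂ b i)]
      exact pow_mem (Algebra.self_mem_adjoin_singleton k _) _
    | algebraMap c =>
      have hc := T.res₂_algebraMap i c.2
      show ∃ h, φ ⟨algebraMap K T.F₂ (c : K), h⟩ ∈ Algebra.adjoin k {coord b}
      refine ⟨⟨_, hc⟩, ?_⟩
      rw [hφ _ hc, show (HahnSeries.C (π ⟨_, c.2⟩) : LaurentSeries k) = algebraMap k _ (π ⟨_, c.2⟩) by
        rw [algebraMap_laurentSeries_eq_single, HahnSeries.C_apply]]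
      exact Subalgebra.algebraMap_mem _ _
    | add a b _ _ ha hb =>
      obtain ⟨ha, ha'⟩ := ha
      obtain ⟨hb, hb'⟩ := hb
      exact ⟨add_mem ha hb, by simpa using (map_add φ ⟨a, ha⟩ ⟨b, hb⟩).symm ▸ add_mem ha' hb'⟩
    | mul a b _ _ ha hb =>
      obtain ⟨ha, ha'⟩ := ha
      obtain ⟨hb, hb'⟩ := hb
      exact ⟨mul_mem ha hb, by simpa using (map_mul φ ⟨a, ha⟩ ⟨b, hb⟩).symm ▸ mul_mem ha' hb'⟩
  obtain ⟨p, hp, hpf⟩ := (mem_chartRing _ _).1 hf
  let ψ : Algebra.adjoin (baseRing A K) {T.t₂ b} →+* T.V₂ i :=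
    ((Algebra.adjoin (baseRing A K) {T.t₂ b}).val.toRingHom).codRestrict (T.V₂ i).toSubring
      fun y => (hle y y.2).1
  let χ : Algebra.adjoin (baseRing A K) {T.t₂ b} →+* Algebra.adjoin k {coord b} :=
    (φ.comp ψ).codRestrict _ fun y => (hle y y.2).2
  refine ⟨p.map χ, hp.map χ, ?_⟩
  have h0 : p.eval₂ ψ ⟨f, ⟨g, hg⟩⟩ = 0 := Subtype.ext (by
    show (T.V₂ i).toSubring.subtype _ = 0
    rw [hom_eval₂]; exact hpf)
  have h1 := congrArg φ h0
  rw [hom_eval₂, map_zero, hφ _ hg] at h1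
  rw [eval₂_map]
  exact h1

/-- The restriction to the three branches. -/
def red (b : Bool) : T.B₂ b →+* (Fin 3 → T.R b) where
  toFun f i := (T.exists_res₂ f.2 i).choose
  map_one' := funext fun i => Subtype.ext
    ((T.exists_res₂ (one_mem (T.B₂ b)) i).choose_spec.unique
      (by simpa [Res₂] using hasGaussRed_one))
  map_zero' := funext fun i => Subtype.ext
    ((T.exists_res₂ (zero_mem (T.B₂ b)) i).choose_spec.unique
      (by simpa [Res₂] using hasGaussRed_zero))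
  map_add' f g := funext fun i => Subtype.ext
    ((T.exists_res₂ (add_mem f.2 g.2) i).choose_spec.unique
      (by simpa [Res₂] using (T.exists_res₂ f.2 i).choose_spec.add (T.exists_res₂ g.2 i).choose_spec))
  map_mul' f g := funext fun i => Subtype.ext
    ((T.exists_res₂ (mul_mem f.2 g.2) i).choose_spec.unique
      (by simpa [Res₂] using (T.exists_res₂ f.2 i).choose_spec.mul (T.exists_res₂ g.2 i).choose_spec))

theorem res₂_red (b : Bool) (f : T.B₂ b) (i : Fin 3) :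
    T.Res₂ i f (T.red b f i : LaurentSeries k) :=
  (T.exists_res₂ f.2 i).choose_spec

/-- Evaluation at a point of a branch. -/
def ev (b : Bool) (i : Fin 3) (p : T.R b →ₐ[k] k) : T.B₂ b →+* k :=
  p.toRingHom.comp ((Pi.evalRingHom (fun _ => T.R b) i).comp (T.red b))

theorem red_eq {b : Bool} {f : T.B₂ b} {i : Fin 3} {g : LaurentSeries k}
    (h : T.Res₂ i f g) : (T.red b f i : LaurentSeries k) = g :=
  (T.res₂_red b f i).unique h

theorem algebraMap_mem_B₂ (b : Bool) {c : K} (hc : c ∈ baseRing A K) :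
    algebraMap K T.F₂ c ∈ T.B₂ b := algebraMap_mem_chartRing _ _ hc

/-- A constant of the model lifting a constant of the residue field. -/
def constB (b : Bool) (c : k) : T.B₂ b :=
  ⟨algebraMap K T.F₂ (T.surj c).choose, algebraMap_mem_chartRing _ _ (T.surj c).choose_spec.choose⟩

theorem red_constB (b : Bool) (c : k) (i : Fin 3) :
    T.red b (T.constB b c) i = algebraMap k (T.R b) c := by
  refine Subtype.ext (T.red_eq ?_)
  have h := T.res₂_algebraMap i (T.surj c).choose_spec.choose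
  rwa [(T.surj c).choose_spec.choose_spec] at h

theorem ev_constB (b : Bool) (i : Fin 3) (p : T.R b →ₐ[k] k) (c : k) :
    T.ev b i p (T.constB b c) = c := by
  show p (T.red b (T.constB b c) i) = c
  rw [red_constB, AlgHom.commutes, Algebra.algebraMap_self, RingHom.id_apply]

theorem ev_surjective (b : Bool) (i : Fin 3) (p : T.R b →ₐ[k] k) :
    Function.Surjective (T.ev b i p) := fun c => ⟨_, T.ev_constB b i p c⟩

theorem exists_red_const (b : Bool) (c : k) :
    (fun _ => algebraMap k (T.R b) c) ∈ (T.red b).range := by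
  exact ⟨T.constB b c, funext (T.red_constB b c)⟩

theorem red_natCast (b : Bool) : T.red b (q : T.B₂ b) = 0 := by
  funext i
  rw [map_natCast, Pi.natCast_apply, CharP.cast_eq_zero, Pi.zero_apply]

theorem natCast_mem_ker_ev (b : Bool) (i : Fin 3) (p : T.R b →ₐ[k] k) :
    (q : T.B₂ b) ∈ RingHom.ker (T.ev b i p) := by
  rw [RingHom.mem_ker, map_natCast, CharP.cast_eq_zero]

theorem ker_ev_isMaximal (b : Bool) (i : Fin 3) (p : T.R b →ₐ[k] k) :
    (RingHom.ker (T.ev b i p)).IsMaximal := by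
  exact RingHom.ker_isMaximal_of_surjective _ (T.ev_surjective b i p)

/-- `α'` on the models. -/
def toB₂ : T.B₁ →+* T.B₂ true :=
  (T.α'.toRingHom.comp T.B₁.subtype).codRestrict _ fun f => map_mem_chartRing T.α' f.2

/-- A functions supported on one branch. -/
theorem exists_separator (i : Fin 3) : ∃ f : T.B₂ true, T.red true f i ≠ 0 ∧
    ∀ i', i' ≠ i → T.red true f i' = 0 := by
  have hne : jqModC k ^ (q ^ 2) - jqModC k ≠ 0 := jqModC_sub_pow_ne_zero
  have hne' : jqModC k - jqModC k ^ (q ^ 2) ≠ 0 := fun h => hne (by rw [← neg_sub, h, neg_zero])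
  have hx : ∀ i, T.Res₂ i T.x₂ (jqModC k ^ expo q i) := T.res₂_x₂
  have hyq : ∀ i, T.Res₂ i (T.y₂ ^ q) (jqModC k ^ (q ^ 2)) := fun i => by
    have h := T.res₂_pow (T.res₂_y₂ i) q
    rwa [← pow_mul, ← pow_two] at h
  have hz : ∀ i, T.Res₂ i T.z₂ (jqModC k ^ (if i = 0 then q ^ 2 else 1)) := by
    intro i
    fin_cases i
    · simpa using T.res₂_z₂.1
    · simpa using T.res₂_z₂.2.1
    · simpa using T.res₂_z₂.2.2
  have key : ∀ (u v : T.F₂) (hu : u ∈ T.B₂ true) (hv : v ∈ T.B₂ true) (gu gv : Fin 3 → LaurentSeries k),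
      (∀ l, T.Res₂ l u (gu l)) → (∀ l, T.Res₂ l v (gv l)) → gu i * gv i ≠ 0 →
      (∀ l, l ≠ i → gu l * gv l = 0) →
      ∃ f : T.B₂ true, T.red true f i ≠ 0 ∧ ∀ l, l ≠ i → T.red true f l = 0 := by
    intro u v hu hv gu gv hgu hgv h1 h0
    refine ⟨⟨u * v, mul_mem hu hv⟩, fun h => h1 ?_, fun l hl => Subtype.ext ?_⟩
    · rw [← T.red_eq (f := ⟨u * v, mul_mem hu hv⟩) (T.res₂_mul (hgu i) (hgv i)), h]
      rfl
    · rw [T.red_eq (f := ⟨u * v, mul_mem hu hv⟩) (T.res₂_mul (hgu l) (hgv l)), h0 l hl]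
      rfl
  fin_cases i
  · refine key (T.z₂ - T.x₂) (T.x₂ - T.y₂ ^ q) (sub_mem T.z₂_mem T.x₂_mem)
      (sub_mem T.x₂_mem (pow_mem T.y₂_mem q)) _ _ (fun l => T.res₂_sub (hz l) (hx l))
      (fun l => T.res₂_sub (hx l) (hyq l)) ?_ ?_
    · simpa [expo] using mul_ne_zero hne hne'
    · intro l hl
      obtain rfl | rfl | rfl : l = 0 ∨ l = 1 ∨ l = 2 := by omega
      all_goals first
        | exact absurd rfl hl
        | simp [expo]
  · refine key (T.z₂ - T.y₂ ^ q) (T.x₂ - T.y₂ ^ q) (sub_mem T.z₂_mem (pow_mem T.y₂_mem q))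
      (sub_mem T.x₂_mem (pow_mem T.y₂_mem q)) _ _ (fun l => T.res₂_sub (hz l) (hyq l))
      (fun l => T.res₂_sub (hx l) (hyq l)) ?_ ?_
    · simpa [expo] using mul_ne_zero hne' hne'
    · intro l hl
      obtain rfl | rfl | rfl : l = 0 ∨ l = 1 ∨ l = 2 := by omega
      all_goals first
        | exact absurd rfl hl
        | simp [expo]
  · refine key (T.z₂ - T.x₂) (T.z₂ - T.y₂ ^ q) (sub_mem T.z₂_mem T.x₂_mem)
      (sub_mem T.z₂_mem (pow_mem T.y₂_mem q)) _ _ (fun l => T.res₂_sub (hz l) (hx l))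
      (fun l => T.res₂_sub (hz l) (hyq l)) ?_ ?_
    · simpa [expo] using mul_ne_zero hne' hne'
    · intro l hl
      obtain rfl | rfl | rfl : l = 0 ∨ l = 1 ∨ l = 2 := by omega
      all_goals first
        | exact absurd rfl hl
        | simp [expo]

theorem neg_one_pow_mul_self {R : Type*} [CommRing R] (m : ℕ) :
    ((-1 : R) ^ m) * (-1) ^ m = 1 := by
  rw [← mul_pow, neg_mul_neg, mul_one, one_pow]

theorem coeff_zero_prod_X_sub_C {R ι : Type*} [CommRing R] [Fintype ι] (r : ι → R) :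
    (∏ i, (X - C (r i))).coeff 0 = (-1) ^ Fintype.card ι * ∏ i, r i := by
  rw [coeff_zero_eq_eval_zero, eval_prod]
  simp only [eval_sub, eval_X, eval_C, zero_sub]
  rw [Finset.prod_neg, Finset.card_univ]

/-- The norm along `α'`. -/
theorem exists_norm (f : T.F₂) : ∃ N : T.F₁,
    T.i₁ N = T.e₀ f * ∏ a : (ZMod q)ˣ, coeffMap (T.σ a : K' →+* K') (T.eₘ f) ∧
    qExpand K' q (T.i₁ (T.W N)) = ∏ a : ZMod q, Igusa.twist (T.ζ ^ a.val) (T.e₂ f) ∧
    ∀ b, f ∈ T.B₂ b → N ∈ chartRing (baseRing A K) (T.t₁ b) := by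
  obtain ⟨P, -, -, -, h₁, h₂⟩ := T.cp₂ f
  have hpos := (Fact.out : q.Prime).pos
  refine ⟨(-1) ^ q * P.coeff 0, ?_, ?_, fun b hf => ?_⟩
  · rw [map_mul, map_pow, map_neg, map_one, ← coeff_map, h₁, mul_coeff_zero,
      coeff_zero_prod_X_sub_C, coeff_sub, coeff_X_zero, zero_sub, coeff_C_zero, ZMod.card_units]
    obtain ⟨m, hm⟩ : ∃ m, q = m + 1 := ⟨q - 1, by omega⟩
    rw [show q - 1 = m by omega, show (-1 : LaurentSeries K') ^ q = (-1) ^ m * -1 by
      rw [hm, pow_succ]]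
    linear_combination (T.e₀ f * ∏ a : (ZMod q)ˣ, coeffMap (T.σ a : K' →+* K') (T.eₘ f)) *
      (neg_one_pow_mul_self (R := LaurentSeries K') m)
  · have h := congrArg (fun Q : Polynomial (LaurentSeries K') => Q.coeff 0) h₂
    simp only [coeff_map, coeff_zero_prod_X_sub_C, ZMod.card] at h
    simp only [RingHom.comp_apply] at h
    change qExpand K' q (T.i₁ (T.W (P.coeff 0))) = _ at h
    rw [map_mul, map_mul, map_mul, h]
    simp only [map_pow, map_neg, map_one, ← mul_assoc, ← mul_pow, neg_mul_neg, mul_one, one_pow,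
      one_mul]
  · exact mul_mem (pow_mem (neg_mem (one_mem _)) q) (T.coeff_cp₂_mem
      (chartRing_mono _ _ le_top hf) (fun i => T.exists_res_of_mem hf i) h₁ h₂ 0)

/-- The norm along `β'`, read on level `N q` through the Atkin–Lehner involution. -/
theorem exists_norm' (f : T.F₂) : ∃ N : T.F₁,
    T.i₁ (T.W N) =
      T.e₂ f * ∏ a : (ZMod q)ˣ, coeffMap (T.σ a : K' →+* K') (Igusa.twist T.ζ⁻¹ (T.eₘ f)) ∧
    qExpand K' q (T.i₁ N) = ∏ a : ZMod q, Igusa.twist (T.ζ ^ a.val) (T.e₀ f) ∧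
    (f ∈ T.B₂ true → N ∈ T.B₁) := by
  obtain ⟨N, h₁, h₂, h₃⟩ := T.dual.exists_norm f
  refine ⟨N, h₁, ?_, fun hf => ?_⟩
  · have h : qExpand K' q (T.i₁ (T.W (T.W N))) =
        ∏ a : ZMod q, Igusa.twist ((T.ζ⁻¹) ^ a.val) (T.e₀ f) := h₂
    rw [T.W_W] at h
    rw [h]
    refine Fintype.prod_equiv (Equiv.neg (ZMod q)) _ _ fun a => ?_
    show _ = Igusa.twist (T.ζ ^ (-a).val) (T.e₀ f)
    rw [← neg_val_pow (c := T.ζ) T.ζ_pow (-a), neg_neg]
  · have hd : f ∈ T.dual.B₂ true := by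
      show f ∈ chartRing (baseRing A K) T.z₂
      rw [chartRing_z₂]; exact hf
    have h : N ∈ chartRing (baseRing A K) (T.W T.x₁) := h₃ true hd
    exact chartRing_le_of_mem le_rfl T.isIntegral_W_j h

/-- The functions with three reductions. -/
def gaussRing₂ : Subring T.F₂ where
  carrier := {f | ∀ i, ∃ g, T.Res₂ i f g}
  one_mem' i := ⟨1, by simpa [Res₂] using hasGaussRed_one⟩
  zero_mem' i := ⟨0, by simpa [Res₂] using hasGaussRed_zero⟩
  add_mem' {a b} ha hb i := ⟨_, by simpa [Res₂] using (ha i).choose_spec.add (hb i).choose_spec⟩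
  mul_mem' {a b} ha hb i := ⟨_, by simpa [Res₂] using (ha i).choose_spec.mul (hb i).choose_spec⟩
  neg_mem' {a} ha i := ⟨_, by simpa [Res₂] using (ha i).choose_spec.neg⟩

end SqTower

end Fermat.Agent.BadPrime.Sq
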