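import Fermat.Agent.BadPrime.Sq.LevelTwoBase
import Fermat.Agent.BadPrime.Sq.LevelTwoFinite

/-!
# Level `N q²`: functions on the branches

The first two branches, and the third one at finite `j`, are sections of the projection to level
`N`; on the third branch of the chart at `j ≠ 0` a denominator is needed.
-/

set_option autoImplicit false
set_option linter.unusedSectionVars false
set_option synthInstance.maxHeartbeats 200000

noncomputable section

open ModularCurve Polynomial

namespace Fermat.Agent.BadPrime.Sq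

variable {q : ℕ} [Fact q.Prime] {K K' k : Type} [Field K] [Field K'] [Algebra K K'] [Field k]
  [CharZero K] [CharP k q] [IsAlgClosed k] {A : ValuationSubring K'} {π : A →+* k}
  (T : SqTower q K π)

namespace SqTower

/-- The restriction to one branch. -/
def branchRed (b : Bool) (i : Fin 3) : T.B₂ b →+* T.R b :=
  (Pi.evalRingHom (fun _ => T.R b) i).comp (T.red b)

theorem branchRed_apply (b : Bool) (i : Fin 3) (f : T.B₂ b) :
    T.branchRed b i f = T.red b f i := rfl

/-- Lifts of functions of level `N` to the first two branches. -/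
theorem exists_lift_outer (b : Bool) {i : Fin 3} (hi : i ≠ 2) (g : T.R b) :
    ∃ f : T.B₂ b, T.red b f i = g := by
  obtain ⟨t, ht, htg⟩ : ∃ t ∈ chartRing (baseRing A K) (T.t₀ b),
      HasGaussRed π (T.i₀ t) (g : LaurentSeries k) := by
    cases b
    · exact T.res_lift_inf g g.2
    · exact T.res_lift_fin g g.2
  have hmem : T.α' (T.α t) ∈ T.B₂ b := by
    show T.α' (T.α t) ∈ chartRing (baseRing A K) (T.t₂ b)
    rw [t₂_eq, t₁_eq]
    exact map_mem_chartRing T.α' (map_mem_chartRing T.α ht)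
  have h0 : T.Res₀ (T.α t) (g : LaurentSeries k) := by
    show HasGaussRed π _ _
    rw [T.i₁_α]
    exact htg
  refine ⟨⟨_, hmem⟩, Subtype.ext (T.red_eq ?_)⟩
  fin_cases i
  · exact (T.res₂_α'₀ h0).1
  · exact (T.res₂_α'₀ h0).2
  · exact absurd rfl hi

/-- A lift to the last branch, integral over the polynomials in `j(q² τ)` or its inverse. -/
theorem exists_lift_last' (b : Bool) (g : T.R b) : ∃ u : T.F₂,
    u ∈ chartRing (baseRing A K) (bif b then T.z₂ else T.z₂⁻¹) ∧
      T.Res₂ 2 u (g : LaurentSeries k) := by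
  obtain ⟨t, ht, htg⟩ : ∃ t ∈ chartRing (baseRing A K) (T.t₀ b),
      HasGaussRed π (T.i₀ t) (g : LaurentSeries k) := by
    cases b
    · exact T.res_lift_inf g g.2
    · exact T.res_lift_fin g g.2
  refine ⟨T.β' (T.W (T.α t)), ?_, (T.res₂_β'₁ (g := (g : LaurentSeries k)) ?_).2⟩
  · have h := map_mem_chartRing T.β' (map_mem_chartRing T.W (map_mem_chartRing T.α ht))
    cases b
    · simpa [SqTower.t₀, SqTower.z₂, SqTower.x₁] using h
    · simpa [SqTower.t₀, SqTower.z₂, SqTower.x₁] using h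
  · show HasGaussRed π _ _
    rw [T.W_W, T.i₁_α]
    exact htg

theorem exists_lift_last_fin (g : T.R true) : ∃ f : T.B₂ true, T.red true f 2 = g := by
  obtain ⟨u, hu, hug⟩ := T.exists_lift_last' true g
  exact ⟨⟨u, mem_chartRing_of_mem T.z₂_mem hu⟩, Subtype.ext (T.red_eq hug)⟩

theorem exists_lift_branch (b : Bool) (i : Fin 3) (h : b = true ∨ i ≠ 2) (g : T.R b) :
    ∃ f : T.B₂ b, T.red b f i = g := by
  rcases eq_or_ne i 2 with rfl | hi
  · obtain rfl : b = true := h.resolve_right fun h => h rfl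
    exact T.exists_lift_last_fin g
  · exact T.exists_lift_outer b hi g

/-- The coordinate of the chart at `j ≠ 0`. -/
def tInf : T.B₂ false := ⟨T.t₂ false, self_mem_chartRing _ _⟩

theorem red_tInf (i : Fin 3) :
    (T.red false T.tInf i : LaurentSeries k) = coord false ^ expo q i :=
  T.red_eq (T.res₂_t₂ false i)

/-- On the last branch at `j ≠ 0` a power of the coordinate is a denominator. -/
theorem exists_lift_pow (g : T.R false) : ∃ (f : T.B₂ false) (m : ℕ),
    T.red false f 2 = T.red false (T.tInf ^ m) 2 * g := by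
  obtain ⟨L, hL⟩ := T.exists_pow_mul_mem_R false g
  have hq2 : L ≤ q ^ 2 * L :=
    Nat.le_mul_of_pos_left L (pow_pos (Fact.out : q.Prime).pos 2)
  obtain ⟨r, hr⟩ := Nat.exists_eq_add_of_le hq2
  have hL' : coord (k := k) true ^ (q ^ 2 * L) * (g : LaurentSeries k) ∈ T.R true := by
    rw [hr, pow_add, mul_comm (coord true ^ L), mul_assoc]
    exact mul_mem (pow_mem (T.coord_mem_R true) r) hL
  obtain ⟨f', hf'⟩ := T.exists_lift_last_fin ⟨_, hL'⟩
  obtain ⟨M, hM⟩ := T.exists_pow_mul_mem_B₂ true f'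
  have hmem : T.t₂ false ^ (M + L) * (f' : T.F₂) ∈ T.B₂ false := by
    rw [add_comm, pow_add, mul_assoc]
    exact mul_mem (pow_mem (self_mem_chartRing _ _) L) hM
  refine ⟨⟨_, hmem⟩, M, Subtype.ext ?_⟩
  have h := T.res₂_mul (T.res₂_pow (T.res₂_t₂ false 2) (M + L))
    (T.res₂_red true f' 2)
  rw [hf'] at h
  rw [T.red_eq (f := ⟨_, hmem⟩) h, Subring.coe_mul, map_pow, Pi.pow_apply, SubmonoidClass.coe_pow,
    T.red_tInf]
  show (coord (k := k) false ^ expo q 2) ^ (M + L) *
    (coord true ^ (q ^ 2 * L) * (g : LaurentSeries k)) = _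
  have hc : coord (k := k) false * coord true = 1 := by
    rw [show coord (k := k) true = (coord false)⁻¹ from coord_not false,
      mul_inv_cancel₀ (coord_ne_zero false)]
  rw [show expo q 2 = q ^ 2 by simp [expo], pow_add _ M L, mul_assoc, ← mul_assoc _ _ (g : LaurentSeries k),
    ← pow_mul _ (q ^ 2) L, ← mul_pow, hc, one_pow, one_mul]

/-- The reduction of a polynomial in a function whose reduction vanishes at a point. -/
theorem exists_res_aeval {b : Bool} {i : Fin 3} (p : T.R b →ₐ[k] k) {u : T.F₂} (r : T.R b)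
    (hu : T.Res₂ i u (r : LaurentSeries k)) (hr : p r = 0) {d : K[X]}
    (hd : IsCuspUnit (baseRing A K) d) :
    ∃ r' : T.R b, T.Res₂ i (aeval u d) (r' : LaurentSeries k) ∧ p r' ≠ 0 := by
  classical
  refine ⟨∑ n ∈ Finset.range (d.natDegree + 1),
    algebraMap k (T.R b) (π ⟨_, hd.1 n⟩) * r ^ n, ?_, ?_⟩
  · rw [aeval_eq_sum_range, AddSubmonoidClass.coe_finsetSum]
    show HasGaussRed π (T.e i (∑ n ∈ Finset.range (d.natDegree + 1), d.coeff n • u ^ n)) _
    rw [map_sum]
    refine hasGaussRed_sum _ fun n _ => ?_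
    rw [Algebra.smul_def, Subring.coe_mul, SubmonoidClass.coe_pow]
    exact T.res₂_mul (T.res₂_algebraMap i (hd.1 n)) (T.res₂_pow hu n)
  · rw [map_sum, Finset.sum_eq_single 0]
    · rw [pow_zero, mul_one, AlgHom.commutes, Algebra.algebraMap_self, RingHom.id_apply]
      intro h
      have hu' : (⟨_, hd.1 0⟩ : A) * ⟨_, hd.2.1⟩ = 1 := Subtype.ext (by
        show algebraMap K K' (d.coeff 0) * algebraMap K K' (d.coeff 0)⁻¹ = 1
        rw [← map_mul, mul_inv_cancel₀ hd.2.2, map_one])
      have := congrArg π hu'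
      rw [map_mul, h, zero_mul, map_one] at this
      exact zero_ne_one this
    · intro n _ hn
      rw [map_mul, map_pow, hr, zero_pow hn, mul_zero]
    · intro h
      exact absurd (Finset.mem_range.2 (Nat.succ_pos _)) h

/-- At a cusp the inverse of `j(q² τ)` has a denominator which does not vanish there. -/
theorem exists_cusp_den (p : T.R false →ₐ[k] k) (hp : p (T.coordR false) = 0) :
    ∃ D : T.B₂ false, T.ev false 2 p D ≠ 0 ∧ (D : T.F₂) * T.z₂⁻¹ ∈ T.B₂ false := by
  have hx₁ : Transcendental K T.x₁ := fun h =>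
    T.transcendental_j ((isAlgebraic_algHom_iff T.α T.α.injective).1 h)
  obtain ⟨d, hd, hdy⟩ := exists_mul_mem_of_mem_cuspRing hx₁ T.cusp_j.1
  -- on level `N q²`, through both degeneracy maps
  set a : T.F₂ := aeval T.x₂⁻¹ d with ha
  set e : T.F₂ := aeval T.y₂⁻¹ d with he
  have haB : a ∈ T.B₂ false := hd.aeval_mem _
  have hay : a * T.y₂⁻¹ ∈ T.B₂ false := by
    have h := map_mem_chartRing T.α' hdy
    rwa [map_mul, ← aeval_algHom_apply, map_inv₀, map_inv₀] at h
  have hsq : T.β' T.x₁ = T.y₂ := (T.square T.j).symm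
  have hez : e * T.z₂⁻¹ ∈ chartRing (baseRing A K) T.y₂⁻¹ := by
    have h := map_mem_chartRing T.β' hdy
    rwa [map_mul, ← aeval_algHom_apply, map_inv₀, map_inv₀, hsq] at h
  obtain ⟨N₁, hN₁⟩ := exists_pow_mul_mem_of_mul_mem haB hay hez
  obtain ⟨N₂, hN₂⟩ := exists_pow_mul_mem_of_mul_mem haB hay (hd.aeval_mem T.y₂⁻¹)
  have hD : a ^ (N₁ + N₂) * e ∈ T.B₂ false := by
    rw [pow_add, mul_assoc]
    exact mul_mem (pow_mem haB _) hN₂
  refine ⟨⟨_, hD⟩, ?_, ?_⟩
  · have hq : q ≠ 0 := (Fact.out : q.Prime).ne_zero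
    obtain ⟨ra, hra, hpa⟩ := T.exists_res_aeval (i := 2) p (T.coordR false ^ q ^ 2)
      (u := T.x₂⁻¹) (by
        rw [SubmonoidClass.coe_pow]
        have h := T.res₂_t₂ false 2
        rwa [show expo q 2 = q ^ 2 by simp [expo]] at h)
      (by rw [map_pow, hp, zero_pow (pow_ne_zero 2 hq)]) hd
    obtain ⟨re, hre, hpe⟩ := T.exists_res_aeval (i := 2) p (T.coordR false ^ q)
      (u := T.y₂⁻¹) (by
        rw [SubmonoidClass.coe_pow]
        show HasGaussRed π (T.e 2 T.y₂⁻¹) ((jqModC k)⁻¹ ^ q)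
        rw [map_inv₀, inv_pow]
        exact (T.res₂_y₂ 2).inv (pow_ne_zero q (jqModC_ne_zero' k)))
      (by rw [map_pow, hp, zero_pow hq]) hd
    have h : T.red false ⟨_, hD⟩ 2 = ra ^ (N₁ + N₂) * re := Subtype.ext (by
      rw [Subring.coe_mul, SubmonoidClass.coe_pow]
      exact T.red_eq (T.res₂_mul (T.res₂_pow hra _) hre))
    show p (T.red false ⟨_, hD⟩ 2) ≠ 0
    rw [h, map_mul, map_pow]
    exact mul_ne_zero (pow_ne_zero _ hpa) hpe
  · show a ^ (N₁ + N₂) * e * T.z₂⁻¹ ∈ T.B₂ false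
    rw [add_comm, pow_add, mul_assoc, mul_assoc]
    exact mul_mem (pow_mem haB _) hN₁

/-- Every function on a branch comes from the model, up to a denominator not zero at a given
point. -/
theorem exists_red_mul (b : Bool) (i : Fin 3) (p : T.R b →ₐ[k] k) (g : T.R b) :
    ∃ f d : T.B₂ b, T.ev b i p d ≠ 0 ∧ T.red b f i = T.red b d i * g := by
  by_cases h : b = true ∨ i ≠ 2
  · obtain ⟨f, hf⟩ := T.exists_lift_branch b i h g
    exact ⟨f, 1, by rw [map_one]; exact one_ne_zero, by rw [map_one, Pi.one_apply, one_mul, hf]⟩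
  push Not at h
  obtain ⟨hb, rfl⟩ := h
  obtain rfl : b = false := Bool.eq_false_of_not_eq_true hb
  by_cases hp : p (T.coordR false) = 0
  · obtain ⟨D, hD, hDz⟩ := T.exists_cusp_den p hp
    obtain ⟨u, hu, hug⟩ := T.exists_lift_last' false g
    obtain ⟨N, hN⟩ := exists_pow_mul_mem_of_mul_mem D.2 hDz hu
    refine ⟨⟨_, hN⟩, D ^ N, by rw [map_pow]; exact pow_ne_zero N hD, Subtype.ext ?_⟩
    rw [Subring.coe_mul, map_pow, Pi.pow_apply, SubmonoidClass.coe_pow]
    exact T.red_eq (T.res₂_mul (T.res₂_pow (T.res₂_red false D 2) N) hug)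
  · obtain ⟨f, m, hf⟩ := T.exists_lift_pow g
    refine ⟨f, T.tInf ^ m, ?_, hf⟩
    rw [map_pow]
    refine pow_ne_zero m ?_
    show p (T.red false T.tInf 2) ≠ 0
    rw [show T.red false T.tInf 2 = T.coordR false ^ expo q 2 from
      Subtype.ext (by rw [SubmonoidClass.coe_pow]; exact T.red_tInf 2), map_pow]
    exact pow_ne_zero _ hp

/-- Two points of one branch have different kernels. -/
theorem ev_injective {b : Bool} {i : Fin 3} {p p' : T.R b →ₐ[k] k}
    (h : RingHom.ker (T.ev b i p) = RingHom.ker (T.ev b i p')) : p = p' := by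
  have key : ∀ f : T.B₂ b, T.ev b i p' f = T.ev b i p f := fun f => by
    have hf : f - T.constB b (T.ev b i p f) ∈ RingHom.ker (T.ev b i p) := by
      rw [RingHom.mem_ker, map_sub, ev_constB, sub_self]
    rw [h, RingHom.mem_ker, map_sub, ev_constB, sub_eq_zero] at hf
    exact hf
  refine AlgHom.ext fun g => ?_
  obtain ⟨f, d, hd, hfd⟩ := T.exists_red_mul b i p g
  have h1 : T.ev b i p f = T.ev b i p d * p g := by
    show p (T.red b f i) = p (T.red b d i) * p g
    rw [hfd, map_mul]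
  have h2 : T.ev b i p' f = T.ev b i p' d * p' g := by
    show p' (T.red b f i) = p' (T.red b d i) * p' g
    rw [hfd, map_mul]
  rw [key, key] at h2
  exact mul_left_cancel₀ hd (h1.symm.trans h2)

/-- A uniform denominator for one branch. -/
theorem exists_uniform_den (b : Bool) (i : Fin 3) :
    ∃ d : T.B₂ b, T.red b d i ≠ 0 ∧ ∀ g : T.R b, ∃ f : T.B₂ b, T.red b f i = T.red b d i * g := by
  classical
  by_cases h : b = true ∨ i ≠ 2
  · refine ⟨1, by rw [map_one, Pi.one_apply]; exact one_ne_zero, fun g => ?_⟩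
    obtain ⟨f, hf⟩ := T.exists_lift_branch b i h g
    exact ⟨f, by rw [map_one, Pi.one_apply, one_mul, hf]⟩
  push Not at h
  obtain ⟨hb, rfl⟩ := h
  obtain rfl : b = false := Bool.eq_false_of_not_eq_true hb
  have he : q ^ 2 ≠ 0 := pow_ne_zero 2 (Fact.out : q.Prime).ne_zero
  obtain ⟨s, hs, hspan⟩ := T.exists_R_le_span false he
  choose f m hfm using fun g : T.R false => T.exists_lift_pow g
  set M := ∑ y ∈ s.attach, m ⟨y, hs y y.2⟩ with hM
  have he2 : expo q 2 = q ^ 2 := by simp [expo]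
  have ht : (T.red false T.tInf 2 : LaurentSeries k) = coord false ^ q ^ 2 := by
    rw [T.red_tInf, he2]
  have hd0 : T.red false (T.tInf ^ M) 2 ≠ 0 := fun h0 => by
    have h' := congrArg Subtype.val h0
    rw [map_pow, Pi.pow_apply, SubmonoidClass.coe_pow, ht, ZeroMemClass.coe_zero] at h'
    exact pow_ne_zero M (pow_ne_zero _ (coord_ne_zero false)) h'
  refine ⟨T.tInf ^ M, hd0, fun g => ?_⟩
  set c : LaurentSeries k := (T.red false (T.tInf ^ M) 2 : LaurentSeries k) with hc
  suffices hmain : ∃ f : T.B₂ false, (T.red false f 2 : LaurentSeries k) = c * g by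
    obtain ⟨f, hf⟩ := hmain
    exact ⟨f, Subtype.ext (by rw [Subring.coe_mul]; exact hf)⟩
  -- the coefficients come from the model
  have hcoef : ∀ a ∈ Algebra.adjoin k {coord (k := k) false ^ q ^ 2},
      ∃ x : T.B₂ false, (T.red false x 2 : LaurentSeries k) = a := by
    intro a ha
    induction ha using Algebra.adjoin_induction with
    | mem z hz => exact ⟨T.tInf, by rw [ht, Set.mem_singleton_iff.1 hz]⟩
    | algebraMap r =>
      refine ⟨T.constB false r, ?_⟩
      rw [T.red_constB]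
      exact Reduction.C_eq_algebraMap r
    | add y z _ _ hy hz =>
      obtain ⟨y', hy'⟩ := hy
      obtain ⟨z', hz'⟩ := hz
      exact ⟨y' + z', by rw [map_add, Pi.add_apply, Subring.coe_add, hy', hz']⟩
    | mul y z _ _ hy hz =>
      obtain ⟨y', hy'⟩ := hy
      obtain ⟨z', hz'⟩ := hz
      exact ⟨y' * z', by rw [map_mul, Pi.mul_apply, Subring.coe_mul, hy', hz']⟩
  suffices key : ∀ y : LaurentSeries k,
      y ∈ Submodule.span (Algebra.adjoin k {coord (k := k) false ^ q ^ 2})
        (s : Set (LaurentSeries k)) →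
      ∃ f : T.B₂ false, (T.red false f 2 : LaurentSeries k) = c * y from key _ (hspan g g.2)
  intro z hz
  induction hz using Submodule.span_induction with
  | mem y hy =>
    refine ⟨T.tInf ^ (M - m ⟨y, hs y hy⟩) * f ⟨y, hs y hy⟩, ?_⟩
    have hle : m ⟨y, hs y hy⟩ ≤ M := Finset.single_le_sum
      (f := fun y : s => m ⟨y, hs y y.2⟩) (fun _ _ => Nat.zero_le _) (Finset.mem_attach s ⟨y, hy⟩)
    rw [map_mul, Pi.mul_apply, hfm, ← mul_assoc, ← Pi.mul_apply, ← map_mul, ← pow_add,
      Nat.sub_add_cancel hle, Subring.coe_mul]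
  | zero => exact ⟨0, by rw [map_zero, mul_zero]; rfl⟩
  | add y z _ _ hy hz =>
    obtain ⟨y', hy'⟩ := hy
    obtain ⟨z', hz'⟩ := hz
    exact ⟨y' + z', by rw [map_add, Pi.add_apply, Subring.coe_add, hy', hz', mul_add]⟩
  | smul a y _ hy =>
    obtain ⟨y', hy'⟩ := hy
    obtain ⟨x, hx⟩ := hcoef a a.2
    refine ⟨x * y', ?_⟩
    rw [map_mul, Pi.mul_apply, Subring.coe_mul, hx, hy', Subalgebra.smul_def, smul_eq_mul]
    ring

/-- A function of either chart supported on one branch. -/
theorem exists_branch_support (b : Bool) (i : Fin 3) : ∃ f : T.B₂ b, T.red b f i ≠ 0 ∧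
    ∀ i', i' ≠ i → T.red b f i' = 0 := by
  obtain ⟨f, hf, hf'⟩ := T.exists_separator i
  cases b
  · obtain ⟨L, hL⟩ := T.exists_pow_mul_mem_B₂ true f
    have hred : ∀ l, (T.red false ⟨_, hL⟩ l : LaurentSeries k) =
        (coord false ^ expo q l) ^ L * (T.red true f l : LaurentSeries k) := fun l =>
      T.red_eq (T.res₂_mul (T.res₂_pow (T.res₂_t₂ false l) L) (T.res₂_red true f l))
    refine ⟨⟨_, hL⟩, fun h => hf (Subtype.ext ?_), fun l hl => Subtype.ext ?_⟩
    · have h' := hred i
      rw [h, ZeroMemClass.coe_zero, eq_comm, mul_eq_zero] at h'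
      rw [ZeroMemClass.coe_zero]
      exact h'.resolve_left (pow_ne_zero _ (pow_ne_zero _ (coord_ne_zero false)))
    · rw [hred, hf' l hl, ZeroMemClass.coe_zero, mul_zero]
      rfl
  · exact ⟨f, hf, hf'⟩

/-- The conductor. -/
theorem exists_conductor (b : Bool) : ∃ c : Fin 3 → T.R b, (∀ i, c i ≠ 0) ∧
    ∀ x, c * x ∈ (T.red b).range := by
  classical
  choose s hs hs' using T.exists_branch_support b
  choose d hd hd' using T.exists_uniform_den b
  refine ⟨fun i => T.red b (d i) i * T.red b (s i) i, fun i => mul_ne_zero (hd i) (hs i),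
    fun x => ?_⟩
  choose f hf using fun i => hd' i (x i)
  refine ⟨∑ i, f i * s i, funext fun l => ?_⟩
  rw [map_sum, Finset.sum_apply, Finset.sum_eq_single l]
  · rw [map_mul, Pi.mul_apply, Pi.mul_apply, hf]
    ring
  · intro i _ hi
    rw [map_mul, Pi.mul_apply, hs' i l hi.symm, mul_zero]
  · intro h
    exact absurd (Finset.mem_univ l) h

end SqTower

end Fermat.Agent.BadPrime.Sq
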