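import Fermat.Agent.BadPrime.Sq.Level
import Mathlib.FieldTheory.PrimitiveElement

/-!
# The model of level `N q` is noetherian

Every element of level `N q` has degree at most `q + 1` over level `N`, so level `N q` is finite
over `K(j)`.
-/

set_option autoImplicit false
set_option linter.unusedSectionVars false
set_option linter.style.haveILetI false
set_option synthInstance.maxHeartbeats 200000

noncomputable section

open ModularCurve Polynomial
open scoped IntermediateField

namespace Fermat.Agent.BadPrime.Sq

/-- An extension in which the degrees of the elements are bounded is finite. -/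
theorem finite_of_forall_monic_root {E F : Type} [Field E] [CharZero E] [Field F] [Algebra E F]
    (d : ℕ) (h : ∀ f : F, ∃ P : E[X], P.Monic ∧ P.natDegree ≤ d ∧ aeval f P = 0) :
    FiniteDimensional E F := by
  classical
  have hint : ∀ f : F, IsIntegral E f := fun f => by
    obtain ⟨P, hP, -, hf⟩ := h f
    exact ⟨P, hP, hf⟩
  have hdeg : ∀ f : F, Module.finrank E E⟮f⟯ ≤ d := fun f => by
    obtain ⟨P, hP, hd, hf⟩ := h f
    rw [IntermediateField.adjoin.finrank (hint f)]
    exact (natDegree_le_natDegree (minpoly.min E f hP hf)).trans hd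
  obtain ⟨f, hmax⟩ : ∃ f : F, ∀ g : F, Module.finrank E E⟮g⟯ ≤ Module.finrank E E⟮f⟯ := by
    have hne : (Set.range fun g : F => Module.finrank E E⟮g⟯).Nonempty := Set.range_nonempty _
    have hbdd : BddAbove (Set.range fun g : F => Module.finrank E E⟮g⟯) :=
      ⟨d, by rintro _ ⟨g, rfl⟩; exact hdeg g⟩
    obtain ⟨f, hf⟩ := Nat.sSup_mem hne hbdd
    exact ⟨f, fun g => (le_csSup hbdd ⟨g, rfl⟩).trans hf.ge⟩
  haveI := IntermediateField.adjoin.finiteDimensional (hint f)
  have htop : E⟮f⟯ = ⊤ := by
    refine eq_top_iff.2 fun g _ => ?_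
    haveI := IntermediateField.adjoin.finiteDimensional (hint g)
    obtain ⟨z, hz⟩ := Field.exists_primitive_element E (E⟮f⟯ ⊔ E⟮g⟯ : IntermediateField E F)
    have hlift : E⟮(z : F)⟯ = E⟮f⟯ ⊔ E⟮g⟯ := by
      rw [← IntermediateField.lift_adjoin_simple, hz, IntermediateField.lift_top]
    have heq : E⟮f⟯ = E⟮f⟯ ⊔ E⟮g⟯ := by
      refine IntermediateField.eq_of_le_of_finrank_le le_sup_left ?_
      rw [← hlift]
      exact hmax z
    rw [heq]
    exact (le_sup_right : E⟮g⟯ ≤ E⟮f⟯ ⊔ E⟮g⟯) (IntermediateField.mem_adjoin_simple_self E g)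
  have h' := ‹FiniteDimensional E E⟮f⟯›
  rw [htop] at h'
  exact Module.Finite.equiv IntermediateField.topEquiv.toLinearEquiv

variable {q : ℕ} [Fact q.Prime] {K K' k : Type} [Field K] [Field K'] [Algebra K K'] [Field k]
  [CharZero K] [CharP k q] {A : ValuationSubring K'} {π : A →+* k} (T : SqTower q K π)

namespace SqTower

theorem transcendental_x₁ : Transcendental K T.x₁ := fun h =>
  T.transcendental_j ((isAlgebraic_algHom_iff T.α T.α.toRingHom.injective).1 h)

include T in
/-- Level `N q` is finite over `K(j)`. -/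
theorem finite_x₁ : FiniteDimensional (IntermediateField.adjoin K {T.x₁}) T.F₁ := by
  letI : Algebra T.F₀ T.F₁ := T.α.toRingHom.toAlgebra
  haveI : IsScalarTower K T.F₀ T.F₁ := IsScalarTower.of_algebraMap_eq fun c => (T.α.commutes c).symm
  haveI : CharZero T.F₀ := charZero_of_injective_algebraMap (algebraMap K T.F₀).injective
  haveI : FiniteDimensional T.F₀ T.F₁ := finite_of_forall_monic_root (q + 1) fun f => by
    obtain ⟨P, hP, hd, hf, -⟩ := T.cp₁ f
    exact ⟨P, hP, hd.le, hf⟩
  haveI := T.finite_j
  haveI : FiniteDimensional (IntermediateField.adjoin K {T.j}) T.F₁ := Module.Finite.trans T.F₀ T.F₁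
  have hmap : (IntermediateField.adjoin K {T.j}).map T.α = IntermediateField.adjoin K {T.x₁} := by
    rw [IntermediateField.adjoin_map, Set.image_singleton]
  let g : IntermediateField.adjoin K {T.j} →ₐ[K] IntermediateField.adjoin K {T.x₁} :=
    (T.α.comp (IntermediateField.adjoin K {T.j}).val).codRestrict
      (IntermediateField.adjoin K {T.x₁}).toSubalgebra fun z => hmap.le ⟨z, z.2, rfl⟩
  letI : Algebra (IntermediateField.adjoin K {T.j}) (IntermediateField.adjoin K {T.x₁}) :=
    g.toRingHom.toAlgebra
  haveI : IsScalarTower (IntermediateField.adjoin K {T.j}) (IntermediateField.adjoin K {T.x₁}) T.F₁ :=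
    IsScalarTower.of_algebraMap_eq fun _ => rfl
  exact Module.Finite.right (IntermediateField.adjoin K {T.j}) (IntermediateField.adjoin K {T.x₁}) T.F₁

include T in
/-- The model at finite `j` is noetherian. -/
theorem isNoetherianRing_B₁ : IsNoetherianRing T.B₁ := by
  haveI := T.finite_x₁
  have hS := T.isUniformiser
  haveI := hS.isDiscreteValuationRing
  obtain ⟨s, hs⟩ := exists_chartRing_le_span hS T.transcendental_x₁
  haveI : IsNoetherianRing (Algebra.adjoin (baseRing A K) {T.x₁}) := by
    rw [Algebra.adjoin_singleton_eq_range_aeval]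
    exact isNoetherianRing_range (aeval (R := baseRing A K) T.x₁).toRingHom
  set C := integralClosure (Algebra.adjoin (baseRing A K) {T.x₁}) T.F₁
  haveI : IsNoetherian (Algebra.adjoin (baseRing A K) {T.x₁})
      (Submodule.span (Algebra.adjoin (baseRing A K) {T.x₁}) (s : Set T.F₁)) :=
    isNoetherian_span_of_finite _ s.finite_toSet
  haveI : IsNoetherian (Algebra.adjoin (baseRing A K) {T.x₁}) (Subalgebra.toSubmodule C) :=
    isNoetherian_of_le (fun x hx => hs x hx)
  have : IsNoetherianRing C :=
    isNoetherian_of_tower (Algebra.adjoin (baseRing A K) {T.x₁}) (S := C) (M := C) ‹_›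
  exact this

end SqTower

end Fermat.Agent.BadPrime.Sq
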