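import Fermat.Agent.BadPrime.Sq.NodeRing
import Fermat.Agent.BadPrime.Sq.CharQ

/-!
# Parameters at the points of the component of `∞`

A crossing has a rational parameter, `(θ t) ^ (q - 1)` has a double pole there, and the same
parameter serves at the image of the crossing under the involution.
-/

set_option autoImplicit false
set_option linter.unusedSectionVars false
set_option linter.style.haveILetI false
set_option maxHeartbeats 400000

noncomputable section

open ModularCurve AlgebraicCurve Fermat.Agent.Curve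

namespace Fermat.Agent.BadPrime.Sq

/-- The nonunits of the ring of a place. -/
theorem mem_nonunits_place_iff {k F : Type} [Field k] [Field F] [Algebra k F] (v : Place k F)
    {z : F} : z ∈ v.toValuationSubring.nonunits ↔ z = 0 ∨ 0 < v.ord z := by
  rw [ValuationSubring.mem_nonunits_iff_exists_mem_maximalIdeal]
  constructor
  · rintro ⟨hz, h⟩
    exact mem_maximalIdeal_iff.1 h
  · intro h
    have hz : z ∈ v.toValuationSubring := h.elim (fun h0 => h0 ▸ zero_mem _)
      fun hpos => mem_of_ord_nonneg v hpos.le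
    exact ⟨hz, mem_maximalIdeal_iff.2 h⟩

theorem ordGE_one_iff {k F : Type} [Field k] [Field F] [Algebra k F] (v : Place k F) {z : F} :
    OrdGE v 1 z ↔ z = 0 ∨ 0 < v.ord z := by
  rw [ordGE_iff]
  exact or_congr_right (by omega)

theorem eq_zero_of_ordGE_algebraMap {k F : Type} [Field k] [Field F] [Algebra k F]
    (v : Place k F) {e : k} (h : OrdGE v 1 (algebraMap k F e)) : e = 0 := by
  by_contra he
  have := h.le_ord ((map_ne_zero _).2 he)
  rw [ord_algebraMap] at this
  omega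

theorem smul_eq_C_mul_series {k : Type} [Field k] (r : k) (z : LaurentSeries k) :
    r • z = HahnSeries.C r * z :=
  HahnSeries.C_mul_eq_smul.symm

variable {q : ℕ} [Fact q.Prime] {K K' k : Type} [Field K] [Field K'] [Algebra K K'] [Field k]
  [CharZero K] [CharP k q] [IsAlgClosed k] {A : ValuationSubring K'} {π : A →+* k}
  (T : SqTower q K π)

namespace SqTower

omit [IsAlgClosed k] in
theorem frobTwist_C (e : k) :
    frobTwist (q := q) (HahnSeries.C e : LaurentSeries k) = HahnSeries.C (e ^ q) := by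
  rw [HahnSeries.C_apply, frobTwist, coeffMap_single, frobenius_def, HahnSeries.C_apply]

omit [IsAlgClosed k] in
theorem frobTwist_eq_self {x : LaurentSeries k} (h : ∀ m, x.coeff m ^ q = x.coeff m) :
    frobTwist (q := q) x = x := by
  ext m
  rw [frobTwist, coeffMap_coeff, frobenius_def, h m]

omit [IsAlgClosed k] in
theorem qExpand_eq_pow {x : LaurentSeries k} (h : ∀ m, x.coeff m ^ q = x.coeff m) :
    qExpand k q x = x ^ q := by
  conv_lhs => rw [← frobTwist_eq_self h]
  exact qExpand_frobTwist x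

/-- The Frobenius twist is onto the special fibre. -/
theorem exists_frobTwist (g : T.fib) :
    (∃ g' : T.fib, T.fibVal g' = frobTwist (q := q) (T.fibVal g)) ∧
      ∃ g'' : T.fib, frobTwist (q := q) (T.fibVal g'') = T.fibVal g := by
  suffices H : ∀ x : LaurentSeries k, x ∈ Submodule.span k {g' : LaurentSeries k |
      g' ∈ resRing T.resField (jqModC k) ∧ ∀ m, g'.coeff m ^ q = g'.coeff m} →
      frobTwist (q := q) x ∈ T.resFin ∧ ∃ y ∈ T.resFin, frobTwist (q := q) y = x by
    obtain ⟨h1, y, hy, h2⟩ := H _ (T.rational_span _ g.2)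
    obtain ⟨g', hg'⟩ := T.exists_fib h1
    obtain ⟨g'', hg''⟩ := T.exists_fib hy
    exact ⟨⟨g', hg'⟩, g'', by rw [hg'', h2]; rfl⟩
  intro x hx
  induction hx using Submodule.span_induction with
  | mem z hz =>
    rw [frobTwist_eq_self hz.2]
    exact ⟨hz.1, z, hz.1, frobTwist_eq_self hz.2⟩
  | zero => exact ⟨by rw [map_zero]; exact zero_mem _, 0, zero_mem _, map_zero _⟩
  | add a b _ _ ha hb =>
    obtain ⟨ha, a', ha', rfl⟩ := ha
    obtain ⟨hb, b', hb', rfl⟩ := hb
    exact ⟨by rw [map_add]; exact add_mem ha hb, a' + b', add_mem ha' hb', map_add _ _ _⟩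
  | smul r z _ hz =>
    obtain ⟨hz, z', hz', rfl⟩ := hz
    obtain ⟨s, rfl⟩ := IsAlgClosed.exists_pow_nat_eq r (Fact.out : q.Prime).pos
    have hC : ∀ e : k, HahnSeries.C e ∈ T.resFin := fun e => T.fibVal_cst e ▸ T.fibVal_mem _
    rw [smul_eq_C_mul_series, map_mul, frobTwist_C]
    exact ⟨mul_mem (hC _) hz, HahnSeries.C s * z', mul_mem (hC _) hz',
      by rw [map_mul, frobTwist_C]⟩

/-- `h e ^ 12` lies on the model for `e` vanishing on the other component. -/
theorem mul_pow_mem_B₁ {e : T.B₁} (he : e ∈ T.P₁) : T.h * (e : T.F₁) ^ 12 ∈ T.B₁ := by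
  refine T.mem_B₁ (mul_mem T.h_mem (pow_mem (chartRing_mono _ _ le_top e.2) 12)) ?_ ?_
  · refine ⟨(Igusa.deltaSeries k / qExpand k q (Igusa.deltaSeries k))⁻¹ *
      T.fibVal (T.red₀ e) ^ 12, ?_⟩
    show HasGaussRed π _ _
    rw [map_mul, map_pow]
    exact T.hasGaussRed_i₁_h.mul ((T.res₀_red₀ e).pow 12)
  · obtain ⟨g₁, hg₁⟩ := T.res₁_h
    obtain ⟨g₂, hg₂⟩ := T.exists_res_div
      (fun h => T.value_i₁ (T.W e) (fun h' => h (by rw [h', map_zero]))) he
    refine ⟨g₁ * g₂ ^ 12, ?_⟩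
    show HasGaussRed π _ _
    have h1 := hg₁.mul (hg₂.pow 12)
    have e1 : HahnSeries.C ((q : K') ^ 12) * T.i₁ (T.W T.h) *
        (HahnSeries.C (q : K')⁻¹ * T.i₁ (T.W e)) ^ 12 = T.i₁ (T.W (T.h * (e : T.F₁) ^ 12)) := by
      have e2 : (HahnSeries.C ((q : K') ^ 12) : LaurentSeries K') *
          HahnSeries.C (q : K')⁻¹ ^ 12 = 1 := by
        rw [← map_pow, ← map_mul, inv_pow, mul_inv_cancel₀ (pow_ne_zero _ T.natCast_ne_zero'),
          map_one]
      rw [map_mul T.W, map_pow T.W, map_mul T.i₁, map_pow T.i₁, mul_pow]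
      linear_combination (T.i₁ (T.W T.h) * T.i₁ (T.W e) ^ 12) * e2
    rwa [e1] at h1

theorem h_ne_zero : T.h ≠ 0 := fun h => T.i₁_h_ne_zero (by rw [h, map_zero])

/-- A point of the component of `∞` is a crossing exactly where `h⁻¹` vanishes. -/
theorem isCrossing_iff_hInv_mem (M : Ideal T.B₁) [hM : M.IsMaximal] (h₀ : T.P₀ ≤ M) :
    T.IsCrossing M ↔ T.hInv ∈ M := by
  refine ⟨fun h => h.2 T.hInv_mem_P₁, fun h => ⟨h₀, fun e he => ?_⟩⟩
  refine hM.isPrime.mem_of_pow_mem 12 ?_
  have : e ^ 12 = ⟨_, T.mul_pow_mem_B₁ he⟩ * T.hInv := by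
    refine Subtype.ext ?_
    show (e : T.F₁) ^ 12 = T.h * (e : T.F₁) ^ 12 * T.h⁻¹
    field_simp [T.h_ne_zero]
  rw [this]
  exact M.mul_mem_left _ h

theorem swap₁_surjective : Function.Surjective T.swap₁ := fun f => ⟨_, T.swap₁_swap₁ f⟩

theorem IsCrossing.comap_swap₁ {T : SqTower q K π} {M : Ideal T.B₁} (h : T.IsCrossing M) :
    T.IsCrossing (M.comap T.swap₁) := by
  refine ⟨fun f hf => h.2 ?_, fun f hf => h.1 ?_⟩
  · rw [T.mem_P₁_iff, T.swap₁_swap₁, T.red₀_eq_zero_iff]
    exact hf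
  · rw [← T.red₀_eq_zero_iff, ← T.mem_P₁_iff]
    exact hf

namespace PlaceAt

variable {T} {M : Ideal T.B₁} {v : Place k T.resField} (hv : T.PlaceAt M v)
include hv

/-- The invariants of `θ t` at a point where `t` is a parameter. -/
theorem exists_theta_pow (g : T.fib) (e : k)
    (h1 : v.ord ((g : T.resField) - algebraMap k T.resField e) = 1) :
    Reduction.qDeriv (T.fibVal g) ≠ 0 ∧ ∃ G : T.resField,
      (G : LaurentSeries k) = Reduction.qDeriv (T.fibVal g) ^ (q - 1) ∧ G ≠ 0 ∧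
        6 * v.ord G + v.ord (T.red₀ T.hInv : T.resField) = 0 ∧ v.ord G ≠ -1 := by
  set τ : T.resField := (g : T.resField) - algebraMap k T.resField e
  have hτ0 : τ ≠ 0 := fun h => by rw [h, v.ord_zero] at h1; exact absurd h1 (by decide)
  have hk : ∀ c : k, algebraMap k T.resField c ∈ v.toValuationSubring :=
    fun c => hv.regular (T.cst c)
  have hjv : (⟨jqModC k, T.jqModC_mem⟩ : T.resField) ∈ v.toValuationSubring :=
    hv.regular ⟨⟨jqModC k, T.jqModC_mem⟩, T.jqModC_mem, isIntegral_algebraMap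
      (x := (⟨jqModC k, Algebra.self_mem_adjoin_singleton k _⟩ :
        Algebra.adjoin k {jqModC k}))⟩
  have hτv : τ ∈ v.toValuationSubring.nonunits :=
    (mem_nonunits_place_iff v).2 (Or.inr (by omega))
  have hunif : ∀ s ∈ v.toValuationSubring.nonunits, ∃ r ∈ v.toValuationSubring, s = τ * r := by
    intro s hs
    refine ⟨s / τ, ?_, by field_simp⟩
    rcases eq_or_ne s 0 with rfl | hs0
    · rw [zero_div]; exact zero_mem _
    refine mem_of_ord_nonneg v ?_
    have := ((mem_nonunits_place_iff v).1 hs).resolve_left hs0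
    rw [ord_div v hs0 hτ0]
    omega
  obtain ⟨u, huv, hu, hω⟩ := T.omega_unit v.toValuationSubring hk hjv τ hτ0 hτv hunif
  have hu0 : u ≠ 0 := fun h => hu ((mem_nonunits_place_iff v).2 (Or.inl h))
  have hu1 : v.ord u = 0 := le_antisymm
    (not_lt.1 fun h => hu ((mem_nonunits_place_iff v).2 (Or.inr h))) (ord_nonneg_of_mem v huv)
  have hθ : Reduction.qDeriv (τ : LaurentSeries k) = Reduction.qDeriv (T.fibVal g) := by
    show Reduction.qDeriv (T.fibVal g - algebraMap k (LaurentSeries k) e) = _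
    rw [map_sub, Reduction.qDeriv_algebraMap, sub_zero]
  rw [hθ] at hω
  have hΔ : Igusa.deltaSeries k ≠ 0 := (Igusa.hasLead_deltaSeries (R := k)).ne_zero one_ne_zero
  have hd : Reduction.qDeriv (T.fibVal g) ≠ 0 := by
    intro h
    rw [h, zero_pow (by norm_num)] at hω
    exact hu0 (Subtype.ext ((mul_eq_zero.1 hω.symm).resolve_right hΔ))
  refine ⟨hd, ?_⟩
  let G : T.resField := ⟨_, T.qDeriv_pow_mem (T.fibVal_mem g)⟩
  have hG0 : G ≠ 0 := fun h => pow_ne_zero (q - 1) hd (congrArg Subtype.val h)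
  have hH0 : (T.red₀ T.hInv : T.resField) ≠ 0 := fun h => T.red₀_hInv_ne_zero (Subtype.ext h)
  have key : G ^ 6 * (T.red₀ T.hInv : T.resField) = u ^ (q - 1) := by
    refine Subtype.ext ?_
    show (Reduction.qDeriv (T.fibVal g) ^ (q - 1)) ^ 6 * T.fibVal (T.red₀ T.hInv) =
      (u : LaurentSeries k) ^ (q - 1)
    rw [← pow_mul, mul_comm (q - 1) 6, pow_mul, hω, mul_pow]
    linear_combination (u : LaurentSeries k) ^ (q - 1) * T.red₀_hInv_mul_delta_pow
  refine ⟨G, rfl, hG0, ?_, fun hG1 => ?_⟩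
  · have h2 := congrArg v.ord key
    rw [v.ord_mul (pow_ne_zero _ hG0) hH0, ord_pow, ord_pow, hu1, mul_zero] at h2
    exact h2
  · have hGτ : v.ord (G * τ) = 0 := by rw [v.ord_mul hG0 hτ0, hG1, h1]; rfl
    refine qDeriv_pow_ne_simple_pole T.jqModC_mem T.separable_res T.finite_res
      v.toValuationSubring hk hτ0 hτv hunif (G := G) (u := G * τ) ?_
      (mem_of_ord_nonneg v hGτ.ge) ?_ rfl
    · show _ = Reduction.qDeriv (τ : LaurentSeries k) ^ (q - 1)
      rw [hθ]
    · intro hn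
      rcases (mem_nonunits_place_iff v).1 hn with h | h
      · exact mul_ne_zero hG0 hτ0 h
      · omega

/-- At a crossing `h b ^ 12` is a unit and `b = t(τ) - t(q τ) ^ q` a parameter. -/
theorem crossing_spec [hM : M.IsMaximal] (hc : T.IsCrossing M) (f : T.B₁)
    (hrat : T.red₀ (T.swap₁ f) = T.red₀ f ^ q) (e : k)
    (h1 : v.ord ((T.red₀ f : T.resField) - algebraMap k T.resField e) = 1) :
    f - T.swap₁ f ^ q ∈ T.P₁ ∧ e ^ (q ^ 2) = e ∧
      v.ord (T.red₀ (f - T.swap₁ f ^ q) : T.resField) = 1 ∧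
      ∀ g₀ : T.B₁, (g₀ : T.F₁) = T.h * ((f - T.swap₁ f ^ q : T.B₁) : T.F₁) ^ 12 → g₀ ∉ M := by
  haveI : CharP T.resField q :=
    charP_of_injective_ringHom (algebraMap k T.resField).injective q
  set b := f - T.swap₁ f ^ q with hb
  set τ : T.resField := (T.red₀ f : T.resField) - algebraMap k T.resField e with hτ
  have hbP : b ∈ T.P₁ := by
    rw [T.mem_P₁_iff, hb, map_sub, map_pow, T.swap₁_swap₁, map_sub, map_pow, hrat, sub_self]
  have hq2 : 1 < q ^ 2 := Nat.one_lt_pow two_ne_zero (Fact.out : q.Prime).one_lt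
  have hτ0 : τ ≠ 0 := fun h => by rw [h, v.ord_zero] at h1; exact absurd h1 (by decide)
  have hbX : (T.red₀ b : T.resField) =
      τ - τ ^ (q ^ 2) + algebraMap k T.resField (e - e ^ (q ^ 2)) := by
    rw [hb, map_sub, map_pow, hrat, hτ, sub_pow_char_pow, map_sub, map_pow, ← pow_mul, ← pow_two]
    push_cast
    ring
  have hτq : OrdGE v 2 (τ ^ (q ^ 2)) := by
    refine ordGE_of_le_ord ?_
    rw [ord_pow, h1, mul_one]
    exact_mod_cast hq2
  have hbM : OrdGE v 1 (T.red₀ b : T.resField) :=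
    (ordGE_one_iff v).2 ((hv.mem_iff b).1 (hc.2 hbP))
  have he : e ^ (q ^ 2) = e := by
    have h2 := hbM.sub ((ordGE_of_le_ord (v := v) (h1.ge : (1 : ℤ) ≤ v.ord τ)).sub
      (hτq.mono (by norm_num : (1 : ℤ) ≤ 2)))
    rw [hbX, add_sub_cancel_left] at h2
    exact (sub_eq_zero.1 (eq_zero_of_ordGE_algebraMap v h2)).symm
  rw [he, sub_self, map_zero, add_zero, sub_eq_add_neg] at hbX
  obtain ⟨hb0, hbord⟩ := add_ne_zero_and_ord_add_eq v hτ0 h1 hτq.neg
  rw [← hbX] at hb0 hbord
  refine ⟨hbP, he, hbord, fun g₀ hg₀ => ?_⟩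
  obtain ⟨-, G, -, hG0, hG, hG1⟩ := hv.exists_theta_pow (T.red₀ f) e h1
  have hH : 0 < v.ord (T.red₀ T.hInv : T.resField) := ((hv.mem_iff _).1 (hc.2 T.hInv_mem_P₁))
    |>.resolve_left fun h => T.red₀_hInv_ne_zero (Subtype.ext h)
  have hmul : g₀ * T.hInv = b ^ 12 := by
    refine Subtype.ext ?_
    show (g₀ : T.F₁) * T.h⁻¹ = (b : T.F₁) ^ 12
    rw [hg₀]
    field_simp [T.h_ne_zero]
  have hX : (T.red₀ g₀ : T.resField) * (T.red₀ T.hInv : T.resField) =
      (T.red₀ b : T.resField) ^ 12 := by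
    rw [← Subring.coe_mul, ← map_mul, hmul, map_pow, SubmonoidClass.coe_pow]
  have hne : (T.red₀ g₀ : T.resField) ≠ 0 := fun h => by
    rw [h, zero_mul] at hX
    exact pow_ne_zero 12 hb0 hX.symm
  have h2 := congrArg v.ord hX
  rw [v.ord_mul hne fun h => T.red₀_hInv_ne_zero (Subtype.ext h), ord_pow, hbord] at h2
  have hnn := ord_nonneg_of_mem v (hv.regular (T.red₀ g₀))
  exact hv.notMem_iff.2 ⟨hne, by omega⟩

/-- A rational function is a parameter. -/
theorem exists_rational_param : ∃ (t : T.F₀) (f : T.B₁) (e : k),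
    t ∈ chartRing (baseRing A K) T.j ∧ (f : T.F₁) = T.α t ∧
      HasGaussRed π (T.i₀ t) (T.fibVal (T.red₀ f)) ∧
      (∀ m, (T.fibVal (T.red₀ f)).coeff m ^ q = (T.fibVal (T.red₀ f)).coeff m) ∧
      T.red₀ (T.swap₁ f) = T.red₀ f ^ q ∧
      v.ord ((T.red₀ f : T.resField) - algebraMap k T.resField e) = 1 := by
  by_contra hcon
  push Not at hcon
  have key : ∀ x : T.fib, ∃ e : k, OrdGE v 2 ((x : T.resField) - algebraMap k T.resField e) := by
    intro x
    suffices H : ∀ z : LaurentSeries k, z ∈ Submodule.span k {g' : LaurentSeries k |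
        g' ∈ resRing T.resField (jqModC k) ∧ ∀ m, g'.coeff m ^ q = g'.coeff m} →
        ∃ y : T.fib, T.fibVal y = z ∧
          ∃ e : k, OrdGE v 2 ((y : T.resField) - algebraMap k T.resField e) by
      obtain ⟨y, hy, h⟩ := H _ (T.rational_span _ x.2)
      rwa [T.fibVal_injective hy] at h
    intro z hz
    induction hz using Submodule.span_induction with
    | mem z hz =>
      obtain ⟨t, ht, htz⟩ := T.res_lift_fin z hz.1
      have hf : T.fibVal (T.red₀ ⟨T.α t, T.α_mem_B₁ ht⟩) = z := T.red₀_eq (by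
        show HasGaussRed π _ _
        rw [T.i₁_α]
        exact htz)
      refine ⟨_, hf, ?_⟩
      obtain ⟨e, he⟩ := hv.exists_value (T.red₀ ⟨T.α t, T.α_mem_B₁ ht⟩)
      have hsw : T.red₀ (T.swap₁ ⟨T.α t, T.α_mem_B₁ ht⟩) =
          T.red₀ ⟨T.α t, T.α_mem_B₁ ht⟩ ^ q := by
        refine T.fibVal_injective ?_
        rw [map_pow, hf, ← qExpand_eq_pow hz.2]
        refine T.red₀_eq ?_
        show HasGaussRed π (T.i₁ (T.W (T.α t))) _
        rw [T.i₁_W_α]
        exact hasGaussRed_qExpand htz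
      have hne := hcon t _ e ht rfl (hf.symm ▸ htz) (hf.symm ▸ hz.2) hsw
      exact ⟨e, (ordGE_iff v).2 (he.imp_right fun h => by omega)⟩
    | zero => exact ⟨0, map_zero _, 0, by simpa using ordGE_zero (v := v) 2⟩
    | add a b _ _ ha hb =>
      obtain ⟨a', ha', ea, hea⟩ := ha
      obtain ⟨b', hb', eb, heb⟩ := hb
      refine ⟨a' + b', by rw [map_add, ha', hb'], ea + eb, ?_⟩
      rw [Subring.coe_add, map_add, add_sub_add_comm]
      exact hea.add heb
    | smul r z _ hz =>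
      obtain ⟨z', hz', ez, hez⟩ := hz
      refine ⟨T.cst r * z', ?_, r * ez, ?_⟩
      · rw [map_mul, T.fibVal_cst, hz', smul_eq_C_mul_series]
      · rw [Subring.coe_mul, T.coe_cst, map_mul, ← mul_sub]
        have := (ordGE_algebraMap v r).mul hez
        rwa [zero_add] at this
  obtain ⟨a, ha0, ha⟩ := hv.exists_ord_eq_one
  obtain ⟨e, he⟩ := key a
  have h1 : OrdGE v 1 (algebraMap k T.resField e) := by
    have := (ordGE_of_le_ord (v := v) (ha.ge : (1 : ℤ) ≤ v.ord _)).sub
      (he.mono (by norm_num : (1 : ℤ) ≤ 2))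
    rwa [sub_sub_cancel] at this
  rw [eq_zero_of_ordGE_algebraMap v h1, map_zero, sub_zero] at he
  have := he.le_ord ha0
  omega

/-- The conjugate parameter at the image of the point under the involution. -/
theorem ord_swap {v' : Place k T.resField} (hv' : T.PlaceAt (M.comap T.swap₁) v') (g : T.fib)
    (hg : ∀ m, (T.fibVal g).coeff m ^ q = (T.fibVal g).coeff m) (e : k)
    (h1 : v.ord ((g : T.resField) - algebraMap k T.resField e) = 1) :
    v'.ord ((g : T.resField) - algebraMap k T.resField (e ^ q)) = 1 := by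
  have hsw : ∀ x x'' : T.fib, frobTwist (q := q) (T.fibVal x'') = T.fibVal x →
      (((x : T.resField) = 0 ∨ 0 < v'.ord (x : T.resField)) ↔
        ((x'' : T.resField) = 0 ∨ 0 < v.ord (x'' : T.resField))) := by
    intro x x'' hx
    obtain ⟨f, rfl, hf⟩ := T.exists_lift x
    have hpow : T.red₀ (T.swap₁ f) = x'' ^ q := by
      refine T.fibVal_injective ?_
      rw [hf, map_pow, ← hx, qExpand_frobTwist]
    rw [← hv'.mem_iff, Ideal.mem_comap, hv.mem_iff, hpow, SubmonoidClass.coe_pow, ord_pow,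
      pow_eq_zero_iff (Fact.out : q.Prime).ne_zero]
    refine or_congr_right ⟨fun h => ?_, fun h => mul_pos (by exact_mod_cast (Fact.out : q.Prime).pos) h⟩
    exact (pos_iff_pos_of_mul_pos h).1 (by exact_mod_cast (Fact.out : q.Prime).pos)
  set τ : T.fib := g - T.cst e
  set τ' : T.fib := g - T.cst (e ^ q)
  have hτ : frobTwist (q := q) (T.fibVal τ) = T.fibVal τ' := by
    rw [map_sub, map_sub, map_sub, frobTwist_eq_self hg, T.fibVal_cst, T.fibVal_cst, frobTwist_C]
  have hτX : (τ : T.resField) = (g : T.resField) - algebraMap k T.resField e := rfl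
  have hτ'X : (τ' : T.resField) = (g : T.resField) - algebraMap k T.resField (e ^ q) := rfl
  have hτ0 : (τ : T.resField) ≠ 0 := fun h => by
    rw [← hτX, h, v.ord_zero] at h1; exact absurd h1 (by decide)
  rw [← hτ'X]
  refine (hv'.ord_eq_one_of_gen ((hsw τ' τ hτ).2 (Or.inr (by rw [hτX]; omega))) ?_).2
  intro x hx
  obtain ⟨x'', hx''⟩ := (T.exists_frobTwist x).2
  obtain ⟨d, r, hd, hdr⟩ := hv.gen_of_ord_eq_one hτ0 (hτX ▸ h1) ((hsw x x'' hx'').1 hx)
  obtain ⟨d', hd'⟩ := (T.exists_frobTwist d).1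
  obtain ⟨r', hr'⟩ := (T.exists_frobTwist r).1
  refine ⟨d', r', ?_, T.fibVal_injective ?_⟩
  · have h := (hsw d' d hd'.symm).not.2 (by rw [not_or, not_lt]; exact ⟨hd.1, hd.2.le⟩)
    rw [not_or, not_lt] at h
    exact ⟨h.1, le_antisymm h.2 (ord_nonneg_of_mem v' (hv'.regular d'))⟩
  · rw [map_mul, map_mul, hd', hr', ← hx'', ← hτ, ← map_mul, ← map_mul, ← map_mul, ← map_mul, hdr]

end PlaceAt

end SqTower

end Fermat.Agent.BadPrime.Sq
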