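import Fermat.Agent.BadPrime.Sq.Level
import Fermat.Agent.BadPrime.Sq.CharQ
import Fermat.Agent.BadPrime.Sq.NodeParam
import Fermat.Agent.BadPrime.Sq.NodeNoether
import Fermat.Agent.BadPrime.RegularTwo
import Mathlib.RingTheory.Localization.AtPrime.Basic
import Mathlib.RingTheory.Localization.Submodule

/-!
# The crossings of level `N q` are regular points
-/

set_option autoImplicit false
set_option linter.unusedSectionVars false
set_option linter.style.haveILetI false
set_option maxHeartbeats 800000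

noncomputable section

open ModularCurve AlgebraicCurve

namespace Fermat.Agent.BadPrime.Sq

/-- Parameters may be changed modulo the square of the maximal ideal. -/
theorem maximalIdeal_eq_span_pair_of_sub {R : Type*} [CommRing R] [IsNoetherianRing R]
    [IsLocalRing R] {a b u w x y : R} (h : IsLocalRing.maximalIdeal R = Ideal.span {a, b})
    (hu : u ∈ IsLocalRing.maximalIdeal R) (hw : w ∈ IsLocalRing.maximalIdeal R)
    (ha : a = w - x) (hb : b = u - y) (hx : x ∈ IsLocalRing.maximalIdeal R ^ 2)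
    (hy : y ∈ IsLocalRing.maximalIdeal R ^ 2) :
    IsLocalRing.maximalIdeal R = Ideal.span {u, w} := by
  refine maximalIdeal_eq_span_pair hu hw ?_
  conv_lhs => rw [h]
  rw [Ideal.span_le, Set.insert_subset_iff, Set.singleton_subset_iff]
  exact ⟨ha ▸ sub_mem (Ideal.mem_sup_left (Ideal.subset_span (by simp))) (Ideal.mem_sup_right hx),
    hb ▸ sub_mem (Ideal.mem_sup_left (Ideal.subset_span (by simp))) (Ideal.mem_sup_right hy)⟩

variable {q : ℕ} [Fact q.Prime] {K K' k : Type} [Field K] [Field K'] [Algebra K K'] [Field k]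
  [CharZero K] [CharP k q] [IsAlgClosed k] {A : ValuationSubring K'} {π : A →+* k}
  (T : SqTower q K π)

namespace SqTower

/-- A point of the component of `∞` is a crossing exactly where `h⁻¹` vanishes. -/
theorem isCrossing_iff (M : Ideal T.B₁) [M.IsMaximal] (h₀ : T.P₀ ≤ M) :
    T.IsCrossing M ↔ ∀ f : T.B₁, T.Res₀ f (Igusa.deltaSeries k / qExpand k q (Igusa.deltaSeries k))
      → f ∈ M := by
  rw [T.isCrossing_iff_hInv_mem M h₀]
  refine ⟨fun h f hf => ?_, fun h => h _ T.res₀_h_inv⟩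
  have hd : f - T.hInv ∈ M := h₀ (T.red₀_eq_zero_iff.1 (T.fibVal_injective (by
    rw [map_zero, map_sub, map_sub, T.red₀_eq hf, T.fibVal_red₀_hInv, sub_self])))
  simpa using M.add_mem hd h

/-- Away from the crossings `(θ t) ^ (q - 1)` is a unit where `t` is a parameter: some element of
the model outside `M` reduces to a multiple of it by a function regular at the point. -/
theorem exists_res_qDeriv_pow (M : Ideal T.B₁) [M.IsMaximal] (h₀ : T.P₀ ≤ M) (h₁ : ¬ T.P₁ ≤ M)
    {t : T.F₀} (ht : t ∈ chartRing (baseRing A K) T.j) {tb : LaurentSeries k}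
    (htb : HasGaussRed π (T.i₀ t) tb) (c : K) (hc : algebraMap K K' c ∈ A)
    (hcM : ∃ u ∈ M, (u : T.F₁) = T.α t - algebraMap K T.F₁ c)
    (hparam : ∀ f : T.B₁, f ∈ M → ∃ d r : T.B₁, d ∉ M ∧
      T.Res₀ ((d : T.F₁) * f - (T.α t - algebraMap K T.F₁ c) * r) 0) :
    ∃ (d e : T.B₁) (gd ge : LaurentSeries k), d ∉ M ∧ e ∉ M ∧ T.Res₀ d gd ∧ T.Res₀ e ge ∧
      gd * Reduction.qDeriv tb ^ (q - 1) = ge := by
  obtain ⟨u, huM, hu⟩ := hcM
  obtain ⟨v, hv⟩ := T.exists_placeAt M h₀
  set f : T.B₁ := ⟨T.α t, T.α_mem_B₁ ht⟩ with hf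
  have hft : T.fibVal (T.red₀ f) = tb := T.red₀_eq (by
    show HasGaussRed π _ _
    rw [T.i₁_α]
    exact htb)
  have huf : T.red₀ u = T.red₀ f - T.cst (π ⟨_, hc⟩) := by
    rw [show u = f - ⟨algebraMap K T.F₁ c, algebraMap_mem_chartRing _ _ hc⟩ from Subtype.ext hu,
      map_sub, T.red₀_algebraMap]
  have h1 : v.ord (T.red₀ u : T.resField) = 1 := by
    refine (hv.ord_eq_one_of_gen ((hv.mem_iff u).1 huM) fun g hg => ?_).2
    obtain ⟨g', rfl⟩ := T.red₀_surjective g
    obtain ⟨d, r, hd, hres⟩ := hparam g' ((hv.mem_iff g').2 hg)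
    refine ⟨T.red₀ d, T.red₀ r, hv.notMem_iff.1 hd, sub_eq_zero.1 ?_⟩
    rw [← map_mul, ← map_mul, ← map_sub, T.red₀_eq_zero_iff]
    show T.Res₀ ((d : T.F₁) * g' - (u : T.F₁) * r) 0
    rwa [hu]
  have h1' : v.ord ((T.red₀ f : T.resField) - algebraMap k T.resField (π ⟨_, hc⟩)) = 1 := by
    rw [huf] at h1
    exact h1
  obtain ⟨-, G, hG, hG0, hG6, -⟩ := hv.exists_theta_pow (T.red₀ f) _ h1'
  have hnc : T.hInv ∉ M := fun h => h₁ ((T.isCrossing_iff_hInv_mem M h₀).2 h).2
  rw [(hv.notMem_iff.1 hnc).2] at hG6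
  have hGord : v.ord G = 0 := by omega
  obtain ⟨a, b, ⟨hb0, hb⟩, hab⟩ :=
    hv.exists_frac G (Fermat.Agent.Curve.mem_of_ord_nonneg v hGord.ge)
  obtain ⟨d, rfl⟩ := T.red₀_surjective b
  obtain ⟨e, rfl⟩ := T.red₀_surjective a
  refine ⟨d, e, _, _, hv.notMem_iff.2 ⟨hb0, hb⟩, hv.notMem_iff.2 ⟨?_, ?_⟩, T.res₀_red₀ d,
    T.res₀_red₀ e, ?_⟩
  · rw [← hab]
    exact mul_ne_zero hG0 hb0
  · rw [← hab, v.ord_mul hG0 hb0, hGord, hb, add_zero]
  · rw [← hft, ← hG, mul_comm]
    exact congrArg Subtype.val hab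

include T in
/-- An element of the base with zero residue is divisible by `q`. -/
theorem div_natCast_mem {x : K} (hx : algebraMap K K' x ∈ A) (h0 : π ⟨_, hx⟩ = 0) :
    x / (q : K) ∈ baseRing A K := by
  rcases eq_or_ne x 0 with rfl | hx0
  · simp
  obtain ⟨i, h1, h2⟩ := T.isUniformiser.exists_eq x hx0
  obtain ⟨m, rfl⟩ := Int.eq_ofNat_of_zero_le (T.isUniformiser.nonneg_of_mem hx h2 hx0)
  rcases m with _ | m
  · exfalso
    simp only [Nat.cast_zero, zpow_zero] at h2
    have hmul : (⟨_, hx⟩ : A) * ⟨_, h2⟩ = 1 := Subtype.ext (by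
      show algebraMap K K' x * algebraMap K K' (1 / x) = 1
      rw [← map_mul, mul_one_div, div_self hx0, map_one])
    have := congrArg π hmul
    rw [map_mul, h0, zero_mul, map_one] at this
    exact zero_ne_one this
  · have hq : (q : K) ≠ 0 := T.isUniformiser.ne_zero
    have := mul_mem h1 (pow_mem T.natCast_mem m)
    rw [zpow_natCast, pow_succ] at this
    convert this using 1
    field_simp

theorem W_h_mul_h : T.W T.h * T.h = ((q : T.F₁) ^ 12)⁻¹ := by
  refine T.i₁.injective ?_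
  rw [map_mul, T.i₁_W_h, map_inv₀, map_pow, map_natCast, map_inv₀, map_pow, map_natCast]

/-- At a crossing the maximal ideal is generated by `t(τ) ^ q - t(q τ)` and `t(τ) - t(q τ) ^ q`,
whose product is `q` times a unit. -/
theorem exists_local_parameters (M : Ideal T.B₁) [hM : M.IsMaximal] (hc : T.IsCrossing M)
    {v : Place k T.resField} (hv : T.PlaceAt M v) (f : T.B₁)
    (hrat : T.red₀ (T.swap₁ f) = T.red₀ f ^ q)
    (hrat' : ∀ m, (T.fibVal (T.red₀ f)).coeff m ^ q = (T.fibVal (T.red₀ f)).coeff m)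
    (e : k) (h1 : v.ord ((T.red₀ f : T.resField) - algebraMap k T.resField e) = 1) :
    IsRegularPair (algebraMap T.B₁ (Localization.AtPrime M) (T.swap₁ (f - T.swap₁ f ^ q)))
        (algebraMap T.B₁ (Localization.AtPrime M) (f - T.swap₁ f ^ q)) ∧
      algebraMap T.B₁ (Localization.AtPrime M) (q : T.B₁) ∈
        IsLocalRing.maximalIdeal (Localization.AtPrime M) ^ 2 := by
  set b := f - T.swap₁ f ^ q
  set a := T.swap₁ b
  set φ := algebraMap T.B₁ (Localization.AtPrime M)
  obtain ⟨hbP, -, hbord, hG0⟩ := hv.crossing_spec hc f hrat e h1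
  haveI := Ideal.comap_isMaximal_of_surjective T.swap₁ T.swap₁_surjective (K := M)
  obtain ⟨v', hv'⟩ := T.exists_placeAt (M.comap T.swap₁) hc.comap_swap₁.1
  have hG1 := (hv'.crossing_spec hc.comap_swap₁ f hrat (e ^ q)
    (hv.ord_swap hv' _ hrat' e h1)).2.2.2
  set g₀ : T.B₁ := ⟨_, T.mul_pow_mem_B₁ hbP⟩
  have hg₀ : g₀ ∉ M := hG0 g₀ rfl
  have hg₁ : T.swap₁ g₀ ∉ M := hG1 g₀ rfl
  have haP : a ∈ T.P₀ := T.red₀_eq_zero_iff.1 (T.mem_P₁_iff.1 hbP)
  let u : T.B₁ := ⟨_, T.div_mem_B₁ (a * b).2 (T.P₀.mul_mem_right b haP) (T.P₁.mul_mem_left a hbP)⟩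
  have hqF : (q : T.F₁) ≠ 0 := by
    have : CharZero T.F₁ := charZero_of_injective_algebraMap (algebraMap K T.F₁).injective
    exact Nat.cast_ne_zero.2 (Fact.out : q.Prime).ne_zero
  have huc : (u : T.F₁) = (a : T.F₁) * b / q := rfl
  have hu : u ∉ M := by
    intro h
    have e12 : u ^ 12 = g₀ * T.swap₁ g₀ := by
      refine Subtype.ext ?_
      show (u : T.F₁) ^ 12 = T.h * (b : T.F₁) ^ 12 * T.W (T.h * (b : T.F₁) ^ 12)
      rw [huc, map_mul, map_pow, ← coe_swap₁]
      have := T.W_h_mul_h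
      field_simp at this ⊢
      linear_combination -((a : T.F₁) ^ 12 * (b : T.F₁) ^ 12) * this
    rcases hM.isPrime.mem_or_mem (e12 ▸ M.pow_mem_of_mem h 12 (by norm_num)) with h' | h'
    · exact hg₀ h'
    · exact hg₁ h'
  have hunit : ∀ d : T.B₁, d ∉ M → IsUnit (φ d) :=
    fun d hd => IsLocalization.map_units (Localization.AtPrime M) (⟨d, hd⟩ : M.primeCompl)
  have hbM : b ∈ M := hc.2 hbP
  have haM : a ∈ M := hc.1 haP
  have hmem : ∀ x ∈ M, φ x ∈ IsLocalRing.maximalIdeal (Localization.AtPrime M) := fun x hx => by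
    rw [← Localization.AtPrime.map_eq_maximalIdeal]
    exact Ideal.mem_map_of_mem _ hx
  have hspan : IsLocalRing.maximalIdeal (Localization.AtPrime M) = Ideal.span {φ a, φ b} := by
    refine le_antisymm ?_ ?_
    · rw [← Localization.AtPrime.map_eq_maximalIdeal, Ideal.map_le_iff_le_comap]
      intro x hx
      have hb0 : (T.red₀ b : T.resField) ≠ 0 := fun h => by
        rw [h, v.ord_zero] at hbord; exact absurd hbord (by decide)
      obtain ⟨dd, rr, hdd, hdr⟩ := hv.gen_of_ord_eq_one hb0 hbord ((hv.mem_iff x).1 hx)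
      obtain ⟨D, rfl⟩ := T.red₀_surjective dd
      obtain ⟨R, rfl⟩ := T.red₀_surjective rr
      have hp : D * x - b * R ∈ T.P₀ :=
        T.red₀_eq_zero_iff.1 (by rw [map_sub, map_mul, map_mul, hdr, sub_self])
      let y : T.B₁ := ⟨_, T.div_mem_B₁ ((D * x - b * R) * b).2 (T.P₀.mul_mem_right b hp)
        (T.P₁.mul_mem_left _ hbP)⟩
      have key : D * u * x = a * y + b * (R * u) := by
        refine Subtype.ext ?_
        show (D : T.F₁) * u * x = a * (((D : T.F₁) * x - b * R) * b / q) + b * (R * u)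
        rw [huc]
        field_simp
        ring
      have hDu : D * u ∉ M := fun h => (hM.isPrime.mem_or_mem h).elim (hv.notMem_iff.2 hdd) hu
      refine (Ideal.unit_mul_mem_iff_mem (Ideal.span {φ a, φ b}) (hunit _ hDu)).1 ?_
      rw [← map_mul, key, map_add, map_mul, map_mul]
      exact add_mem (Ideal.mul_mem_right _ _ (Ideal.subset_span (Set.mem_insert _ _)))
        (Ideal.mul_mem_right _ _ (Ideal.subset_span (Set.mem_insert_of_mem _ rfl)))
    · rw [Ideal.span_le, Set.insert_subset_iff, Set.singleton_subset_iff]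
      exact ⟨hmem a haM, hmem b hbM⟩
  have hinj : Function.Injective φ :=
    IsLocalization.injective _ M.primeCompl_le_nonZeroDivisors
  have hbne : T.red₀ b ≠ 0 := fun h => by
    rw [h, ZeroMemClass.coe_zero, v.ord_zero] at hbord
    exact absurd hbord (by decide)
  refine ⟨⟨hspan, ?_, fun n ⟨x, hx⟩ => ?_⟩, ?_⟩
  · rw [map_ne_zero_iff _ hinj]
    intro h
    have := congrArg T.swap₁ h
    rw [map_zero, T.swap₁_swap₁] at this
    exact hbne (by rw [this, map_zero])
  · obtain ⟨⟨r, s⟩, hrs⟩ := IsLocalization.surj M.primeCompl x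
    have e' : b ^ n * (s : T.B₁) = a * r := hinj (by
      rw [map_mul, map_pow, map_mul, hx, ← hrs]; ring)
    have h2 := congrArg T.red₀ e'
    rw [map_mul, map_mul, T.red₀_eq_zero_iff.2 haP, zero_mul, map_pow, mul_eq_zero] at h2
    exact s.2 (h₀s h2 hbne)
  · refine (Ideal.unit_mul_mem_iff_mem (IsLocalRing.maximalIdeal (Localization.AtPrime M) ^ 2)
      (hunit u hu)).1 ?_
    rw [← map_mul, pow_two]
    have : u * (q : T.B₁) = a * b := by
      refine Subtype.ext ?_
      show (u : T.F₁) * ((q : T.B₁) : T.F₁) = a * b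
      rw [huc]
      push_cast
      field_simp
    rw [this, map_mul]
    exact Ideal.mul_mem_mul (hmem a haM) (hmem b hbM)
where
  h₀s {s : T.B₁} {n : ℕ} {g : T.fib} (h : g ^ n = 0 ∨ T.red₀ s = 0) (hg : g ≠ 0) : s ∈ M :=
    hc.1 (T.red₀_eq_zero_iff.1 (h.resolve_left (pow_ne_zero n hg)))

/-- A crossing is a regular point, with parameters `t(τ) - c` and `t(qτ) - c^q`. -/
theorem exists_regularPair (M : Ideal T.B₁) [M.IsMaximal] (hM : T.IsCrossing M) :
    ∃ (t : T.F₀) (tb : LaurentSeries k) (c : K) (u v : T.B₁),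
      t ∈ chartRing (baseRing A K) T.j ∧ HasGaussRed π (T.i₀ t) tb ∧
      (∀ m, tb.coeff m ^ q = tb.coeff m) ∧ Reduction.qDeriv tb ≠ 0 ∧
      algebraMap K K' c ∈ A ∧
      (∀ hc : algebraMap K K' (c ^ (q ^ 2) - c) ∈ A, π ⟨_, hc⟩ = 0) ∧
      (u : T.F₁) = T.α t - algebraMap K T.F₁ c ∧
      (v : T.F₁) = T.W (T.α t) - algebraMap K T.F₁ (c ^ q) ∧
      IsRegularPair (algebraMap T.B₁ (Localization.AtPrime M) u)
        (algebraMap T.B₁ (Localization.AtPrime M) v) ∧
      algebraMap T.B₁ (Localization.AtPrime M) (q : T.B₁) ∈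
        IsLocalRing.maximalIdeal (Localization.AtPrime M) ^ 2 := by
  haveI : CharP T.resField q :=
    charP_of_injective_ringHom (algebraMap k T.resField).injective q
  obtain ⟨v, hv⟩ := T.exists_placeAt M hM.1
  obtain ⟨t, f, e, ht, hft, htb, hrat', hrat, h1⟩ := hv.exists_rational_param
  obtain ⟨c, hc, hce⟩ := T.surj e
  obtain ⟨-, he, -, -⟩ := hv.crossing_spec hM f hrat e h1
  obtain ⟨hpair, hq2⟩ := T.exists_local_parameters M hM hv f hrat hrat' e h1
  set C : T.B₁ := ⟨algebraMap K T.F₁ c, algebraMap_mem_chartRing _ _ hc⟩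
  have hC : T.red₀ C = T.cst e := by rw [T.red₀_algebraMap hc, hce]
  set u := f - C with hu
  set w := T.swap₁ f - C ^ q with hw
  have hres : ∀ hc' : algebraMap K K' (c ^ (q ^ 2) - c) ∈ A, π ⟨_, hc'⟩ = 0 := fun hc' => by
    rw [show (⟨_, hc'⟩ : A) = ⟨_, hc⟩ ^ (q ^ 2) - ⟨_, hc⟩ from Subtype.ext (by
      push_cast; rfl), map_sub, map_pow, hce, he, sub_self]
  refine ⟨t, T.fibVal (T.red₀ f), c, u, w, ht, htb, hrat', (hv.exists_theta_pow _ e h1).1, hc,
    hres, ?_, ?_, ?_, hq2⟩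
  · rw [← hft]; rfl
  · rw [← hft, map_pow]; rfl
  have huX : (T.red₀ u : T.resField) = (T.red₀ f : T.resField) - algebraMap k T.resField e := by
    rw [map_sub, hC]; rfl
  have huM : u ∈ M := (hv.mem_iff u).2 (Or.inr (by rw [huX, h1]; norm_num))
  have hwM : w ∈ M := (hv.mem_iff w).2 (Or.inr (by
    rw [show (T.red₀ w : T.resField) = (T.red₀ u : T.resField) ^ q by
      rw [huX, sub_pow_char, map_sub, map_pow, hrat, hC]; rfl,
      Fermat.Agent.Curve.ord_pow, huX, h1, mul_one]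
    exact_mod_cast (Fact.out : q.Prime).pos))
  haveI := T.isNoetherianRing_B₁
  haveI : IsNoetherianRing (Localization.AtPrime M) :=
    IsLocalization.isNoetherianRing M.primeCompl _ inferInstance
  set φ := algebraMap T.B₁ (Localization.AtPrime M)
  set m := IsLocalRing.maximalIdeal (Localization.AtPrime M)
  have hmem : ∀ x ∈ M, φ x ∈ m := fun x hx => by
    show _ ∈ IsLocalRing.maximalIdeal _
    rw [← Localization.AtPrime.map_eq_maximalIdeal]
    exact Ideal.mem_map_of_mem _ hx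
  -- the congruences modulo the square of the maximal ideal
  have hsq : ∀ x ∈ M, φ x ^ q ∈ m ^ 2 := fun x hx =>
    Ideal.pow_le_pow_right (Fact.out : q.Prime).two_le (Ideal.pow_mem_pow (hmem x hx) q)
  have hc' : algebraMap K K' (c ^ (q ^ 2) - c) ∈ A := by
    rw [map_sub, map_pow]; exact sub_mem (pow_mem hc _) hc
  set o : T.B₁ :=
    ⟨algebraMap K T.F₁ ((c ^ (q ^ 2) - c) / (q : K)),
      algebraMap_mem_chartRing _ _ (T.div_natCast_mem hc' (hres hc'))⟩
  have ho : C ^ (q ^ 2) - C = (q : T.B₁) * o := by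
    refine Subtype.ext ?_
    push_cast
    show algebraMap K T.F₁ c ^ (q ^ 2) - algebraMap K T.F₁ c = _
    rw [← map_pow, ← map_sub, ← map_natCast (algebraMap K T.F₁) q]
    show _ = _ * algebraMap K T.F₁ _
    rw [← map_mul, mul_div_cancel₀ _ (T.isUniformiser.ne_zero)]
  set b := f - T.swap₁ f ^ q
  obtain ⟨r₁, hr₁⟩ := exists_add_pow_prime_eq (Fact.out : q.Prime) u C
  obtain ⟨r₂, hr₂⟩ := exists_add_pow_prime_eq (Fact.out : q.Prime) w (C ^ q)
  rw [show u + C = f by rw [hu]; ring] at hr₁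
  rw [show w + C ^ q = T.swap₁ f by rw [hw]; ring, ← pow_mul, ← pow_two] at hr₂
  have hb' : b = u - (w ^ q + (q : T.B₁) * (o + w * C ^ q * r₂)) := by
    show f - T.swap₁ f ^ q = _
    rw [hu]
    linear_combination -hr₂ - ho
  have ha' : T.swap₁ b = w - (u ^ q + (q : T.B₁) * (u * C * r₁)) := by
    show T.swap₁ (f - T.swap₁ f ^ q) = _
    rw [map_sub, map_pow, T.swap₁_swap₁, hw]
    linear_combination -hr₁
  have hx : ∀ x ∈ M, ∀ r : T.B₁, φ (x ^ q + (q : T.B₁) * r) ∈ m ^ 2 := fun x hx r => by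
    rw [map_add, map_pow, map_mul]
    exact add_mem (hsq x hx) (Ideal.mul_mem_right _ _ hq2)
  have hmax : m = Ideal.span {φ u, φ w} :=
    maximalIdeal_eq_span_pair_of_sub hpair.maximalIdeal_eq (hmem u huM) (hmem w hwM)
      ((congrArg φ ha').trans (map_sub φ _ _)) ((congrArg φ hb').trans (map_sub φ _ _))
      (hx u huM _) (hx w hwM _)
  have hu0 : φ u ≠ 0 := by
    rw [map_ne_zero_iff _ (IsLocalization.injective _ M.primeCompl_le_nonZeroDivisors)]
    intro h
    rw [← huX, h, map_zero, ZeroMemClass.coe_zero, v.ord_zero] at h1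
    exact absurd h1 (by decide)
  obtain ⟨p, hp, hpu⟩ := WfDvdMonoid.exists_irreducible_factor
    ((IsLocalRing.mem_maximalIdeal _).1 (hmem u huM)) hu0
  have hpp := hpair.prime_of_irreducible hp
  refine ⟨hmax, hu0, not_dvd_pow_of_isPrime hmax ((Ideal.span_singleton_prime hpp.ne_zero).2 hpp)
    (Ideal.mem_span_singleton.2 hpu) fun hP => ?_⟩
  have hab := hpair.mem_maximalIdeal
  rw [← hP, Ideal.mem_span_singleton, Ideal.mem_span_singleton] at hab
  exact hpair.not_dvd_pow 1 (by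
    rw [pow_one]
    exact ((hp.associated_of_dvd hpair.prime.irreducible hab.1).symm.dvd).trans hab.2)

end SqTower

end Fermat.Agent.BadPrime.Sq
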