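import Fermat.Agent.BadPrime.Sq.Setup
import Fermat.Agent.Curve.Degree
import Fermat.Agent.Curve.Canonical
import Fermat.Agent.Reduction.Series
import Mathlib.RingTheory.DedekindDomain.IntegralClosure
import Mathlib.RingTheory.DedekindDomain.AdicValuation

/-!
# The finite points of a curve over `k(j)` inside Laurent series

The maximal ideals of the ring of elements integral over `k[j]` are places of the field.
-/

set_option autoImplicit false
set_option linter.style.haveILetI false
set_option linter.unusedSectionVars false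
set_option maxHeartbeats 400000

noncomputable section

open ModularCurve Polynomial AlgebraicCurve IsDedekindDomain
open scoped IntermediateField

namespace Fermat.Agent.BadPrime.Sq

section General

variable {k F : Type} [Field k] [Field F] [Algebra k F] (x : F) (R : Subring F)

/-- A finite point: a place at which the whole ring `R` is regular. -/
structure IsPointOf (M : Ideal R) (v : Place k F) : Prop where
  regular : ∀ a : R, (a : F) ∈ v.toValuationSubring
  mem_iff : ∀ a : R, a ∈ M ↔ (a : F) = 0 ∨ 0 < v.ord (a : F)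
  exists_frac : ∀ z : F, z ∈ v.toValuationSubring → ∃ a b : R, b ∉ M ∧ z * b = a

variable {x R}

theorem exists_isPointOf_of_dedekind {C : Type} [CommRing C] [IsDedekindDomain C] [Algebra k C]
    [Algebra C F] [IsScalarTower k C F] [IsFractionRing C F] (e : C ≃+* R)
    (he : ∀ c, (e c : F) = algebraMap C F c) (M : Ideal R) [hM : M.IsMaximal] (hne : M ≠ ⊥) :
    ∃ v : Place k F, IsPointOf R M v := by
  haveI hM' : (M.comap e.toRingHom).IsMaximal :=
    Ideal.comap_isMaximal_of_surjective _ e.surjective
  have hne' : M.comap e.toRingHom ≠ ⊥ := fun h0 => hne (by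
    rw [← Ideal.map_comap_of_surjective e.toRingHom e.surjective M, h0, Ideal.map_bot])
  let w : HeightOneSpectrum C := ⟨M.comap e.toRingHom, hM'.isPrime, hne'⟩
  let v : Place k F := Place.ofHeightOneSpectrum w
  have hv : ∀ z : F, z ∈ v.toValuationSubring ↔
      z ∈ HeightOneSpectrum.valuationSubringAtPrime F w := fun z => by
    rw [HeightOneSpectrum.valuationSubringAtPrime_eq_valuationSubring (K := F) w]; rfl
  have hone : (1 : C) ∈ w.asIdeal.primeCompl := fun h => hM'.ne_top ((Ideal.eq_top_iff_one _).2 h)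
  have hfracv : ∀ z : F, z ∈ v.toValuationSubring → ∃ a b : R, b ∉ M ∧ z * b = a := by
    intro z hz
    obtain ⟨a, b, hb, rfl⟩ := (hv z).1 hz
    have hb0 : algebraMap C F b ≠ 0 := fun h => hb (by
      rw [IsFractionRing.to_map_eq_zero_iff.1 h]; exact zero_mem _)
    exact ⟨e a, e b, hb, by rw [he, he, inv_mul_cancel_right₀ hb0]⟩
  have hreg : ∀ a : R, (a : F) ∈ v.toValuationSubring := fun a => (hv _).2
    ⟨e.symm a, 1, hone, by rw [map_one, inv_one, mul_one, ← he, e.apply_symm_apply]⟩
  refine ⟨v, hreg, fun a => ?_, hfracv⟩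
  rcases eq_or_ne (a : F) 0 with h0 | h0
  · simp only [h0, true_or, iff_true]
    rw [show a = 0 from Subtype.ext h0]
    exact zero_mem M
  have hnn := Fermat.Agent.Curve.ord_nonneg_of_mem v (hreg a)
  rw [or_iff_right h0]
  constructor
  · intro ha
    by_contra hle
    obtain ⟨c, d, hd, hcd⟩ := hfracv (a : F)⁻¹ (Fermat.Agent.Curve.mem_of_ord_nonneg v
      (by rw [v.ord_inv]; omega))
    refine hd ?_
    have : (d : F) = (a : F) * c := by rw [← hcd, mul_inv_cancel_left₀ h0]
    rw [show d = a * c from Subtype.ext this]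
    exact M.mul_mem_right c ha
  · intro hpos
    by_contra ha
    have ha' : e.symm a ∈ w.asIdeal.primeCompl := fun h => ha (by
      have : e (e.symm a) ∈ M := h
      rwa [e.apply_symm_apply] at this)
    have hmem : (a : F)⁻¹ ∈ v.toValuationSubring := (hv _).2
      ⟨1, e.symm a, ha', by rw [map_one, one_mul, ← he, e.apply_symm_apply]⟩
    have := Fermat.Agent.Curve.ord_nonneg_of_mem v hmem
    rw [v.ord_inv] at this
    omega

theorem exists_isPointOf (hx : Transcendental k x) [FiniteDimensional k⟮x⟯ F]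
    [Algebra.IsSeparable k⟮x⟯ F]
    (hR : ∀ z : F, z ∈ R ↔ IsIntegral (Algebra.adjoin k {x}) z)
    (M : Ideal R) [hM : M.IsMaximal] : ∃ v : Place k F, IsPointOf R M v := by
  letI : Algebra k[X] F := (aeval x : k[X] →ₐ[k] F).toRingHom.toAlgebra
  letI : Algebra k[X] k⟮x⟯ :=
    (aeval (IntermediateField.AdjoinSimple.gen k x) : k[X] →ₐ[k] k⟮x⟯).toRingHom.toAlgebra
  haveI : IsScalarTower k[X] k⟮x⟯ F := IsScalarTower.of_algebraMap_eq fun p => by
    show aeval x p = ((aeval (IntermediateField.AdjoinSimple.gen k x) p : k⟮x⟯) : F)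
    rw [← IntermediateField.aeval_coe, IntermediateField.AdjoinSimple.coe_gen]
  haveI : IsScalarTower k k[X] F := IsScalarTower.of_algebraMap_eq fun c => by
    show algebraMap k F c = aeval x (algebraMap k k[X] c)
    simp
  have hinjF : Function.Injective (algebraMap k[X] F) := transcendental_iff_injective.1 hx
  have hinj : Function.Injective (algebraMap k[X] k⟮x⟯) := fun a b hab => hinjF (by
    rw [IsScalarTower.algebraMap_apply k[X] k⟮x⟯ F, hab, ← IsScalarTower.algebraMap_apply])
  haveI : FaithfulSMul k[X] k⟮x⟯ := (faithfulSMul_iff_algebraMap_injective _ _).2 hinj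
  haveI : IsFractionRing k[X] k⟮x⟯ := by
    refine IsFractionRing.of_field k[X] k⟮x⟯ fun z => ?_
    obtain ⟨r, s, h⟩ := (IntermediateField.mem_adjoin_simple_iff k (z : F)).1 z.2
    refine ⟨r, s, Subtype.ext ?_⟩
    push_cast
    rw [h, show ((algebraMap k[X] k⟮x⟯ r : k⟮x⟯) : F) = aeval x r from
        (IsScalarTower.algebraMap_apply k[X] k⟮x⟯ F r).symm,
      show ((algebraMap k[X] k⟮x⟯ s : k⟮x⟯) : F) = aeval x s from
        (IsScalarTower.algebraMap_apply k[X] k⟮x⟯ F s).symm]
  have hC : ∀ z : F, z ∈ integralClosure k[X] F ↔ z ∈ R := by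
    intro z
    rw [mem_integralClosure_iff, hR]
    let φ : k[X] →+* Algebra.adjoin k {x} :=
      (((aeval x : k[X] →ₐ[k] F).codRestrict (Algebra.adjoin k {x})
        fun p => aeval_mem_adjoin_singleton k x)).toRingHom
    have hφ : (algebraMap (Algebra.adjoin k {x}) F).comp φ = algebraMap k[X] F :=
      RingHom.ext fun p => rfl
    have hsurj : Function.Surjective φ := fun a => by
      obtain ⟨p, hp⟩ := (Algebra.adjoin_singleton_eq_range_aeval k x).le a.2
      exact ⟨p, Subtype.ext hp⟩
    constructor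
    · rintro ⟨p, hp, hpx⟩
      exact ⟨p.map φ, hp.map φ, by rw [eval₂_map, hφ]; exact hpx⟩
    · rintro ⟨p, hp, hpx⟩
      obtain ⟨P, hPp, -, hP⟩ := Polynomial.lifts_and_degree_eq_and_monic
        ((Polynomial.mem_lifts p).2 (Polynomial.map_surjective φ hsurj p)) hp
      exact ⟨P, hP, by rw [← hφ, ← eval₂_map, hPp]; exact hpx⟩
  haveI : IsDedekindDomain (integralClosure k[X] F) :=
    IsIntegralClosure.isDedekindDomain k[X] k⟮x⟯ F (integralClosure k[X] F)
  haveI : IsFractionRing (integralClosure k[X] F) F :=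
    IsIntegralClosure.isFractionRing_of_finite_extension k[X] k⟮x⟯ F (integralClosure k[X] F)
  haveI : IsScalarTower k (integralClosure k[X] F) F := IsScalarTower.of_algebraMap_eq fun _ => rfl
  let e : integralClosure k[X] F ≃+* R :=
    { toFun := fun z => ⟨z.1, (hC _).1 z.2⟩
      invFun := fun z => ⟨z.1, (hC _).2 z.2⟩
      left_inv := fun _ => rfl
      right_inv := fun _ => rfl
      map_mul' := fun _ _ => rfl
      map_add' := fun _ _ => rfl }
  have hne : M ≠ ⊥ := by
    intro h0
    have hfld : IsField R := by rw [Ring.isField_iff_maximal_bot]; exact h0 ▸ hM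
    have hfld' : IsField (integralClosure k[X] F) := e.toMulEquiv.isField hfld
    haveI : Algebra.IsIntegral k[X] (integralClosure k[X] F) :=
      IsIntegralClosure.isIntegral_algebra k[X] F
    refine Polynomial.not_isField k ((Algebra.IsIntegral.isField_iff_isField ?_).2 hfld')
    exact fun a b hab => hinjF (congrArg Subtype.val hab)
  exact exists_isPointOf_of_dedekind e (fun _ => rfl) M hne

end General

variable {k : Type} [Field k] (X : IntermediateField k (LaurentSeries k))

/-- `resRing X jb` as a subring of `X`. -/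
def resSub (jb : LaurentSeries k) : Subring X := (resRing X jb).comap X.val.toRingHom

theorem mem_resSub {jb : LaurentSeries k} {x : X} :
    x ∈ resSub X jb ↔ (x : LaurentSeries k) ∈ resRing X jb := Iff.rfl

variable {X} {jb : LaurentSeries k}

theorem separable_over_generator (hj : jb ∈ X) (hsep : ∀ g ∈ X, IsSeparable k⟮jb⟯ g) :
    Algebra.IsSeparable k⟮(⟨jb, hj⟩ : X)⟯ X := by
  refine ⟨fun g => ?_⟩
  have hEmap : (k⟮(⟨jb, hj⟩ : X)⟯).map X.val = k⟮jb⟯ := by
    rw [IntermediateField.adjoin_map, Set.image_singleton]; rfl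
  let σ : k⟮(⟨jb, hj⟩ : X)⟯ ≃+* k⟮jb⟯ :=
    ((IntermediateField.equivMap _ X.val).trans (IntermediateField.equivOfEq hEmap)).toRingEquiv
  refine Polynomial.Separable.of_dvd (Polynomial.Separable.map (f := σ.symm.toRingHom) (hsep g g.2))
    (minpoly.dvd _ g (Subtype.val_injective ?_))
  show X.val.toRingHom (aeval g _) = 0
  rw [aeval_def, hom_eval₂, eval₂_map,
    show ((X.val.toRingHom).comp (algebraMap k⟮(⟨jb, hj⟩ : X)⟯ X)).comp σ.symm.toRingHom =
        algebraMap k⟮jb⟯ (LaurentSeries k) from RingHom.ext fun e => by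
      show (((σ.symm e : k⟮(⟨jb, hj⟩ : X)⟯) : X) : LaurentSeries k) = (e : LaurentSeries k)
      conv_rhs => rw [← σ.apply_symm_apply e]
      rfl]
  exact minpoly.aeval k⟮jb⟯ (g : LaurentSeries k)

theorem finite_of_adjoin_eq_top {F : Type} [Field F] [Algebra k F] (E : IntermediateField k F)
    (t : Set F) [Finite t] (ht : IntermediateField.adjoin k t = ⊤)
    (halg : ∀ y ∈ t, IsIntegral E y) : FiniteDimensional E F := by
  have h1 : (IntermediateField.adjoin E t).restrictScalars k = ⊤ := by
    rw [eq_top_iff, ← ht, IntermediateField.adjoin_le_iff]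
    exact fun y hy => IntermediateField.subset_adjoin E t hy
  have htop : IntermediateField.adjoin E t = ⊤ :=
    (IntermediateField.restrictScalars_eq_top_iff (K := k)).1 h1
  have := IntermediateField.finiteDimensional_adjoin (K := E) halg
  rw [htop] at this
  exact Module.Finite.equiv IntermediateField.topEquiv.toLinearEquiv

theorem finite_over_generator (hj : jb ∈ X)
    (hfin : ∃ s : Finset (LaurentSeries k),
      IntermediateField.adjoin k (s : Set (LaurentSeries k)) = X)
    (hsep : ∀ g ∈ X, IsSeparable k⟮jb⟯ g) :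
    FiniteDimensional k⟮(⟨jb, hj⟩ : X)⟯ X := by
  classical
  obtain ⟨s, hs⟩ := hfin
  haveI := separable_over_generator hj hsep
  refine finite_of_adjoin_eq_top _ (↑(s.subtype (· ∈ X)) : Set X) ?_
    fun y _ => Algebra.IsSeparable.isIntegral _ y
  apply IntermediateField.map_injective X.val
  rw [IntermediateField.adjoin_map, ← AlgHom.fieldRange_eq_map, IntermediateField.fieldRange_val]
  conv_rhs => rw [← hs]
  congr 1
  ext y
  simp only [Set.mem_image, Finset.mem_coe, Finset.mem_subtype]
  refine ⟨fun ⟨z, hz, e⟩ => e ▸ hz, fun hy => ⟨⟨y, ?_⟩, hy, rfl⟩⟩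
  rw [← hs]
  exact IntermediateField.subset_adjoin k _ hy

theorem transcendental_generator (hj : jb ∈ X) (htr : Transcendental k jb) :
    Transcendental k (⟨jb, hj⟩ : X) :=
  (transcendental_algebraMap_iff (A := LaurentSeries k)
    (algebraMap X (LaurentSeries k)).injective).1 htr

theorem mem_resSub_iff_isIntegral (hj : jb ∈ X) (x : X) :
    x ∈ resSub X jb ↔ IsIntegral (Algebra.adjoin k {(⟨jb, hj⟩ : X)}) x := by
  have hmap : (Algebra.adjoin k {(⟨jb, hj⟩ : X)}).map X.val = Algebra.adjoin k {jb} := by
    rw [AlgHom.map_adjoin, Set.image_singleton]; rfl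
  let e : Algebra.adjoin k {(⟨jb, hj⟩ : X)} ≃+* Algebra.adjoin k {jb} :=
    ((Algebra.adjoin k {(⟨jb, hj⟩ : X)}).equivMapOfInjective X.val Subtype.val_injective |>.trans
      (Subalgebra.equivOfEq _ _ hmap)).toRingEquiv
  have hcomp : (algebraMap (Algebra.adjoin k {jb}) (LaurentSeries k)).comp e.toRingHom =
      X.val.toRingHom.comp (algebraMap (Algebra.adjoin k {(⟨jb, hj⟩ : X)}) X) :=
    RingHom.ext fun _ => rfl
  constructor
  · rintro ⟨-, p, hp, hpx⟩
    refine ⟨p.map e.symm.toRingHom, hp.map _, Subtype.val_injective ?_⟩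
    show X.val.toRingHom (eval₂ _ x _) = 0
    rw [hom_eval₂, ← hcomp, eval₂_map, RingHom.comp_assoc,
      RingEquiv.toRingHom_comp_symm_toRingHom, RingHom.comp_id]
    exact hpx
  · rintro ⟨p, hp, hpx⟩
    refine ⟨x.2, p.map e.toRingHom, hp.map _, ?_⟩
    rw [eval₂_map, hcomp]
    show eval₂ _ (X.val.toRingHom x) p = 0
    rw [← hom_eval₂, hpx, map_zero]

theorem algebraMap_mem_resSub (hj : jb ∈ X) (c : k) : algebraMap k X c ∈ resSub X jb :=
  (mem_resSub_iff_isIntegral hj _).2
    (isIntegral_algebraMap (x := algebraMap k (Algebra.adjoin k {(⟨jb, hj⟩ : X)}) c))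

theorem isFunctionField1_resField (hj : jb ∈ X) (htr : Transcendental k jb)
    (hfin : ∃ s : Finset (LaurentSeries k),
      IntermediateField.adjoin k (s : Set (LaurentSeries k)) = X)
    (hsep : ∀ g ∈ X, IsSeparable k⟮jb⟯ g) : Fermat.Agent.Curve.IsFunctionField1 k X :=
  .of_finite_adjoin (transcendental_generator hj htr) (finite_over_generator hj hfin hsep)

/-- The maximal ideals of the ring are places. -/
theorem exists_isPoint (hj : jb ∈ X) (htr : Transcendental k jb)
    (hfin : ∃ s : Finset (LaurentSeries k),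
      IntermediateField.adjoin k (s : Set (LaurentSeries k)) = X)
    (hsep : ∀ g ∈ X, IsSeparable k⟮jb⟯ g)
    (M : Ideal (resSub X jb)) [M.IsMaximal] :
    ∃ v : Place k X, IsPointOf (resSub X jb) M v :=
  haveI := separable_over_generator hj hsep
  haveI := finite_over_generator hj hfin hsep
  exists_isPointOf (transcendental_generator hj htr) (mem_resSub_iff_isIntegral hj) M

end Fermat.Agent.BadPrime.Sq
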