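import Fermat.Agent.BadPrime.Sq.Level
import Fermat.Agent.BadPrime.Sq.NodeBase

/-!
# The component of `∞` of level `N q`

The reduction of the model onto the coordinate ring of the special fibre of level `N`, and the
places attached to the points of the component of `∞`.
-/

set_option autoImplicit false
set_option linter.unusedSectionVars false
set_option linter.style.haveILetI false

noncomputable section

open ModularCurve AlgebraicCurve

namespace Fermat.Agent.BadPrime.Sq

variable {q : ℕ} [Fact q.Prime] {K K' k : Type} [Field K] [Field K'] [Algebra K K'] [Field k]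
  [CharZero K] [CharP k q] {A : ValuationSubring K'} {π : A →+* k} (T : SqTower q K π)

namespace SqTower

/-- The coordinate ring of the special fibre at level `N`, inside the residue field. -/
abbrev fib : Subring T.resField := resSub T.resField (jqModC k)

/-- The series of an element of the special fibre. -/
def fibVal : T.fib →+* LaurentSeries k :=
  T.resField.val.toRingHom.comp T.fib.subtype

theorem fibVal_apply (g : T.fib) :
    T.fibVal g = ((g : T.resField) : LaurentSeries k) := rfl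

theorem fibVal_injective : Function.Injective T.fibVal :=
  fun _ _ h => Subtype.ext (Subtype.ext h)

theorem fibVal_mem (g : T.fib) : T.fibVal g ∈ T.resFin := g.2

theorem exists_fib {g : LaurentSeries k} (hg : g ∈ T.resFin) : ∃ x : T.fib, T.fibVal x = g :=
  ⟨⟨⟨g, hg.1⟩, hg⟩, rfl⟩

/-- Reduction on the component of `∞`. -/
def red₀ : T.B₁ →+* T.fib where
  toFun f := ⟨⟨(T.exists_res₀ f.2).choose, (T.exists_res₀ f.2).choose_spec.1.1⟩,
    (T.exists_res₀ f.2).choose_spec.1⟩
  map_zero' := T.fibVal_injective ((T.exists_res₀ (0 : T.B₁).2).choose_spec.2.unique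
    (by simpa [Res₀] using hasGaussRed_zero))
  map_one' := T.fibVal_injective ((T.exists_res₀ (1 : T.B₁).2).choose_spec.2.unique
    (by simpa [Res₀] using hasGaussRed_one))
  map_add' f g := T.fibVal_injective ((T.exists_res₀ (f + g).2).choose_spec.2.unique (by
    simpa [Res₀, fibVal_apply] using
      (T.exists_res₀ f.2).choose_spec.2.add (T.exists_res₀ g.2).choose_spec.2))
  map_mul' f g := T.fibVal_injective ((T.exists_res₀ (f * g).2).choose_spec.2.unique (by
    simpa [Res₀, fibVal_apply] using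
      (T.exists_res₀ f.2).choose_spec.2.mul (T.exists_res₀ g.2).choose_spec.2))

theorem res₀_red₀ (f : T.B₁) : T.Res₀ f (T.fibVal (T.red₀ f)) :=
  (T.exists_res₀ f.2).choose_spec.2

theorem red₀_eq {f : T.B₁} {g : LaurentSeries k} (h : T.Res₀ f g) : T.fibVal (T.red₀ f) = g :=
  (T.res₀_red₀ f).unique h

theorem red₀_eq_zero_iff {f : T.B₁} : T.red₀ f = 0 ↔ f ∈ T.P₀ :=
  ⟨fun h => by
      have h' := T.res₀_red₀ f
      rw [h, map_zero] at h'
      exact h',
    fun h => T.fibVal_injective (by rw [T.red₀_eq h, map_zero])⟩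

/-- The involution on the model. -/
def swap₁ : T.B₁ →+* T.B₁ :=
  (T.W.toRingHom.comp T.B₁.subtype).codRestrict T.B₁ fun f => T.W_mem_B₁ f.2

theorem coe_swap₁ (f : T.B₁) : (T.swap₁ f : T.F₁) = T.W f := rfl

theorem swap₁_swap₁ (f : T.B₁) : T.swap₁ (T.swap₁ f) = f := Subtype.ext (T.W_W f)

theorem mem_P₁_iff {f : T.B₁} : f ∈ T.P₁ ↔ T.red₀ (T.swap₁ f) = 0 := by
  rw [T.red₀_eq_zero_iff]
  show T.Res₁ (f : T.F₁) 0 ↔ T.Res₀ (T.swap₁ f : T.F₁) 0
  rw [coe_swap₁]

/-- Every function on the special fibre lifts, with its reduction on the other component its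
dilation. -/
theorem exists_lift (g : T.fib) :
    ∃ f : T.B₁, T.red₀ f = g ∧ T.fibVal (T.red₀ (T.swap₁ f)) = qExpand k q (T.fibVal g) := by
  obtain ⟨t, ht, htg⟩ := T.res_lift_fin _ g.2
  refine ⟨⟨T.α t, T.α_mem_B₁ ht⟩, T.fibVal_injective (T.red₀_eq ?_), T.red₀_eq ?_⟩
  · show HasGaussRed π _ _
    rw [T.i₁_α]
    exact htg
  · show HasGaussRed π _ _
    rw [coe_swap₁, T.i₁_W_α]
    exact hasGaussRed_qExpand htg

theorem red₀_surjective : Function.Surjective T.red₀ := fun g =>
  ⟨(T.exists_lift g).choose, (T.exists_lift g).choose_spec.1⟩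

theorem exists_qExpand (g : T.fib) : ∃ g' : T.fib, T.fibVal g' = qExpand k q (T.fibVal g) := by
  obtain ⟨f, -, hf⟩ := T.exists_lift g
  exact ⟨_, hf⟩

/-- The constants of the special fibre. -/
def cst : k →+* T.fib :=
  (algebraMap k T.resField).codRestrict T.fib
    fun e => algebraMap_mem_resSub T.jqModC_mem e

theorem coe_cst (e : k) : (T.cst e : T.resField) = algebraMap k T.resField e := rfl

theorem fibVal_cst (e : k) : T.fibVal (T.cst e) = HahnSeries.C e :=
  (Reduction.C_eq_algebraMap e).symm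

/-- The constants of the model. -/
theorem red₀_algebraMap {c : K} (hc : algebraMap K K' c ∈ A) :
    T.red₀ ⟨algebraMap K T.F₁ c, algebraMap_mem_chartRing _ _ hc⟩ = T.cst (π ⟨_, hc⟩) := by
  refine T.fibVal_injective ?_
  rw [T.fibVal_cst]
  refine T.red₀_eq ?_
  show HasGaussRed π (T.i₁ (algebraMap K T.F₁ c)) _
  rw [T.i₁_algebraMap]
  exact hasGaussRed_C ⟨_, hc⟩

/-- `h⁻¹` on the model. -/
def hInv : T.B₁ :=
  ⟨T.h⁻¹, T.mem_B₁ T.h_inv_mem ⟨_, T.res₀_h_inv⟩ ⟨_, T.res₁_h_inv⟩⟩

theorem fibVal_red₀_hInv : T.fibVal (T.red₀ T.hInv) =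
    Igusa.deltaSeries k / qExpand k q (Igusa.deltaSeries k) :=
  T.red₀_eq T.res₀_h_inv

theorem hInv_mem_P₁ : T.hInv ∈ T.P₁ := T.res₁_h_inv

theorem red₀_hInv_ne_zero : T.red₀ T.hInv ≠ 0 := fun h => by
  have h' := T.fibVal_red₀_hInv
  rw [h, map_zero] at h'
  exact div_ne_zero ((Igusa.hasLead_deltaSeries (R := k)).ne_zero one_ne_zero)
    ((map_ne_zero_iff _ (qExpand_injective q)).2
      ((Igusa.hasLead_deltaSeries (R := k)).ne_zero one_ne_zero)) h'.symm

/-- `Δ ^ (q - 1)` is the inverse of the residue of `h⁻¹`. -/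
theorem red₀_hInv_mul_delta_pow :
    T.fibVal (T.red₀ T.hInv) * Igusa.deltaSeries k ^ (q - 1) = 1 := by
  have hΔ : Igusa.deltaSeries k ≠ 0 := (Igusa.hasLead_deltaSeries (R := k)).ne_zero one_ne_zero
  have hq : qExpand k q (Igusa.deltaSeries k) = Igusa.deltaSeries k ^ q := by
    conv_rhs => rw [← qExpand_frobTwist (q := q) (Igusa.deltaSeries k)]
    rw [frobTwist, Igusa.coeffMap_deltaSeries]
  rw [T.fibVal_red₀_hInv, hq, div_mul_eq_mul_div, ← pow_succ',
    Nat.sub_add_cancel (Fact.out : q.Prime).one_le, div_self (pow_ne_zero _ hΔ)]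

end SqTower

/-- A finite place, read on the model. -/
structure SqTower.PlaceAt (M : Ideal T.B₁) (v : Place k T.resField) : Prop where
  mem_iff : ∀ f : T.B₁, f ∈ M ↔
    (T.red₀ f : T.resField) = 0 ∨ 0 < v.ord (T.red₀ f : T.resField)
  regular : ∀ g : T.fib, (g : T.resField) ∈ v.toValuationSubring
  exists_frac : ∀ z : T.resField, z ∈ v.toValuationSubring →
    ∃ a b : T.fib, ((b : T.resField) ≠ 0 ∧ v.ord (b : T.resField) = 0) ∧
      z * (b : T.resField) = (a : T.resField)

namespace SqTower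

include T in
theorem isFunctionField1_resField' : Fermat.Agent.Curve.IsFunctionField1 k T.resField :=
  isFunctionField1_resField T.jqModC_mem (Reduction.transcendental_jqModC k) T.finite_res
    T.separable_res

theorem exists_placeAt (M : Ideal T.B₁) [hM : M.IsMaximal] (h₀ : T.P₀ ≤ M) :
    ∃ v : Place k T.resField, T.PlaceAt M v := by
  have hker : Ideal.comap T.red₀ ⊥ ≤ M := fun f hf => h₀ (T.red₀_eq_zero_iff.1 hf)
  have hne : M.map T.red₀ ≠ ⊤ := by
    intro h
    have h' := congrArg (Ideal.comap T.red₀) h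
    rw [Ideal.comap_map_of_surjective _ T.red₀_surjective, Ideal.comap_top,
      sup_eq_left.2 hker] at h'
    exact hM.ne_top h'
  haveI : (M.map T.red₀).IsMaximal :=
    (Ideal.map_eq_top_or_isMaximal_of_surjective _ T.red₀_surjective hM).resolve_left hne
  obtain ⟨v, hv⟩ := exists_isPoint T.jqModC_mem (Reduction.transcendental_jqModC k) T.finite_res
    T.separable_res (M.map T.red₀)
  refine ⟨v, ⟨fun f => ?_, hv.regular, fun z hz => ?_⟩⟩
  · rw [← hv.mem_iff]
    refine ⟨fun h => Ideal.mem_map_of_mem _ h, fun h => ?_⟩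
    have h' : f ∈ Ideal.comap T.red₀ (M.map T.red₀) := h
    rwa [Ideal.comap_map_of_surjective _ T.red₀_surjective, sup_eq_left.2 hker] at h'
  · obtain ⟨a, b, hb, hab⟩ := hv.exists_frac z hz
    have hb' := (hv.mem_iff b).not.1 hb
    rw [not_or, not_lt] at hb'
    exact ⟨a, b, ⟨hb'.1, le_antisymm hb'.2 (Fermat.Agent.Curve.ord_nonneg_of_mem v (hv.regular b))⟩,
      hab⟩

namespace PlaceAt

variable {T} {M : Ideal T.B₁} {v : Place k T.resField} (hv : T.PlaceAt M v)
include hv

theorem notMem_iff {f : T.B₁} : f ∉ M ↔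
    (T.red₀ f : T.resField) ≠ 0 ∧ v.ord (T.red₀ f : T.resField) = 0 := by
  rw [hv.mem_iff, not_or, not_lt]
  exact and_congr_right fun _ => ⟨fun h => le_antisymm h
    (Fermat.Agent.Curve.ord_nonneg_of_mem v (hv.regular _)), fun h => h.le⟩

/-- The residue field at the point is `k`. -/
theorem exists_value [IsAlgClosed k] (g : T.fib) : ∃ e : k,
    ((g : T.resField) - algebraMap k T.resField e) = 0 ∨
      0 < v.ord ((g : T.resField) - algebraMap k T.resField e) := by
  haveI := T.isFunctionField1_resField'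
  exact Fermat.Agent.Curve.exists_sub_algebraMap_ord_pos v (hv.regular g)

/-- A uniformiser in the coordinate ring. -/
theorem exists_ord_eq_one : ∃ a : T.fib, (a : T.resField) ≠ 0 ∧ v.ord (a : T.resField) = 1 := by
  obtain ⟨z, hz0, hz⟩ := Fermat.Agent.Curve.exists_uniformizer v
  obtain ⟨a, b, ⟨hb0, hb⟩, hab⟩ :=
    hv.exists_frac z (Fermat.Agent.Curve.mem_of_ord_nonneg v (by omega))
  exact ⟨a, hab ▸ mul_ne_zero hz0 hb0, by rw [← hab, v.ord_mul hz0 hb0, hz, hb, add_zero]⟩

/-- An element generating the point locally has order one. -/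
theorem ord_eq_one_of_gen {τ : T.fib}
    (hτ : (τ : T.resField) = 0 ∨ 0 < v.ord (τ : T.resField))
    (hgen : ∀ g : T.fib, (g : T.resField) = 0 ∨ 0 < v.ord (g : T.resField) →
      ∃ d r : T.fib, ((d : T.resField) ≠ 0 ∧ v.ord (d : T.resField) = 0) ∧ d * g = τ * r) :
    (τ : T.resField) ≠ 0 ∧ v.ord (τ : T.resField) = 1 := by
  obtain ⟨a, ha0, ha⟩ := hv.exists_ord_eq_one
  obtain ⟨d, r, ⟨hd0, hd⟩, hdr⟩ := hgen a (Or.inr (by omega))
  have e : (d : T.resField) * (a : T.resField) = (τ : T.resField) * (r : T.resField) :=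
    congrArg Subtype.val hdr
  have hne : (τ : T.resField) * (r : T.resField) ≠ 0 := e ▸ mul_ne_zero hd0 ha0
  have h := congrArg v.ord e
  rw [v.ord_mul hd0 ha0, v.ord_mul (left_ne_zero_of_mul hne) (right_ne_zero_of_mul hne)] at h
  have hr := Fermat.Agent.Curve.ord_nonneg_of_mem v (hv.regular r)
  have := hτ.resolve_left (left_ne_zero_of_mul hne)
  exact ⟨left_ne_zero_of_mul hne, by omega⟩

/-- An element of order one generates the point locally. -/
theorem gen_of_ord_eq_one {τ : T.fib} (hτ0 : (τ : T.resField) ≠ 0)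
    (hτ : v.ord (τ : T.resField) = 1) {g : T.fib}
    (hg : (g : T.resField) = 0 ∨ 0 < v.ord (g : T.resField)) :
    ∃ d r : T.fib, ((d : T.resField) ≠ 0 ∧ v.ord (d : T.resField) = 0) ∧ d * g = τ * r := by
  rcases eq_or_ne (g : T.resField) 0 with h0 | h0
  · exact ⟨1, 0, ⟨one_ne_zero, by simp⟩, Subtype.ext (by simp [h0])⟩
  have hpos := hg.resolve_left h0
  obtain ⟨a, b, hb, hab⟩ := hv.exists_frac ((g : T.resField) / τ)
    (Fermat.Agent.Curve.mem_of_ord_nonneg v (by
      rw [Fermat.Agent.Curve.ord_div v h0 hτ0]; omega))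
  refine ⟨b, a, hb, Subtype.ext ?_⟩
  push_cast
  rw [← hab]
  field_simp

end PlaceAt

end SqTower

end Fermat.Agent.BadPrime.Sq
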