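import Fermat.Agent.BadPrime.Sq.Level
import Fermat.Agent.BadPrime.Sq.NodeBase
import Mathlib.RingTheory.Jacobson.Ring
import Mathlib.FieldTheory.IsAlgClosed.Basic

/-!
# The curve of level `N` in characteristic `q`

`R true` and `R false` are the coordinate rings at finite `j` and at `j ≠ 0`; their `k`-points are
the points of the two charts.
-/

set_option autoImplicit false
set_option linter.unusedSectionVars false
set_option linter.style.haveILetI false
set_option maxHeartbeats 400000
set_option synthInstance.maxHeartbeats 200000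

noncomputable section

open ModularCurve Polynomial
open scoped IntermediateField

namespace Fermat.Agent.BadPrime.Sq

variable {q : ℕ} [Fact q.Prime] {K K' k : Type} [Field K] [Field K'] [Algebra K K'] [Field k]
  [CharZero K] [CharP k q] [IsAlgClosed k] {A : ValuationSubring K'} {π : A →+* k}
  (T : SqTower q K π)

/-- The coordinate `j` or `j⁻¹`. -/
def coord (b : Bool) : LaurentSeries k := bif b then jqModC k else (jqModC k)⁻¹

theorem coord_not (b : Bool) : coord (k := k) (!b) = (coord b)⁻¹ := by
  cases b <;> simp [coord]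

theorem transcendental_coord (b : Bool) : Transcendental k (coord (k := k) b) := by
  cases b
  · intro h
    have h' := h.inv
    rw [show coord (k := k) false = (jqModC k)⁻¹ from rfl, inv_inv] at h'
    exact Reduction.transcendental_jqModC k h'
  · exact Reduction.transcendental_jqModC k

theorem coord_ne_zero (b : Bool) : coord (k := k) b ≠ 0 := fun h =>
  transcendental_coord b (by rw [h]; exact isAlgebraic_zero)

theorem adjoin_coord (b : Bool) :
    IntermediateField.adjoin k {coord (k := k) b} = IntermediateField.adjoin k {jqModC k} := by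
  cases b
  · refine le_antisymm (IntermediateField.adjoin_simple_le_iff.2
      (inv_mem (IntermediateField.mem_adjoin_simple_self k _)))
      (IntermediateField.adjoin_simple_le_iff.2 ?_)
    have h := inv_mem (IntermediateField.mem_adjoin_simple_self k (coord (k := k) false))
    rwa [show coord (k := k) false = (jqModC k)⁻¹ from rfl, inv_inv] at h
  · rfl

/-- Integrality only depends on the underlying set of the base. -/
theorem isIntegral_of_subset {R₁ R₂ F : Type} [CommRing R₁] [CommRing R₂] [CommRing F]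
    [Algebra R₁ F] [Algebra R₂ F] (S : Subalgebra R₁ F) (S' : Subalgebra R₂ F)
    (h : ∀ y ∈ S, y ∈ S') {x : F} (hx : IsIntegral S x) : IsIntegral S' x := by
  obtain ⟨p, hp, hpx⟩ := hx
  let f : S →+* S' := (S.val.toRingHom).codRestrict _ fun y => h y y.2
  refine ⟨p.map f, hp.map f, ?_⟩
  rw [eval₂_map]
  exact hpx

theorem mem_adjoin_top_iff {F : Type} [CommRing F] [Algebra k F] {t y : F} :
    y ∈ Algebra.adjoin (⊤ : Subring k) {t} ↔ y ∈ Algebra.adjoin k {t} := by
  constructor
  · intro hy
    induction hy using Algebra.adjoin_induction with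
    | mem z hz => exact Algebra.subset_adjoin hz
    | algebraMap c => exact Subalgebra.algebraMap_mem _ (c : k)
    | add a b _ _ ha hb => exact add_mem ha hb
    | mul a b _ _ ha hb => exact mul_mem ha hb
  · intro hy
    induction hy using Algebra.adjoin_induction with
    | mem z hz => exact Algebra.subset_adjoin hz
    | algebraMap c => exact Subalgebra.algebraMap_mem _ (⟨c, Subring.mem_top c⟩ : (⊤ : Subring k))
    | add a b _ _ ha hb => exact add_mem ha hb
    | mul a b _ _ ha hb => exact mul_mem ha hb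

theorem isIntegral_adjoin_iff_mem_chartRing {F : Type} [Field F] [Algebra k F] {t g : F} :
    IsIntegral (Algebra.adjoin k {t}) g ↔ g ∈ chartRing (⊤ : Subring k) t := by
  rw [mem_chartRing]
  exact ⟨isIntegral_of_subset _ _ fun _ => mem_adjoin_top_iff.2,
    isIntegral_of_subset _ _ fun _ => mem_adjoin_top_iff.1⟩

theorem mem_resRing_iff_chartRing {X : IntermediateField k (LaurentSeries k)}
    {t g : LaurentSeries k} :
    g ∈ resRing X t ↔ g ∈ X ∧ g ∈ chartRing (⊤ : Subring k) t := by
  unfold resRing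
  rw [Subring.mem_inf]
  refine and_congr Iff.rfl ?_
  rw [Subalgebra.mem_toSubring, mem_integralClosure_iff]
  exact isIntegral_adjoin_iff_mem_chartRing

namespace SqTower

/-- The coordinate ring of a chart of level `N` in characteristic `q`. -/
abbrev R (b : Bool) : Subring (LaurentSeries k) := resRing T.resField (coord b)

theorem coord_mem_resField (b : Bool) : coord b ∈ T.resField := by
  cases b
  · exact inv_mem T.jqModC_mem
  · exact T.jqModC_mem

theorem coord_mem_R (b : Bool) : coord b ∈ T.R b :=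
  ⟨T.coord_mem_resField b, isIntegral_algebraMap
    (x := (⟨coord b, Algebra.self_mem_adjoin_singleton k _⟩ : Algebra.adjoin k {coord (k := k) b}))⟩

theorem C_mem_R (b : Bool) (c : k) : (HahnSeries.C c : LaurentSeries k) ∈ T.R b := by
  rw [Reduction.C_eq_algebraMap]
  exact ⟨T.resField.algebraMap_mem c, isIntegral_algebraMap
    (x := algebraMap k (Algebra.adjoin k {coord (k := k) b}) c)⟩

instance resAlgebra (b : Bool) : Algebra k (T.R b) :=
  ((HahnSeries.C : k →+* LaurentSeries k).codRestrict (T.R b) (T.C_mem_R b)).toAlgebra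

instance charP_R (b : Bool) : CharP (T.R b) q :=
  charP_of_injective_algebraMap (algebraMap k (T.R b)).injective q

theorem separable_res_coord (b : Bool) :
    ∀ g ∈ T.resField, IsSeparable (IntermediateField.adjoin k {coord (k := k) b}) g := by
  rw [adjoin_coord]
  exact T.separable_res

/-- The coordinate as an element of the coordinate ring. -/
abbrev coordR (b : Bool) : T.R b := ⟨coord b, T.coord_mem_R b⟩

theorem coe_aeval_coordR (b : Bool) (P : k[X]) :
    ((aeval (T.coordR b) P : T.R b) : LaurentSeries k) = aeval (coord b) P := by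
  rw [aeval_def, aeval_def, ← Subring.coe_subtype, hom_eval₂]
  congr 1
  exact RingHom.ext fun c => Reduction.C_eq_algebraMap c

theorem coord_pow_ne (b : Bool) (P : k[X]) (hP : P ≠ 0) : aeval (T.coordR b) P ≠ 0 := by
  intro h
  refine transcendental_coord (k := k) b ⟨P, hP, ?_⟩
  rw [← T.coe_aeval_coordR b P, h, ZeroMemClass.coe_zero]

/-- The coordinate ring is a Dedekind domain finite over `k[coord]`, and not a field. -/
theorem R_structure (b : Bool) :
    IsDedekindDomain (T.R b) ∧ ¬ IsField (T.R b) ∧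
      ∃ s : Finset (T.R b), ∀ g : T.R b, ∃ P : T.R b → k[X],
        g = ∑ x ∈ s, aeval (T.coordR b) (P x) * x := by
  classical
  have hj := T.coord_mem_resField b
  let x : T.resField := ⟨coord b, hj⟩
  have hx : Transcendental k x := transcendental_generator hj (transcendental_coord b)
  haveI := separable_over_generator hj (T.separable_res_coord b)
  haveI := finite_over_generator hj T.finite_res (T.separable_res_coord b)
  letI : Algebra k[X] T.resField := (aeval x : k[X] →ₐ[k] T.resField).toRingHom.toAlgebra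
  letI : Algebra k[X] k⟮x⟯ :=
    (aeval (IntermediateField.AdjoinSimple.gen k x) : k[X] →ₐ[k] k⟮x⟯).toRingHom.toAlgebra
  letI : Algebra k[X] (T.R b) := (aeval (T.coordR b) : k[X] →ₐ[k] T.R b).toRingHom.toAlgebra
  let ι : T.R b →+* T.resField :=
    { toFun := fun g => ⟨g, g.2.1⟩
      map_one' := rfl
      map_mul' := fun _ _ => rfl
      map_zero' := rfl
      map_add' := fun _ _ => rfl }
  letI : Algebra (T.R b) T.resField := ι.toAlgebra
  haveI : IsScalarTower k[X] k⟮x⟯ T.resField := IsScalarTower.of_algebraMap_eq fun p => by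
    show aeval x p = ((aeval (IntermediateField.AdjoinSimple.gen k x) p : k⟮x⟯) : T.resField)
    rw [← IntermediateField.aeval_coe, IntermediateField.AdjoinSimple.coe_gen]
  haveI : IsScalarTower k[X] (T.R b) T.resField := IsScalarTower.of_algebraMap_eq fun p => by
    apply Subtype.ext
    show ((aeval x p : T.resField) : LaurentSeries k) = ((aeval (T.coordR b) p : T.R b) : _)
    rw [T.coe_aeval_coordR, ← IntermediateField.aeval_coe]
  have hinjF : Function.Injective (algebraMap k[X] T.resField) := transcendental_iff_injective.1 hx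
  have hinj : Function.Injective (algebraMap k[X] k⟮x⟯) := fun a c hac => hinjF (by
    rw [IsScalarTower.algebraMap_apply k[X] k⟮x⟯ T.resField, hac,
      ← IsScalarTower.algebraMap_apply])
  have hinjR : Function.Injective (algebraMap k[X] (T.R b)) := fun a c hac => hinjF (by
    rw [IsScalarTower.algebraMap_apply k[X] (T.R b) T.resField, hac,
      ← IsScalarTower.algebraMap_apply])
  haveI : FaithfulSMul k[X] k⟮x⟯ := (faithfulSMul_iff_algebraMap_injective _ _).2 hinj
  haveI : IsFractionRing k[X] k⟮x⟯ := by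
    refine IsFractionRing.of_field k[X] k⟮x⟯ fun z => ?_
    obtain ⟨r, s, h⟩ := (IntermediateField.mem_adjoin_simple_iff k (z : T.resField)).1 z.2
    refine ⟨r, s, Subtype.ext ?_⟩
    push_cast
    rw [h, show ((algebraMap k[X] k⟮x⟯ r : k⟮x⟯) : T.resField) = aeval x r from
        (IsScalarTower.algebraMap_apply k[X] k⟮x⟯ T.resField r).symm,
      show ((algebraMap k[X] k⟮x⟯ s : k⟮x⟯) : T.resField) = aeval x s from
        (IsScalarTower.algebraMap_apply k[X] k⟮x⟯ T.resField s).symm]
  haveI hic : IsIntegralClosure (T.R b) k[X] T.resField := by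
    refine ⟨fun a c hac => Subtype.ext (congrArg (Subtype.val : T.resField → LaurentSeries k) hac),
      fun {y} => ?_⟩
    let φ : k[X] →+* Algebra.adjoin k {coord (k := k) b} :=
      ((aeval (coord b) : k[X] →ₐ[k] LaurentSeries k).codRestrict
        (Algebra.adjoin k {coord (k := k) b})
        fun p => aeval_mem_adjoin_singleton k _).toRingHom
    have hφ : (algebraMap (Algebra.adjoin k {coord (k := k) b}) (LaurentSeries k)).comp φ =
        T.resField.val.toRingHom.comp (algebraMap k[X] T.resField) := RingHom.ext fun p => by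
      show aeval (coord (k := k) b) p = ((aeval x p : T.resField) : LaurentSeries k)
      rw [← IntermediateField.aeval_coe]
    have hsurj : Function.Surjective φ := fun a => by
      obtain ⟨p, hp⟩ := (Algebra.adjoin_singleton_eq_range_aeval k (coord (k := k) b)).le a.2
      exact ⟨p, Subtype.ext hp⟩
    constructor
    · rintro ⟨p, hp, hpy⟩
      refine ⟨⟨y, y.2, p.map φ, hp.map φ, ?_⟩, rfl⟩
      rw [eval₂_map, hφ]
      exact (hom_eval₂ p _ T.resField.val.toRingHom y).symm.trans (by rw [hpy, map_zero])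
    · rintro ⟨g, rfl⟩
      obtain ⟨p, hp, hpg⟩ := g.2.2
      obtain ⟨P, hPp, -, hP⟩ := Polynomial.lifts_and_degree_eq_and_monic
        ((Polynomial.mem_lifts p).2 (Polynomial.map_surjective φ hsurj p)) hp
      refine ⟨P, hP, Subtype.val_injective ?_⟩
      show T.resField.val.toRingHom (eval₂ _ _ P) = 0
      rw [hom_eval₂, ← hφ, ← eval₂_map, hPp]
      exact hpg
  haveI hD : IsDedekindDomain (T.R b) :=
    IsIntegralClosure.isDedekindDomain k[X] k⟮x⟯ T.resField (T.R b)
  haveI : Module.Finite k[X] (T.R b) := IsIntegralClosure.finite k[X] k⟮x⟯ T.resField (T.R b)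
  refine ⟨hD, fun hfld => ?_, ?_⟩
  · haveI : Algebra.IsIntegral k[X] (T.R b) := IsIntegralClosure.isIntegral_algebra k[X] T.resField
    exact Polynomial.not_isField k ((Algebra.IsIntegral.isField_iff_isField hinjR).2 hfld)
  · obtain ⟨s, hs⟩ := (Module.finite_def.1 (inferInstance : Module.Finite k[X] (T.R b)))
    refine ⟨s, fun g => ?_⟩
    have hg : g ∈ Submodule.span k[X] (s : Set (T.R b)) := by rw [hs]; exact Submodule.mem_top
    obtain ⟨P, -, hP⟩ := Submodule.mem_span_finset.1 hg
    exact ⟨P, hP.symm.trans (Finset.sum_congr rfl fun _ _ => Algebra.smul_def _ _)⟩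

theorem isDedekindDomain_R (b : Bool) : IsDedekindDomain (T.R b) :=
  (T.R_structure b).1

/-- Every maximal ideal is a `k`-point. -/
theorem exists_point (b : Bool) (P : Ideal (T.R b)) [P.IsMaximal] :
    ∃ p : T.R b →ₐ[k] k, RingHom.ker p.toRingHom = P := by
  classical
  obtain ⟨-, -, s, hs⟩ := T.R_structure b
  letI : Field (T.R b ⧸ P) := Ideal.Quotient.field P
  haveI : Algebra.FiniteType k (T.R b) := by
    refine ⟨⟨insert (T.coordR b) s, ?_⟩⟩
    refine eq_top_iff.2 fun g _ => ?_
    obtain ⟨Q, hQ⟩ := hs g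
    rw [hQ]
    refine sum_mem fun y hy => mul_mem ?_ ?_
    · refine (Algebra.adjoin_mono ?_) (aeval_mem_adjoin_singleton k (T.coordR b))
      simp
    · exact Algebra.subset_adjoin (by simp [hy])
  haveI : Algebra.FiniteType k (T.R b ⧸ P) :=
    Algebra.FiniteType.of_surjective (Ideal.Quotient.mkₐ k P) Ideal.Quotient.mk_surjective
  haveI : Module.Finite k (T.R b ⧸ P) := finite_of_finite_type_of_isJacobsonRing _ _
  haveI : Algebra.IsIntegral k (T.R b ⧸ P) := Algebra.IsIntegral.of_finite k _
  have hb := IsAlgClosed.algebraMap_bijective_of_isIntegral (k := k) (K := T.R b ⧸ P)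
  let e : k ≃ₐ[k] (T.R b ⧸ P) := AlgEquiv.ofBijective (Algebra.ofId k _) hb
  refine ⟨e.symm.toAlgHom.comp (Ideal.Quotient.mkₐ k P), ?_⟩
  ext g
  rw [RingHom.mem_ker]
  show e.symm (Ideal.Quotient.mk P g) = 0 ↔ g ∈ P
  rw [map_eq_zero_iff _ e.symm.injective, Ideal.Quotient.eq_zero_iff_mem]

theorem mem_R_of_pow {b : Bool} {g : LaurentSeries k} (hg : g ∈ T.resField) {m : ℕ} (hm : m ≠ 0)
    (h : g ^ m ∈ T.R b) : g ∈ T.R b :=
  ⟨hg, IsIntegral.of_pow (Nat.pos_of_ne_zero hm) h.2⟩

/-- Expansion in `Q ^ q` keeps the coordinate ring. -/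
theorem qExpand_mem_R {b : Bool} {g : LaurentSeries k} (hg : g ∈ T.R b) :
    qExpand k q g ∈ T.R b := by
  haveI := T.isLocalHom
  obtain ⟨f, hf⟩ := T.res_lift g hg.1
  refine ⟨T.res₀_mem (f := T.W (T.α f)) ?_, ?_⟩
  · show HasGaussRed π _ _
    rw [T.i₁_W_α]
    exact hasGaussRed_qExpand hf
  obtain ⟨p, hp, hpg⟩ := hg.2
  have hcoord : qExpand k q (coord b) = coord b ^ q := by
    cases b
    · show qExpand k q (jqModC k)⁻¹ = (jqModC k)⁻¹ ^ q
      rw [map_inv₀, qExpand_jqModC_eq_pow, inv_pow]
    · exact qExpand_jqModC_eq_pow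
  have hmem : ∀ y ∈ Algebra.adjoin k {coord (k := k) b},
      qExpand k q y ∈ Algebra.adjoin k {coord (k := k) b} := by
    intro y hy
    induction hy using Algebra.adjoin_induction with
    | mem z hz =>
      rw [Set.mem_singleton_iff.1 hz, hcoord]
      exact pow_mem (Algebra.self_mem_adjoin_singleton k _) q
    | algebraMap c =>
      rw [← Reduction.C_eq_algebraMap, qExpand_C, Reduction.C_eq_algebraMap]
      exact Subalgebra.algebraMap_mem _ c
    | add a b _ _ ha hb => rw [map_add]; exact add_mem ha hb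
    | mul a b _ _ ha hb => rw [map_mul]; exact mul_mem ha hb
  let φ : Algebra.adjoin k {coord (k := k) b} →+* Algebra.adjoin k {coord (k := k) b} :=
    ((qExpand k q).comp (Algebra.adjoin k {coord (k := k) b}).val.toRingHom).codRestrict _
      fun y => hmem y y.2
  refine ⟨p.map φ, hp.map φ, ?_⟩
  have h0 := congrArg (qExpand k q) hpg
  rw [hom_eval₂, map_zero] at h0
  rw [eval₂_map]
  exact h0

/-- The coordinate ring is finite over the polynomials in any power of the coordinate. -/
theorem exists_R_le_span (b : Bool) {e : ℕ} (he : e ≠ 0) :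
    ∃ s : Finset (LaurentSeries k), (∀ g ∈ s, g ∈ T.R b) ∧ ∀ g ∈ T.R b,
      g ∈ Submodule.span (Algebra.adjoin k {coord (k := k) b ^ e})
        (s : Set (LaurentSeries k)) := by
  classical
  obtain ⟨-, -, s, hs⟩ := T.R_structure b
  refine ⟨(s ×ˢ Finset.range e).image fun xl =>
    coord b ^ xl.2 * (xl.1 : LaurentSeries k), ?_, ?_⟩
  · intro g hg
    obtain ⟨xl, -, rfl⟩ := Finset.mem_image.1 hg
    exact mul_mem (pow_mem (T.coord_mem_R b) _) xl.1.2
  intro g hg
  obtain ⟨P, hP⟩ := hs ⟨g, hg⟩
  have hg' : g = ∑ x ∈ s, aeval (coord b) (P x) * (x : LaurentSeries k) := by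
    have := congrArg ((T.R b).subtype) hP
    rw [map_sum] at this
    refine this.trans (Finset.sum_congr rfl fun x _ => ?_)
    rw [map_mul]
    exact congrArg (· * _) (T.coe_aeval_coordR b (P x))
  rw [hg']
  refine Submodule.sum_mem _ fun x hx => ?_
  rw [aeval_eq_sum_range, Finset.sum_mul]
  refine Submodule.sum_mem _ fun n _ => ?_
  rw [Algebra.smul_def ((P x).coeff n) (coord b ^ n)]
  let a : Algebra.adjoin k {coord (k := k) b ^ e} :=
    ⟨algebraMap k (LaurentSeries k) ((P x).coeff n) * (coord b ^ e) ^ (n / e),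
      mul_mem (Subalgebra.algebraMap_mem _ _) (pow_mem (Algebra.self_mem_adjoin_singleton k _) _)⟩
  have hn : algebraMap k (LaurentSeries k) ((P x).coeff n) * coord b ^ n *
      (x : LaurentSeries k) = a • (coord b ^ (n % e) * (x : LaurentSeries k)) := by
    rw [Subalgebra.smul_def, smul_eq_mul]
    simp only [a]
    rw [show coord (k := k) b ^ n = (coord b ^ e) ^ (n / e) * coord b ^ (n % e) by
      rw [← pow_mul, ← pow_add, Nat.div_add_mod]]
    simp only [mul_assoc]
  rw [hn]
  refine Submodule.smul_mem _ a (Submodule.subset_span ?_)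
  rw [Finset.mem_coe, Finset.mem_image]
  exact ⟨(x, n % e), Finset.mem_product.2
    ⟨hx, Finset.mem_range.2 (Nat.mod_lt n (Nat.pos_of_ne_zero he))⟩, rfl⟩

/-- A parameter at a point. -/
theorem exists_parameter {b : Bool} (p : T.R b →ₐ[k] k) :
    ∃ t : T.R b, t ≠ 0 ∧ p t = 0 ∧ ∀ g, p g = 0 → ∃ d r : T.R b, p d ≠ 0 ∧ d * g = t * r := by
  haveI := T.isDedekindDomain_R b
  set P : Ideal (T.R b) := RingHom.ker p.toRingHom with hPdef
  have hmax : P.IsMaximal :=
    RingHom.ker_isMaximal_of_surjective p.toRingHom fun c => ⟨algebraMap k _ c, p.commutes c⟩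
  have hne : P ≠ ⊥ := fun h0 => (T.R_structure b).2.1
    (Ring.isField_iff_maximal_bot.2 (h0 ▸ hmax))
  have hlt : ¬ P ≤ P * P := fun hle => by
    have h1 : P * P = P * ⊤ := by
      rw [Ideal.mul_top]
      exact le_antisymm Ideal.mul_le_left hle
    exact hmax.ne_top (mul_left_cancel₀ hne h1)
  obtain ⟨t, ht, ht2⟩ := SetLike.not_le_iff_exists.1 hlt
  obtain ⟨I, hI⟩ : P ∣ Ideal.span {t} :=
    Ideal.dvd_iff_le.2 ((Ideal.span_singleton_le_iff_mem _).2 ht)
  obtain ⟨d, hd, hdP⟩ := SetLike.not_le_iff_exists.1 fun hle : I ≤ P =>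
    ht2 (Ideal.mul_mono le_rfl hle (hI.le (Ideal.mem_span_singleton_self t)))
  refine ⟨t, fun h => ht2 (h ▸ zero_mem _), ht, fun g hg => ⟨d, ?_⟩⟩
  obtain ⟨r, hr⟩ := Ideal.mem_span_singleton.1
    (hI.ge (mul_comm g d ▸ Ideal.mul_mem_mul (show g ∈ P from hg) hd))
  exact ⟨r, fun h => hdP h, hr⟩

theorem exists_pow_mul_mem_R (b : Bool) (g : T.R b) :
    ∃ L : ℕ, coord (!b) ^ L * (g : LaurentSeries k) ∈ T.R (!b) := by
  have hg := (mem_resRing_iff_chartRing.1 g.2).2
  rw [show coord (k := k) b = (coord (!b))⁻¹ by rw [coord_not, inv_inv]] at hg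
  obtain ⟨L, hL⟩ := exists_pow_mul_mem_chartRing _ (coord_ne_zero (!b)) hg
  exact ⟨L, mem_resRing_iff_chartRing.2
    ⟨mul_mem (pow_mem (T.coord_mem_resField _) L) g.2.1, hL⟩⟩

theorem exists_pow_mul_mem_R' (b : Bool) (g : T.R (!b)) :
    ∃ L : ℕ, coord b ^ L * (g : LaurentSeries k) ∈ T.R b := by
  have h := T.exists_pow_mul_mem_R (!b) g
  rwa [Bool.not_not] at h

/-- A point at which the coordinate is not zero lies in the other chart. -/
theorem exists_point_flip {b : Bool} (p : T.R b →ₐ[k] k) (h : p ⟨coord b, T.coord_mem_R b⟩ ≠ 0) :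
    ∃ p' : T.R (!b) →ₐ[k] k, ∀ (g : T.R b) (g' : T.R (!b)) (L : ℕ),
      (g : LaurentSeries k) = coord b ^ L * (g' : LaurentSeries k) →
      p g = p ⟨coord b, T.coord_mem_R b⟩ ^ L * p' g' := by
  set c := p ⟨coord b, T.coord_mem_R b⟩ with hc
  choose L₀ hL₀ using T.exists_pow_mul_mem_R' b
  let φ : T.R (!b) → k := fun g' => p ⟨_, hL₀ g'⟩ / c ^ L₀ g'
  have key : ∀ (g : T.R b) (g' : T.R (!b)) (L : ℕ),
      (g : LaurentSeries k) = coord b ^ L * (g' : LaurentSeries k) → p g = c ^ L * φ g' := by
    intro g g' L hg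
    have e : T.coordR b ^ L₀ g' * g = T.coordR b ^ L * ⟨_, hL₀ g'⟩ := Subtype.ext (by
      simp only [Subring.coe_mul, SubmonoidClass.coe_pow, hg]; ring)
    have e' := congrArg p e
    rw [map_mul, map_mul, map_pow, map_pow] at e'
    simp only [φ]
    rw [← mul_div_assoc, eq_div_iff (pow_ne_zero _ h), mul_comm]
    exact e'
  refine ⟨{ toFun := φ, map_one' := ?_, map_zero' := ?_, map_mul' := ?_, map_add' := ?_,
            commutes' := ?_ }, key⟩
  · have := key 1 1 0 (by simp)
    rwa [map_one, pow_zero, one_mul, eq_comm] at this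
  · intro x y
    have := key (⟨_, hL₀ x⟩ * ⟨_, hL₀ y⟩) (x * y) (L₀ x + L₀ y)
      (by simp only [Subring.coe_mul]; ring)
    rw [map_mul, key ⟨_, hL₀ x⟩ x _ rfl, key ⟨_, hL₀ y⟩ y _ rfl, pow_add] at this
    exact mul_left_cancel₀ (mul_ne_zero (pow_ne_zero (L₀ x) h) (pow_ne_zero (L₀ y) h))
      (by linear_combination -this)
  · have := key 0 0 0 (by simp)
    rwa [map_zero, pow_zero, one_mul, eq_comm] at this
  · intro x y
    have := key (T.coordR b ^ L₀ y * ⟨_, hL₀ x⟩ + T.coordR b ^ L₀ x * ⟨_, hL₀ y⟩) (x + y)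
      (L₀ x + L₀ y) (by simp only [Subring.coe_add, Subring.coe_mul, SubmonoidClass.coe_pow]; ring)
    rw [map_add, map_mul, map_mul, map_pow, map_pow, key ⟨_, hL₀ x⟩ x _ rfl,
      key ⟨_, hL₀ y⟩ y _ rfl, pow_add] at this
    exact mul_left_cancel₀ (mul_ne_zero (pow_ne_zero (L₀ x) h) (pow_ne_zero (L₀ y) h))
      (by linear_combination -this)
  · intro r
    have := key (algebraMap k (T.R b) r) (algebraMap k (T.R (!b)) r) 0
      (by rw [pow_zero, one_mul]; rfl)
    rw [AlgHom.commutes, pow_zero, one_mul] at this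
    exact this.symm

end SqTower

end Fermat.Agent.BadPrime.Sq
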