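import Fermat.Agent.BadPrime.GaussValuation
import Fermat.Agent.Igusa.LaurentLead
import Fermat.Agent.Reduction.Series
import Mathlib.RingTheory.RootsOfUnity.PrimitiveRoots
import Mathlib.RingTheory.IntegralClosure.IsIntegralClosure.Basic
import Mathlib.FieldTheory.IntermediateField.Adjoin.Basic
import Mathlib.FieldTheory.Separable

/-!
# The tower `N ∣ N q ∣ N q²` at a bad place, abstractly

All function fields come with their embeddings in Laurent series with coefficients in `K'`: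
`i₀`, `i₁` are the expansions at `∞`, and `e₀`, `eₘ`, `e₂` the three expansions of level `N q²`
reducing to the three components of the special fibre.  The only information on conjugates is
the factorisation of the characteristic polynomials along the degeneracy maps.
-/

set_option autoImplicit false

noncomputable section

open ModularCurve Polynomial

namespace Fermat.Agent.BadPrime.Sq

/-- The elements of `F` integral over `S[t]`. -/
def chartRing {K F : Type} [Field K] [Field F] [Algebra K F] (S : Subring K) (t : F) :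
    Subring F :=
  (integralClosure (Algebra.adjoin S {t}) F).toSubring

/-- The local ring of the `t`-line at `(t = ∞, π = 0)`: fractions of polynomials in `t⁻¹` whose
denominator has a unit constant term. -/
def cuspBase {K F : Type} [Field K] [Field F] [Algebra K F] (S : Subring K) (t : F) : Subring F :=
  Subring.closure (⇑(algebraMap K F) '' (S : Set K) ∪ {t⁻¹} ∪
    {x : F | ∃ d : K[X], (∀ i, d.coeff i ∈ S) ∧ (d.coeff 0)⁻¹ ∈ S ∧ d.coeff 0 ≠ 0 ∧
      x = (aeval t⁻¹ d)⁻¹})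

/-- The elements of `F` integral over `cuspBase S t`. -/
def cuspRing {K F : Type} [Field K] [Field F] [Algebra K F] (S : Subring K) (t : F) : Subring F :=
  (integralClosure (cuspBase S t) F).toSubring

variable {q : ℕ} {K K' k : Type} [Field K] [Field K'] [Algebra K K'] [Field k]
  {A : ValuationSubring K'}

/-- The coefficient data: `K` has uniformiser `q` and residue field `k`, the automorphisms `σ a`
fix `K`, act trivially on `k` and permute the `q`-th roots of unity. -/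
structure SqBase (q : ℕ) (K : Type) {K' k : Type} [Field K] [Field K'] [Algebra K K'] [Field k]
    {A : ValuationSubring K'} (π : A →+* k) where
  /-- A primitive `q`-th root of unity. -/
  ζ : K'ˣ
  primitive : IsPrimitiveRoot ζ q
  /-- The automorphisms. -/
  σ : (ZMod q)ˣ → (K' ≃ₐ[K] K')
  σ_ζ : ∀ a, σ a (ζ : K') = (ζ : K') ^ (a : ZMod q).val
  σ_mem : ∀ a, ∀ c ∈ A, σ a c ∈ A
  σ_res : ∀ (a : (ZMod q)ˣ) (c : A), π ⟨σ a c, σ_mem a c c.2⟩ = π c
  isLocalHom : IsLocalHom π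
  surj : ∀ r : k, ∃ (c : K) (h : algebraMap K K' c ∈ A), π ⟨_, h⟩ = r
  natCast_mem_nonunits : (q : K') ∈ A.nonunits
  uniform : ∀ c : K, c ≠ 0 → ∃ i : ℤ,
    algebraMap K K' c / (q : K') ^ i ∈ A ∧ (q : K') ^ i / algebraMap K K' c ∈ A

/-- The valuation ring of `K`. -/
def baseRing (A : ValuationSubring K') (K : Type) [Field K] [Algebra K K'] : Subring K :=
  A.toSubring.comap (algebraMap K K')

/-- The elements of a field of series integral over `k[t]`. -/
def resRing (X : IntermediateField k (LaurentSeries k)) (t : LaurentSeries k) :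
    Subring (LaurentSeries k) :=
  X.toSubfield.toSubring ⊓ (integralClosure (Algebra.adjoin k {t}) (LaurentSeries k)).toSubring

/-- The tower of function fields with its expansions. -/
structure SqTower (q : ℕ) [NeZero q] (K : Type) {K' k : Type} [Field K] [Field K'] [Algebra K K']
    [Field k] {A : ValuationSubring K'} (π : A →+* k) extends SqBase q K π where
  /-- Level `N`. -/
  F₀ : Type
  /-- Level `N q`. -/
  F₁ : Type
  /-- Level `N q²`. -/
  F₂ : Type
  [field₀ : Field F₀]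
  [field₁ : Field F₁]
  [field₂ : Field F₂]
  [algebra₀ : Algebra K F₀]
  [algebra₁ : Algebra K F₁]
  [algebra₂ : Algebra K F₂]
  /-- The expansion at `∞` of level `N`. -/
  i₀ : F₀ →+* LaurentSeries K'
  /-- The expansion at `∞` of level `N q`. -/
  i₁ : F₁ →+* LaurentSeries K'
  /-- The expansion of `f(τ)`. -/
  e₀ : F₂ →+* LaurentSeries K'
  /-- The expansion at the cusp `1 / (N q)`. -/
  eₘ : F₂ →+* LaurentSeries K'
  /-- The expansion of `f(W τ)`. -/
  e₂ : F₂ →+* LaurentSeries K'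
  i₀_algebraMap : ∀ c, i₀ (algebraMap K F₀ c) = HahnSeries.C (algebraMap K K' c)
  i₁_algebraMap : ∀ c, i₁ (algebraMap K F₁ c) = HahnSeries.C (algebraMap K K' c)
  e₀_algebraMap : ∀ c, e₀ (algebraMap K F₂ c) = HahnSeries.C (algebraMap K K' c)
  eₘ_algebraMap : ∀ c, eₘ (algebraMap K F₂ c) = HahnSeries.C (algebraMap K K' c)
  e₂_algebraMap : ∀ c, e₂ (algebraMap K F₂ c) = HahnSeries.C (algebraMap K K' c)
  /-- `f(τ)` from level `N` to level `N q`. -/
  α : F₀ →ₐ[K] F₁
  /-- The Atkin–Lehner involution of level `N q`. -/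
  W : F₁ →ₐ[K] F₁
  W_W : ∀ c, W (W c) = c
  i₁_α : ∀ c, i₁ (α c) = i₀ c
  i₁_W_α : ∀ c, i₁ (W (α c)) = qExpand K' q (i₀ c)
  /-- `f(τ)` from level `N q` to level `N q²`. -/
  α' : F₁ →ₐ[K] F₂
  /-- `f(q τ)` from level `N q` to level `N q²`. -/
  β' : F₁ →ₐ[K] F₂
  square : ∀ c, α' (W (α c)) = β' (α c)
  e₀_α' : ∀ c, e₀ (α' c) = i₁ c
  e₀_β' : ∀ c, e₀ (β' c) = qExpand K' q (i₁ c)
  eₘ_α' : ∀ c, eₘ (α' c) = i₁ c
  eₘ_β' : ∀ c, eₘ (β' c) = Igusa.twist toSqBase.ζ (i₁ (W c))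
  e₂_α' : ∀ c, e₂ (α' c) = qExpand K' q (i₁ (W c))
  e₂_β' : ∀ c, e₂ (β' c) = i₁ (W c)
  /-- Conjugates along `α`. -/
  cp₁ : ∀ f : F₁, ∃ P : F₀[X], P.Monic ∧ P.natDegree = q + 1 ∧ P.eval₂ α.toRingHom f = 0 ∧
    P.map ((qExpand K' q).comp i₀) =
      (X - C (qExpand K' q (i₁ f))) *
        ∏ a : ZMod q, (X - C (Igusa.twist (toSqBase.ζ ^ a.val) (i₁ (W f))))
  /-- Conjugates along `α'`. -/
  cp₂ : ∀ f : F₂, ∃ P : F₁[X], P.Monic ∧ P.natDegree = q ∧ P.eval₂ α'.toRingHom f = 0 ∧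
    P.map i₁ = (X - C (e₀ f)) *
        ∏ a : (ZMod q)ˣ, (X - C (coeffMap (toSqBase.σ a : K' →+* K') (eₘ f))) ∧
    P.map ((qExpand K' q).comp (i₁.comp W.toRingHom)) =
      ∏ a : ZMod q, (X - C (Igusa.twist (toSqBase.ζ ^ a.val) (e₂ f)))
  /-- Conjugates along `β'`. -/
  cp₂' : ∀ f : F₂, ∃ P : F₁[X], P.Monic ∧ P.natDegree = q ∧ P.eval₂ β'.toRingHom f = 0 ∧
    P.map (i₁.comp W.toRingHom) = (X - C (e₂ f)) *
        ∏ a : (ZMod q)ˣ,
          (X - C (coeffMap (toSqBase.σ a : K' →+* K') (Igusa.twist toSqBase.ζ⁻¹ (eₘ f)))) ∧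
    P.map ((qExpand K' q).comp i₁) =
      ∏ a : ZMod q, (X - C (Igusa.twist (toSqBase.ζ ^ a.val) (e₀ f)))
  value_i₁ : ∀ f : F₁, f ≠ 0 → ∃ (i : ℤ) (g : LaurentSeries k), g ≠ 0 ∧
    HasGaussRed π (HahnSeries.C ((q : K') ^ i) * i₁ f) g
  value_e₀ : ∀ f : F₂, f ≠ 0 → ∃ (i : ℤ) (g : LaurentSeries k), g ≠ 0 ∧
    HasGaussRed π (HahnSeries.C ((q : K') ^ i) * e₀ f) g
  value_eₘ : ∀ f : F₂, f ≠ 0 → ∃ (i : ℤ) (g : LaurentSeries k), g ≠ 0 ∧
    HasGaussRed π (HahnSeries.C ((1 - (toSqBase.ζ : K')) ^ i) * eₘ f) g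
  value_e₂ : ∀ f : F₂, f ≠ 0 → ∃ (i : ℤ) (g : LaurentSeries k), g ≠ 0 ∧
    HasGaussRed π (HahnSeries.C ((q : K') ^ i) * e₂ f) g
  /-- `j` at level `N`. -/
  j : F₀
  i₀_j : i₀ j = jqModC K'
  transcendental_j : Transcendental K j
  finite_j : FiniteDimensional (IntermediateField.adjoin K {j}) F₀
  isIntegral_W_j : W (α j) ∈ chartRing (baseRing A K) (α j)
  cusp_j : (W (α j))⁻¹ ∈ cuspRing (baseRing A K) (α j) ∧
    (α j)⁻¹ ∈ cuspRing (baseRing A K) (W (α j)) ∧
    W (α j) / α j ^ q ∈ cuspRing (baseRing A K) (α j) ∧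
    α j / W (α j) ^ q ∈ cuspRing (baseRing A K) (α j)
  /-- The residue field at level `N`. -/
  resField : IntermediateField k (LaurentSeries k)
  jqModC_mem : jqModC k ∈ resField
  finite_res : ∃ s : Finset (LaurentSeries k), IntermediateField.adjoin k (s : Set (LaurentSeries k)) = resField
  separable_res : ∀ g ∈ resField, IsSeparable (IntermediateField.adjoin k {jqModC k}) g
  res_mem : ∀ (f : F₀) (g : LaurentSeries k), HasGaussRed π (i₀ f) g → g ∈ resField
  res_lift : ∀ g ∈ resField, ∃ f : F₀, HasGaussRed π (i₀ f) g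
  res_lift_fin : ∀ g ∈ resRing resField (jqModC k), ∃ f ∈ chartRing (baseRing A K) j,
    HasGaussRed π (i₀ f) g
  res_lift_inf : ∀ g ∈ resRing resField (jqModC k)⁻¹, ∃ f ∈ chartRing (baseRing A K) j⁻¹,
    HasGaussRed π (i₀ f) g
  integral_fin : ∀ f ∈ chartRing (⊤ : Subring K) j, (∃ g, HasGaussRed π (i₀ f) g) →
    f ∈ chartRing (baseRing A K) j
  integral_inf : ∀ f ∈ chartRing (⊤ : Subring K) j⁻¹, (∃ g, HasGaussRed π (i₀ f) g) →
    f ∈ chartRing (baseRing A K) j⁻¹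
  rational_span : ∀ g ∈ resRing resField (jqModC k), g ∈ Submodule.span k
    {g' : LaurentSeries k | g' ∈ resRing resField (jqModC k) ∧ ∀ m, g'.coeff m ^ q = g'.coeff m}
  /-- `(θ t)⁶ / Δ` is a unit where `t` is a uniformiser. -/
  omega_unit : ∀ v : ValuationSubring resField, (∀ c : k, algebraMap k resField c ∈ v) →
    (⟨jqModC k, jqModC_mem⟩ : resField) ∈ v → ∀ t : resField, t ≠ 0 → t ∈ v.nonunits →
    (∀ s ∈ v.nonunits, ∃ r ∈ v, s = t * r) → ∃ u : resField, u ∈ v ∧ u ∉ v.nonunits ∧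
      Reduction.qDeriv (t : LaurentSeries k) ^ 6 = (u : LaurentSeries k) * Igusa.deltaSeries k
  /-- `Δ(q τ) / Δ(τ)`. -/
  h : F₁
  i₁_h : i₁ h * Igusa.deltaSeries K' = qExpand K' q (Igusa.deltaSeries K')
  i₁_W_h : i₁ (W h) * i₁ h = HahnSeries.C ((q : K') ^ 12)⁻¹
  h_mem : h ∈ chartRing (⊤ : Subring K) (α j)
  h_inv_mem : h⁻¹ ∈ chartRing (⊤ : Subring K) (α j)
  /-- `E₄(q τ)³ / E₄(τ)³` has its poles at the zeros of `j`. -/
  cusp_h : h * W (α j) / α j ∈ chartRing (⊤ : Subring K) (α j)⁻¹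

attribute [instance] SqTower.field₀ SqTower.field₁ SqTower.field₂ SqTower.algebra₀
  SqTower.algebra₁ SqTower.algebra₂

end Fermat.Agent.BadPrime.Sq
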