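import Fermat.Agent.BadPrime.Sq.Tower

/-!
# The points of level `N q²` on one branch only
-/

set_option autoImplicit false
set_option linter.unusedSectionVars false

noncomputable section

open ModularCurve Polynomial

namespace Fermat.Agent.BadPrime.Sq

variable {q : ℕ} [Fact q.Prime] {K K' k : Type} [Field K] [Field K'] [Algebra K K'] [Field k]
  [CharZero K] [CharP k q] [IsAlgClosed k] {A : ValuationSubring K'} {π : A →+* k}
  (T : SqTower q K π)

/-- A regular pair in a localisation from the corresponding identities before localising. -/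
theorem isRegularPair_localization {R D : Type*} [CommRing R] [IsDomain R] [CommRing D] [IsDomain D]
    (M : Ideal R) [M.IsMaximal] (ρ : R →+* D) (hρ : RingHom.ker ρ ≤ M) {u v : R}
    (hu : u ∈ M) (hv : v ∈ M) (hu0 : u ≠ 0) (hρu : ρ u = 0) (hρv : ρ v ≠ 0)
    (hgen : ∀ f ∈ M, ∃ s : R, s ∉ M ∧ s * f ∈ Ideal.span {u, v}) :
    IsRegularPair (algebraMap R (Localization.AtPrime M) u)
      (algebraMap R (Localization.AtPrime M) v) := by
  set L := Localization.AtPrime M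
  set a := algebraMap R L
  have hMle : M.primeCompl ≤ nonZeroDivisors R := M.primeCompl_le_nonZeroDivisors
  refine ⟨?_, ?_, ?_⟩
  · rw [← IsLocalization.AtPrime.map_eq_maximalIdeal M L]
    refine le_antisymm (Ideal.map_le_iff_le_comap.2 fun f hf => ?_) (Ideal.span_le.2 ?_)
    · obtain ⟨s, hs, hsf⟩ := hgen f hf
      have h1 := Ideal.mem_map_of_mem a hsf
      rw [Ideal.map_span, Set.image_insert_eq, Set.image_singleton, map_mul] at h1
      exact Ideal.mem_comap.2 ((Ideal.unit_mul_mem_iff_mem _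
        (IsLocalization.map_units L (⟨s, hs⟩ : M.primeCompl))).1 h1)
    · rintro w (rfl | rfl)
      · exact Ideal.mem_map_of_mem a hu
      · exact Ideal.mem_map_of_mem a hv
  · intro h
    exact hu0 ((IsLocalization.injective L hMle) (h.trans (map_zero _).symm))
  · rintro m ⟨y, hy⟩
    obtain ⟨b, s, rfl⟩ := IsLocalization.exists_mk'_eq M.primeCompl y
    rw [← map_pow, IsLocalization.mul_mk'_eq_mk'_of_mul, IsLocalization.eq_mk'_iff_mul_eq,
      ← map_mul] at hy
    have h1 := congrArg ρ ((IsLocalization.injective L hMle) hy)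
    rw [map_mul, map_mul, hρu, zero_mul, map_pow, mul_eq_zero] at h1
    exact s.2 (hρ (h1.resolve_left (pow_ne_zero _ hρv)))

namespace SqTower

/-- Reduction on one branch. -/
def redAt (i : Fin 3) : T.B₂ true →+* T.R true :=
  (Pi.evalRingHom (fun _ => T.R true) i).comp (T.red true)

theorem ev_apply_redAt (i : Fin 3) (p : T.R true →ₐ[k] k) (f : T.B₂ true) :
    T.ev true i p f = p (T.redAt i f) := rfl

theorem redAt_eq {i : Fin 3} {f : T.B₂ true} {g : LaurentSeries k}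
    (h : T.Res₂ i (f : T.F₂) g) : (T.redAt i f : LaurentSeries k) = g :=
  (T.res₂_red true f i).unique h

theorem res₂_redAt {i : Fin 3} {f : T.B₂ true} :
    T.Res₂ i (f : T.F₂) (T.redAt i f : LaurentSeries k) :=
  T.res₂_red true f i

theorem res₂_of_redAt_eq_zero {i : Fin 3} {f : T.B₂ true} (h : T.redAt i f = 0) :
    T.Res₂ i (f : T.F₂) 0 := by
  have := T.res₂_redAt (i := i) (f := f)
  rwa [h] at this

/-- A lift of a function of level `N` through the first degeneracy maps. -/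
theorem exists_lift_α' (g : T.R true) : ∃ f : T.B₁, T.Res₀ (f : T.F₁) (g : LaurentSeries k) ∧
    T.Res₂ 0 (T.toB₂ f : T.F₂) (g : LaurentSeries k) ∧
    T.Res₂ 1 (T.toB₂ f : T.F₂) (g : LaurentSeries k) := by
  obtain ⟨t, ht, htg⟩ := T.res_lift_fin g g.2
  have h0 : T.Res₀ (T.α t) (g : LaurentSeries k) := by
    show HasGaussRed π _ _
    rw [T.i₁_α]
    exact htg
  exact ⟨⟨T.α t, T.α_mem_B₁ ht⟩, h0, T.res₂_α'₀ h0⟩

/-- Every branch maps onto the curve of level `N`. -/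
theorem redAt_surjective (i : Fin 3) : Function.Surjective (T.redAt i) := by
  intro g
  obtain ⟨t, ht, htg⟩ := T.res_lift_fin g g.2
  fin_cases i
  · obtain ⟨f, -, h0, -⟩ := T.exists_lift_α' g
    exact ⟨T.toB₂ f, Subtype.ext (T.redAt_eq h0)⟩
  · obtain ⟨f, -, -, h1⟩ := T.exists_lift_α' g
    exact ⟨T.toB₂ f, Subtype.ext (T.redAt_eq h1)⟩
  · have h1 : T.Res₁ (T.W (T.α t)) (g : LaurentSeries k) := by
      show HasGaussRed π _ _
      rw [T.W_W, T.i₁_α]
      exact htg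
    exact ⟨⟨_, T.β'_mem (T.W_mem_B₁ (T.α_mem_B₁ ht))⟩, Subtype.ext (T.redAt_eq (T.res₂_β'₁ h1).2)⟩

/-- A branch whose ideal is contained in `M` passes through `M`. -/
theorem exists_point_of_ker_le {i : Fin 3} (M : Ideal (T.B₂ true)) [M.IsMaximal]
    (h : RingHom.ker (T.redAt i) ≤ M) : ∃ p, RingHom.ker (T.ev true i p) = M := by
  rcases Ideal.map_eq_top_or_isMaximal_of_surjective _ (T.redAt_surjective i)
    (I := M) ‹_› with htop | hmax
  · exfalso
    obtain ⟨m, hm, hm1⟩ := (Ideal.mem_map_iff_of_surjective _ (T.redAt_surjective i)).1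
      (htop ▸ Submodule.mem_top : (1 : T.R true) ∈ _)
    refine Ideal.IsMaximal.ne_top ‹_› ((Ideal.eq_top_iff_one M).2 ?_)
    have h1 : 1 - m ∈ M := h (by rw [RingHom.mem_ker, map_sub, map_one, hm1, sub_self])
    simpa using M.add_mem h1 hm
  · obtain ⟨p, hp⟩ := T.exists_point true (M.map (T.redAt i))
    refine ⟨p, ((‹M.IsMaximal›).eq_of_le (RingHom.ker_ne_top _) fun m hm => ?_).symm⟩
    rw [RingHom.mem_ker, ev_apply_redAt]
    exact (SetLike.ext_iff.1 hp _).2 (Ideal.mem_map_of_mem _ hm)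

/-- An element outside `M` vanishing on the branches not through `M`. -/
theorem exists_separating (M : Ideal (T.B₂ true)) [M.IsMaximal]
    (hM : ¬ T.IsCrossing (M.comap T.toB₂)) {i : Fin 3} {p : T.R true →ₐ[k] k}
    (hp : RingHom.ker (T.ev true i p) = M) :
    ∃ d : T.B₂ true, d ∉ M ∧ ∀ i', i' ≠ i → T.redAt i' d = 0 := by
  classical
  have h : ∀ i', i' ≠ i → ∃ e : T.B₂ true, e ∉ M ∧ T.redAt i' e = 0 := by
    intro i' hi'
    by_contra hc
    push Not at hc
    obtain ⟨p', hp'⟩ := T.exists_point_of_ker_le M (i := i') fun e he => by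
      by_contra heM
      exact hc e heM he
    exact hM (T.isCrossing_of_two M hp hp' hi'.symm)
  choose e heM he using h
  refine ⟨∏ i' : {i' // i' ≠ i}, e i'.1 i'.2, fun hd => ?_, fun i' hi' => ?_⟩
  · obtain ⟨i', -, hi'⟩ := (Ideal.IsMaximal.isPrime ‹_›).prod_mem_iff.1 hd
    exact heM _ _ hi'
  · rw [map_prod]
    exact Finset.prod_eq_zero (Finset.mem_univ (⟨i', hi'⟩ : {i' // i' ≠ i})) (he _ _)

include T in
theorem hasGaussRed_C_one_sub_ζ : HasGaussRed π (HahnSeries.C (1 - (T.ζ : K'))) 0 := by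
  obtain ⟨u, hu, hu1⟩ := exists_res_eq_one (π := π) T.ζ_pow
  have h := hasGaussRed_C (π := π) (1 - (u : A))
  rwa [map_sub, map_one, hu1, sub_self, map_zero, show ((1 - (u : A) : A) : K') = 1 - (T.ζ : K') by
    push_cast; rw [hu]] at h

/-- A series with zero reduction on the middle branch is divisible by `1 - ζ`. -/
theorem exists_res_div_one_sub {f : T.F₂} (h0 : T.Res₂ 1 f 0) :
    ∃ g, HasGaussRed π (HahnSeries.C (1 - (T.ζ : K'))⁻¹ * T.eₘ f) g := by
  rcases eq_or_ne f 0 with rfl | hf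
  · exact ⟨0, by rw [map_zero, mul_zero]; exact hasGaussRed_zero⟩
  obtain ⟨i, g, hg, h⟩ := T.value_eₘ f hf
  have hθ := T.one_sub_ζ_ne_zero
  have hθm := fun m : ℕ => (T.hasGaussRed_C_one_sub_ζ).pow m
  rcases le_or_gt 0 i with hi | hi
  · obtain ⟨m, rfl⟩ := Int.eq_ofNat_of_zero_le hi
    have h1 := (hθm m).mul (h0 : HasGaussRed π (T.eₘ f) 0)
    rw [← map_pow, ← zpow_natCast, mul_zero] at h1
    exact absurd (h.unique h1) hg
  · obtain ⟨m, hm⟩ := Int.eq_ofNat_of_zero_le (show 0 ≤ -1 - i by omega)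
    refine ⟨_, (?_ : HasGaussRed π _ ((0 : LaurentSeries k) ^ m * g))⟩
    have h1 := (hθm m).mul h
    rwa [← map_pow, ← mul_assoc, ← map_mul, ← zpow_natCast, ← zpow_add₀ hθ,
      show (m : ℤ) + i = -1 by omega, zpow_neg_one] at h1

include T in
/-- `(1 - ζ) ^ (q - 1) / q` is a unit. -/
theorem exists_unit_one_sub_pow : ∃ (a : A) (c : k), (a : K') = (1 - (T.ζ : K')) ^ (q - 1) / q ∧
    c ≠ 0 ∧ π a = c := by
  have := T.isLocalHom
  obtain ⟨u, hu, hu1⟩ := exists_res_eq_one (π := π) T.ζ_pow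
  choose r hr hπr using exists_res_one_sub_zpow (π := π) hu1
  have h1 : q - 1 + 1 = q := Nat.succ_pred_eq_of_pos (Fact.out : q.Prime).pos
  have hprod := IsPrimitiveRoot.prod_one_sub_pow_eq_order (μ := (T.ζ : K')) (n := q - 1)
    (by rw [h1]; exact IsPrimitiveRoot.coe_units_iff.2 T.primitive)
  have hq : (((q - 1 : ℕ) : K') + 1) = q := by exact_mod_cast congrArg (Nat.cast (R := K')) h1
  set R := ∏ i ∈ Finset.range (q - 1), r ((i + 1 : ℕ) : ℤ) with hR
  have hRne : π R ≠ 0 := by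
    rw [hR, map_prod, Finset.prod_ne_zero_iff]
    intro i hi
    rw [hπr, Int.cast_natCast]
    intro h0
    rw [CharP.cast_eq_zero_iff k q] at h0
    have := Nat.le_of_dvd (Nat.succ_pos i) h0
    rw [Finset.mem_range] at hi
    omega
  have hqR : (q : K') = (1 - (T.ζ : K')) ^ (q - 1) * (R : K') := by
    rw [← hq, ← hprod, hR]
    push_cast
    rw [show (1 - (T.ζ : K')) ^ (q - 1) = ∏ _i ∈ Finset.range (q - 1), (1 - (T.ζ : K')) by
      rw [Finset.prod_const, Finset.card_range], ← Finset.prod_mul_distrib]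
    refine Finset.prod_congr rfl fun i _ => ?_
    have h := congrArg Subtype.val (hr ((i + 1 : ℕ) : ℤ))
    rw [zpow_natCast] at h
    push_cast at h
    rw [hu] at h
    exact h
  obtain ⟨v, hv⟩ := (isUnit_of_map_unit π R (isUnit_iff_ne_zero.2 hRne)).exists_right_inv
  refine ⟨v, (π R)⁻¹, ?_, inv_ne_zero hRne, ?_⟩
  · rw [hqR, ← div_div, div_self (pow_ne_zero _ T.one_sub_ζ_ne_zero), one_div]
    exact (inv_eq_of_mul_eq_one_right (congrArg Subtype.val hv)).symm
  · refine eq_inv_of_mul_eq_one_right ?_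
    rw [← map_mul, hv, map_one]

/-- The quotient by `q` of an element with residue zero at the outer branches and divisible by
`(1 - ζ) ^ (q - 1)` at the middle one lies in the model. -/
theorem div_mem_B₂ {f : T.B₂ true} (h0 : T.Res₂ 0 (f : T.F₂) 0) (h2 : T.Res₂ 2 (f : T.F₂) 0)
    (h1 : ∃ g, HasGaussRed π (HahnSeries.C ((1 - (T.ζ : K')) ^ (q - 1))⁻¹ * T.eₘ (f : T.F₂)) g) :
    (f : T.F₂) / (q : T.F₂) ∈ T.B₂ true := by
  have hinv : algebraMap K T.F₂ (q : K)⁻¹ = ((q : T.F₂))⁻¹ := by rw [map_inv₀, map_natCast]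
  have hf : (f : T.F₂) / (q : T.F₂) ∈ chartRing (⊤ : Subring K) (T.t₂ true) := by
    rw [div_eq_mul_inv, ← hinv]
    exact mul_mem (chartRing_mono _ _ le_top f.2) (algebraMap_mem_chartRing _ _ (Subring.mem_top _))
  refine T.mem_B₂ hf fun i => ?_
  have hq : ∀ (e : T.F₂ →+* LaurentSeries K'), e ((f : T.F₂) / (q : T.F₂)) =
      HahnSeries.C (q : K')⁻¹ * e f := fun e => by
    rw [map_div₀, map_natCast, map_inv₀, map_natCast, div_eq_mul_inv, mul_comm]
  show ∃ g, HasGaussRed π (T.e i ((f : T.F₂) / (q : T.F₂))) g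
  rw [hq]
  fin_cases i
  · exact T.exists_res_div (fun h => T.value_e₀ _ (fun h' => h (by rw [h', map_zero]))) h0
  · obtain ⟨a, c, ha, -, hac⟩ := T.exists_unit_one_sub_pow
    obtain ⟨g, hg⟩ := h1
    refine ⟨HahnSeries.C c * g, ?_⟩
    have h := (hasGaussRed_C (π := π) a).mul hg
    rw [hac, ← mul_assoc, ← map_mul, ha, div_eq_mul_inv, mul_comm ((1 - (T.ζ : K')) ^ (q - 1)),
      mul_assoc, mul_inv_cancel₀ (pow_ne_zero _ T.one_sub_ζ_ne_zero), mul_one] at h
    exact h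
  · exact T.exists_res_div (fun h => T.value_e₂ _ (fun h' => h (by rw [h', map_zero]))) h2

/-- A power of `1 - ζ` divides a product of elements vanishing on the middle branch. -/
theorem exists_res_pow_div {f g : T.F₂} {gf gg : LaurentSeries k} (m : ℕ)
    (hf : HasGaussRed π (HahnSeries.C (1 - (T.ζ : K'))⁻¹ * T.eₘ f) gf)
    (hg : HasGaussRed π (T.eₘ g) gg) :
    HasGaussRed π (HahnSeries.C ((1 - (T.ζ : K')) ^ m)⁻¹ * T.eₘ (f ^ m * g)) (gf ^ m * gg) := by
  have h := (hf.pow m).mul hg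
  rwa [mul_pow, ← map_pow, inv_pow, mul_assoc, ← map_pow T.eₘ, ← map_mul T.eₘ] at h

/-- A parameter at a point, lifted to level `N q`. -/
theorem exists_parameter_lift (p : T.R true →ₐ[k] k) :
    ∃ (t : T.F₀) (tb : T.R true), t ∈ chartRing (baseRing A K) T.j ∧
      HasGaussRed π (T.i₀ t) (tb : LaurentSeries k) ∧ tb ≠ 0 ∧ p tb = 0 ∧
      ∀ g, p g = 0 → ∃ d r : T.R true, p d ≠ 0 ∧ d * g = tb * r := by
  obtain ⟨tb, htb0, hptb, hpar⟩ := T.exists_parameter p
  obtain ⟨t, ht, htg⟩ := T.res_lift_fin tb tb.2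
  exact ⟨t, tb, ht, htg, htb0, hptb, hpar⟩

/-- A point on an outer branch only. -/
theorem exists_pair_outer (M : Ideal (T.B₂ true)) [M.IsMaximal] (hq : (q : T.B₂ true) ∈ M)
    {i : Fin 3} (hi : i ≠ 1) {p : T.R true →ₐ[k] k} (hp : RingHom.ker (T.ev true i p) = M)
    {d : T.B₂ true} (hd : d ∉ M) (hd' : ∀ i', i' ≠ i → T.redAt i' d = 0) :
    ∃ u v : T.B₂ true, IsRegularPair (algebraMap (T.B₂ true) (Localization.AtPrime M) u)
      (algebraMap (T.B₂ true) (Localization.AtPrime M) v) := by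
  have hev : ∀ f : T.B₂ true, f ∈ M ↔ p (T.redAt i f) = 0 := fun f => by
    rw [← hp, RingHom.mem_ker, ev_apply_redAt]
  obtain ⟨-, tb, -, -, htb0, hptb, hpar⟩ := T.exists_parameter_lift p
  obtain ⟨v, hv⟩ := T.redAt_surjective i tb
  have hqne : (q : T.B₂ true) ≠ 0 := fun h => by
    have h' := congrArg Subtype.val h
    push_cast at h'
    rw [← map_natCast (algebraMap K T.F₂), _root_.map_eq_zero] at h'
    exact (Fact.out : q.Prime).ne_zero (Nat.cast_eq_zero.1 h')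
  refine ⟨(q : T.B₂ true), v, isRegularPair_localization M (T.redAt i)
    (fun f hf => (hev f).2 (by rw [RingHom.mem_ker.1 hf, map_zero])) hq
    ((hev v).2 (by rw [hv, hptb])) hqne ?_ (by rw [hv]; exact htb0) fun f hf => ?_⟩
  · rw [map_natCast, CharP.cast_eq_zero]
  obtain ⟨d', r, hd'0, hdr⟩ := hpar _ ((hev f).1 hf)
  obtain ⟨D, hD⟩ := T.redAt_surjective i d'
  obtain ⟨R, hR⟩ := T.redAt_surjective i r
  set h := D * f - v * R with hh
  have hh0 : T.redAt i h = 0 := by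
    rw [hh, map_sub, map_mul, map_mul, hD, hR, hv, hdr, sub_self]
  set w := d ^ (q - 1) * h with hw
  have hq1 : q - 1 ≠ 0 := Nat.sub_ne_zero_of_lt (Fact.out : q.Prime).one_lt
  have hres : ∀ i', T.Res₂ i' (w : T.F₂) 0 := by
    intro i'
    refine T.res₂_of_redAt_eq_zero ?_
    rw [hw, map_mul, map_pow]
    rcases eq_or_ne i' i with rfl | hne
    · rw [hh0, mul_zero]
    · rw [hd' i' hne, zero_pow hq1, zero_mul]
  have h1 : ∃ g, HasGaussRed π
      (HahnSeries.C ((1 - (T.ζ : K')) ^ (q - 1))⁻¹ * T.eₘ (w : T.F₂)) g := by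
    obtain ⟨g, hg⟩ := T.exists_res_div_one_sub (T.res₂_of_redAt_eq_zero (hd' 1 hi.symm))
    exact ⟨_, T.exists_res_pow_div (q - 1) hg (T.res₂_redAt (i := 1) (f := h))⟩
  have hs := T.div_mem_B₂ (hres 0) (hres 2) h1
  have hws : w = (q : T.B₂ true) * ⟨_, hs⟩ := Subtype.ext (by
    push_cast
    rw [mul_div_cancel₀]
    intro h'
    exact hqne (Subtype.ext (by push_cast; exact h')))
  refine ⟨d ^ (q - 1) * D, fun hmem => ?_, ?_⟩
  · rcases (Ideal.IsMaximal.isPrime ‹_›).mem_or_mem hmem with h' | h'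
    · exact hd ((Ideal.IsMaximal.isPrime ‹_›).mem_of_pow_mem _ h')
    · exact hd'0 (by rw [← hD]; exact (hev D).1 h')
  · rw [Ideal.mem_span_pair]
    exact ⟨⟨_, hs⟩, d ^ (q - 1) * R, by linear_combination -hws + hw + (d ^ (q - 1)) * hh⟩

/-- A point on the middle branch only. -/
theorem exists_pair_middle (M : Ideal (T.B₂ true)) [M.IsMaximal]
    (hM : ¬ T.IsCrossing (M.comap T.toB₂))
    {p : T.R true →ₐ[k] k} (hp : RingHom.ker (T.ev true 1 p) = M)
    {d : T.B₂ true} (hd : d ∉ M) (hd' : ∀ i', i' ≠ (1 : Fin 3) → T.redAt i' d = 0) :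
    ∃ u v : T.B₂ true, IsRegularPair (algebraMap (T.B₂ true) (Localization.AtPrime M) u)
      (algebraMap (T.B₂ true) (Localization.AtPrime M) v) := by
  have := T.isLocalHom
  have hev : ∀ f : T.B₂ true, f ∈ M ↔ p (T.redAt 1 f) = 0 := fun f => by
    rw [← hp, RingHom.mem_ker, ev_apply_redAt]
  obtain ⟨t, tb, ht, htg, htb0, hptb, hpar⟩ := T.exists_parameter_lift p
  have hαt : T.Res₀ (T.α t) (tb : LaurentSeries k) := by
    show HasGaussRed π _ _
    rw [T.i₁_α]
    exact htg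
  set v : T.B₂ true := T.toB₂ ⟨T.α t, T.α_mem_B₁ ht⟩ with hv
  have hvρ : T.redAt 1 v = tb := Subtype.ext (T.redAt_eq (T.res₂_α'₀ hαt).2)
  set w : T.B₂ true := ⟨T.β' (T.W (T.α t)), T.β'_mem (T.W_mem_B₁ (T.α_mem_B₁ ht))⟩ - v with hw
  -- the middle expansion of `w`
  set x := T.i₀ t
  have hζ1 : T.ζ ≠ 1 := T.primitive.ne_one (Fact.out : q.Prime).one_lt
  have hew : T.eₘ (w : T.F₂) = -(x - Igusa.twist T.ζ x) := by
    rw [hw]
    push_cast
    rw [map_sub, T.eₘ_β', T.W_W, show ((v : T.B₂ true) : T.F₂) = T.α' (T.α t) from rfl, T.eₘ_α',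
      T.i₁_α, neg_sub]
  have hwθ : HasGaussRed π (HahnSeries.C (1 - (T.ζ : K'))⁻¹ * T.eₘ (w : T.F₂))
      (-Reduction.qDeriv (tb : LaurentSeries k)) := by
    rw [hew, mul_neg]
    exact (hasGaussRed_sub_twist_div T.ζ_pow hζ1 htg).neg
  have hw1 : T.redAt 1 w = 0 := Subtype.ext (T.redAt_eq (by
    show HasGaussRed π (T.eₘ (w : T.F₂)) _
    have h := T.hasGaussRed_C_one_sub_ζ.mul hwθ
    rwa [← mul_assoc, ← map_mul, mul_inv_cancel₀ T.one_sub_ζ_ne_zero, map_one, one_mul,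
      zero_mul] at h))
  have hq1 : q - 1 ≠ 0 := Nat.sub_ne_zero_of_lt (Fact.out : q.Prime).one_lt
  -- `G = d w ^ (q - 1) / q`
  have hG0 : ∀ i, i ≠ 1 → T.Res₂ i ((w ^ (q - 1) * d : T.B₂ true) : T.F₂) 0 := fun i hi =>
    T.res₂_of_redAt_eq_zero (by rw [map_mul, hd' i hi, mul_zero])
  have hG1 := T.exists_res_pow_div (q - 1) hwθ (T.res₂_redAt (i := 1) (f := d))
  have hGmem := T.div_mem_B₂ (hG0 0 (by decide)) (hG0 2 (by decide)) ⟨_, by
    push_cast; exact hG1⟩
  set G : T.B₂ true := ⟨_, hGmem⟩ with hG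
  obtain ⟨a, c, ha, hc, hac⟩ := T.exists_unit_one_sub_pow
  have hGρ : (T.redAt 1 G : LaurentSeries k) = HahnSeries.C c *
      ((-Reduction.qDeriv (tb : LaurentSeries k)) ^ (q - 1) *
        (T.redAt 1 d : LaurentSeries k)) := by
    refine T.redAt_eq ?_
    show HasGaussRed π (T.eₘ _) _
    have h := (hasGaussRed_C (π := π) a).mul hG1
    rw [hac, ← mul_assoc, ← map_mul, ha, div_eq_mul_inv, mul_comm ((1 - (T.ζ : K')) ^ (q - 1)),
      mul_assoc _ ((1 - (T.ζ : K')) ^ (q - 1)), mul_inv_cancel₀ (pow_ne_zero _ T.one_sub_ζ_ne_zero),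
      mul_one] at h
    rw [hG]
    push_cast
    rwa [map_div₀, map_natCast, div_eq_mul_inv, mul_comm,
      ← map_natCast (HahnSeries.C (Γ := ℤ) (R := K')), ← map_inv₀]
  -- the level `N q` facts
  set M₁ := M.comap T.toB₂ with hM₁
  have hM₁max : M₁.IsMaximal := by
    obtain ⟨p₁, hp₁⟩ : ∃ φ : T.B₁ →+* k, RingHom.ker φ = M₁ ∧ Function.Surjective φ := by
      refine ⟨(T.ev true 1 p).comp T.toB₂, by rw [hM₁, ← hp, RingHom.comap_ker], fun c => ?_⟩
      obtain ⟨f, -, -, hf⟩ := T.exists_lift_α' (algebraMap k (T.R true) c)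
      refine ⟨f, ?_⟩
      rw [RingHom.comp_apply, ev_apply_redAt,
        show T.redAt 1 (T.toB₂ f) = algebraMap k (T.R true) c from Subtype.ext (T.redAt_eq hf),
        AlgHom.commutes]
      rfl
    exact hp₁.1 ▸ RingHom.ker_isMaximal_of_surjective p₁ hp₁.2
  have hM₁ev : ∀ (f : T.B₁) (g : T.R true), T.Res₀ (f : T.F₁) (g : LaurentSeries k) →
      (f ∈ M₁ ↔ p g = 0) := fun f g hfg => by
    rw [hM₁, Ideal.mem_comap, hev,
      show T.redAt 1 (T.toB₂ f) = g from Subtype.ext (T.redAt_eq (T.res₂_α'₀ hfg).2)]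
  have h₀ : T.P₀ ≤ M₁ := fun f hf => (hM₁ev f 0 hf).2 (map_zero p)
  have h₁ : ¬ T.P₁ ≤ M₁ := fun h => hM ⟨h₀, h⟩
  obtain ⟨d₁, e₁, gd, ge, hd₁, he₁, hgd, hge, heq⟩ := T.exists_res_qDeriv_pow M₁ h₀ h₁ ht htg 0
    (by rw [map_zero]; exact zero_mem A)
    ⟨⟨_, T.α_mem_B₁ ht⟩, (hM₁ev ⟨_, T.α_mem_B₁ ht⟩ tb hαt).2 hptb, by rw [map_zero, sub_zero]⟩
    (fun f hf => by
      obtain ⟨g, hg, hfg⟩ := T.exists_res₀ f.2
      obtain ⟨d', r, hd'0, hdr⟩ := hpar ⟨g, hg⟩ ((hM₁ev f ⟨g, hg⟩ hfg).1 hf)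
      obtain ⟨D, hD, -⟩ := T.exists_lift_α' d'
      obtain ⟨R, hR, -⟩ := T.exists_lift_α' r
      refine ⟨D, R, fun h => hd'0 ((hM₁ev D d' hD).1 h), ?_⟩
      rw [map_zero, sub_zero]
      show HasGaussRed π _ _
      rw [map_sub, map_mul, map_mul, sub_eq_add_neg]
      have h := (hD.mul hfg).add (hαt.mul hR).neg
      rwa [show (d' : LaurentSeries k) * g = (tb : LaurentSeries k) * r from congrArg Subtype.val hdr,
        add_neg_cancel] at h)
  have hgd' : gd ∈ T.R true := by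
    obtain ⟨g, hg, h⟩ := T.exists_res₀ d₁.2
    exact hgd.unique h ▸ hg
  have hge' : ge ∈ T.R true := by
    obtain ⟨g, hg, h⟩ := T.exists_res₀ e₁.2
    exact hge.unique h ▸ hg
  have hGM : G ∉ M := by
    intro hmem
    have key : T.redAt 1 G * ⟨gd, hgd'⟩ =
        algebraMap k (T.R true) (c * (-1) ^ (q - 1)) * (T.redAt 1 d * ⟨ge, hge'⟩) := by
      refine Subtype.ext ?_
      show (T.redAt 1 G : LaurentSeries k) * gd =
        HahnSeries.C (c * (-1) ^ (q - 1)) * ((T.redAt 1 d : LaurentSeries k) * ge)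
      rw [hGρ, ← heq, neg_pow, map_mul, map_pow, map_neg, map_one]
      ring
    have h := congrArg p key
    rw [map_mul, (hev G).1 hmem, zero_mul, map_mul, AlgHom.commutes, map_mul] at h
    rcases mul_eq_zero.1 h.symm with h' | h'
    · simp only [Algebra.algebraMap_self, RingHom.id_apply, mul_eq_zero, hc, false_or] at h'
      exact pow_ne_zero _ (neg_ne_zero.2 one_ne_zero) h'
    rw [map_mul] at h'
    rcases mul_eq_zero.1 h' with h'' | h''
    · exact hd ((hev d).2 h'')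
    · exact he₁ ((hM₁ev e₁ ⟨ge, hge'⟩ hge).2 h'')
  have hw0 : w ≠ 0 := fun h0 => hGM <| by
    have : G = 0 := Subtype.ext (by
      rw [hG]
      push_cast
      rw [h0, ZeroMemClass.coe_zero, zero_pow hq1, zero_mul, zero_div])
    rw [this]
    exact zero_mem M
  refine ⟨w, v, isRegularPair_localization M (T.redAt 1)
    (fun f hf => (hev f).2 (by rw [RingHom.mem_ker.1 hf, map_zero]))
    ((hev w).2 (by rw [hw1, map_zero])) ((hev v).2 (by rw [hvρ, hptb])) hw0 hw1
    (by rw [hvρ]; exact htb0) fun f hf => ?_⟩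
  obtain ⟨d', r, hd'0, hdr⟩ := hpar _ ((hev f).1 hf)
  obtain ⟨D, hD⟩ := T.redAt_surjective 1 d'
  obtain ⟨R, hR⟩ := T.redAt_surjective 1 r
  set h := D * f - v * R with hh
  have hh1 : T.redAt 1 h = 0 := by
    rw [hh, map_sub, map_mul, map_mul, hD, hR, hvρ, hdr, sub_self]
  set z := w ^ (q - 2) * (h * d) with hz
  have hz0 : ∀ i, i ≠ 1 → T.Res₂ i (z : T.F₂) 0 := fun i hi =>
    T.res₂_of_redAt_eq_zero (by rw [hz, map_mul, map_mul, hd' i hi, mul_zero, mul_zero])
  have hz1 : ∃ g, HasGaussRed π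
      (HahnSeries.C ((1 - (T.ζ : K')) ^ (q - 1))⁻¹ * T.eₘ (z : T.F₂)) g := by
    obtain ⟨g, hg⟩ := T.exists_res_div_one_sub (T.res₂_of_redAt_eq_zero hh1)
    have h' := (hwθ.pow (q - 2)).mul (hg.mul (T.res₂_redAt (i := 1) (f := d)))
    refine ⟨_, (?_ : HasGaussRed π _ ((-Reduction.qDeriv (tb : LaurentSeries k)) ^ (q - 2) *
      (g * (T.redAt 1 d : LaurentSeries k))))⟩
    convert h' using 1
    rw [hz]
    push_cast
    rw [map_mul, map_mul, map_pow, show q - 1 = (q - 2) + 1 by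
      have := (Fact.out : q.Prime).two_le; omega, pow_succ, mul_inv, map_mul, ← inv_pow, map_pow,
      e_one]
    ring
  have hs := T.div_mem_B₂ (hz0 0 (by decide)) (hz0 2 (by decide)) hz1
  refine ⟨G * D, fun hmem => ?_, ?_⟩
  · rcases (Ideal.IsMaximal.isPrime ‹_›).mem_or_mem hmem with h' | h'
    · exact hGM h'
    · exact hd'0 (by rw [← hD]; exact (hev D).1 h')
  · rw [Ideal.mem_span_pair]
    refine ⟨⟨_, hs⟩, G * R, Subtype.ext ?_⟩
    have ez : (z : T.F₂) = (w : T.F₂) ^ (q - 2) *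
        (((D : T.F₂) * (f : T.F₂) - (v : T.F₂) * (R : T.F₂)) * (d : T.F₂)) := by
      rw [hz, hh]; push_cast; ring
    show (z : T.F₂) / (q : T.F₂) * (w : T.F₂) +
      ((w ^ (q - 1) * d : T.B₂ true) : T.F₂) / (q : T.F₂) * (R : T.F₂) * (v : T.F₂) =
      ((w ^ (q - 1) * d : T.B₂ true) : T.F₂) / (q : T.F₂) * (D : T.F₂) * (f : T.F₂)
    rw [ez]
    push_cast
    rw [show q - 1 = (q - 2) + 1 by have := (Fact.out : q.Prime).two_le; omega, pow_succ]
    ring

/-- Off the crossings the branch through a point is a principal divisor. -/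
theorem exists_pair_of_not_crossing (M : Ideal (T.B₂ true)) [M.IsMaximal]
    (hq : (q : T.B₂ true) ∈ M) (hM : ¬ T.IsCrossing (M.comap T.toB₂)) :
    ∃ u v : T.B₂ true, IsRegularPair (algebraMap (T.B₂ true) (Localization.AtPrime M) u)
      (algebraMap (T.B₂ true) (Localization.AtPrime M) v) := by
  obtain ⟨i, p, hp⟩ := T.exists_ker_ev_eq true M hq
  obtain ⟨d, hd, hd'⟩ := T.exists_separating M hM hp
  rcases eq_or_ne i 1 with rfl | hi
  · exact T.exists_pair_middle M hM hp hd hd'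
  · exact T.exists_pair_outer M hq hi hp hd hd'

/-- Every point of the special fibre at finite `j` is regular. -/
theorem exists_pair_fin (M : Ideal (T.B₂ true)) [M.IsMaximal] (hq : (q : T.B₂ true) ∈ M) :
    ∃ u v : T.B₂ true, IsRegularPair (algebraMap (T.B₂ true) (Localization.AtPrime M) u)
      (algebraMap (T.B₂ true) (Localization.AtPrime M) v) := by
  by_cases h : T.IsCrossing (M.comap T.toB₂)
  · exact T.exists_pair_of_crossing M h
  · exact T.exists_pair_of_not_crossing M hq h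

end SqTower

end Fermat.Agent.BadPrime.Sq
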