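import Fermat.Agent.BadPrime.RegularModels
import Mathlib.RingTheory.Localization.AtPrime.Basic
import Mathlib.RingTheory.Localization.FractionRing
import Mathlib.RingTheory.Localization.Submodule
import Mathlib.RingTheory.IntegralClosure.IntegrallyClosed
import Mathlib.RingTheory.IntegralClosure.IsIntegralClosure.Basic
import Mathlib.RingTheory.Ideal.GoingUp
import Mathlib.RingTheory.Adjoin.Basic

/-!
# A regular point under a monogenic extension

Over a regular point of `B₁` an integral extension `B₂` with fraction field generated by one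
element `z`, killed by a polynomial congruent to a power of the variable, has a single point, and
this point is regular.
-/

set_option autoImplicit false
set_option linter.style.haveILetI false

noncomputable section

open IsLocalRing Polynomial

namespace Fermat.Agent.BadPrime.Sq

/-- Regularity is invariant under isomorphisms. -/
theorem isRegularPair_of_ringEquiv {R S : Type*} [CommRing R] [IsLocalRing R] [CommRing S]
    [IsLocalRing S] (e : R ≃+* S) {x z : R} (h : IsRegularPair x z) :
    IsRegularPair (e x) (e z) := by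
  refine ⟨?_, fun h0 => h.ne_zero (e.injective (by rw [h0, map_zero])), fun n hn => ?_⟩
  · refine le_antisymm (fun s hs => ?_) ?_
    · have h1 : e.symm s ∈ Ideal.span {x, z} := by
        rw [← h.maximalIdeal_eq, mem_maximalIdeal, mem_nonunits_iff]
        exact fun hu => (mem_maximalIdeal s).1 hs (by simpa using hu.map e)
      obtain ⟨a, b, hab⟩ := Ideal.mem_span_pair.1 h1
      refine Ideal.mem_span_pair.2 ⟨e a, e b, ?_⟩
      rw [← map_mul, ← map_mul, ← map_add, hab, RingEquiv.apply_symm_apply]
    · rw [Ideal.span_le]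
      rintro _ (rfl | rfl)
      · exact (mem_maximalIdeal _).2 fun hu =>
          (mem_maximalIdeal x).1 h.mem_maximalIdeal.1 (by simpa using hu.map e.symm)
      · exact (mem_maximalIdeal _).2 fun hu =>
          (mem_maximalIdeal z).1 h.mem_maximalIdeal.2 (by simpa using hu.map e.symm)
  · obtain ⟨c, hc⟩ := hn
    exact h.not_dvd_pow n ⟨e.symm c, e.injective (by simpa using hc)⟩

/-- An element of the fraction field integral over an integrally closed ring lies in it. -/
theorem mem_of_isIntegral_of_mul_eq {F : Type*} [Field F] (D : Subring F) [IsIntegrallyClosed D]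
    {x : F} {a b : D} (hb : b ≠ 0) (h : x * (b : F) = a) (hx : IsIntegral D x) : x ∈ D := by
  have hinj : Function.Injective D.subtype := Subtype.val_injective
  let φ : FractionRing D →+* F := IsFractionRing.lift (g := D.subtype) hinj
  have hφ : ∀ d, φ (algebraMap D _ d) = (d : F) := fun d => IsFractionRing.lift_algebraMap hinj d
  set y : FractionRing D := algebraMap D _ a / algebraMap D _ b with hy
  have hb' : (b : F) ≠ 0 := fun h0 => hb (Subtype.ext h0)
  have hyx : φ y = x := by
    rw [hy, map_div₀, hφ, hφ, ← h, mul_div_cancel_right₀ _ hb']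
  have hint : IsIntegral D y := by
    obtain ⟨p, hp, hpx⟩ := hx
    refine ⟨p, hp, φ.injective ?_⟩
    rw [hom_eval₂, map_zero, hyx,
      show φ.comp (algebraMap D (FractionRing D)) = algebraMap D F from RingHom.ext hφ]
    exact hpx
  obtain ⟨d, hd⟩ := IsIntegrallyClosed.isIntegral_iff.1 hint
  rw [← hyx, ← hd, hφ]
  exact d.2

section Over

variable {B₁ B₂ F : Type*} [CommRing B₁] [IsDomain B₁] [IsNoetherianRing B₁] [CommRing B₂]
  [IsDomain B₂] [Field F] [Algebra B₂ F] [FaithfulSMul B₂ F]

omit [IsDomain B₁] [IsDomain B₂] in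
/-- Over a regular point, a monogenic extension has one point, which is regular. -/
theorem isRegularPair_over {φ : B₁ →+* B₂} (hφ : Function.Injective φ) (hint : φ.IsIntegral)
    {M₁ : Ideal B₁} [M₁.IsMaximal] {u v : B₁}
    (h : IsRegularPair (algebraMap B₁ (Localization.AtPrime M₁) u)
      (algebraMap B₁ (Localization.AtPrime M₁) v))
    {z : B₂} {Q : (Localization.AtPrime M₁)[X]} (hQm : Q.Monic)
    (hQred : ∀ i < Q.natDegree, Q.coeff i ∈ maximalIdeal (Localization.AtPrime M₁))
    (hQ : Q.coeff 0 + algebraMap B₁ (Localization.AtPrime M₁) v ∈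
      Ideal.span {algebraMap B₁ (Localization.AtPrime M₁) u} ⊔
        maximalIdeal (Localization.AtPrime M₁) ^ 2)
    (hQz : ∀ ψ : Localization.AtPrime M₁ →+* F,
      ψ.comp (algebraMap B₁ (Localization.AtPrime M₁)) = (algebraMap B₂ F).comp φ →
        Q.eval₂ ψ (algebraMap B₂ F z) = 0)
    (hgen : ∀ b : B₂, ∃ s : B₁, s ≠ 0 ∧ ∃ P : B₁[X], P.eval₂ φ z = φ s * b) :
    ∃ N : Ideal B₂, ∀ (M : Ideal B₂) [M.IsMaximal], M.comap φ = M₁ → M = N ∧
      IsRegularPair (algebraMap B₂ (Localization.AtPrime M) (φ u))
        (algebraMap B₂ (Localization.AtPrime M) z) := by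
  classical
  have hι : Function.Injective (algebraMap B₂ F) := FaithfulSMul.algebraMap_injective B₂ F
  have hunit : ∀ s : M₁.primeCompl, IsUnit (((algebraMap B₂ F).comp φ) s) := fun s =>
    isUnit_iff_ne_zero.2 fun h0 => s.2 (by
      rw [hφ (hι (show algebraMap B₂ F (φ s) = algebraMap B₂ F (φ 0) by
        rw [map_zero, map_zero]; exact h0))]
      exact M₁.zero_mem)
  let ψ : Localization.AtPrime M₁ →+* F := IsLocalization.lift hunit
  have hψ : ψ.comp (algebraMap B₁ (Localization.AtPrime M₁)) = (algebraMap B₂ F).comp φ :=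
    IsLocalization.lift_comp _
  have hψ' : ∀ a, ψ (algebraMap B₁ (Localization.AtPrime M₁) a) = algebraMap B₂ F (φ a) :=
    fun a => RingHom.congr_fun hψ a
  letI : Algebra (Localization.AtPrime M₁) F := ψ.toAlgebra
  have hψinj : Function.Injective ψ := by
    refine (injective_iff_map_eq_zero ψ).2 fun r hr => ?_
    obtain ⟨a, s, rfl⟩ := IsLocalization.exists_mk'_eq M₁.primeCompl r
    have h1 := congrArg ψ (IsLocalization.mk'_spec (Localization.AtPrime M₁) a s)
    rw [map_mul, hr, zero_mul, hψ', eq_comm, map_eq_zero_iff _ hι, map_eq_zero_iff _ hφ] at h1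
    rw [h1, IsLocalization.mk'_zero]
  haveI : IsNoetherianRing (Localization.AtPrime M₁) :=
    IsLocalization.isNoetherianRing M₁.primeCompl _ inferInstance
  set z' := algebraMap B₂ F z
  have hz'Q : aeval z' Q = 0 := hQz ψ hψ
  have hz'int : IsIntegral (Localization.AtPrime M₁) z' := ⟨Q, hQm, hz'Q⟩
  set D := Algebra.adjoin (Localization.AtPrime M₁) ({z'} : Set F) with hD
  haveI : Module.Finite (Localization.AtPrime M₁) D :=
    Module.Finite.iff_fg.2 hz'int.fg_adjoin_singleton
  haveI : IsNoetherianRing D := IsNoetherianRing.of_finite (Localization.AtPrime M₁) D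
  haveI : Algebra.IsIntegral (Localization.AtPrime M₁) D := Algebra.IsIntegral.of_finite _ _
  haveI : FaithfulSMul (Localization.AtPrime M₁) D :=
    (faithfulSMul_iff_algebraMap_injective _ _).2 fun a b hab => hψinj (congrArg Subtype.val hab)
  let zD : D := ⟨z', Algebra.self_mem_adjoin_singleton _ z'⟩
  have hzD : aeval zD Q = 0 := Subtype.ext (by
    rw [ZeroMemClass.coe_zero, ← hz'Q]; exact aeval_subalgebra_coe Q D zD)
  set mD := (maximalIdeal (Localization.AtPrime M₁)).map (algebraMap _ D) ⊔ Ideal.span {zD}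
  -- every maximal ideal of `D` is `mD`
  have hpow : zD ^ Q.natDegree ∈ (maximalIdeal (Localization.AtPrime M₁)).map (algebraMap _ D) := by
    have h1 := hzD
    rw [aeval_eq_sum_range, Finset.sum_range_succ, hQm.coeff_natDegree, one_smul] at h1
    rw [eq_neg_of_add_eq_zero_right h1]
    refine neg_mem (sum_mem fun i hi => ?_)
    rw [Algebra.smul_def]
    exact Ideal.mul_mem_right _ _ (Ideal.mem_map_of_mem _ (hQred i (Finset.mem_range.1 hi)))
  have hle : ∀ I : Ideal D, I.IsMaximal → mD ≤ I := by
    intro I hI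
    have hc : I.comap (algebraMap (Localization.AtPrime M₁) D) = maximalIdeal _ :=
      IsLocalRing.eq_maximalIdeal (Ideal.isMaximal_comap_of_isIntegral_of_isMaximal I)
    have hm : (maximalIdeal (Localization.AtPrime M₁)).map (algebraMap _ D) ≤ I :=
      Ideal.map_le_iff_le_comap.2 hc.ge
    exact sup_le hm ((Ideal.span_singleton_le_iff_mem _).2 (hI.isPrime.mem_of_pow_mem _ (hm hpow)))
  have hne : mD ≠ ⊤ := by
    obtain ⟨I, hI⟩ := Ideal.exists_maximal D
    exact fun h0 => hI.ne_top (eq_top_iff.2 (h0 ▸ hle I hI))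
  have hmax : mD.IsMaximal := by
    rw [Ideal.isMaximal_iff]
    refine ⟨fun h1 => hne ((Ideal.eq_top_iff_one _).2 h1), fun I x hI hx hxI => ?_⟩
    obtain ⟨P, hP⟩ : ∃ P : (Localization.AtPrime M₁)[X], aeval zD P = x := by
      obtain ⟨P, hP⟩ := (Algebra.adjoin_singleton_eq_range_aeval _ z').le x.2
      exact ⟨P, Subtype.ext ((aeval_subalgebra_coe P D zD).trans hP)⟩
    have hmem : x - algebraMap _ D (P.coeff 0) ∈ mD := by
      rw [← hP]
      rw [show aeval zD P - algebraMap _ D (P.coeff 0) = zD * aeval zD P.divX by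
        conv_lhs => arg 1; rw [← Polynomial.X_mul_divX_add P]
        rw [map_add, aeval_C, map_mul, aeval_X, add_sub_cancel_right]]
      exact Ideal.mem_sup_right (Ideal.mul_mem_right _ _ (Ideal.mem_span_singleton_self _))
    have hu : IsUnit (P.coeff 0) := by
      by_contra hnu
      refine hx ?_
      have := add_mem hmem ((Ideal.mem_sup_left (T := Ideal.span {zD})
        (Ideal.mem_map_of_mem (algebraMap _ D) ((mem_maximalIdeal _).2 hnu))) : _ ∈ mD)
      rwa [sub_add_cancel] at this
    obtain ⟨w, hw⟩ := (hu.map (algebraMap (Localization.AtPrime M₁) D)).exists_left_inv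
    rw [← hw]
    refine I.mul_mem_left w ?_
    have := sub_mem hxI (hI hmem)
    rwa [sub_sub_cancel] at this
  haveI : IsLocalRing D := IsLocalRing.of_unique_max_ideal
    ⟨mD, hmax, fun I hI => (hmax.eq_of_le hI.ne_top (hle I hI)).symm⟩
  have hmD : maximalIdeal D = mD := (IsLocalRing.eq_maximalIdeal hmax).symm
  -- `D` is regular, hence integrally closed
  have hreg : IsRegularPair
      (algebraMap (Localization.AtPrime M₁) D (algebraMap B₁ _ u)) zD :=
    h.tower hzD hQ hmD ((Ideal.span_singleton_prime h.ne_zero).2 h.prime)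
  haveI := hreg.isIntegrallyClosed
  haveI : IsIntegrallyClosed D.toSubring := ‹IsIntegrallyClosed D›
  have hφD : ∀ a : B₁, algebraMap B₂ F (φ a) ∈ D := fun a => hψ' a ▸ D.algebraMap_mem _
  -- `B₂` lies in `D`
  have hB : ∀ b : B₂, algebraMap B₂ F b ∈ D := by
    intro b
    obtain ⟨s, hs, P, hP⟩ := hgen b
    obtain ⟨p, hp, hpb⟩ := hint b
    have hmemP : algebraMap B₂ F (P.eval₂ φ z) ∈ D := by
      rw [hom_eval₂, eval₂_eq_sum_range]
      exact sum_mem fun i _ => mul_mem (hφD _) (pow_mem (Algebra.self_mem_adjoin_singleton _ z') _)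
    refine mem_of_isIntegral_of_mul_eq D.toSubring (a := ⟨_, hmemP⟩) (b := ⟨_, hφD s⟩) ?_ ?_ ?_
    · intro h0
      exact hs (hφ (hι (by rw [map_zero, map_zero]; exact congrArg Subtype.val h0)))
    · show algebraMap B₂ F b * algebraMap B₂ F (φ s) = algebraMap B₂ F (P.eval₂ φ z)
      rw [hP, map_mul, mul_comm]
    · refine ⟨p.map (((algebraMap B₂ F).comp φ).codRestrict D.toSubring hφD), hp.map _, ?_⟩
      rw [eval₂_map]
      have h1 := congrArg (algebraMap B₂ F) hpb
      rw [hom_eval₂, map_zero] at h1
      exact h1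
  let j : B₂ →+* D := (algebraMap B₂ F).codRestrict D.toSubring hB
  refine ⟨(maximalIdeal D).comap j, fun M hM hMc => ?_⟩
  haveI := hM
  -- the localisation at `M` inside `F`
  have hunitM : ∀ s : M.primeCompl, IsUnit (algebraMap B₂ F s) := fun s =>
    isUnit_iff_ne_zero.2 fun h0 => s.2 (by
      rw [hι (h0.trans (map_zero _).symm)]; exact M.zero_mem)
  let κ : Localization.AtPrime M →+* F := IsLocalization.lift hunitM
  have hκ : ∀ b, κ (algebraMap B₂ _ b) = algebraMap B₂ F b := fun b => IsLocalization.lift_eq _ b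
  have hκinj : Function.Injective κ := by
    refine (injective_iff_map_eq_zero κ).2 fun r hr => ?_
    obtain ⟨a, s, rfl⟩ := IsLocalization.exists_mk'_eq M.primeCompl r
    have h1 := congrArg κ (IsLocalization.mk'_spec (Localization.AtPrime M) a s)
    rw [map_mul, hr, zero_mul, hκ, eq_comm, map_eq_zero_iff _ hι] at h1
    rw [h1, IsLocalization.mk'_zero]
  let φM : Localization.AtPrime M₁ →+* Localization.AtPrime M :=
    Localization.localRingHom M₁ M φ hMc.symm
  have hφM : κ.comp φM = ψ := IsLocalization.ringHom_ext M₁.primeCompl (RingHom.ext fun a => by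
    show κ (φM (algebraMap B₁ _ a)) = ψ (algebraMap B₁ _ a)
    rw [Localization.localRingHom_to_map, hκ, hψ'])
  have hrange : ∀ d : D, ∃ r : Localization.AtPrime M, κ r = d := by
    rintro ⟨d, hd⟩
    induction hd using Algebra.adjoin_induction with
    | mem w hw =>
      rw [Set.mem_singleton_iff] at hw
      subst hw
      exact ⟨algebraMap B₂ _ z, hκ z⟩
    | algebraMap r => exact ⟨φM r, RingHom.congr_fun hφM r⟩
    | add a b _ _ ha hb =>
      obtain ⟨r, hr⟩ := ha; obtain ⟨r', hr'⟩ := hb
      exact ⟨r + r', by rw [map_add, hr, hr']⟩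
    | mul a b _ _ ha hb =>
      obtain ⟨r, hr⟩ := ha; obtain ⟨r', hr'⟩ := hb
      exact ⟨r * r', by rw [map_mul, hr, hr']⟩
  choose g hg using hrange
  have hgj : ∀ b, g (j b) = algebraMap B₂ _ b := fun b => hκinj ((hg _).trans (hκ b).symm)
  let G : D →+* Localization.AtPrime M :=
    { toFun := g
      map_zero' := hκinj (by rw [hg, map_zero]; rfl)
      map_one' := hκinj (by rw [hg, map_one]; rfl)
      map_add' := fun a b => hκinj (by rw [map_add, hg, hg, hg]; rfl)
      map_mul' := fun a b => hκinj (by rw [map_mul, hg, hg, hg]; rfl) }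
  -- `z` vanishes at `M`
  have hGR : ∀ r, G (algebraMap _ D r) = φM r := fun r =>
    hκinj ((hg _).trans (RingHom.congr_fun hφM r).symm)
  have hGm : ∀ d ∈ mD, G d ∈ maximalIdeal (Localization.AtPrime M) := by
    suffices H : mD ≤ (maximalIdeal (Localization.AtPrime M)).comap G from fun d hd => H hd
    have hm : (maximalIdeal (Localization.AtPrime M₁)).map (algebraMap _ D) ≤
        (maximalIdeal (Localization.AtPrime M)).comap G := by
      refine Ideal.map_le_iff_le_comap.2 fun r hr => ?_
      rw [Ideal.mem_comap, Ideal.mem_comap, hGR, mem_maximalIdeal, mem_nonunits_iff]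
      exact fun hu => (mem_maximalIdeal r).1 hr (isUnit_of_map_unit φM r hu)
    exact sup_le hm ((Ideal.span_singleton_le_iff_mem _).2
      (Ideal.IsPrime.mem_of_pow_mem (Ideal.IsPrime.comap G) _ (hm hpow)))
  have hN : (maximalIdeal D).comap j = M := by
    haveI : ((maximalIdeal D).comap j).IsPrime := Ideal.IsPrime.comap j
    have h1 : (maximalIdeal D).comap j ≤ M := fun b hb => by
      by_contra hbM
      have := hGm _ (hmD ▸ hb)
      rw [show G (j b) = algebraMap B₂ _ b from hgj b, mem_maximalIdeal] at this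
      exact this (IsLocalization.map_units _ (⟨b, hbM⟩ : M.primeCompl))
    have hcomap : ((maximalIdeal D).comap j).comap φ = M₁ := by
      refine ((‹M₁.IsMaximal›).eq_of_le ?_ fun a ha => ?_).symm
      · exact fun htop => (Ideal.IsPrime.comap (f := φ) (K := (maximalIdeal D).comap j)).ne_top htop
      · show j (φ a) ∈ maximalIdeal D
        rw [hmD, show j (φ a) = algebraMap (Localization.AtPrime M₁) D (algebraMap B₁ _ a) from
          Subtype.ext (hψ' a).symm]
        exact Ideal.mem_sup_left (Ideal.mem_map_of_mem _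
          ((IsLocalization.AtPrime.to_map_mem_maximal_iff (Localization.AtPrime M₁) M₁ a).2 ha))
    letI := φ.toAlgebra
    haveI : Algebra.IsIntegral B₁ B₂ := ⟨hint⟩
    haveI : ((maximalIdeal D).comap j).IsMaximal :=
      Ideal.isMaximal_of_isIntegral_of_isMaximal_comap _ (by
        show (((maximalIdeal D).comap j).comap φ).IsMaximal
        rw [hcomap]; infer_instance)
    exact (‹((maximalIdeal D).comap j).IsMaximal›).eq_of_le hM.ne_top h1
  refine ⟨hN.symm, ?_⟩
  have hsurj : Function.Surjective G := by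
    intro r
    obtain ⟨b, s, rfl⟩ := IsLocalization.exists_mk'_eq M.primeCompl r
    have hu : IsUnit (j s) := by
      by_contra hnu
      exact s.2 (hN ▸ ((mem_maximalIdeal _).2 hnu : j s ∈ maximalIdeal D))
    obtain ⟨w, hw⟩ := hu.exists_right_inv
    refine ⟨j b * w, hκinj ?_⟩
    refine mul_right_cancel₀ (b := algebraMap B₂ F s) (hunitM s).ne_zero ?_
    rw [← hκ (s : B₂), ← map_mul, ← map_mul, IsLocalization.mk'_spec]
    rw [← hgj s, ← hgj b]
    refine congrArg κ ?_
    change G (j b * w) * G (j s) = G (j b)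
    rw [← map_mul, mul_assoc, mul_comm w, hw, mul_one]
  have hGinj : Function.Injective G := fun a b hab =>
    Subtype.ext ((hg a).symm.trans ((congrArg κ hab).trans (hg b)))
  have := isRegularPair_of_ringEquiv (RingEquiv.ofBijective G ⟨hGinj, hsurj⟩) hreg
  change IsRegularPair (G _) (G _) at this
  rw [hGR] at this
  rw [← hgj z, show (algebraMap B₂ (Localization.AtPrime M)) (φ u) =
    φM (algebraMap B₁ _ u) from (Localization.localRingHom_to_map M₁ M φ hMc.symm u).symm]
  exact this

end Over

end Fermat.Agent.BadPrime.Sq
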