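import Fermat.Agent.BadPrime.Sq.LevelTwo
import Fermat.Agent.BadPrime.Sq.Node
import Fermat.Agent.BadPrime.Sq.TowerRegular
import Mathlib.FieldTheory.PrimitiveElement

/-!
# Level `N q²` over a crossing of level `N q`

`t(q² τ) - c` generates level `N q²` over level `N q`, and its equation over the local ring of a
crossing is congruent to a power of the variable.
-/

set_option autoImplicit false
set_option linter.unusedSectionVars false
set_option linter.style.haveILetI false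

noncomputable section

open ModularCurve Polynomial

namespace Fermat.Agent.BadPrime.Sq

/-- The equation of `z` over the local ring of a crossing. -/
theorem exists_kronecker_quotient {B : Type*} [CommRing B] [IsDomain B] (M : Ideal B) [M.IsMaximal]
    {n : ℕ} (hn : n.Prime) {P U : B[X]} (hP : P.Monic) (hdeg : P.natDegree = n + 1)
    {u v c : B} (hPu : P.eval (u + c) = 0)
    (hPe : P = (X - C ((v + c ^ n) ^ n)) * (X ^ n - C (v + c ^ n)) + C (n : B) * U)
    (hu : u ∈ M) (hv : v ∈ M) (hnM : (n : B) ∈ M) (hc : (c ^ n) ^ n - c ∈ M) :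
    ∃ Q : B[X], Q.Monic ∧ Q.natDegree = n ∧ (∀ i < n, Q.coeff i ∈ M) ∧
      (∃ a b : B, Q.coeff 0 + v = n * a + u * b) ∧ P.comp (X + C c) = (X - C u) * Q := by
  set P' := P.comp (X + C c) with hP'
  have hev : P'.eval u = 0 := by simpa [hP', add_comm] using hPu
  obtain ⟨Q, hQ⟩ := Polynomial.dvd_iff_isRoot.2 hev
  have hP'm : P'.Monic := hP.comp_X_add_C c
  have hQm : Q.Monic := (monic_X_sub_C u).of_mul_monic_left (hQ ▸ hP'm)
  have hQdeg : Q.natDegree = n := by
    have h := congrArg natDegree hQ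
    rw [(monic_X_sub_C u).natDegree_mul hQm, natDegree_X_sub_C, hP', natDegree_comp,
      natDegree_X_add_C, mul_one, hdeg] at h
    omega
  obtain ⟨r, hr⟩ := exists_add_pow_prime_eq hn (X : B[X]) (C c)
  have hkr : P' = (X - C ((v + c ^ n) ^ n - c)) * (X ^ n - C v) +
      C (n : B) * ((X - C ((v + c ^ n) ^ n - c)) * (X * C c * r) + U.comp (X + C c)) := by
    have h0 := congrArg (fun p : B[X] => p.comp (X + C c)) hPe
    simp only [sub_comp, add_comp, mul_comp, pow_comp, X_comp, C_comp] at h0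
    rw [hP', h0, hr]
    simp only [map_sub, map_add, map_pow, map_natCast]
    ring
  refine ⟨Q, hQm, hQdeg, fun i hi => ?_, ?_, hQ⟩
  · letI := Ideal.Quotient.field M
    have hz : ∀ a ∈ M, Ideal.Quotient.mk M a = 0 := fun a ha => Ideal.Quotient.eq_zero_iff_mem.2 ha
    have he : Ideal.Quotient.mk M ((v + c ^ n) ^ n - c) = 0 := by
      rw [map_sub, map_pow, map_add, hz v hv, zero_add, ← map_pow, ← map_sub]
      exact hz _ hc
    have h2 : (X : (B ⧸ M)[X]) * Q.map (Ideal.Quotient.mk M) = X * X ^ n := by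
      have h3 := congrArg (Polynomial.map (Ideal.Quotient.mk M)) (hQ.symm.trans hkr)
      simp only [Polynomial.map_mul, Polynomial.map_add, Polynomial.map_sub, Polynomial.map_pow,
        map_X, map_C, hz u hu, hz v hv, hz _ hnM, he, map_zero, sub_zero, zero_mul, add_zero] at h3
      exact h3
    have h4 := congrArg (fun p : (B ⧸ M)[X] => p.coeff i) (mul_left_cancel₀ X_ne_zero h2)
    simp only [coeff_map, coeff_X_pow, if_neg hi.ne] at h4
    exact Ideal.Quotient.eq_zero_iff_mem.1 h4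
  · have h0 := coeff_zero_of_sub_eval_eq (P := P') (Q := Q) (x := u)
      (by rw [hev, map_zero, sub_zero]; exact hQ)
    exact ⟨_, Q.coeff 1, by
      rw [h0, ← coeff_one_of_kronecker (e₂ := v) hn.two_le hkr]; ring⟩

variable {K' k : Type} [Field K'] [Field k] {A : ValuationSubring K'} {π : A →+* k} in
/-- The coefficients of a product of linear factors reduce to those of the reduced product. -/
theorem hasGaussRed_coeff_prod {ι : Type*} [Fintype ι] {x : ι → LaurentSeries K'}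
    {g : ι → LaurentSeries k} (h : ∀ i, HasGaussRed π (x i) (g i)) (n : ℕ) :
    HasGaussRed π ((∏ i, (X - C (x i))).coeff n) ((∏ i, (X - C (g i))).coeff n) := by
  obtain ⟨x', hx', hg'⟩ : ∃ x' : ι → gaussSeries π,
      (∀ i, (gaussSeries π).subtype (x' i) = x i) ∧ ∀ i, seriesRed π (x' i) = g i :=
    ⟨fun i => ⟨x i, g i, h i⟩, fun _ => rfl, fun i => seriesRed_eq (h i)⟩
  have e₁ : (∏ i, (X - C (x i))) = (∏ i, (X - C (x' i))).map (gaussSeries π).subtype := by
    simp only [Polynomial.map_prod, Polynomial.map_sub, map_X, map_C, hx']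
  have e₂ : (∏ i, (X - C (g i))) = (∏ i, (X - C (x' i))).map (seriesRed π) := by
    simp only [Polynomial.map_prod, Polynomial.map_sub, map_X, map_C, hg']
  rw [e₁, e₂, coeff_map, coeff_map]
  exact hasGaussRed_seriesRed _

variable {q : ℕ} [Fact q.Prime] {K K' k : Type} [Field K] [Field K'] [Algebra K K'] [Field k]
  [CharZero K] [CharP k q] [IsAlgClosed k] {A : ValuationSubring K'} {π : A →+* k}
  (T : SqTower q K π)

namespace SqTower

theorem twist_qExpand_eq (a : ZMod q) (x : LaurentSeries K') :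
    Igusa.twist (T.ζ ^ a.val) (qExpand K' q x) = qExpand K' q x := by
  ext m
  rw [Igusa.twist_coeff]
  by_cases hm : (q : ℤ) ∣ m
  · obtain ⟨i, rfl⟩ := hm
    rw [zpow_mul, zpow_natCast, T.ζ_pow_pow, one_zpow, Units.val_one, one_mul]
  · rw [qExpand_coeff_of_not_dvd q x hm, mul_zero]

/-- The constants of the model. -/
def base₁ : baseRing A K →+* T.B₁ :=
  ((algebraMap K T.F₁).comp (baseRing A K).subtype).codRestrict _ fun c =>
    algebraMap_mem_chartRing _ _ c.2

/-- `t(τ)` on the model. -/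
def αB : chartRing (baseRing A K) T.j →+* T.B₁ :=
  (T.α.toRingHom.comp (chartRing (baseRing A K) T.j).subtype).codRestrict _ fun t =>
    T.α_mem_B₁ t.2

/-- `β'` on the models. -/
def toB₂' : T.B₁ →+* T.B₂ true :=
  (T.β'.toRingHom.comp T.B₁.subtype).codRestrict _ fun f => T.β'_mem f.2

theorem res₀_αB {t : chartRing (baseRing A K) T.j} {g : LaurentSeries k}
    (h : HasGaussRed π (T.i₀ t) g) : T.Res₀ (T.αB t) g := by
  show HasGaussRed π (T.i₁ (T.α (t : T.F₀))) g
  rw [T.i₁_α]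
  exact h

theorem res₁_αB {t : chartRing (baseRing A K) T.j} {g : LaurentSeries k}
    (h : HasGaussRed π (T.i₀ t) g) : T.Res₁ (T.αB t) (qExpand k q g) := by
  show HasGaussRed π (T.i₁ (T.W (T.α (t : T.F₀)))) _
  rw [T.i₁_W_α]
  exact hasGaussRed_qExpand h

/-- The conjugate polynomial of `t(q τ)` on the model, read at `t(τ)`. -/
theorem exists_towerPoly (t : chartRing (baseRing A K) T.j) {tb : LaurentSeries k}
    (htb : HasGaussRed π (T.i₀ t) tb) (hrat : ∀ m, tb.coeff m ^ q = tb.coeff m) :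
    ∃ P U : T.B₁[X], P.Monic ∧ P.natDegree = q + 1 ∧ P.eval (T.αB t) = 0 ∧
      P.eval₂ ((T.B₂ true).subtype.comp T.toB₂) (T.β' (T.W (T.α (t : T.F₀)))) = 0 ∧
      P = (X - C (T.swap₁ (T.αB t) ^ q)) * (X ^ q - C (T.swap₁ (T.αB t))) + C (q : T.B₁) * U := by
  set y : T.F₁ := T.W (T.α (t : T.F₀)) with hy
  have hyB : y ∈ T.B₁ := T.W_mem_B₁ (T.α_mem_B₁ t.2)
  obtain ⟨P₀, hP₀, hdeg₀, hy₀, hmap⟩ := T.exists_conj₁ y
  have hcoeff : ∀ i, P₀.coeff i ∈ chartRing (baseRing A K) T.j := by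
    intro i
    refine coeff_prod_mem_chartRing T.α ((qExpand K' q).comp T.i₁) T.conj₁ (f := y) ?_ ?_ hyB hmap i
    · rintro (_ | a)
      · rfl
      · show Igusa.twist (T.ζ ^ a.val) (T.i₁ (T.W T.x₁)) = qExpand K' q (T.i₁ T.x₁)
        rw [T.i₁_W_x, T.i₁_x, T.twist_qExpand_eq]
    · rintro (_ | a) c
      · rfl
      · show Igusa.twist (T.ζ ^ a.val) (T.i₁ (T.W (algebraMap K T.F₁ c))) =
          qExpand K' q (T.i₁ (algebraMap K T.F₁ c))
        rw [AlgHom.commutes, T.i₁_algebraMap, twist_C, qExpand_C]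
  have hlift : P₀ ∈ Polynomial.lifts (chartRing (baseRing A K) T.j).subtype :=
    (Polynomial.lifts_iff_coeff_lifts P₀).2 fun i => ⟨⟨_, hcoeff i⟩, rfl⟩
  obtain ⟨Pj, hPj, hPjdeg, hPjm⟩ := Polynomial.lifts_and_natDegree_eq_and_monic hlift hP₀
  set P : T.B₁[X] := Pj.map (T.swap₁.comp T.αB) with hP
  have hPm : P.Monic := hPjm.map _
  have hsub : T.B₁.subtype.comp (T.swap₁.comp T.αB) =
      (T.W.comp T.α).toRingHom.comp (chartRing (baseRing A K) T.j).subtype := rfl
  have hev : P.eval (T.αB t) = 0 := by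
    refine Subtype.ext ?_
    show T.B₁.subtype (P.eval (T.αB t)) = ((0 : T.B₁) : T.F₁)
    rw [← eval_map_apply, hP, Polynomial.map_map, hsub, ← Polynomial.map_map, hPj, eval_map,
      ZeroMemClass.coe_zero]
    have h := congrArg T.W.toRingHom hy₀
    rw [hom_eval₂, map_zero] at h
    rw [← h, hy]
    congr 1
    exact (T.W_W _).symm
  have hev₂ : P.eval₂ ((T.B₂ true).subtype.comp T.toB₂) (T.β' y) = 0 := by
    rw [hP, eval₂_map, show ((T.B₂ true).subtype.comp T.toB₂).comp (T.swap₁.comp T.αB) =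
      (T.β'.toRingHom.comp T.α.toRingHom).comp (chartRing (baseRing A K) T.j).subtype from
      RingHom.ext fun c => T.square c, ← eval₂_map, hPj]
    have h := congrArg T.β'.toRingHom hy₀
    rw [hom_eval₂, map_zero] at h
    exact h
  -- both reductions
  set S : (LaurentSeries k)[X] :=
    (X - C (tb ^ (q * q))) * (X ^ q - C (tb ^ q)) with hS
  have htw : qExpand k q tb = tb ^ q := qExpand_eq_pow hrat
  have hS' : ∏ o : Option (ZMod q), (X - C (o.elim (tb ^ (q * q)) fun _ => tb)) = S := by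
    rw [Fintype.prod_option, hS]
    simp only [Option.elim_none, Option.elim_some, Finset.prod_const, Finset.card_univ, ZMod.card]
    haveI : CharP (LaurentSeries k) q :=
      charP_of_injective_algebraMap (algebraMap k (LaurentSeries k)).injective q
    rw [sub_pow_char, ← map_pow C]
  have hroots : ∀ o, HasGaussRed π (T.conj₁ o y) (o.elim (tb ^ (q * q)) fun _ => tb) := by
    rintro (_ | a)
    · show HasGaussRed π (qExpand K' q (T.i₁ y)) _
      rw [hy, T.i₁_W_α, Option.elim_none, pow_mul, ← htw, ← map_pow, ← htw]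
      exact hasGaussRed_qExpand (hasGaussRed_qExpand htb)
    · show HasGaussRed π (Igusa.twist (T.ζ ^ a.val) (T.i₁ (T.W y))) tb
      rw [hy, T.W_W, T.i₁_α]
      exact hasGaussRed_twist (T.ζ_pow_pow _) htb
  have hres : ∀ i, HasGaussRed π (qExpand K' q (T.i₀ (P₀.coeff i))) (S.coeff i) := by
    intro i
    have h := hasGaussRed_coeff_prod hroots i
    rw [hS', ← hmap, coeff_map] at h
    rwa [RingHom.comp_apply, RingHom.comp_apply, show T.α.toRingHom (P₀.coeff i) = T.α (P₀.coeff i)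
      from rfl, T.i₁_α] at h
  set r₀ : T.B₁ →+* LaurentSeries k := T.fibVal.comp T.red₀ with hr₀
  set r₁ : T.B₁ →+* LaurentSeries k := r₀.comp T.swap₁ with hr₁
  have hcoe : ∀ i, ((Pj.coeff i : chartRing (baseRing A K) T.j) : T.F₀) = P₀.coeff i := fun i => by
    rw [← hPj, coeff_map]; rfl
  have hP₀' : P.map r₀ = S := by
    ext i : 1
    rw [coeff_map, hP, coeff_map]
    refine T.red₀_eq ?_
    show HasGaussRed π (T.i₁ (T.W (T.α (Pj.coeff i : T.F₀)))) _
    rw [hcoe, T.i₁_W_α]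
    exact hres i
  have hP₁' : (P.map r₁).map (qExpand k q) = S := by
    ext i : 1
    rw [coeff_map, coeff_map, hP, coeff_map, hr₁, RingHom.comp_apply, RingHom.comp_apply,
      RingHom.comp_apply, T.swap₁_swap₁]
    have h1 := T.res₀_red₀ (T.αB (Pj.coeff i))
    have h2 : T.i₁ (T.αB (Pj.coeff i) : T.F₁) = T.i₀ (P₀.coeff i) := by
      show T.i₁ (T.α (Pj.coeff i : T.F₀)) = _
      rw [hcoe, T.i₁_α]
    rw [Res₀, h2] at h1
    exact (hasGaussRed_qExpand h1).unique (hres i)
  have hy₀' : r₀ (T.swap₁ (T.αB t)) = tb ^ q := by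
    rw [← htw]
    exact T.red₀_eq (by
      show HasGaussRed π (T.i₁ (T.W (T.α (t : T.F₀)))) _
      rw [T.i₁_W_α]
      exact hasGaussRed_qExpand htb)
  have hy₁' : r₁ (T.swap₁ (T.αB t)) = tb := by
    rw [hr₁, RingHom.comp_apply, T.swap₁_swap₁]
    exact T.red₀_eq (T.res₀_αB htb)
  set E : T.B₁[X] :=
    (X - C (T.swap₁ (T.αB t) ^ q)) * (X ^ q - C (T.swap₁ (T.αB t))) with hE
  have hE₀ : E.map r₀ = P.map r₀ := by
    rw [hP₀', hE, hS]
    simp only [Polynomial.map_mul, Polynomial.map_sub, Polynomial.map_pow, map_X, map_C, map_pow,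
      hy₀']
    rw [← pow_mul]
  have hE₁ : E.map r₁ = P.map r₁ := by
    refine Polynomial.map_injective _ (qExpand_injective q) ?_
    rw [hP₁', hE, hS]
    simp only [Polynomial.map_mul, Polynomial.map_sub, Polynomial.map_pow, map_X, map_C, map_pow,
      hy₁', htw]
    rw [← pow_mul]
  have hdvd : C (q : T.B₁) ∣ P - E := by
    refine C_dvd_iff_dvd_coeff _ _ |>.2 fun i => ?_
    have h0 : r₀ ((P - E).coeff i) = 0 := by
      rw [← coeff_map, Polynomial.map_sub, hE₀, sub_self, coeff_zero]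
    have h1 : r₁ ((P - E).coeff i) = 0 := by
      rw [← coeff_map, Polynomial.map_sub, hE₁, sub_self, coeff_zero]
    have hd₀ : (P - E).coeff i ∈ T.P₀ :=
      T.red₀_eq_zero_iff.1 (T.fibVal_injective (h0.trans (map_zero _).symm))
    have hd₁ : (P - E).coeff i ∈ T.P₁ :=
      T.mem_P₁_iff.2 (T.fibVal_injective (h1.trans (map_zero _).symm))
    have hqF : (q : T.F₁) ≠ 0 := by
      have : CharZero T.F₁ := charZero_of_injective_algebraMap (algebraMap K T.F₁).injective
      exact Nat.cast_ne_zero.2 (Fact.out : q.Prime).ne_zero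
    refine ⟨⟨_, T.div_mem_B₁ ((P - E).coeff i).2 hd₀ hd₁⟩, Subtype.ext ?_⟩
    push_cast
    field_simp
  obtain ⟨U, hU⟩ := hdvd
  refine ⟨P, U, hPm, ?_, hev, hev₂, ?_⟩
  · rw [hP, hPjm.natDegree_map, hPjdeg, hdeg₀]
  · rw [← hU, add_sub_cancel]

include T in
/-- The model of level `N q²` is integral over the model of level `N q`. -/
theorem toB₂_isIntegral : T.toB₂.IsIntegral := by
  intro b
  obtain ⟨p, hp, hpb⟩ := (mem_chartRing _ _).1 b.2
  let f : Algebra.adjoin (baseRing A K) {T.x₁} →+* Algebra.adjoin (baseRing A K) {T.t₂ true} :=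
    (T.α'.toRingHom.comp (Algebra.adjoin (baseRing A K) {T.x₁}).val.toRingHom).codRestrict _
      fun x => (map_adjoin_eq (S := baseRing A K) T.α').le ⟨x, x.2, rfl⟩
  have hf : Function.Surjective f := fun x => by
    obtain ⟨z, hz, hzx⟩ := (map_adjoin_eq (S := baseRing A K) T.α').ge x.2
    exact ⟨⟨z, hz⟩, Subtype.ext hzx⟩
  obtain ⟨P, hP, -, hPm⟩ := Polynomial.lifts_and_natDegree_eq_and_monic
    (show p ∈ Polynomial.lifts f from Polynomial.map_surjective f hf p) hp
  let g : Algebra.adjoin (baseRing A K) {T.x₁} →+* T.B₁ :=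
    (Algebra.adjoin (baseRing A K) {T.x₁}).val.toRingHom.codRestrict _ fun x =>
      adjoin_le_chartRing _ _ x.2
  refine ⟨P.map g, hPm.map g, Subtype.ext ?_⟩
  show (T.B₂ true).subtype (eval₂ T.toB₂ b (P.map g)) = 0
  rw [hom_eval₂, eval₂_map, ← hpb, ← hP, eval₂_map]
  rfl

theorem twist_sub_ne {I : LaurentSeries K'} {Ib : LaurentSeries k} (hI : HasGaussRed π I Ib)
    (hθ : Reduction.qDeriv Ib ≠ 0) {a b : ZMod q} (hab : a ≠ b) :
    Igusa.twist (T.ζ ^ a.val) I ≠ Igusa.twist (T.ζ ^ b.val) I := by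
  haveI := T.isLocalHom
  intro h
  set c : K'ˣ := (T.ζ ^ b.val)⁻¹ * T.ζ ^ a.val with hc
  have hcq : c ^ q = 1 := by rw [hc, mul_pow, inv_pow, T.ζ_pow_pow, T.ζ_pow_pow, inv_one, one_mul]
  have hc1 : c ≠ 1 := fun h1 => hab (ZMod.val_injective q
    (T.primitive.pow_inj (ZMod.val_lt a) (ZMod.val_lt b) (inv_mul_eq_one.1 h1).symm))
  have hfix : Igusa.twist c I = I := by
    rw [hc, twist_mul, h, ← twist_mul, inv_mul_cancel, Igusa.twist_one]
  have h' := hasGaussRed_sub_twist_div hcq hc1 hI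
  rw [hfix, sub_self, mul_zero] at h'
  exact hθ (h'.unique hasGaussRed_zero)

/-- `t(q² τ) - c` generates level `N q²` over level `N q`, up to a denominator. -/
theorem exists_gen {t : T.F₀} {tb : LaurentSeries k} (htb : HasGaussRed π (T.i₀ t) tb)
    (hθ : Reduction.qDeriv tb ≠ 0) (c : T.B₁) {cK : K} (hc : (c : T.F₁) = algebraMap K T.F₁ cK)
    (z : T.B₂ true) (hz : (z : T.F₂) = T.β' (T.W (T.α t)) - T.α' c) (b : T.B₂ true) :
    ∃ s : T.B₁, s ≠ 0 ∧ ∃ P : T.B₁[X], P.eval₂ T.toB₂ z = T.toB₂ s * b := by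
  classical
  haveI : CharZero T.F₁ := charZero_of_injective_algebraMap (algebraMap K T.F₁).injective
  letI : Algebra T.F₁ T.F₂ := T.α'.toRingHom.toAlgebra
  have hq : ∀ f : T.F₂, ∃ P : T.F₁[X], P.Monic ∧ P.natDegree ≤ q ∧ aeval f P = 0 := fun f => by
    obtain ⟨P, hP, hd, hf, -⟩ := T.cp₂ f
    exact ⟨P, hP, hd.le, hf⟩
  haveI : FiniteDimensional T.F₁ T.F₂ := finite_of_forall_monic_root q hq
  have hle : Module.finrank T.F₁ T.F₂ ≤ q := by
    obtain ⟨w, hw⟩ := Field.exists_primitive_element T.F₁ T.F₂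
    rw [← (Field.primitive_element_iff_minpoly_natDegree_eq T.F₁ w).1 hw]
    obtain ⟨P, hP, hd, hf⟩ := hq w
    exact (natDegree_le_natDegree (minpoly.min T.F₁ w hP hf)).trans hd
  set zF : T.F₂ := (z : T.F₂) with hzF
  have hint : IsIntegral T.F₁ zF := IsIntegral.of_finite T.F₁ zF
  set ι₁ : T.F₁ →+* LaurentSeries K' := (qExpand K' q).comp (T.i₁.comp T.W.toRingHom) with hι
  set m := (minpoly T.F₁ zF).map ι₁ with hm
  have he : T.e₂ zF = T.i₀ t - HahnSeries.C (algebraMap K K' cK) := by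
    rw [hz, map_sub, T.e₂_β', T.W_W, T.i₁_α, hc, AlgHom.commutes, T.e₂_algebraMap]
  have hroot : ∀ a : ZMod q,
      m.eval (Igusa.twist (T.ζ ^ a.val) (T.e₂ zF)) = 0 := by
    intro a
    have h := congrArg ((Igusa.twist (T.ζ ^ a.val)).comp T.e₂) (minpoly.aeval T.F₁ zF)
    rw [aeval_def, hom_eval₂, map_zero] at h
    rw [hm, eval_map, ← h]
    congr 1
    refine RingHom.ext fun f => ?_
    show qExpand K' q (T.i₁ (T.W f)) = Igusa.twist (T.ζ ^ a.val) (T.e₂ (T.α' f))
    rw [T.e₂_α', T.twist_qExpand_eq]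
  have hinj : Function.Injective fun a : ZMod q => Igusa.twist (T.ζ ^ a.val) (T.e₂ zF) := by
    intro a a' haa
    by_contra hne
    refine T.twist_sub_ne htb hθ hne ?_
    simp only [he, map_sub, twist_C] at haa
    exact sub_left_injective haa
  have hge : q ≤ (minpoly T.F₁ zF).natDegree := by
    by_contra hlt
    push Not at hlt
    refine ((minpoly.monic hint).map ι₁).ne_zero
      (eq_zero_of_natDegree_lt_card_of_eval_eq_zero m hinj hroot ?_)
    rwa [hm, natDegree_map, ZMod.card]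
  have htop : IntermediateField.adjoin T.F₁ {zF} = ⊤ :=
    (Field.primitive_element_iff_minpoly_natDegree_eq T.F₁ zF).2
      (le_antisymm (minpoly.natDegree_le zF) (hle.trans hge))
  have hb : (b : T.F₂) ∈ (IntermediateField.adjoin T.F₁ {zF}).toSubalgebra :=
    htop.ge (IntermediateField.mem_top (x := (b : T.F₂)))
  rw [IntermediateField.adjoin_simple_toSubalgebra_of_isAlgebraic hint.isAlgebraic,
    Algebra.adjoin_singleton_eq_range_aeval] at hb
  obtain ⟨P, hP⟩ := hb
  haveI := T.finite_x₁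
  choose d hd hd0 hdP using fun i =>
    exists_mul_mem_chartRing T.isUniformiser (t := T.x₁) (P.coeff i)
  set S := Finset.range (P.natDegree + 1)
  set s : T.B₁ := ∏ i ∈ S, ⟨d i, hd i⟩ with hs
  have hs' : (s : T.F₁) = ∏ i ∈ S, d i := by
    rw [hs]; exact map_prod T.B₁.subtype _ _
  have hlift : C (s : T.F₁) * P ∈ Polynomial.lifts T.B₁.subtype := by
    refine (Polynomial.lifts_iff_coeff_lifts _).2 fun i => ?_
    rcases Nat.lt_or_ge P.natDegree i with hi | hi
    · exact ⟨0, by rw [map_zero, coeff_C_mul, coeff_eq_zero_of_natDegree_lt hi, mul_zero]⟩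
    · have hiS : i ∈ S := Finset.mem_range.2 (Nat.lt_succ_of_le hi)
      refine ⟨(∏ l ∈ S.erase i, ⟨d l, hd l⟩) * ⟨_, hdP i⟩, ?_⟩
      rw [map_mul, map_prod, coeff_C_mul, hs', ← Finset.mul_prod_erase S d hiS]
      show (∏ l ∈ S.erase i, d l) * (d i * P.coeff i) = _
      ring
  obtain ⟨PB, hPB⟩ := hlift
  refine ⟨s, fun h0 => ?_, PB, Subtype.ext ?_⟩
  · have h1 := congrArg Subtype.val h0
    rw [hs', ZeroMemClass.coe_zero, Finset.prod_eq_zero_iff] at h1
    obtain ⟨i, -, hi⟩ := h1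
    exact hd0 i hi
  show (T.B₂ true).subtype (eval₂ T.toB₂ z PB) = T.α' (s : T.F₁) * (b : T.F₂)
  rw [hom_eval₂, show (T.B₂ true).subtype.comp T.toB₂ = T.α'.toRingHom.comp T.B₁.subtype from rfl,
    ← eval₂_map, ← coe_mapRingHom, hPB, ← hP, eval₂_mul, eval₂_C]
  rfl

include T in
theorem toB₂_injective : Function.Injective T.toB₂ := fun _ _ h =>
  Subtype.ext (T.α'.toRingHom.injective (congrArg Subtype.val h))

/-- Over a crossing of level `N q` lies one point, and it is regular. -/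
theorem exists_unique_over_crossing (M₁ : Ideal T.B₁) [M₁.IsMaximal] (hM : T.IsCrossing M₁) :
    ∃ (N : Ideal (T.B₂ true)) (u v : T.B₂ true), ∀ (M : Ideal (T.B₂ true)) [M.IsMaximal],
      M.comap T.toB₂ = M₁ → M = N ∧
        IsRegularPair (algebraMap (T.B₂ true) (Localization.AtPrime M) u)
          (algebraMap (T.B₂ true) (Localization.AtPrime M) v) := by
  haveI := T.isNoetherianRing_B₁
  obtain ⟨t, tb, c, u, v, ht, htb, hrat, hθ, hc, hres, hu, hv, hpair, hq2⟩ :=
    T.exists_regularPair M₁ hM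
  obtain ⟨P, U, hP, hdeg, hev, hev₂, hPe⟩ := T.exists_towerPoly ⟨t, ht⟩ htb hrat
  set L := algebraMap T.B₁ (Localization.AtPrime M₁) with hL
  set cB : T.B₁ := T.base₁ ⟨c, hc⟩ with hcB
  set z : T.B₂ true := T.toB₂' (T.swap₁ (T.αB ⟨t, ht⟩)) - T.toB₂ cB with hz
  have hmem : ∀ a, L a ∈ IsLocalRing.maximalIdeal (Localization.AtPrime M₁) → a ∈ M₁ := fun a ha =>
    (IsLocalization.AtPrime.to_map_mem_maximal_iff (Localization.AtPrime M₁) M₁ a).1 ha
  have hy : T.swap₁ (T.αB ⟨t, ht⟩) = v + cB ^ q := Subtype.ext (by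
    push_cast
    show T.W (T.α t) = (v : T.F₁) + algebraMap K T.F₁ c ^ q
    rw [hv, ← map_pow, sub_add_cancel])
  have hxt : T.αB ⟨t, ht⟩ = u + cB := Subtype.ext (by
    push_cast
    show T.α t = (u : T.F₁) + algebraMap K T.F₁ c
    rw [hu, sub_add_cancel])
  have hc' : algebraMap K K' (c ^ (q ^ 2) - c) ∈ A := by
    rw [map_sub, map_pow]; exact sub_mem (pow_mem hc _) hc
  have hcM : (cB ^ q) ^ q - cB ∈ M₁ := by
    refine hM.1 (T.red₀_eq_zero_iff.1 ?_)
    rw [show (cB ^ q) ^ q - cB = ⟨algebraMap K T.F₁ (c ^ (q ^ 2) - c),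
      algebraMap_mem_chartRing _ _ hc'⟩ from Subtype.ext (by
        show (algebraMap K T.F₁ c ^ q) ^ q - algebraMap K T.F₁ c =
          algebraMap K T.F₁ (c ^ (q ^ 2) - c)
        rw [map_sub, map_pow, pow_two, pow_mul]), T.red₀_algebraMap hc', hres hc', map_zero]
  rw [hy] at hPe
  rw [hxt] at hev
  obtain ⟨Q, hQm, hQdeg, hQred, ⟨a, b, hab⟩, hPQ⟩ := exists_kronecker_quotient M₁
    (Fact.out : q.Prime) hP hdeg hev hPe (hmem u hpair.mem_maximalIdeal.1)
    (hmem v hpair.mem_maximalIdeal.2)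
    (hmem _ (Ideal.pow_le_self two_ne_zero hq2)) hcM
  have hrootQ : Q.eval₂ ((T.B₂ true).subtype.comp T.toB₂) (z : T.F₂) = 0 := by
    set g := (T.B₂ true).subtype.comp T.toB₂ with hg
    have hzc : (z : T.F₂) + g cB = T.β' (T.W (T.α t)) := by
      show T.β' (T.W (T.α t)) - T.α' (cB : T.F₁) + T.α' (cB : T.F₁) = _
      rw [sub_add_cancel]
    have h := congrArg (eval₂ g (z : T.F₂)) hPQ
    rw [eval₂_comp, eval₂_add, eval₂_X, eval₂_C, hzc, hev₂, eval₂_mul, eval₂_sub, eval₂_X,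
      eval₂_C, zero_eq_mul] at h
    refine h.resolve_left fun h0 => ?_
    have h1 : T.β' (T.W (T.α t)) = T.α' (T.α t) := by
      rw [← hzc, sub_eq_zero.1 h0, ← map_add, ← hxt]
      rfl
    have h2 := congrArg T.e₀ h1
    rw [T.e₀_β', T.e₀_α', T.i₁_W_α, T.i₁_α] at h2
    have h3 : qExpand k q (qExpand k q tb) = tb :=
      (h2 ▸ hasGaussRed_qExpand (hasGaussRed_qExpand htb)).unique htb
    rw [qExpand_eq_pow hrat, map_pow] at h3
    exact hθ (h3 ▸ qDeriv_pow_char _)
  obtain ⟨N, hN⟩ := isRegularPair_over (F := T.F₂) T.toB₂_injective T.toB₂_isIntegral hpair (z := z)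
    (Q := Q.map L) (hQm.map L)
    (fun i hi => by
      rw [coeff_map]
      exact (IsLocalization.AtPrime.to_map_mem_maximal_iff (Localization.AtPrime M₁) M₁ _).2
        (hQred i (by rwa [hQm.natDegree_map, hQdeg] at hi)))
    (by
      rw [coeff_map, ← map_add, hab, map_add, map_mul, map_mul]
      exact add_mem (Ideal.mem_sup_right (Ideal.mul_mem_right _ _ hq2))
        (Ideal.mem_sup_left (Ideal.mul_mem_right _ _ (Ideal.mem_span_singleton_self _))))
    (fun ψ hψ => by rw [eval₂_map, hψ]; exact hrootQ)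
    (fun b => T.exists_gen htb hθ cB (cK := c) rfl z rfl b)
  exact ⟨N, T.toB₂ u, z, fun M _ h => hN M h⟩

end SqTower

end Fermat.Agent.BadPrime.Sq
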