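import Fermat.Agent.BadPrime.Sq.LevelTwo
import Fermat.Agent.BadPrime.Sq.TowerCross

/-!
# The points of level `N q²` over a crossing
-/

set_option autoImplicit false
set_option linter.unusedSectionVars false
set_option linter.style.haveILetI false

noncomputable section

open ModularCurve Polynomial

namespace Fermat.Agent.BadPrime.Sq

variable {q : ℕ} [Fact q.Prime] {K K' k : Type} [Field K] [Field K'] [Algebra K K'] [Field k]
  [CharZero K] [CharP k q] [IsAlgClosed k] {A : ValuationSubring K'} {π : A →+* k}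
  (T : SqTower q K π)

namespace SqTower

/-- The reduction of level `N q` on the component of `∞`, in the coordinate ring of level `N`. -/
def rest₀ : T.B₁ →+* T.R true :=
  (T.fibVal.comp T.red₀).codRestrict _ fun f => T.fibVal_mem (T.red₀ f)

/-- The reduction on the other component. -/
def rest₁ : T.B₁ →+* T.R true := T.rest₀.comp T.swap₁

/-- `g(Q) ↦ g(Q ^ q)` on the coordinate ring. -/
def qExpR : T.R true →+* T.R true :=
  ((qExpand k q).comp (T.R true).subtype).codRestrict _ fun g => T.qExpand_mem_R g.2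

/-- The restrictions of `α' f` to the three branches. -/
def branch : Fin 3 → (T.B₁ →+* T.R true) := ![T.rest₀, T.rest₀, T.qExpR.comp T.rest₁]

/-- The restrictions of `β' f` to the three branches. -/
def branch' : Fin 3 → (T.B₁ →+* T.R true) := ![T.qExpR.comp T.rest₀, T.rest₁, T.rest₁]

theorem red_toB₂ (f : T.B₁) (i : Fin 3) : T.red true (T.toB₂ f) i = T.branch i f := by
  have h₁ : T.Res₁ (f : T.F₁) (T.fibVal (T.red₀ (T.swap₁ f))) := T.res₀_red₀ (T.swap₁ f)
  refine Subtype.ext ((T.res₂_red true (T.toB₂ f) i).unique ?_)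
  fin_cases i
  · exact (T.res₂_α'₀ (T.res₀_red₀ f)).1
  · exact (T.res₂_α'₀ (T.res₀_red₀ f)).2
  · exact T.res₂_α'₁ h₁

theorem red_toB₂' (f : T.B₁) (i : Fin 3) : T.red true (T.toB₂' f) i = T.branch' i f := by
  have h₁ : T.Res₁ (f : T.F₁) (T.fibVal (T.red₀ (T.swap₁ f))) := T.res₀_red₀ (T.swap₁ f)
  refine Subtype.ext ((T.res₂_red true (T.toB₂' f) i).unique ?_)
  fin_cases i
  · exact T.res₂_β'₀ (T.res₀_red₀ f)
  · exact (T.res₂_β'₁ h₁).1
  · exact (T.res₂_β'₁ h₁).2

theorem mem_comap_toB₂_iff {M : Ideal (T.B₂ true)} {i : Fin 3} {p : T.R true →ₐ[k] k}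
    (h : RingHom.ker (T.ev true i p) = M) (f : T.B₁) :
    f ∈ M.comap T.toB₂ ↔ p (T.branch i f) = 0 := by
  rw [← h, Ideal.mem_comap, RingHom.mem_ker, ← T.red_toB₂]
  rfl

theorem rest₀_eq_zero {f : T.B₁} (h : f ∈ T.P₀) : T.rest₀ f = 0 := Subtype.ext (T.red₀_eq h)

theorem rest₁_eq_zero {f : T.B₁} (h : f ∈ T.P₁) : T.rest₁ f = 0 :=
  Subtype.ext (T.red₀_eq (f := T.swap₁ f) h)

theorem rest₀_base₁ (c : baseRing A K) :
    T.rest₀ (T.base₁ c) = algebraMap k (T.R true) (π ⟨_, c.2⟩) := by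
  refine Subtype.ext ?_
  show T.fibVal (T.red₀ ⟨algebraMap K T.F₁ (c : K), _⟩) = HahnSeries.C (π ⟨_, c.2⟩)
  rw [T.red₀_algebraMap c.2, T.fibVal_cst]

theorem rest₁_base₁ (c : baseRing A K) :
    T.rest₁ (T.base₁ c) = algebraMap k (T.R true) (π ⟨_, c.2⟩) := by
  rw [← T.rest₀_base₁]
  exact congrArg T.rest₀ (Subtype.ext (T.W.commutes (c : K)))

theorem qExpR_algebraMap (e : k) : T.qExpR (algebraMap k (T.R true) e) = algebraMap k (T.R true) e :=
  Subtype.ext (qExpand_C q e)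

theorem exists_branch_eq (i : Fin 3) (e : k) :
    ∃ c : T.B₁, T.branch i c = algebraMap k (T.R true) e := by
  obtain ⟨c, hc, rfl⟩ := T.surj e
  refine ⟨T.base₁ ⟨c, hc⟩, ?_⟩
  fin_cases i
  · exact T.rest₀_base₁ _
  · exact T.rest₀_base₁ _
  · show T.qExpR (T.rest₁ _) = _
    rw [T.rest₁_base₁, T.qExpR_algebraMap]

theorem isMaximal_comap_toB₂ {M : Ideal (T.B₂ true)} {i : Fin 3} {p : T.R true →ₐ[k] k}
    (h : RingHom.ker (T.ev true i p) = M) : (M.comap T.toB₂).IsMaximal := by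
  have e : M.comap T.toB₂ = RingHom.ker (p.toRingHom.comp (T.branch i)) :=
    Ideal.ext fun f => T.mem_comap_toB₂_iff h f
  rw [e]
  refine RingHom.ker_isMaximal_of_surjective _ fun r => ?_
  obtain ⟨c, hc⟩ := T.exists_branch_eq i r
  exact ⟨c, by rw [RingHom.comp_apply, hc]; exact p.commutes r⟩

theorem rest₀_surjective : Function.Surjective T.rest₀ := by
  rintro ⟨g, hg⟩
  obtain ⟨t, ht, htg⟩ := T.res_lift_fin g hg
  exact ⟨T.αB ⟨t, ht⟩, Subtype.ext (T.red₀_eq (T.res₀_αB htg))⟩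

/-- Over a crossing the two components meet in points matched by `g(Q) ↦ g(Q ^ q)`. -/
theorem exists_point_over_crossing (M₁ : Ideal T.B₁) [hM₁ : M₁.IsMaximal] (hM : T.IsCrossing M₁) :
    ∃ p : T.R true →ₐ[k] k, ∀ i (f : T.B₁), p (T.branch i f) = 0 ↔ f ∈ M₁ := by
  have point : ∀ r : T.B₁ →+* T.R true, Function.Surjective r → RingHom.ker r ≤ M₁ →
      ∃ p : T.R true →ₐ[k] k, ∀ f, p (r f) = 0 ↔ f ∈ M₁ := by
    intro r hr hle
    have hcomap : (M₁.map r).comap r = M₁ := by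
      rw [Ideal.comap_map_of_surjective _ hr, sup_eq_left]
      exact hle
    haveI : (M₁.map r).IsMaximal :=
      (Ideal.map_eq_top_or_isMaximal_of_surjective _ hr hM₁).resolve_left fun h =>
        hM₁.ne_top (by rw [← hcomap, h, Ideal.comap_top])
    obtain ⟨p, hp⟩ := T.exists_point true (M₁.map r)
    refine ⟨p, fun f => ?_⟩
    conv_rhs => rw [← hcomap, Ideal.mem_comap, ← hp, RingHom.mem_ker]
    rfl
  obtain ⟨p, hp⟩ := point T.rest₀ T.rest₀_surjective fun f hf =>
    hM.1 (T.red₀_eq_zero_iff.1 (T.fibVal_injective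
      ((congrArg Subtype.val (RingHom.mem_ker.1 hf)).trans (map_zero T.fibVal).symm)))
  obtain ⟨p', hp'⟩ := point T.rest₁ (T.rest₀_surjective.comp T.swap₁_surjective) fun f hf =>
    hM.2 (T.mem_P₁_iff.2 (T.fibVal_injective
      ((congrArg Subtype.val (RingHom.mem_ker.1 hf)).trans (map_zero T.fibVal).symm)))
  have heq : ∀ f, p' (T.rest₁ f) = p (T.rest₀ f) := by
    intro f
    obtain ⟨c, hc, hce⟩ := T.surj (p (T.rest₀ f))
    set e : T.B₁ := T.base₁ ⟨c, hc⟩
    have hfe : f - e ∈ M₁ := (hp _).1 (by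
      rw [map_sub, map_sub, T.rest₀_base₁, AlgHom.commutes, Algebra.algebraMap_self,
        RingHom.id_apply, hce, sub_self])
    have := (hp' _).2 hfe
    rwa [map_sub, map_sub, T.rest₁_base₁, AlgHom.commutes, Algebra.algebraMap_self,
      RingHom.id_apply, hce, sub_eq_zero] at this
  have hlin : ∀ g : T.R true, p (T.qExpR g) = p' g := by
    suffices H : ∀ x ∈ Submodule.span k {g' : LaurentSeries k |
        g' ∈ resRing T.resField (jqModC k) ∧ ∀ m, g'.coeff m ^ q = g'.coeff m},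
        ∃ g : T.R true, (g : LaurentSeries k) = x ∧ p (T.qExpR g) = p' g by
      intro g
      obtain ⟨g', hg', h⟩ := H _ (T.rational_span _ g.2)
      rwa [Subtype.ext hg'] at h
    intro x hx
    induction hx using Submodule.span_induction with
    | mem x hx =>
      obtain ⟨t, ht, htx⟩ := T.res_lift_fin x hx.1
      refine ⟨⟨x, hx.1⟩, rfl, ?_⟩
      have h := heq (T.swap₁ (T.αB ⟨t, ht⟩))
      rw [show T.rest₁ (T.swap₁ (T.αB ⟨t, ht⟩)) = ⟨x, hx.1⟩ from Subtype.ext (by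
          show T.fibVal (T.red₀ (T.swap₁ (T.swap₁ _))) = x
          rw [T.swap₁_swap₁]
          exact T.red₀_eq (T.res₀_αB htx)),
        show T.rest₀ (T.swap₁ (T.αB ⟨t, ht⟩)) = T.qExpR ⟨x, hx.1⟩ from Subtype.ext (T.red₀_eq (by
          show HasGaussRed π (T.i₁ (T.W (T.α t))) (qExpand k q x)
          rw [T.i₁_W_α]
          exact hasGaussRed_qExpand htx))] at h
      exact h.symm
    | zero => exact ⟨0, rfl, by rw [map_zero, map_zero, map_zero]⟩
    | add a b _ _ ha hb =>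
      obtain ⟨a', ha', ea⟩ := ha
      obtain ⟨b', hb', eb⟩ := hb
      exact ⟨a' + b', by rw [Subring.coe_add, ha', hb'],
        by rw [map_add, map_add, map_add, ea, eb]⟩
    | smul r z _ hz =>
      obtain ⟨z', hz', ez⟩ := hz
      refine ⟨algebraMap k (T.R true) r * z', ?_, ?_⟩
      · rw [Subring.coe_mul, hz', smul_eq_C_mul_series]
        rfl
      · rw [map_mul, map_mul, map_mul, T.qExpR_algebraMap, p.commutes, p'.commutes, ez]
  refine ⟨p, fun i f => ?_⟩
  fin_cases i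
  · exact hp f
  · exact hp f
  · show p (T.qExpR (T.rest₁ f)) = 0 ↔ _
    rw [hlin, heq]
    exact hp f

/-- Where two branches meet, the image at level `N q` is a crossing. -/
theorem isCrossing_of_two (M : Ideal (T.B₂ true)) [M.IsMaximal] {i i' : Fin 3}
    {p p' : T.R true →ₐ[k] k} (hi : RingHom.ker (T.ev true i p) = M)
    (hi' : RingHom.ker (T.ev true i' p') = M) (hne : i ≠ i') : T.IsCrossing (M.comap T.toB₂) := by
  haveI := T.isMaximal_comap_toB₂ hi
  obtain ⟨j, pj, hj, hj2⟩ : ∃ j pj, RingHom.ker (T.ev true j pj) = M ∧ j ≠ 2 := by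
    rcases eq_or_ne i 2 with rfl | h
    · exact ⟨i', p', hi', fun h' => hne h'.symm⟩
    · exact ⟨i, p, hi, h⟩
  have key : ∀ a : Fin 3, a ≠ 2 → a = 0 ∨ a = 1 := by decide
  have hbj : T.branch j = T.rest₀ := by rcases key j hj2 with rfl | rfl <;> rfl
  have h₀ : T.P₀ ≤ M.comap T.toB₂ := fun f hf => (T.mem_comap_toB₂_iff hj f).2 (by
    rw [hbj, T.rest₀_eq_zero hf, map_zero])
  by_cases htwo : i = 2 ∨ i' = 2
  · obtain ⟨p₂, h2⟩ : ∃ p₂, RingHom.ker (T.ev true 2 p₂) = M := by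
      rcases htwo with rfl | rfl
      exacts [⟨p, hi⟩, ⟨p', hi'⟩]
    exact ⟨h₀, fun f hf => (T.mem_comap_toB₂_iff h2 f).2 (by
      show p₂ (T.qExpR (T.rest₁ f)) = 0
      rw [T.rest₁_eq_zero hf, map_zero, map_zero])⟩
  push Not at htwo
  obtain ⟨p₀, p₁, h0, h1⟩ : ∃ p₀ p₁, RingHom.ker (T.ev true 0 p₀) = M ∧
      RingHom.ker (T.ev true 1 p₁) = M := by
    rcases key i htwo.1 with rfl | rfl <;> rcases key i' htwo.2 with rfl | rfl
    exacts [absurd rfl hne, ⟨p, p', hi, hi'⟩, ⟨p', p, hi', hi⟩, absurd rfl hne]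
  rw [T.isCrossing_iff_hInv_mem _ h₀, T.mem_comap_toB₂_iff h0]
  have hmem' : ∀ {i : Fin 3} {p : T.R true →ₐ[k] k}, RingHom.ker (T.ev true i p) = M →
      ∀ f, f ∈ M.comap T.toB₂' ↔ p (T.branch' i f) = 0 := by
    intro i p h f
    rw [← h, Ideal.mem_comap, RingHom.mem_ker, ← T.red_toB₂']
    rfl
  have hinv : T.hInv ∈ M.comap T.toB₂' := (hmem' h1 _).2 (by
    show p₁ (T.rest₁ _) = 0
    rw [T.rest₁_eq_zero T.hInv_mem_P₁, map_zero])
  have h := (hmem' h0 _).1 hinv
  have hpow : T.qExpR (T.rest₀ T.hInv) = T.rest₀ T.hInv ^ q := by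
    refine Subtype.ext ?_
    show qExpand k q (T.fibVal (T.red₀ T.hInv)) = T.fibVal (T.red₀ T.hInv) ^ q
    have hΔ : qExpand k q (Igusa.deltaSeries k) = Igusa.deltaSeries k ^ q := by
      conv_rhs => rw [← qExpand_frobTwist (q := q) (Igusa.deltaSeries k)]
      rw [frobTwist, Igusa.coeffMap_deltaSeries]
    rw [eq_inv_of_mul_eq_one_left T.red₀_hInv_mul_delta_pow, map_inv₀, map_pow, hΔ, inv_pow,
      pow_right_comm]
  change p₀ (T.qExpR (T.rest₀ T.hInv)) = 0 at h
  rw [hpow, map_pow] at h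
  exact (pow_eq_zero_iff (Fact.out : q.Prime).ne_zero).1 h

/-- Over a crossing the three branches meet in one regular point. -/
theorem exists_pair_of_crossing (M : Ideal (T.B₂ true)) [M.IsMaximal]
    (hM : T.IsCrossing (M.comap T.toB₂)) :
    ∃ u v : T.B₂ true, IsRegularPair (algebraMap (T.B₂ true) (Localization.AtPrime M) u)
      (algebraMap (T.B₂ true) (Localization.AtPrime M) v) := by
  haveI : (M.comap T.toB₂).IsMaximal := by
    letI := T.toB₂.toAlgebra
    haveI : Algebra.IsIntegral T.B₁ (T.B₂ true) := ⟨T.toB₂_isIntegral⟩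
    exact Ideal.isMaximal_comap_of_isIntegral_of_isMaximal M
  obtain ⟨N, u, v, h⟩ := T.exists_unique_over_crossing _ hM
  exact ⟨u, v, (h M rfl).2⟩

/-- All three branches pass through it, at the same point of level `N`. -/
theorem exists_common_point (M : Ideal (T.B₂ true)) [M.IsMaximal]
    (hM : T.IsCrossing (M.comap T.toB₂)) :
    ∃ p : T.R true →ₐ[k] k, ∀ i, RingHom.ker (T.ev true i p) = M := by
  haveI : (M.comap T.toB₂).IsMaximal := by
    letI := T.toB₂.toAlgebra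
    haveI : Algebra.IsIntegral T.B₁ (T.B₂ true) := ⟨T.toB₂_isIntegral⟩
    exact Ideal.isMaximal_comap_of_isIntegral_of_isMaximal M
  obtain ⟨N, u, v, h⟩ := T.exists_unique_over_crossing _ hM
  obtain ⟨p, hp⟩ := T.exists_point_over_crossing _ hM
  refine ⟨p, fun i => ?_⟩
  haveI := T.ker_ev_isMaximal true i p
  rw [(h (RingHom.ker (T.ev true i p))
    (Ideal.ext fun f => (T.mem_comap_toB₂_iff rfl f).trans (hp i f))).1, ← (h M rfl).1]

end SqTower

end Fermat.Agent.BadPrime.Sq
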