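import Mathlib.FieldTheory.IsAlgClosed.AlgebraicClosure
import Mathlib.LinearAlgebra.Charpoly.Basic
import Mathlib.RingTheory.AdjoinRoot
import Mathlib.RingTheory.Norm.Transitivity

/-!
# Characteristic polynomials from a full set of embeddings

For a finite extension `a : F → L` of degree `n` in characteristic zero and `n` distinct
embeddings of `L` extending `φ : F → E`, the characteristic polynomial of `f ∈ L` maps to the
product of the `X - ψ f`.
-/

set_option autoImplicit false
set_option linter.style.haveILetI false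

noncomputable section

open Polynomial

namespace Fermat.Agent.BadPrime.Sq

variable {F L E : Type*} [Field F] [Field L] [Field E]

/-- The degree of `L` over `F` along `a`. -/
def algDeg (a : F →+* L) : ℕ :=
  letI := a.toAlgebra
  Module.finrank F L

/-- The characteristic polynomial of multiplication by `f` along `a`, or `0` for an infinite
extension. -/
def conjPoly (a : F →+* L) (f : L) : F[X] :=
  letI := a.toAlgebra
  open scoped Classical in
  if _h : Module.Finite F L then (LinearMap.mulLeft F f).charpoly else 0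

theorem conjPoly_spec (a : F →+* L) {n : ℕ} (hn : algDeg a = n) (hn0 : n ≠ 0) (f : L) :
    (conjPoly a f).Monic ∧ (conjPoly a f).natDegree = n ∧ (conjPoly a f).eval₂ a f = 0 := by
  letI := a.toAlgebra
  change Module.finrank F L = n at hn
  haveI : Module.Finite F L := Module.finite_of_finrank_pos (by omega)
  rw [conjPoly, dif_pos ‹_›]
  refine ⟨LinearMap.charpoly_monic _, by rw [LinearMap.charpoly_natDegree, hn], ?_⟩
  have h := LinearMap.congr_fun (LinearMap.aeval_self_charpoly (LinearMap.mulLeft F f)) 1
  have e : aeval (LinearMap.mulLeft F f) (LinearMap.mulLeft F f).charpoly =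
      Algebra.lmul F L (aeval f (LinearMap.mulLeft F f).charpoly) := by
    rw [← Polynomial.aeval_algHom_apply (Algebra.lmul F L)]
    rfl
  rw [e] at h
  change aeval f (LinearMap.mulLeft F f).charpoly * 1 = 0 at h
  rw [mul_one] at h
  exact h

theorem conjPoly_map (a : F →+* L) [CharZero F] {n : ℕ} (hn : algDeg a = n) (hn0 : n ≠ 0)
    (f : L) {ι : Type*} [Fintype ι] (φ : F →+* E) (ψ : ι → L →+* E)
    (hψ : ∀ i x, ψ i (a x) = φ x) (hinj : Function.Injective ψ) (hcard : Fintype.card ι = n) :
    (conjPoly a f).map φ = ∏ i, (X - C (ψ i f)) := by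
  letI := a.toAlgebra
  change Module.finrank F L = n at hn
  haveI : Module.Finite F L := Module.finite_of_finrank_pos (by omega)
  haveI : PerfectField F := PerfectField.ofCharZero
  rw [conjPoly, dif_pos ‹_›]
  let Ω := AlgebraicClosure E
  letI : Algebra F Ω := ((algebraMap E Ω).comp φ).toAlgebra
  let emb : ι → (L →ₐ[F] Ω) := fun i =>
    { (algebraMap E Ω).comp (ψ i) with
      commutes' := fun x => by
        show algebraMap E Ω (ψ i (a x)) = algebraMap E Ω (φ x)
        rw [hψ] }
  have hbij : Function.Bijective emb := by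
    rw [Fintype.bijective_iff_injective_and_card]
    refine ⟨fun i i' h => hinj (RingHom.ext fun x => ?_), by rw [AlgHom.card F L Ω, hn, hcard]⟩
    exact (algebraMap E Ω).injective (congrArg (fun g : L →ₐ[F] Ω => g x) h)
  have key : ∀ t : F, φ ((LinearMap.mulLeft F f).charpoly.eval t) =
      ∏ i, (φ t - ψ i f) := by
    intro t
    refine (algebraMap E Ω).injective ?_
    rw [map_prod]
    have hdet : (LinearMap.mulLeft F f).charpoly.eval t =
        Algebra.norm F (algebraMap F L t - f) := by
      rw [LinearMap.eval_charpoly, Algebra.norm_apply]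
      congr 1
      rw [map_sub (Algebra.lmul F L), AlgHom.commutes]
      rfl
    show algebraMap F Ω ((LinearMap.mulLeft F f).charpoly.eval t) = _
    rw [hdet, Algebra.norm_eq_prod_embeddings F Ω, ← hbij.prod_comp fun σ => σ (algebraMap F L t - f)]
    refine Finset.prod_congr rfl fun i _ => ?_
    show algebraMap E Ω (ψ i (a t - f)) = _
    rw [map_sub (ψ i), hψ]
  haveI : Infinite F := Infinite.of_injective (fun m : ℕ => (m : F)) Nat.cast_injective
  refine Polynomial.eq_of_infinite_eval_eq _ _ (Set.Infinite.mono ?_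
    (Set.infinite_range_of_injective φ.injective))
  rintro _ ⟨t, rfl⟩
  show (map φ _).eval (φ t) = _
  rw [eval_map, eval₂_hom, key, eval_prod]
  simp

/-- `y` generates `L` along `a`, its first `n` powers forming a basis. -/
def IsPowGen (a : F →+* L) (n : ℕ) (y : L) : Prop :=
  algDeg a = n ∧ ∀ p : F[X], p.natDegree < n → p.eval₂ a y = 0 → p = 0

theorem isPowGen_of_distinguished (a : F →+* L) {n : ℕ} (hn : algDeg a = n) {ι : Type*}
    [Fintype ι] (φ : F →+* E) (ψ : ι → L →+* E) (hψ : ∀ i x, ψ i (a x) = φ x)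
    (hcard : Fintype.card ι = n) (y : L) (hy : Function.Injective fun i => ψ i y) :
    IsPowGen a n y := by
  refine ⟨hn, fun p hp h0 => ?_⟩
  by_contra hp0
  have hmap : p.map φ ≠ 0 := (Polynomial.map_ne_zero_iff φ.injective).2 hp0
  have hroot : ∀ i, (p.map φ).eval (ψ i y) = 0 := fun i => by
    have := congrArg (ψ i) h0
    rw [hom_eval₂, map_zero] at this
    rw [eval_map]
    convert this using 2
    exact RingHom.ext fun x => (hψ i x).symm
  refine absurd (Polynomial.eq_zero_of_natDegree_lt_card_of_eval_eq_zero _ hy hroot ?_) hmap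
  rw [natDegree_map, hcard]
  exact hp

namespace IsPowGen

variable {a : F →+* L} {n : ℕ} {y : L}

theorem exists_eval (h : IsPowGen a n y) (hn0 : n ≠ 0) (x : L) :
    ∃ p : F[X], p.natDegree < n ∧ p.eval₂ a y = x := by
  letI := a.toAlgebra
  have hrank : Module.finrank F L = n := h.1
  haveI : Module.Finite F L := Module.finite_of_finrank_pos (by omega)
  have hev : ∀ p : F[X], p.eval₂ a y = aeval y p := fun p => rfl
  have hli : LinearIndependent F fun i : Fin n => y ^ (i : ℕ) := by
    rw [Fintype.linearIndependent_iff]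
    intro g hg i
    let p : F[X] := ∑ j : Fin n, C (g j) * X ^ (j : ℕ)
    have hdeg : p.natDegree < n := lt_of_le_of_lt
      (natDegree_sum_le_of_forall_le _ _ (n := n - 1) fun j _ =>
        (natDegree_C_mul_X_pow_le _ _).trans (by omega)) (by omega)
    have hp : p = 0 := h.2 p hdeg (by
      rw [hev, map_sum, ← hg]
      refine Finset.sum_congr rfl fun j _ => ?_
      rw [map_mul, aeval_C, aeval_X_pow, Algebra.smul_def])
    have := congrArg (coeff · (i : ℕ)) hp
    simpa [p, finsetSum_coeff, coeff_X_pow, Fin.val_inj] using this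
  haveI : Nonempty (Fin n) := ⟨⟨0, by omega⟩⟩
  have hspan := hli.span_eq_top_of_card_eq_finrank (by rw [hrank, Fintype.card_fin])
  obtain ⟨c, hc⟩ := (Submodule.mem_span_range_iff_exists_fun F).1
    (hspan ▸ Submodule.mem_top (x := x))
  refine ⟨∑ j : Fin n, C (c j) * X ^ (j : ℕ), lt_of_le_of_lt
    (natDegree_sum_le_of_forall_le _ _ (n := n - 1) fun j _ =>
      (natDegree_C_mul_X_pow_le _ _).trans (by omega)) (by omega), ?_⟩
  rw [hev, map_sum, ← hc]
  refine Finset.sum_congr rfl fun j _ => ?_
  rw [map_mul, aeval_C, aeval_X_pow, Algebra.smul_def]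

theorem ringHom_ext {R : Type*} [CommRing R] (h : IsPowGen a n y) (hn0 : n ≠ 0)
    {g g' : L →+* R} (ha : ∀ x, g (a x) = g' (a x)) (hy : g y = g' y) : g = g' := by
  refine RingHom.ext fun x => ?_
  obtain ⟨p, -, rfl⟩ := h.exists_eval hn0 x
  rw [hom_eval₂, hom_eval₂, hy, show g.comp a = g'.comp a from RingHom.ext ha]

theorem exists_extend (h : IsPowGen a n y) (hn0 : n ≠ 0) {P : F[X]} (hP : P.Monic)
    (hdeg : P.natDegree = n) (hy : P.eval₂ a y = 0) (φ : F →+* E) {r : E}
    (hr : P.eval₂ φ r = 0) : ∃ g : L →+* E, (∀ x, g (a x) = φ x) ∧ g y = r := by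
  let θ := AdjoinRoot.lift a y hy
  have hbij : Function.Bijective θ := by
    refine ⟨(injective_iff_map_eq_zero θ).2 fun z hz => ?_, fun x => ?_⟩
    · obtain ⟨p, rfl⟩ := AdjoinRoot.mk_surjective z
      have hmod : AdjoinRoot.mk P (p %ₘ P) = AdjoinRoot.mk P p := by
        rw [AdjoinRoot.mk_eq_mk]
        exact ⟨-(p /ₘ P), by linear_combination Polynomial.modByMonic_add_div p P⟩
      rw [← hmod, AdjoinRoot.lift_mk] at hz
      rw [← hmod, h.2 _ ((natDegree_modByMonic_lt p hP fun h1 => by
        rw [h1, natDegree_one] at hdeg; omega).trans_eq hdeg) hz, map_zero]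
    · obtain ⟨p, -, rfl⟩ := h.exists_eval hn0 x
      exact ⟨AdjoinRoot.mk P p, AdjoinRoot.lift_mk hy p⟩
  let e := RingEquiv.ofBijective θ hbij
  refine ⟨(AdjoinRoot.lift φ r hr).comp e.symm.toRingHom, fun x => ?_, ?_⟩
  · have : e.symm (a x) = AdjoinRoot.of P x := by
      rw [RingEquiv.symm_apply_eq]
      exact (AdjoinRoot.lift_of hy).symm
    simp [this]
  · have : e.symm y = AdjoinRoot.root P := by
      rw [RingEquiv.symm_apply_eq]
      exact (AdjoinRoot.lift_root hy).symm
    simp [this]

end IsPowGen

end Fermat.Agent.BadPrime.Sq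

end
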