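import Fermat.Agent.BadPrime.Sq.TowerEmb
import Fermat.Agent.BadPrime.GaussField
import Fermat.Agent.BadPrime.GaussDescent
import Mathlib.RingTheory.Polynomial.Cyclotomic.Eval

/-!
# Vertical values along the three expansions of level `N q²`

A non-zero function is, up to a power of the uniformiser, a series with non-zero reduction.
Along `eₘ` the coefficients lie in `L(ζ)`, whose uniformiser is `1 - ζ`.
-/

set_option autoImplicit false
set_option synthInstance.maxHeartbeats 400000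
set_option linter.unusedSectionVars false

noncomputable section

open ModularCurve IntermediateField
open scoped IntermediateField

namespace Fermat.Agent.BadPrime.Sq.Tower

open Fermat.Agent.Reduction Fermat.Agent.Modular Fermat.Agent.BadPrime

variable {L K' k : Type} [Field L] [Field K'] [Field k] [Algebra L K']
  {A : ValuationSubring K'} {π : A →+* k}

variable (π) in
/-- The restriction of the residue map to constants in `L`. -/
def baseRed (L : Type) [Field L] [Algebra L K'] : A.comap (algebraMap L K') →+* k :=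
  π.comp (((algebraMap L K').comp (A.comap (algebraMap L K')).subtype).codRestrict A.toSubring
    fun x => x.2)

theorem baseRed_apply (x : A.comap (algebraMap L K')) :
    baseRed π L x = π ⟨algebraMap L K' x, x.2⟩ := rfl

instance isLocalHom_baseRed [IsLocalHom π] : IsLocalHom (baseRed π L) := by
  refine ⟨fun x hx => ?_⟩
  obtain ⟨u, hu⟩ := IsLocalHom.map_nonunit (f := π) (⟨algebraMap L K' x, x.2⟩ : A) hx
  have hmul : algebraMap L K' x * ((u⁻¹ : Aˣ) : A) = 1 := by
    have := congrArg Subtype.val (Units.mul_inv u)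
    rw [hu] at this
    exact this
  have hx0 : (x : L) ≠ 0 := fun h => by simp [h] at hmul
  refine isUnit_iff_exists_inv.2 ⟨⟨(x : L)⁻¹, ?_⟩, Subtype.ext (mul_inv_cancel₀ hx0)⟩
  rw [ValuationSubring.mem_comap, map_inv₀, ← eq_inv_of_mul_eq_one_right hmul]
  exact ((u⁻¹ : Aˣ) : A).2

theorem baseRed_surjective (h : ∀ r : k, ∃ (c : L) (hc : algebraMap L K' c ∈ A), π ⟨_, hc⟩ = r) :
    Function.Surjective (baseRed π L) := fun r => by
  obtain ⟨c, hc, hr⟩ := h r
  exact ⟨⟨c, hc⟩, hr⟩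

theorem hasGaussRed_base {f : LaurentSeries L} {g : LaurentSeries k}
    (h : HasGaussRed (baseRed π L) f g) : HasGaussRed π (coeffMap (algebraMap L K') f) g := by
  have := h.map_coeff (π := π) (ι := algebraMap L K') (κ := RingHom.id k) (fun a ha => ha)
    fun a => rfl
  rwa [coeffMap_id] at this

section Valuation

variable (A)

theorem div_mem_of_valuation_eq {x y : K'} (hx : A.valuation x = A.valuation y) : x / y ∈ A := by
  rw [← A.valuation_le_one_iff, map_div₀, hx]
  exact div_self_le_one _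

theorem valuation_eq_of_div_mem {x y : K'} (hx : x ≠ 0) (hy : y ≠ 0) (h : x / y ∈ A)
    (h' : y / x ∈ A) : A.valuation x = A.valuation y := by
  rw [← A.valuation_le_one_iff, map_div₀,
    div_le_one₀ (zero_lt_iff.2 (by simpa using hy))] at h
  rw [← A.valuation_le_one_iff, map_div₀,
    div_le_one₀ (zero_lt_iff.2 (by simpa using hx))] at h'
  exact le_antisymm h h'

end Valuation

/-- A constant of the size of a power of `θ` makes a scalable series scalable by that power. -/
theorem exists_zpow_scale [IsLocalHom π] {θ : K'} (hθ : θ ≠ 0) {x : LaurentSeries K'}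
    {g : LaurentSeries k} {c : K'} (hc : c ≠ 0) {n : ℤ}
    (hn : A.valuation c = A.valuation (θ ^ n)) (hg : g ≠ 0)
    (hx : HasGaussRed π (HahnSeries.C c * x) g) :
    ∃ (i : ℤ) (g' : LaurentSeries k), g' ≠ 0 ∧ HasGaussRed π (HahnSeries.C (θ ^ i) * x) g' := by
  have hn0 : θ ^ n ≠ 0 := zpow_ne_zero _ hθ
  let w : A := ⟨θ ^ n / c, div_mem_of_valuation_eq A hn.symm⟩
  have hw : IsUnit w := isUnit_iff_exists_inv.2
    ⟨⟨c / θ ^ n, div_mem_of_valuation_eq A hn⟩, Subtype.ext (by
      show θ ^ n / c * (c / θ ^ n) = 1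
      field_simp)⟩
  have e : HahnSeries.C (θ ^ n / c) * (HahnSeries.C c * x) = HahnSeries.C (θ ^ n) * x := by
    rw [← mul_assoc, ← map_mul, div_mul_cancel₀ _ hc]
  refine ⟨n, HahnSeries.C (π w) * g, mul_ne_zero (fun h => (hw.map π).ne_zero
    (HahnSeries.C_injective (h.trans (map_zero _).symm))) hg, ?_⟩
  rw [← e]
  exact (hasGaussRed_C (π := π) w).mul hx

variable {q : ℕ} [Fact q.Prime]

/-- The hypothesis `uniform` in terms of the valuation. -/
theorem valuation_base (hq : (q : K') ≠ 0) (uniform : ∀ c : L, c ≠ 0 → ∃ i : ℤ,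
      algebraMap L K' c / (q : K') ^ i ∈ A ∧ (q : K') ^ i / algebraMap L K' c ∈ A)
    {c : L} (hc : c ≠ 0) :
    ∃ i : ℤ, A.valuation (algebraMap L K' c) = A.valuation ((q : K') ^ i) := by
  obtain ⟨i, h1, h2⟩ := uniform c hc
  exact ⟨i, valuation_eq_of_div_mem A ((_root_.map_ne_zero _).2 hc) (zpow_ne_zero _ hq) h1 h2⟩

variable [Algebra ℚ L] [Algebra.IsAlgebraic ℚ L]

/-- Vertical values along an expansion at `∞`. -/
theorem value_ser [IsLocalHom π] (hq : (q : K') ≠ 0) (uniform : ∀ c : L, c ≠ 0 → ∃ i : ℤ,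
      algebraMap L K' c / (q : K') ^ i ∈ A ∧ (q : K') ^ i / algebraMap L K' c ∈ A)
    (M : ℕ) {f : FL M L} (hf : f ≠ 0) :
    ∃ (i : ℤ) (g : LaurentSeries k), g ≠ 0 ∧
      HasGaussRed π (HahnSeries.C ((q : K') ^ i) * ser L K' M f) g := by
  obtain ⟨u, v, ⟨a, ha, yu, hyu, hu⟩, ⟨b, hb, yv, hyv, hv⟩, huv⟩ :=
    exists_scalable_quotient _ (baseRed π L) M (f : LaurentSeries L) f.2
      fun h => hf (Subtype.ext h)
  have hu' : HasGaussRed (baseRed π L) (HahnSeries.C a * u) (coeffMap (baseRed π L) yu) := by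
    rw [← hyu]; exact hasGaussRed_coeffMap yu
  have hv' : HasGaussRed (baseRed π L) (HahnSeries.C b * v) (coeffMap (baseRed π L) yv) := by
    rw [← hyv]; exact hasGaussRed_coeffMap yv
  have hCb : (HahnSeries.C b : LaurentSeries L) * v ≠ 0 := fun h0 => hv (by
    rw [coeffMap_subtype_injective ((hyv.trans h0).trans (map_zero _).symm), map_zero])
  have e : HahnSeries.C (a / b) * (f : LaurentSeries L) =
      HahnSeries.C a * u * (HahnSeries.C b * v)⁻¹ := by
    rw [eq_mul_inv_iff_mul_eq₀ hCb, ← huv,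
      show HahnSeries.C a = (HahnSeries.C (a / b) : LaurentSeries L) * HahnSeries.C b by
        rw [← map_mul, div_mul_cancel₀ _ hb]]
    ring
  have h3 := hasGaussRed_base (hu'.mul (hv'.inv hv))
  rw [← e, map_mul, HahnSeries.C_apply, coeffMap_single, ← HahnSeries.C_apply] at h3
  obtain ⟨n, hn⟩ := valuation_base hq uniform (div_ne_zero ha hb)
  exact exists_zpow_scale hq ((_root_.map_ne_zero _).2 (div_ne_zero ha hb)) hn
    (mul_ne_zero hu (inv_ne_zero hv)) h3

theorem root_mem {m : ℕ} (hm : m ≠ 0) {μ : K'} (hμ : μ ^ m = 1) : μ ∈ A := by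
  rcases A.mem_or_inv_mem μ with h | h
  · exact h
  · obtain ⟨j, rfl⟩ := Nat.exists_eq_succ_of_ne_zero hm
    have : μ = μ⁻¹ ^ j := by
      rw [inv_pow]
      exact eq_inv_of_mul_eq_one_left (by rw [← pow_succ', hμ])
    rw [this]
    exact pow_mem h _

/-! ### The cyclotomic extension -/

section Cyclotomic

variable {ζ : K'ˣ} (hζ : IsPrimitiveRoot ζ q)
include hζ

theorem one_sub_div_mem {μ ν : K'} (hμ : IsPrimitiveRoot μ q) (hν : IsPrimitiveRoot ν q) :
    (1 - μ) / (1 - ν) ∈ A := by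
  have hq0 : q ≠ 0 := (Fact.out : q.Prime).ne_zero
  have : NeZero q := ⟨hq0⟩
  obtain ⟨i, -, rfl⟩ := hν.eq_pow_of_pow_eq_one hμ.pow_eq_one
  have hne : (1 : K') - ν ≠ 0 :=
    sub_ne_zero.2 (hν.ne_one (Fact.out : q.Prime).one_lt).symm
  rw [← mul_neg_geom_sum ν i, mul_div_cancel_left₀ _ hne]
  exact sum_mem fun j _ => pow_mem (root_mem hq0 hν.pow_eq_one) _

theorem valuation_one_sub {μ : K'} (hμ : IsPrimitiveRoot μ q) :
    A.valuation (1 - μ) = A.valuation (1 - (ζ : K')) :=
  valuation_eq_of_div_mem A (sub_ne_zero.2 (hμ.ne_one (Fact.out : q.Prime).one_lt).symm)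
    (sub_ne_zero.2 ((IsPrimitiveRoot.coe_units_iff.2 hζ).ne_one (Fact.out : q.Prime).one_lt).symm)
    (one_sub_div_mem hζ hμ (IsPrimitiveRoot.coe_units_iff.2 hζ))
    (one_sub_div_mem hζ (IsPrimitiveRoot.coe_units_iff.2 hζ) hμ)

theorem valuation_natCast :
    A.valuation (q : K') = A.valuation (1 - (ζ : K')) ^ (q - 1) := by
  have hζ' : IsPrimitiveRoot (ζ : K') q := IsPrimitiveRoot.coe_units_iff.2 hζ
  have h := congrArg (Polynomial.eval (1 : K'))
    (Polynomial.cyclotomic_eq_prod_X_sub_primitiveRoots hζ')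
  rw [Polynomial.eval_one_cyclotomic_prime, Polynomial.eval_prod] at h
  rw [h, map_prod, Finset.prod_congr rfl (g := fun _ => A.valuation (1 - (ζ : K'))) fun μ hμ => by
      rw [Polynomial.eval_sub, Polynomial.eval_X, Polynomial.eval_C]
      exact valuation_one_sub hζ ((mem_primitiveRoots (Fact.out : q.Prime).pos).1 hμ),
    Finset.prod_const, hζ'.card_primitiveRoots, Nat.totient_prime Fact.out]

variable (hqA : (q : K') ∈ A.nonunits)
include hqA

theorem valuation_theta_lt : A.valuation (1 - (ζ : K')) < 1 := by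
  have h : A.valuation (q : K') < 1 := hqA
  rw [valuation_natCast hζ] at h
  have := (Fact.out : q.Prime).two_le
  exact (pow_lt_one_iff (by omega)).1 h

theorem valuation_cyclotomic_elt [CharZero K'] (uniform : ∀ c : L, c ≠ 0 → ∃ i : ℤ,
      algebraMap L K' c / (q : K') ^ i ∈ A ∧ (q : K') ^ i / algebraMap L K' c ∈ A)
    {c : K'} (hcmem : c ∈ L⟮(ζ : K')⟯) (hc : c ≠ 0) :
    ∃ n : ℤ, A.valuation c = A.valuation ((1 - (ζ : K')) ^ n) := by
  classical
  have hq := (Fact.out : q.Prime)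
  have hζ' : IsPrimitiveRoot (ζ : K') q := IsPrimitiveRoot.coe_units_iff.2 hζ
  set θ := 1 - (ζ : K') with hθdef
  have hθ0 : θ ≠ 0 := sub_ne_zero.2 (hζ'.ne_one hq.one_lt).symm
  have hint : IsIntegral L (ζ : K') := ⟨Polynomial.X ^ q - 1, by
      simpa using Polynomial.monic_X_pow_sub_C (1 : L) hq.ne_zero, by simp [hζ'.pow_eq_one]⟩
  rw [← IntermediateField.mem_toSubalgebra,
    IntermediateField.adjoin_simple_toSubalgebra_of_isAlgebraic hint.isAlgebraic,
    Algebra.adjoin_singleton_eq_range_aeval] at hcmem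
  obtain ⟨p, rfl⟩ := hcmem
  -- rewrite in powers of `θ`, of degree `< q - 1`
  let Φ : Polynomial L := (Polynomial.cyclotomic q L).comp (1 - Polynomial.X)
  have hΦdeg : Φ.natDegree = q - 1 := by
    rw [Polynomial.natDegree_comp, Polynomial.natDegree_cyclotomic, Nat.totient_prime hq,
      show (1 - Polynomial.X : Polynomial L).natDegree = 1 from ?_, mul_one]
    rw [← Polynomial.natDegree_neg, neg_sub, ← Polynomial.C_1, Polynomial.natDegree_X_sub_C]
  have hΦ0 : Polynomial.aeval θ Φ = 0 := by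
    rw [Polynomial.aeval_comp, map_sub, map_one, Polynomial.aeval_X, hθdef, sub_sub_cancel,
      Polynomial.aeval_def, Polynomial.eval₂_eq_eval_map, Polynomial.map_cyclotomic]
    exact hζ'.isRoot_cyclotomic hq.pos
  set r := (p.comp (1 - Polynomial.X)) % Φ with hr
  have hval : Polynomial.aeval θ r = Polynomial.aeval (ζ : K') p := by
    have h1 := congrArg (Polynomial.aeval θ) (EuclideanDomain.mod_add_div (p.comp (1 - Polynomial.X)) Φ)
    rw [map_add, map_mul, hΦ0, zero_mul, add_zero, Polynomial.aeval_comp, map_sub, map_one,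
      Polynomial.aeval_X, hθdef, sub_sub_cancel] at h1
    rw [hr, h1]
  have hrdeg : r.natDegree < q - 1 := by
    have h2 := hq.two_le
    rw [← hΦdeg]
    exact Polynomial.natDegree_mod_lt _ (by omega)
  let s := r.support
  have hsum : Polynomial.aeval θ r = ∑ i ∈ s, algebraMap L K' (r.coeff i) * θ ^ i := by
    rw [Polynomial.aeval_def, Polynomial.eval₂_eq_sum, Polynomial.sum]
  have hterm : ∀ i ∈ s, ∃ n : ℤ, n % ((q - 1 : ℕ) : ℤ) = i ∧
      A.valuation (algebraMap L K' (r.coeff i) * θ ^ i) = A.valuation θ ^ n := by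
    intro i hi
    obtain ⟨j, hj⟩ := valuation_base (Nat.cast_ne_zero.2 hq.ne_zero) uniform
      (Polynomial.mem_support_iff.1 hi)
    refine ⟨((q - 1 : ℕ) : ℤ) * j + i, ?_, ?_⟩
    · rw [add_comm, Int.add_mul_emod_self_left, Int.emod_eq_of_lt (by positivity)]
      exact_mod_cast lt_of_le_of_lt (Polynomial.le_natDegree_of_mem_supp i hi) hrdeg
    · rw [map_mul, hj, map_zpow₀, valuation_natCast hζ, map_pow, zpow_add₀
        (by simpa using hθ0), zpow_mul, zpow_natCast, zpow_natCast]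
  choose! n hn using hterm
  have hs : s.Nonempty := by
    rw [Polynomial.support_nonempty]
    intro h0
    exact hc (by show Polynomial.aeval (ζ : K') p = 0; rw [← hval, h0, map_zero])
  obtain ⟨i, hi, hmax⟩ := s.exists_max_image
    (fun i => A.valuation (algebraMap L K' (r.coeff i) * θ ^ i)) hs
  refine ⟨n i, ?_⟩
  show A.valuation (Polynomial.aeval (ζ : K') p) = _
  rw [← hval, hsum, map_zpow₀, ← (hn i hi).2]
  refine Valuation.map_sum_eq_of_lt _ hi fun l hl => ?_
  · obtain ⟨hls, hli⟩ := Finset.mem_sdiff.1 hl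
    refine lt_of_le_of_ne (hmax l hls) fun heq => hli (Finset.mem_singleton.2 ?_)
    rw [(hn i hi).2, (hn l hls).2] at heq
    have hnl := zpow_right_injective₀ (zero_lt_iff.2 (by simpa using hθ0))
      (valuation_theta_lt hζ hqA).ne heq
    have := congrArg (fun x : ℤ => x % ((q - 1 : ℕ) : ℤ)) hnl
    simp only [(hn i hi).1, (hn l hls).1, Nat.cast_inj] at this
    exact this

end Cyclotomic

/-! ### Series with bounded coefficients in `L(ζ)` -/

section Good

variable [CharZero K'] (ζ : K'ˣ)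

theorem isBoundedSeries_C (A : ValuationSubring K') (c : K') :
    IsBoundedSeries A (HahnSeries.C c : LaurentSeries K') := by
  have key : ∀ d : A, d ≠ 0 → (d : K') * c ∈ A → IsBoundedSeries A (HahnSeries.C c) := by
    intro d hd hdc
    refine ⟨d, hd, fun n => ?_⟩
    rw [HahnSeries.C_apply]
    rcases eq_or_ne n 0 with rfl | hn
    · rwa [HahnSeries.coeff_single_same]
    · rw [HahnSeries.coeff_single_of_ne hn, mul_zero]
      exact A.zero_mem
  rcases A.mem_or_inv_mem c with hc | hc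
  · exact key 1 one_ne_zero (by simpa using hc)
  · rcases eq_or_ne c 0 with rfl | hc0
    · exact key 1 one_ne_zero (by simp)
    · exact key ⟨c⁻¹, hc⟩ (fun h => inv_ne_zero hc0 (congrArg Subtype.val h))
        (by simp [inv_mul_cancel₀ hc0])

theorem finiteCoeff_add_mul {x y : LaurentSeries K'} (hx : finiteCoeff K' x)
    (hy : finiteCoeff K' y) : finiteCoeff K' (x + y) ∧ finiteCoeff K' (x * y) := by
  obtain ⟨K₁, h₁, a, rfl⟩ := hx
  obtain ⟨K₂, h₂, b, rfl⟩ := hy
  have e : ∀ (K₀ : IntermediateField ℚ K') (hle : K₀ ≤ K₁ ⊔ K₂) (z : LaurentSeries K₀),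
      coeffMap (algebraMap K₀ K') z ∈
        (coeffMap (algebraMap ↥(K₁ ⊔ K₂) K')).fieldRange := fun K₀ hle z =>
    ⟨coeffMap (IntermediateField.inclusion hle : K₀ →+* ↥(K₁ ⊔ K₂)) z, by
      rw [coeffMap_coeffMap]; rfl⟩
  exact ⟨⟨_, IntermediateField.finiteDimensional_sup K₁ K₂,
      add_mem (e K₁ le_sup_left a) (e K₂ le_sup_right b)⟩,
    ⟨_, IntermediateField.finiteDimensional_sup K₁ K₂,
      mul_mem (e K₁ le_sup_left a) (e K₂ le_sup_right b)⟩⟩

theorem finiteCoeff_of_single {x : LaurentSeries K'} {c : K'} (hc : IsIntegral ℚ c)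
    (hx : ∀ n, x.coeff n ∈ ℚ⟮c⟯) : finiteCoeff K' x :=
  ⟨ℚ⟮c⟯, IntermediateField.adjoin.finiteDimensional hc,
    ⟨⟨fun n => ⟨x.coeff n, hx n⟩, x.isPWO_support.mono fun n hn h0 => hn (Subtype.ext h0)⟩,
      HahnSeries.ext rfl⟩⟩

variable (A L) in
/-- Bounded series with coefficients in a number field inside `L(ζ)`. -/
def goodSeries [Algebra.IsAlgebraic ℚ K'] : Subring (LaurentSeries K') where
  carrier := {x | IsBoundedSeries A x ∧ finiteCoeff K' x ∧ ∀ n, x.coeff n ∈ L⟮(ζ : K')⟯}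
  zero_mem' := ⟨⟨1, one_ne_zero, fun n => by simp⟩, ⟨⊥, inferInstance, zero_mem _⟩,
    fun n => by simp⟩
  one_mem' := ⟨by simpa using isBoundedSeries_C A (1 : K'), ⟨⊥, inferInstance, one_mem _⟩,
    fun n => by
      rw [HahnSeries.coeff_one]
      split_ifs
      · exact one_mem _
      · exact zero_mem _⟩
  add_mem' := fun ⟨a, b, c⟩ ⟨a', b', c'⟩ => ⟨a.add a', (finiteCoeff_add_mul b b').1,
    fun n => by rw [HahnSeries.coeff_add]; exact add_mem (c n) (c' n)⟩
  mul_mem' := fun ⟨a, b, c⟩ ⟨a', b', c'⟩ => ⟨a.mul a', (finiteCoeff_add_mul b b').2,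
    fun n => by rw [HahnSeries.coeff_mul]; exact sum_mem fun i _ => mul_mem (c _) (c' _)⟩
  neg_mem' := fun {x} ⟨⟨d, hd, h⟩, ⟨K₀, h₀, hx⟩, c⟩ => ⟨⟨d, hd, fun n => by
      rw [HahnSeries.coeff_neg, mul_neg]; exact neg_mem (h n)⟩,
    ⟨K₀, h₀, neg_mem hx⟩, fun n => by rw [HahnSeries.coeff_neg]; exact neg_mem (c n)⟩

variable [Algebra.IsAlgebraic ℚ K']

theorem C_mem_goodSeries (c : L) :
    (HahnSeries.C (algebraMap L K' c) : LaurentSeries K') ∈ goodSeries L A ζ := by
  have hmem : ∀ (S : Type) [SetLike S K'] [AddSubmonoidClass S K'] (s : S),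
      algebraMap L K' c ∈ s →
      ∀ n, (HahnSeries.C (algebraMap L K' c) : LaurentSeries K').coeff n ∈ s := by
    intro S _ _ s hs n
    rw [HahnSeries.C_apply]
    rcases eq_or_ne n 0 with rfl | hn
    · rwa [HahnSeries.coeff_single_same]
    · rw [HahnSeries.coeff_single_of_ne hn]
      exact zero_mem s
  exact ⟨isBoundedSeries_C A _,
    finiteCoeff_of_single (Algebra.IsAlgebraic.isAlgebraic _).isIntegral
      (hmem _ _ (IntermediateField.mem_adjoin_simple_self ℚ _)),
    hmem _ _ (IntermediateField.algebraMap_mem _ c)⟩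

theorem twist_jqModC_mem_goodSeries {m : ℕ} (hm : m ≠ 0) (hζ : ζ ^ m = 1) :
    Igusa.twist ζ (jqModC K') ∈ goodSeries L A ζ := by
  have hint : ∀ n, ∃ r : ℤ, (jqModC K').coeff n = (r : K') := fun n =>
    ⟨(jqModC ℤ).coeff n, by
      rw [← coeffMap_jqModC (R := ℤ) (Int.castRingHom K'), coeffMap_coeff, eq_intCast]⟩
  have hpow : ∀ n : ℤ, ((ζ ^ n : K'ˣ) : K') = (ζ : K') ^ n := fun n => Units.val_zpow_eq_zpow_val ζ n
  have hζA : ∀ n : ℤ, (ζ : K') ^ n ∈ A := fun n => by
    have h1 : (ζ : K') ^ m = 1 := by rw [← Units.val_pow_eq_pow_val, hζ, Units.val_one]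
    exact root_mem hm (by rw [← zpow_natCast, ← zpow_mul, mul_comm, zpow_mul, zpow_natCast, h1,
      one_zpow])
  refine ⟨⟨1, one_ne_zero, fun n => ?_⟩, finiteCoeff_of_single
    (Algebra.IsAlgebraic.isAlgebraic (ζ : K')).isIntegral fun n => ?_, fun n => ?_⟩ <;>
    obtain ⟨r, hr⟩ := hint n
  · rw [OneMemClass.coe_one, one_mul, Igusa.twist_coeff, hr, hpow]
    exact mul_mem (hζA n) (intCast_mem A r)
  · rw [Igusa.twist_coeff, hr, hpow]
    exact mul_mem (zpow_mem (IntermediateField.mem_adjoin_simple_self ℚ _) n) (intCast_mem _ r)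
  · rw [Igusa.twist_coeff, hr, hpow]
    exact mul_mem (zpow_mem (IntermediateField.mem_adjoin_simple_self L _) n) (intCast_mem _ r)

theorem coeffMap_adjoin_mem_goodSeries (M : ℕ) {x : LaurentSeries L}
    (hx : x ∈ Algebra.adjoin L (levelGens L M)) :
    coeffMap (algebraMap L K') x ∈ goodSeries L A ζ := by
  induction hx using Algebra.adjoin_induction with
  | mem v hv =>
    obtain ⟨_, ⟨d, hd, -, rfl⟩, rfl⟩ := hv
    have : NeZero d := hd
    have e : ∀ n, ∃ r : ℤ,
        (coeffMap (algebraMap L K') (coeffEmb L (qExpand ℚ d jq))).coeff n = (r : K') := fun n => by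
      rw [coeffEmb, coeffMap_coeffMap, coeffMap_qExpand, ← jqModC_rat, coeffMap_jqModC,
        ← coeffMap_jqModC (R := ℤ) (Int.castRingHom K'), ← coeffMap_qExpand, coeffMap_coeff]
      exact ⟨_, eq_intCast _ _⟩
    refine ⟨⟨1, one_ne_zero, fun n => ?_⟩, finiteCoeff_of_single (c := (1 : K')) isIntegral_one
      fun n => ?_, fun n => ?_⟩ <;> obtain ⟨r, hr⟩ := e n <;> rw [hr]
    · rw [OneMemClass.coe_one, one_mul]; exact intCast_mem A r
    · exact intCast_mem _ r
    · exact intCast_mem _ r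
  | algebraMap c =>
    rw [algebraMap_laurentSeries_eq_single, coeffMap_single, ← HahnSeries.C_apply]
    exact C_mem_goodSeries ζ c
  | add u v _ _ hu hv => rw [map_add]; exact add_mem hu hv
  | mul u v _ _ hu hv => rw [map_mul]; exact mul_mem hu hv

variable {ζ} (hζ : IsPrimitiveRoot ζ q) (hqA : (q : K') ∈ A.nonunits)
  (uniform : ∀ c : L, c ≠ 0 → ∃ i : ℤ,
      algebraMap L K' c / (q : K') ^ i ∈ A ∧ (q : K') ^ i / algebraMap L K' c ∈ A)

include hζ hqA uniform in
theorem value_of_goodSeries [IsLocalHom π] {x : LaurentSeries K'}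
    (hx : x ∈ goodSeries L A ζ) (hx0 : x ≠ 0) :
    ∃ (i : ℤ) (g : LaurentSeries k), g ≠ 0 ∧
      HasGaussRed π (HahnSeries.C ((1 - (ζ : K')) ^ i) * x) g := by
  obtain ⟨⟨d, hd, hA⟩, ⟨K₀, hK₀, z, rfl⟩, hL⟩ := hx
  have hd' : (d : K') ≠ 0 := fun h => hd (Subtype.ext h)
  set K₁ := K₀ ⊔ ℚ⟮(d : K')⟯
  have : FiniteDimensional ℚ ℚ⟮(d : K')⟯ := IntermediateField.adjoin.finiteDimensional
    (Algebra.IsAlgebraic.isAlgebraic (d : K')).isIntegral
  have : FiniteDimensional ℚ K₁ := IntermediateField.finiteDimensional_sup _ _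
  obtain ⟨i, hi, hmax⟩ := exists_max_of_numberField A K₁
    (fun n => (d : K') * (coeffMap (algebraMap K₀ K') z).coeff n)
    (fun n => mul_mem ((le_sup_right : ℚ⟮(d : K')⟯ ≤ K₁) (IntermediateField.mem_adjoin_simple_self ℚ _))
      ((le_sup_left : K₀ ≤ K₁) (z.coeff n).2)) hA (by
      by_contra hall
      push Not at hall
      exact hx0 (HahnSeries.ext (funext fun n => (mul_eq_zero.1 (hall n)).resolve_left hd')))
  set c := (coeffMap (algebraMap K₀ K') z).coeff i with hc
  have hc0 : c ≠ 0 := right_ne_zero_of_mul hi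
  obtain ⟨y, hy⟩ := exists_integral_lift (A := A)
    (x := HahnSeries.C c⁻¹ * coeffMap (algebraMap K₀ K') z) fun n => by
      rw [coeff_C_mul, inv_mul_eq_div]
      have := hmax n
      rwa [mul_div_mul_left _ _ hd'] at this
  have hy0 : coeffMap π y ≠ 0 := fun h0 => by
    have h1 : y.coeff i = 1 := Subtype.ext <| by
      have := congrArg (fun z : LaurentSeries K' => z.coeff i) hy
      simp only [coeffMap_coeff, coeff_C_mul] at this
      exact this.trans (inv_mul_cancel₀ hc0)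
    have := congrArg (fun z : LaurentSeries k => z.coeff i) h0
    simp [h1] at this
  obtain ⟨m, hm⟩ := valuation_cyclotomic_elt hζ hqA uniform
    (inv_mem (hL i) : c⁻¹ ∈ L⟮(ζ : K')⟯) (inv_ne_zero hc0)
  refine exists_zpow_scale (sub_ne_zero.2
    ((IsPrimitiveRoot.coe_units_iff.2 hζ).ne_one (Fact.out : q.Prime).one_lt).symm)
    (inv_ne_zero hc0) hm hy0 ?_
  rw [← hy]
  exact hasGaussRed_coeffMap y

variable (N : ℕ) [NeZero N] {W : FL (N * q) L →ₐ[L] FL (N * q) L} (hW : IsALInvolution W)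
  (ι : L →+* ℂ) (hqN : ¬ q ∣ N)

include hζ hW ι hqN in
/-- `eₘ` is valued in the quotients of series with bounded coefficients in `L(ζ)`. -/
theorem eM_mem_frac [CharZero L] {eM : FL (N * q * q) L →+* LaurentSeries K'}
    (hMα : ∀ x : FL (N * q) L, eM (heckeAlphaBar L (N * q) q x) = ser L K' (N * q) x)
    (hMβ : ∀ x : FL (N * q) L,
      eM (heckeBetaBar L (N * q) q x) = Igusa.twist ζ (ser L K' (N * q) (W x)))
    (f : FL (N * q * q) L) :
    eM f ∈ Subfield.closure (goodSeries L A ζ : Set (LaurentSeries K')) := by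
  obtain ⟨p, -, rfl⟩ := (isPowGen_z N q hζ hW ι hqN).exists_eval (Fact.out : q.Prime).ne_zero f
  rw [Polynomial.hom_eval₂]
  have hz : eM (heckeBetaBar L (N * q) q (heckeBetaBar L N q (jL N L))) =
      Igusa.twist ζ (jqModC K') := by
    rw [hMβ, W_beta_jL N q hW, ser_alpha, ser_jL]
  rw [hz, Polynomial.eval₂_eq_sum, Polynomial.sum]
  refine sum_mem fun i _ => mul_mem ?_ (pow_mem (Subfield.subset_closure
    (twist_jqModC_mem_goodSeries ζ (Fact.out : q.Prime).ne_zero hζ.pow_eq_one)) i)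
  show eM (heckeAlphaBar L (N * q) q (p.coeff i)) ∈ _
  rw [hMα, ser_apply]
  have hf : ((p.coeff i : FL (N * q) L) : LaurentSeries L) ∈
      IntermediateField.adjoin L (levelGens L (N * q)) :=
    laurentBaseChange_full_eq_adjoin L (N * q) ▸ (p.coeff i).2
  obtain ⟨r, hr, s, hs, hrs⟩ := IntermediateField.mem_adjoin_iff_div.1 hf
  rw [hrs, map_div₀]
  exact div_mem (Subfield.subset_closure (coeffMap_adjoin_mem_goodSeries ζ _ hr))
    (Subfield.subset_closure (coeffMap_adjoin_mem_goodSeries ζ _ hs))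

include hζ hqA uniform hW ι hqN in
/-- Vertical values along `eₘ`. -/
theorem value_eM [IsLocalHom π] [CharZero L] {eM : FL (N * q * q) L →+* LaurentSeries K'}
    (hMα : ∀ x : FL (N * q) L, eM (heckeAlphaBar L (N * q) q x) = ser L K' (N * q) x)
    (hMβ : ∀ x : FL (N * q) L,
      eM (heckeBetaBar L (N * q) q x) = Igusa.twist ζ (ser L K' (N * q) (W x)))
    {f : FL (N * q * q) L} (hf : f ≠ 0) :
    ∃ (i : ℤ) (g : LaurentSeries k), g ≠ 0 ∧
      HasGaussRed π (HahnSeries.C ((1 - (ζ : K')) ^ i) * eM f) g := by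
  obtain ⟨u, hu, v, hv, huv⟩ := Subfield.mem_closure_iff.1
    (eM_mem_frac (A := A) hζ N hW ι hqN hMα hMβ f)
  rw [Subring.closure_eq] at hu hv
  have hv0 : v ≠ 0 := fun h => (_root_.map_ne_zero eM).2 hf (by rw [← huv, h, div_zero])
  have hu0 : u ≠ 0 := fun h => (_root_.map_ne_zero eM).2 hf (by rw [← huv, h, zero_div])
  obtain ⟨i, g, hg, hiu⟩ := value_of_goodSeries (π := π) hζ hqA uniform hu hu0
  obtain ⟨j, h, hh, hjv⟩ := value_of_goodSeries (π := π) hζ hqA uniform hv hv0
  have hθ : (1 : K') - (ζ : K') ≠ 0 := sub_ne_zero.2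
    ((IsPrimitiveRoot.coe_units_iff.2 hζ).ne_one (Fact.out : q.Prime).one_lt).symm
  refine ⟨i - j, g * h⁻¹, mul_ne_zero hg (inv_ne_zero hh), ?_⟩
  have e : HahnSeries.C ((1 - (ζ : K')) ^ (i - j)) * eM f =
      HahnSeries.C ((1 - (ζ : K')) ^ i) * u * (HahnSeries.C ((1 - (ζ : K')) ^ j) * v)⁻¹ := by
    rw [eq_mul_inv_iff_mul_eq₀ (mul_ne_zero (fun h0 => zpow_ne_zero j hθ
      (HahnSeries.C_injective (h0.trans (map_zero _).symm))) hv0), ← huv,
      show (1 - (ζ : K')) ^ i = (1 - (ζ : K')) ^ (i - j) * (1 - (ζ : K')) ^ j by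
        rw [← zpow_add₀ hθ, sub_add_cancel], map_mul]
    field_simp
  rw [e]
  exact hiu.mul (hjv.inv hh)

include hζ hW ι hqN in
/-- `e₂` is an expansion at `∞`. -/
theorem exists_e2_eq_ser [CharZero L] {e₂ : FL (N * q * q) L →+* LaurentSeries K'}
    (h₂α : ∀ x : FL (N * q) L,
      e₂ (heckeAlphaBar L (N * q) q x) = qExpand K' q (ser L K' (N * q) (W x)))
    (h₂β : ∀ x : FL (N * q) L, e₂ (heckeBetaBar L (N * q) q x) = ser L K' (N * q) (W x))
    (f : FL (N * q * q) L) : ∃ f', e₂ f = ser L K' (N * q * q) f' := by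
  obtain ⟨p, -, rfl⟩ := (isPowGen_z N q hζ hW ι hqN).exists_eval (Fact.out : q.Prime).ne_zero f
  refine ⟨p.eval₂ ((heckeBetaBar L (N * q) q).toRingHom.comp W.toRingHom)
    (jL (N * q * q) L), ?_⟩
  rw [Polynomial.hom_eval₂, Polynomial.hom_eval₂]
  congr 1
  · refine RingHom.ext fun x => ?_
    show e₂ (heckeAlphaBar L (N * q) q x) =
      ser L K' (N * q * q) (heckeBetaBar L (N * q) q (W x))
    rw [h₂α, ser_beta]
  · rw [h₂β, W_beta_jL N q hW, ser_alpha, ser_jL, ser_jL]

end Good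

end Fermat.Agent.BadPrime.Sq.Tower

end
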